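import Fermat.Agent.S13.SuperSing

set_option autoImplicit false

/-!
# S13 [P7]: the dichotomy at `p`

For a valuation subring `A` of `Qbar` over `p`, a Galois-stable line `N` in `V = E[p]` and the kernel
of reduction `C_A`, either inertia acts trivially on `V/N` or it acts trivially on `N`.
The torsion facts (ladder polynomial) and the local facts (kernel of reduction is a subgroup,
`σ • x - x ∈ C_A` for `σ` in inertia) enter as hypotheses in this file.
-/

namespace Fermat.Agent.S13.AtP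

open WeierstrassCurve WeierstrassCurve.Affine WeierstrassCurve.Affine.Point Polynomial

local notation "Qbar" => AlgebraicClosure ℚ

section LinAlg

variable {p : ℕ} [Fact p.Prime] {V : Type*} [AddCommGroup V] [Module (ZMod p) V]

theorem card_submodule_dvd (N : Submodule (ZMod p) V) : Nat.card N ∣ Nat.card V :=
  AddSubgroup.card_addSubgroup_dvd_card N.toAddSubgroup

theorem card_eq_one_iff (N : Submodule (ZMod p) V) : Nat.card N = 1 ↔ N = ⊥ := by
  constructor
  · intro h
    have hsub : Subsingleton N := (Nat.card_eq_one_iff_unique.mp h).1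
    exact (Submodule.eq_bot_iff N).mpr fun x hx => by
      have := Subsingleton.elim (⟨x, hx⟩ : N) 0
      exact congrArg Subtype.val this
  · rintro rfl
    exact Nat.card_eq_one_iff_unique.mpr ⟨inferInstance, ⟨0⟩⟩

variable [Finite V]

theorem eq_of_le_of_card_le {N C : Submodule (ZMod p) V} (h : N ≤ C)
    (hc : Nat.card C ≤ Nat.card N) : N = C := by
  have h1 : N.toAddSubgroup = C.toAddSubgroup :=
    AddSubgroup.eq_of_le_of_card_ge (show N.toAddSubgroup ≤ C.toAddSubgroup from h) hc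
  exact Submodule.toAddSubgroup_injective h1

/-- A proper nonzero submodule of a `ZMod p`-module with at most `p^2` elements is a line of
cardinality `p`, and the module has exactly `p^2` elements. -/
theorem card_of_proper (hle : Nat.card V ≤ p ^ 2) (N : Submodule (ZMod p) V) (hbot : N ≠ ⊥)
    (htop : N ≠ ⊤) : Nat.card V = p ^ 2 ∧ Nat.card N = p := by
  have hp : p.Prime := Fact.out
  have : Module.Finite (ZMod p) V := Module.Finite.of_finite
  have hV : Nat.card V = p ^ Module.finrank (ZMod p) V := by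
    rw [Module.natCard_eq_pow_finrank (K := ZMod p), Nat.card_zmod]
  have hN : Nat.card N = p ^ Module.finrank (ZMod p) N := by
    rw [Module.natCard_eq_pow_finrank (K := ZMod p), Nat.card_zmod]
  have h1 : 0 < Module.finrank (ZMod p) N := by
    rw [Module.finrank_pos_iff]
    exact (Submodule.nontrivial_iff_ne_bot).mpr hbot
  have h2 : Module.finrank (ZMod p) N < Module.finrank (ZMod p) V := Submodule.finrank_lt htop
  have h3 : Module.finrank (ZMod p) V ≤ 2 := by
    rw [hV] at hle
    exact (Nat.pow_le_pow_iff_right hp.one_lt).mp hle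
  have h4 : Module.finrank (ZMod p) V = 2 := by omega
  have h5 : Module.finrank (ZMod p) N = 1 := by omega
  rw [hV, hN, h4, h5, pow_one]
  exact ⟨rfl, rfl⟩

theorem line_dichotomy {N : Submodule (ZMod p) V} (hN : Nat.card N = p)
    (C : Submodule (ZMod p) V) : N ≤ C ∨ N ⊓ C = ⊥ := by
  have hp : p.Prime := Fact.out
  have hdvd : Nat.card (N ⊓ C : Submodule (ZMod p) V) ∣ p := by
    have hle : N ⊓ C ≤ N := inf_le_left
    have h1 : Nat.card (N ⊓ C : Submodule (ZMod p) V) ∣ Nat.card N :=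
      AddSubgroup.card_dvd_of_le (show (N ⊓ C).toAddSubgroup ≤ N.toAddSubgroup from hle)
    exact h1.trans (dvd_of_eq hN)
  rcases (Nat.dvd_prime hp).mp hdvd with h | h
  · exact Or.inr ((card_eq_one_iff _).mp h)
  · left
    have h2 : N ⊓ C = N := eq_of_le_of_card_le inf_le_left (le_of_eq (hN.trans h.symm))
    exact h2 ▸ inf_le_right

theorem eq_of_le_of_ne_top (hV : Nat.card V = p ^ 2) {N C : Submodule (ZMod p) V}
    (hN : Nat.card N = p) (hNC : N ≤ C) (hC : C ≠ ⊤) : C = N := by
  have hp : p.Prime := Fact.out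
  have hdvd : Nat.card C ∣ p ^ 2 := hV ▸ card_submodule_dvd C
  obtain ⟨k, hk2, hk⟩ := (Nat.dvd_prime_pow hp).mp hdvd
  have hk2' : k ≠ 2 := fun h2 => hC (by
    have : (⊤ : Submodule (ZMod p) V) = C := by
      refine (eq_of_le_of_card_le le_top ?_).symm
      rw [hk, h2, ← hV]
      exact le_of_eq (Nat.card_congr (Submodule.topEquiv (R := ZMod p) (M := V)).toEquiv)
    exact this.symm)
  have hk1 : k ≤ 1 := by omega
  refine (eq_of_le_of_card_le hNC ?_).symm
  rw [hk, hN]
  calc p ^ k ≤ p ^ 1 := Nat.pow_le_pow_right hp.pos hk1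
    _ = p := pow_one p

end LinAlg

section Dichotomy

variable {W' : Affine ℚ} {p : ℕ}

/-- **Dichotomy at `p`, abstract form.**  `ker` is the kernel of reduction at `A` (a subgroup of the
points whose affine members have non-integral `x`-coordinate); inertia at `A` moves `p`-torsion
points only inside `ker`.  Then inertia acts trivially on `V/N0` or on `N0`. -/
theorem dichotomy_of (hp : p.Prime) (hp2 : p ≠ 2)
    (f : ℤ[X]) (hdeg : 2 * f.natDegree = p ^ 2 - 1) (hlead : f.leadingCoeff = p)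
    (hT1 : ∀ (x y : Qbar) (h : (W'⁄Qbar).Nonsingular x y),
      Point.some x y h ∈ Submodule.torsionBy ℤ (W'⁄Qbar).Point (p : ℕ) →
        (f.map (Int.castRingHom Qbar)).IsRoot x)
    (hfin : Finite (Submodule.torsionBy ℤ (W'⁄Qbar).Point (p : ℕ)))
    (hcard : Nat.card (Submodule.torsionBy ℤ (W'⁄Qbar).Point (p : ℕ)) ≤ p ^ 2)
    (N0 : Submodule (ZMod p) (Submodule.torsionBy ℤ (W'⁄Qbar).Point (p : ℕ)))
    (hst : IsGaloisStable ℚ N0) (hbot : N0 ≠ ⊥) (htop : N0 ≠ ⊤)
    (A : ValuationSubring Qbar) (hA : A.LiesOverPrime p)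
    (ker : (W'⁄Qbar).Point → Prop) (hker0 : ker 0)
    (hkeradd : ∀ P Q, ker P → ker Q → ker (P + Q))
    (hkerneg : ∀ P, ker P → ker (-P))
    (hkersome : ∀ (x y : Qbar) (h : (W'⁄Qbar).Nonsingular x y), ker (Point.some x y h) → x ∉ A)
    (hinert : ∀ σ ∈ A.inertiaSubgroupIn ℚ,
      ∀ P ∈ Submodule.torsionBy ℤ (W'⁄Qbar).Point (p : ℕ), ker (σ • P - P)) :
    (∀ σ ∈ A.inertiaSubgroupIn ℚ,
        ∀ x : Submodule.torsionBy ℤ (W'⁄Qbar).Point (p : ℕ), σ • x - x ∈ N0) ∨
      (∀ σ ∈ A.inertiaSubgroupIn ℚ, ∀ x ∈ N0, σ • x = x) := by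
  have : Fact p.Prime := ⟨hp⟩
  obtain ⟨hV, hN⟩ := card_of_proper hcard N0 hbot htop
  -- the kernel of reduction inside `V`
  let C0 : AddSubgroup (Submodule.torsionBy ℤ (W'⁄Qbar).Point (p : ℕ)) :=
    { carrier := {x | ker (x : (W'⁄Qbar).Point)}
      zero_mem' := hker0
      add_mem' := fun {a b} ha hb => hkeradd _ _ ha hb
      neg_mem' := fun {a} ha => hkerneg _ ha }
  let C : Submodule (ZMod p) (Submodule.torsionBy ℤ (W'⁄Qbar).Point (p : ℕ)) :=
    AddSubgroup.toZModSubmodule p C0
  have hmemC : ∀ x : Submodule.torsionBy ℤ (W'⁄Qbar).Point (p : ℕ),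
      x ∈ C ↔ ker (x : (W'⁄Qbar).Point) := fun x => Iff.rfl
  have hCtop : C ≠ ⊤ := by
    intro hC
    refine SuperSing.false_of_all_in_kernel hp hp2 f hdeg hlead hT1 hV N0 hst hbot htop A hA ?_
    intro x y h hmem
    have h1 : (⟨Point.some x y h, hmem⟩ : Submodule.torsionBy ℤ (W'⁄Qbar).Point (p : ℕ)) ∈ C := by
      rw [hC]; exact Submodule.mem_top
    exact hkersome x y h ((hmemC _).mp h1)
  have hmove : ∀ σ ∈ A.inertiaSubgroupIn ℚ,
      ∀ x : Submodule.torsionBy ℤ (W'⁄Qbar).Point (p : ℕ), σ • x - x ∈ C := by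
    intro σ hσ x
    rw [hmemC]
    exact hinert σ hσ x.1 x.2
  rcases line_dichotomy hN C with hle | hinf
  · left
    have hCN : C = N0 := eq_of_le_of_ne_top hV hN hle hCtop
    intro σ hσ x
    rw [← hCN]
    exact hmove σ hσ x
  · right
    intro σ hσ x hx
    have h1 : σ • x - x ∈ N0 ⊓ C :=
      ⟨N0.sub_mem (hst σ x hx) hx, hmove σ hσ x⟩
    rw [hinf, Submodule.mem_bot] at h1
    exact sub_eq_zero.mp h1

end Dichotomy

end Fermat.Agent.S13.AtP
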