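import Fermat.Agent.S13.Ladder
import Fermat.Prelude.Def_FLTPrelim_FreyPackage
import Fermat.Prelude.Def_FLTPrelim_GaloisRep

/-!
# The ladder torsion polynomial of the Frey curve

`freyPsi P : ℤ[X]` has degree `(p² - 1)/2`, leading coefficient `p`, and its roots in `Qbar` are
exactly the abscissas of the nonzero `p`-torsion points of the Frey curve.  Consequences:
`E[p] ≠ 0` and `#E[p] ≤ p²`.
-/

set_option autoImplicit false

namespace Fermat.Agent.S13.LadderFreyH9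

open WeierstrassCurve WeierstrassCurve.Affine WeierstrassCurve.Affine.Point Polynomial
open Fermat.Agent.S13.Ladder Fermat.Agent.S51

local notation "Qbar" => AlgebraicClosure ℚ

variable (P : FreyPackage)

lemma two_dvd_b : (2 : ℤ) ∣ P.b := (ZMod.intCast_zmod_eq_zero_iff_dvd P.b 2).1 P.hb2

lemma sixteen_dvd_b_pow : (16 : ℤ) ∣ P.b ^ P.p := by
  have h1 : (2 : ℤ) ^ P.p ∣ P.b ^ P.p := pow_dvd_pow_of_dvd (two_dvd_b P) _
  have h2 : (2 : ℤ) ^ 4 ∣ 2 ^ P.p := pow_dvd_pow 2 (by have := P.hp5; omega)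
  exact (by norm_num : (16 : ℤ) = 2 ^ 4) ▸ h2.trans h1

lemma four_dvd_a₂_num : (4 : ℤ) ∣ P.b ^ P.p - 1 - P.a ^ P.p := by
  apply (ZMod.intCast_zmod_eq_zero_iff_dvd _ 4).1
  have hb : ((P.b ^ P.p : ℤ) : ZMod 4) = 0 := by
    apply (ZMod.intCast_zmod_eq_zero_iff_dvd _ 4).2
    exact (by norm_num : (4 : ℤ) ∣ 16).trans (sixteen_dvd_b_pow P)
  have ha : ((P.a ^ P.p : ℤ) : ZMod 4) = -1 := by
    push_cast
    rw [P.ha4, show (3 : ZMod 4) = -1 by decide, P.hp_odd.neg_one_pow]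
  have : ((P.b ^ P.p - 1 - P.a ^ P.p : ℤ) : ZMod 4)
      = ((P.b ^ P.p : ℤ) : ZMod 4) - 1 - ((P.a ^ P.p : ℤ) : ZMod 4) := by push_cast; ring
  rw [this, hb, ha]; ring

/-- the integral model maps to the rational model -/
lemma freyCurveInt_map : P.freyCurveInt.map (Int.castRingHom ℚ) = P.freyCurve := by
  have h4 : ((4 : ℤ) : ℚ) ≠ 0 := by norm_num
  have h16 : ((16 : ℤ) : ℚ) ≠ 0 := by norm_num
  have e2 : (((P.b ^ P.p - 1 - P.a ^ P.p) / 4 : ℤ) : ℚ)
      = ((P.b : ℚ) ^ P.p - 1 - (P.a : ℚ) ^ P.p) / 4 := by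
    rw [Int.cast_div (four_dvd_a₂_num P) h4]; push_cast; ring
  have e4 : ((-(P.a ^ P.p) * (P.b ^ P.p) / 16 : ℤ) : ℚ)
      = -((P.a : ℚ) ^ P.p) * ((P.b : ℚ) ^ P.p) / 16 := by
    rw [Int.cast_div (Dvd.dvd.mul_left (sixteen_dvd_b_pow P) _) h16]; push_cast; ring
  ext
  · simp [FreyPackage.freyCurveInt, FreyPackage.freyCurve]
  · simp only [WeierstrassCurve.map_a₂, FreyPackage.freyCurveInt, FreyPackage.freyCurve,
      eq_intCast]
    exact e2
  · simp [FreyPackage.freyCurveInt, FreyPackage.freyCurve]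
  · simp only [WeierstrassCurve.map_a₄, FreyPackage.freyCurveInt, FreyPackage.freyCurve,
      eq_intCast]
    exact e4
  · simp [FreyPackage.freyCurveInt, FreyPackage.freyCurve]

/-- the discriminant of the Frey curve -/
lemma frey_Δ : P.freyCurve.Δ =
    ((P.a : ℚ) ^ P.p * (P.b : ℚ) ^ P.p * (P.c : ℚ) ^ P.p) ^ 2 / 256 := by
  have h : (P.a : ℚ) ^ P.p + (P.b : ℚ) ^ P.p = (P.c : ℚ) ^ P.p := by exact_mod_cast P.hFLT
  simp only [WeierstrassCurve.Δ, WeierstrassCurve.b₂, WeierstrassCurve.b₄, WeierstrassCurve.b₆,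
    WeierstrassCurve.b₈, FreyPackage.freyCurve]
  rw [← h]; ring

lemma frey_Δ_ne_zero : (P.freyCurve⁄Qbar).Δ ≠ 0 := by
  simp only [WeierstrassCurve.baseChange, WeierstrassCurve.map_Δ]
  rw [frey_Δ]
  have ha : (P.a : ℚ) ≠ 0 := Int.cast_ne_zero.mpr P.ha0
  have hb : (P.b : ℚ) ≠ 0 := Int.cast_ne_zero.mpr P.hb0
  have hc : (P.c : ℚ) ≠ 0 := Int.cast_ne_zero.mpr P.hc0
  have : ((P.a : ℚ) ^ P.p * (P.b : ℚ) ^ P.p * (P.c : ℚ) ^ P.p) ^ 2 / 256 ≠ 0 := by positivity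
  simpa using this

lemma hp2 : P.p ≠ 2 := by have := P.hp5; omega

/-- **The torsion polynomial of the Frey curve**, with integer coefficients. -/
noncomputable def freyPsi : ℤ[X] := tors P.freyCurveInt (P.p / 2)

lemma map_freyPsi :
    (freyPsi P).map (Int.castRingHom Qbar) = tors (P.freyCurve⁄Qbar) (P.p / 2) := by
  rw [freyPsi, map_tors]
  congr 1
  simp only [WeierstrassCurve.baseChange]
  rw [← freyCurveInt_map, WeierstrassCurve.map_map]
  congr 1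

lemma two_mul_natDegree_freyPsi : 2 * (freyPsi P).natDegree = P.p ^ 2 - 1 := by
  have hk := one_le_half P.pp (hp2 P)
  have h := two_mul_half_add_one P.pp (hp2 P)
  have hne : ((2 * (P.p / 2) + 1 : ℕ) : ℤ) ≠ 0 := by exact_mod_cast (by omega : 2 * (P.p / 2) + 1 ≠ 0)
  rw [freyPsi, natDegree_tors_of_ne _ _ hk hne]
  have : (2 * (P.p / 2) + 1) ^ 2 = P.p ^ 2 := by rw [h]
  have h2 : (2 * (P.p / 2) + 1) ^ 2 = 2 * (2 * (P.p / 2) ^ 2 + 2 * (P.p / 2)) + 1 := by ring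
  omega

lemma leadingCoeff_freyPsi : (freyPsi P).leadingCoeff = (P.p : ℤ) := by
  have hk := one_le_half P.pp (hp2 P)
  have h := two_mul_half_add_one P.pp (hp2 P)
  have hne : ((2 * (P.p / 2) + 1 : ℕ) : ℤ) ≠ 0 := by exact_mod_cast (by omega : 2 * (P.p / 2) + 1 ≠ 0)
  rw [freyPsi, leadingCoeff_tors_of_ne _ _ hk hne, h]

/-- **(T1)+(T2)**: a point with abscissa `x` is killed by `p` iff `x` is a root of `freyPsi`. -/
theorem nsmul_eq_zero_iff_isRoot {x y : Qbar} (h : (P.freyCurve⁄Qbar).toAffine.Nonsingular x y) :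
    P.p • (Point.some x y h) = 0 ↔ ((freyPsi P).map (Int.castRingHom Qbar)).IsRoot x := by
  rw [map_freyPsi, IsRoot.def]
  exact prime_nsmul_eq_zero_iff P.pp (hp2 P) (px_some h)

/-- (T1) in the shape consumed by `AtP.dichotomy_of`. -/
theorem isRoot_of_mem_torsionBy (x y : Qbar)
    (h : (P.freyCurve⁄Qbar).toAffine.Nonsingular x y)
    (hmem : Point.some x y h ∈
      Submodule.torsionBy ℤ (P.freyCurve⁄Qbar).toAffine.Point (P.p : ℕ)) :
    ((freyPsi P).map (Int.castRingHom Qbar)).IsRoot x := by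
  rw [← nsmul_eq_zero_iff_isRoot P h]
  rw [Submodule.mem_torsionBy_iff] at hmem
  rw [← natCast_zsmul]
  exact hmem

/-- (T2): every root is the abscissa of a nonzero `p`-torsion point. -/
theorem exists_point_of_isRoot {x : Qbar}
    (hx : ((freyPsi P).map (Int.castRingHom Qbar)).IsRoot x) :
    ∃ (y : Qbar) (h : (P.freyCurve⁄Qbar).toAffine.Nonsingular x y),
      Point.some x y h ∈ Submodule.torsionBy ℤ (P.freyCurve⁄Qbar).toAffine.Point (P.p : ℕ) := by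
  obtain ⟨Pt, hPt⟩ := exists_point_of_x (P.freyCurve⁄Qbar) (frey_Δ_ne_zero P) x
  obtain ⟨y, h, rfl⟩ := exists_of_px_eq_some hPt
  refine ⟨y, h, ?_⟩
  rw [Submodule.mem_torsionBy_iff, natCast_zsmul]
  exact (nsmul_eq_zero_iff_isRoot P h).mpr hx

/-- `E[p]` is finite with at most `p²` elements. -/
theorem card_V_le :
    Finite (Submodule.torsionBy ℤ (P.freyCurve⁄Qbar).toAffine.Point (P.p : ℕ)) ∧
      Nat.card (Submodule.torsionBy ℤ (P.freyCurve⁄Qbar).toAffine.Point (P.p : ℕ)) ≤ P.p ^ 2 :=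
  card_prime_torsion_le (P.freyCurve⁄Qbar) P.pp (hp2 P)

/-- `E[p]` is nontrivial. -/
theorem nontrivial_V :
    Nontrivial (Submodule.torsionBy ℤ (P.freyCurve⁄Qbar).toAffine.Point (P.p : ℕ)) := by
  obtain ⟨Pt, hPt0, hPt⟩ := exists_torsion_point (P.freyCurve⁄Qbar) (frey_Δ_ne_zero P) P.p
    (by have := P.hp5; omega)
  have hmem : Pt ∈ Submodule.torsionBy ℤ (P.freyCurve⁄Qbar).toAffine.Point (P.p : ℕ) := by
    rw [Submodule.mem_torsionBy_iff, natCast_zsmul]; exact hPt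
  refine ⟨⟨⟨Pt, hmem⟩, 0, ?_⟩⟩
  intro h
  exact hPt0 (congrArg Subtype.val h)

end Fermat.Agent.S13.LadderFreyH9
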