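import Fermat.Agent.S05.KernelPx
import Fermat.Agent.S05.XLaws

/-!
# S13: the kernel of reduction is a subgroup

`K` a field of characteristic zero, `A` a valuation subring in which `2` is a unit, `W` a
Weierstrass curve over `K` with integral `b`-invariants.  The predicate `InKer A W`
(`Fermat.Agent.S05.InKer`: the point at infinity, or a point with non-integral `x`-coordinate) is
closed under addition (x-only proof: the formulas for `x(P+Q) + x(P-Q)` and `x(P+Q) x(P-Q)`).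
-/

set_option autoImplicit false
set_option linter.unusedSectionVars false

namespace Fermat.Agent.S13.KerAdd

open WeierstrassCurve WeierstrassCurve.Affine
open Fermat.Agent.S51 Fermat.Agent.S05

variable {K : Type*} [Field K] [DecidableEq K] [CharZero K]
variable {A : ValuationSubring K} {W : WeierstrassCurve K}

/-- the valuation computation behind `inKer_add` -/
lemma not_mem_of_sum_prod {b2 b4 b6 b8 x₁ x₂ x₃ x₄ : K}
    (hb2 : b2 ∈ A) (hb4 : b4 ∈ A) (hb6 : b6 ∈ A) (hb8 : b8 ∈ A)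
    (hx₁ : x₁ ∉ A) (hx₂ : x₂ ∉ A)
    (hsum : (x₃ + x₄) * (x₁ - x₂) ^ 2 =
      2 * x₁ * x₂ * (x₁ + x₂) + b2 * x₁ * x₂ + b4 * (x₁ + x₂) + b6)
    (hprod : x₃ * x₄ * (x₁ - x₂) ^ 2 =
      x₁ ^ 2 * x₂ ^ 2 - b4 * x₁ * x₂ - b6 * (x₁ + x₂) - b8) : x₃ ∉ A := by
  set v := A.valuation with hv
  have h1 : 1 < v x₁ := not_mem_iff_one_lt.mp hx₁
  have h2 : 1 < v x₂ := not_mem_iff_one_lt.mp hx₂
  have hvb2 : v b2 ≤ 1 := (A.valuation_le_one_iff _).mpr hb2
  have hvb4 : v b4 ≤ 1 := (A.valuation_le_one_iff _).mpr hb4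
  have hvb6 : v b6 ≤ 1 := (A.valuation_le_one_iff _).mpr hb6
  have hvb8 : v b8 ≤ 1 := (A.valuation_le_one_iff _).mpr hb8
  have hv2 : v (2 : K) ≤ 1 := by
    have : (2 : K) = ((2 : ℕ) : K) := by norm_num
    rw [this]; exact (A.valuation_le_one_iff _).mpr (natCast_mem A 2)
  have hp1 : 0 < v x₁ := lt_trans zero_lt_one h1
  have hp2 : 0 < v x₂ := lt_trans zero_lt_one h2
  set M := v x₁ ^ 2 * v x₂ ^ 2 with hM
  have h12 : 1 < v x₁ * v x₂ := by
    calc (1 : A.ValueGroup) = 1 * 1 := (one_mul 1).symm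
      _ < v x₁ * v x₂ := mul_lt_mul'' h1 h2 zero_le zero_le
  have hM' : M = (v x₁ * v x₂) * (v x₁ * v x₂) := by
    rw [hM, pow_two, pow_two, mul_mul_mul_comm]
  -- auxiliary bounds
  have hx1M : v x₁ < M := by
    rw [hM']
    calc v x₁ = v x₁ * 1 := (mul_one _).symm
      _ < v x₁ * v x₂ := by gcongr
      _ = (v x₁ * v x₂) * 1 := (mul_one _).symm
      _ < (v x₁ * v x₂) * (v x₁ * v x₂) := by gcongr
  have hx2M : v x₂ < M := by
    rw [hM']
    calc v x₂ = 1 * v x₂ := (one_mul _).symm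
      _ < v x₁ * v x₂ := by gcongr
      _ = (v x₁ * v x₂) * 1 := (mul_one _).symm
      _ < (v x₁ * v x₂) * (v x₁ * v x₂) := by gcongr
  have h12M : v x₁ * v x₂ < M := by
    rw [hM']
    calc v x₁ * v x₂ = (v x₁ * v x₂) * 1 := (mul_one _).symm
      _ < (v x₁ * v x₂) * (v x₁ * v x₂) := by gcongr
  have hsumx : v (x₁ + x₂) ≤ max (v x₁) (v x₂) := Valuation.map_add _ _ _
  have hsumM : v (x₁ + x₂) < M := lt_of_le_of_lt hsumx (max_lt hx1M hx2M)
  have h1M : (1 : A.ValueGroup) < M := lt_trans h12 h12M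
  -- `v (x₁ - x₂) ^ 2 < M`
  have hd : v (x₁ - x₂) ≤ max (v x₁) (v x₂) := Valuation.map_sub _ _ _
  have hd2 : v (x₁ - x₂) ^ 2 < M := by
    rcases le_total (v x₁) (v x₂) with hle | hle
    · rw [max_eq_right hle] at hd
      calc v (x₁ - x₂) ^ 2 ≤ v x₂ ^ 2 := by gcongr
        _ = 1 * v x₂ ^ 2 := (one_mul _).symm
        _ < v x₁ ^ 2 * v x₂ ^ 2 := by
          have : (1 : A.ValueGroup) < v x₁ ^ 2 := one_lt_pow₀ h1 two_ne_zero
          have hpos : 0 < v x₂ ^ 2 := pow_pos hp2 2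
          exact mul_lt_mul_of_pos_right this hpos
    · rw [max_eq_left hle] at hd
      calc v (x₁ - x₂) ^ 2 ≤ v x₁ ^ 2 := by gcongr
        _ = v x₁ ^ 2 * 1 := (mul_one _).symm
        _ < v x₁ ^ 2 * v x₂ ^ 2 := by
          have : (1 : A.ValueGroup) < v x₂ ^ 2 := one_lt_pow₀ h2 two_ne_zero
          have hpos : 0 < v x₁ ^ 2 := pow_pos hp1 2
          exact mul_lt_mul_of_pos_left this hpos
  -- valuation of the product numerator
  have hprodv : v (x₁ ^ 2 * x₂ ^ 2 - b4 * x₁ * x₂ - b6 * (x₁ + x₂) - b8) = M := by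
    have e1 : v (x₁ ^ 2 * x₂ ^ 2) = M := by rw [map_mul, map_pow, map_pow]
    have e2 : v (b4 * x₁ * x₂) < M := by
      rw [map_mul, map_mul]
      calc v b4 * v x₁ * v x₂ = v b4 * (v x₁ * v x₂) := mul_assoc _ _ _
        _ ≤ 1 * (v x₁ * v x₂) := by gcongr
        _ = v x₁ * v x₂ := one_mul _
        _ < M := h12M
    have e3 : v (b6 * (x₁ + x₂)) < M := by
      rw [map_mul]
      calc v b6 * v (x₁ + x₂) ≤ 1 * v (x₁ + x₂) := by gcongr
        _ = v (x₁ + x₂) := one_mul _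
        _ < M := hsumM
    have e4 : v b8 < M := lt_of_le_of_lt hvb8 h1M
    have s1 : v (x₁ ^ 2 * x₂ ^ 2 - b4 * x₁ * x₂) = M := by
      rw [Valuation.map_sub_eq_of_lt_left v (by rw [e1]; exact e2), e1]
    have s2 : v (x₁ ^ 2 * x₂ ^ 2 - b4 * x₁ * x₂ - b6 * (x₁ + x₂)) = M := by
      rw [Valuation.map_sub_eq_of_lt_left v (by rw [s1]; exact e3), s1]
    rw [Valuation.map_sub_eq_of_lt_left v (by rw [s2]; exact e4), s2]
  -- valuation of the sum numerator
  have hsumv : v (2 * x₁ * x₂ * (x₁ + x₂) + b2 * x₁ * x₂ + b4 * (x₁ + x₂) + b6) < M := by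
    have e1 : v (2 * x₁ * x₂ * (x₁ + x₂)) < M := by
      rw [map_mul, map_mul, map_mul]
      have hmax : v (x₁ + x₂) < v x₁ * v x₂ := by
        refine lt_of_le_of_lt hsumx (max_lt ?_ ?_)
        · calc v x₁ = v x₁ * 1 := (mul_one _).symm
            _ < v x₁ * v x₂ := by gcongr
        · calc v x₂ = 1 * v x₂ := (one_mul _).symm
            _ < v x₁ * v x₂ := by gcongr
      calc v 2 * v x₁ * v x₂ * v (x₁ + x₂) = v 2 * ((v x₁ * v x₂) * v (x₁ + x₂)) := by
            simp only [mul_assoc]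
        _ ≤ 1 * ((v x₁ * v x₂) * v (x₁ + x₂)) := by gcongr
        _ = (v x₁ * v x₂) * v (x₁ + x₂) := one_mul _
        _ < (v x₁ * v x₂) * (v x₁ * v x₂) := by gcongr
        _ = M := hM'.symm
    have e2 : v (b2 * x₁ * x₂) < M := by
      rw [map_mul, map_mul]
      calc v b2 * v x₁ * v x₂ = v b2 * (v x₁ * v x₂) := mul_assoc _ _ _
        _ ≤ 1 * (v x₁ * v x₂) := by gcongr
        _ = v x₁ * v x₂ := one_mul _
        _ < M := h12M
    have e3 : v (b4 * (x₁ + x₂)) < M := by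
      rw [map_mul]
      calc v b4 * v (x₁ + x₂) ≤ 1 * v (x₁ + x₂) := by gcongr
        _ = v (x₁ + x₂) := one_mul _
        _ < M := hsumM
    have e4 : v b6 < M := lt_of_le_of_lt hvb6 h1M
    exact Valuation.map_add_lt v (Valuation.map_add_lt v (Valuation.map_add_lt v e1 e2) e3) e4
  -- conclusion
  have hP : v x₃ * v x₄ * v (x₁ - x₂) ^ 2 = M := by
    rw [← hprodv, ← hprod, map_mul, map_mul, map_pow]
  have hS : v (x₃ + x₄) * v (x₁ - x₂) ^ 2 < M := by
    have := congrArg v hsum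
    rw [map_mul, map_pow] at this
    rw [this]; exact hsumv
  intro hx₃
  have hv3 : v x₃ ≤ 1 := (A.valuation_le_one_iff _).mpr hx₃
  rcases lt_or_ge (v x₃) (v x₄) with hlt | hge
  · -- `v (x₃ + x₄) = v x₄`
    have h34 : v (x₃ + x₄) = v x₄ := Valuation.map_add_eq_of_lt_right v hlt
    rw [h34] at hS
    have : M ≤ v x₄ * v (x₁ - x₂) ^ 2 := by
      rw [← hP]
      calc v x₃ * v x₄ * v (x₁ - x₂) ^ 2 = v x₃ * (v x₄ * v (x₁ - x₂) ^ 2) := mul_assoc _ _ _
        _ ≤ 1 * (v x₄ * v (x₁ - x₂) ^ 2) := by gcongr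
        _ = v x₄ * v (x₁ - x₂) ^ 2 := one_mul _
    exact absurd hS (not_lt.mpr this)
  · -- both `≤ 1`
    have hv4 : v x₄ ≤ 1 := le_trans hge hv3
    have : M ≤ v (x₁ - x₂) ^ 2 := by
      rw [← hP]
      calc v x₃ * v x₄ * v (x₁ - x₂) ^ 2 ≤ 1 * 1 * v (x₁ - x₂) ^ 2 := by gcongr
        _ = v (x₁ - x₂) ^ 2 := by rw [one_mul, one_mul]
    exact absurd hd2 (not_lt.mpr this)

/-- **The kernel of reduction is closed under addition.** -/
theorem inKer_add (h2 : A.valuation (2 : K) = 1) (hb2 : W.b₂ ∈ A) (hb4 : W.b₄ ∈ A)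
    (hb6 : W.b₆ ∈ A) {P Q : W.toAffine.Point} (hP : InKer A W P) (hQ : InKer A W Q) :
    InKer A W (P + Q) := by
  have hb8 : W.b₈ ∈ A := b₈_mem h2 hb2 hb4 hb6
  cases P with
  | zero => rw [← Point.zero_def, zero_add]; exact hQ
  | some x₁ y₁ h₁ =>
    cases Q with
    | zero => rw [← Point.zero_def, add_zero]; exact hP
    | some x₂ y₂ h₂' =>
      have hx₁ : x₁ ∉ A := hP x₁ rfl
      have hx₂ : x₂ ∉ A := hQ x₂ rfl
      by_cases hx : x₁ = x₂
      · -- same abscissa: `Q = ± P`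
        have hpx : px W (Point.some x₁ y₁ h₁) = px W (Point.some x₂ y₂ h₂') := by
          simp only [px_some]; rw [hx]
        rcases px_eq_iff.mp hpx with h | h
        · rw [← h]
          have := inKer_nsmul h2 hb2 hb4 hb6 hP 2
          rwa [two_nsmul] at this
        · rw [h, neg_add_cancel]; exact inKer_zero
      · obtain ⟨x₃, y₃, x₄, y₄, h₃, h₄, hadd, hsub, -, -, hsum, hprod⟩ :=
          XLaws.add_sub_x W h₁ h₂' hx
        rw [hadd]
        intro x hx3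
        simp only [px_some, Option.some.injEq] at hx3
        subst hx3
        simp only [XLaws.xSumNum] at hsum
        simp only [XLaws.xProdNum] at hprod
        exact not_mem_of_sum_prod hb2 hb4 hb6 hb8 hx₁ hx₂ hsum hprod

/-- The kernel of reduction is closed under subtraction. -/
theorem inKer_sub (h2 : A.valuation (2 : K) = 1) (hb2 : W.b₂ ∈ A) (hb4 : W.b₄ ∈ A)
    (hb6 : W.b₆ ∈ A) {P Q : W.toAffine.Point} (hP : InKer A W P) (hQ : InKer A W Q) :
    InKer A W (P - Q) := by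
  rw [sub_eq_add_neg]
  exact inKer_add h2 hb2 hb4 hb6 hP (inKer_neg hQ)

end Fermat.Agent.S13.KerAdd
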