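import Fermat.Prelude.Def_FLTPrelim_Ramification
import Fermat.Agent.S05.Local
import Fermat.Agent.S05.Tent
import Fermat.Agent.S05.TentDoubleR_h9
import Fermat.Agent.S13.KerAdd

/-!
# S13 (G2): inertia at an odd prime moves `p`-torsion points of the Frey curve by points of the
kernel of reduction

This is the S05 local analysis *without* the hypothesis `q ≠ p`: for every odd prime `q`
(in particular `q = p`), every valuation subring `A` of `Qbar` over `q`, every `σ` in the inertia
group of `A` and every `p`-torsion point `Pt` of the Frey curve, `σ • Pt - Pt` lies in the kernel of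
reduction `C_A = InKer A (freyCurve⁄Qbar)` (the point at infinity, or `x`-coordinate not in `A`).
`C_A` is a subgroup stable under the decomposition group of `A`.
-/

set_option autoImplicit false

namespace Fermat.Agent.S13.LocalP

open WeierstrassCurve WeierstrassCurve.Affine
open Fermat.Agent.S51 Fermat.Agent.S05

local notation "Qbar" => AlgebraicClosure ℚ

/-- the tent lemmas of S05 (unconditional) -/
theorem tentHyp : TentHyp := fun v _ _ h2 hA2 hA4 hm =>
  ⟨fun h1 _ _ _ _ _ h7 h8 => tent_lemma v h2 hA2 hA4 hm h1 h7 h8,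
    TD9.tent_double_R v h2 hA2 hA4 hm⟩

/-- **(G2)** inertia at an odd prime `q` (`q = p` allowed) moves every `p`-torsion point of the
Frey curve by a point of the kernel of reduction. -/
theorem smul_sub_inKer_frey (P : FreyPackage) {q : ℕ} (hq : q.Prime) (hq2 : q ≠ 2)
    (A : ValuationSubring Qbar) (hA : A.LiesOverPrime q)
    {σ : Qbar ≃ₐ[ℚ] Qbar} (hσ : σ ∈ A.inertiaSubgroupIn ℚ)
    (Pt : (P.freyCurve⁄Qbar).toAffine.Point) (hpPt : P.p • Pt = 0) :
    InKer A (P.freyCurve⁄Qbar) (σ • Pt - Pt) := by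
  classical
  have hT := tentHyp
  by_cases hPt0 : Pt = 0
  · rw [hPt0]
    have : σ • (0 : (P.freyCurve⁄Qbar).toAffine.Point) = 0 :=
      smul_zero (A := (P.freyCurve⁄Qbar).Point) σ
    rw [this, sub_zero]
    exact inKer_zero
  -- basic local data
  have h2 : A.valuation (2 : Qbar) = 1 := frey_val_two A hq hq2 hA
  have hb2 := local_b₂_mem P A
  have hb4 := local_b₄_mem P A hq hq2 hA
  have hb6 := local_b₆_mem P A
  have hpx : px (P.freyCurve⁄Qbar) Pt = some (Kernel.xCoord Pt) := px_of_ne_zero hPt0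
  set x := Kernel.xCoord Pt with hxdef
  obtain ⟨η, hη, -⟩ := exists_peta_of_px hpx
  -- (i) the case `x ∉ A`: `Pt` itself is in the kernel of reduction
  by_cases hxA : x ∈ A
  swap
  · have hker : InKer A (P.freyCurve⁄Qbar) Pt := by
      intro x' hx'
      rw [hpx] at hx'
      cases hx'
      exact hxA
    exact KerAdd.inKer_sub h2 hb2 hb4 hb6
      (inKer_smul_of_mem_inertia P.freyCurve A hσ hker) hker
  obtain ⟨t, ⟨r, htr⟩, htA, hcf, hB2A, hB4A, hcase⟩ := frey_local P hq hq2 A hA
  have hσt : σ t = t := by rw [htr]; exact σ.commutes r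
  rcases hcase with ⟨h4, hdisc⟩ | ⟨hB2, n, hn0, hnlt, h4⟩
  · -- good reduction
    have hns := nonsing hcf htA h2 hB2A hB4A hdisc hpx hη hxA (Or.inl h4)
    exact smul_sub_inKer P.freyCurve A h2 hb2 hb4 hb6 hσ hpx hη hxA hns
  · -- multiplicative reduction
    have hn0' : (n : Qbar) ≠ 0 := by exact_mod_cast hn0
    have hB4lt : A.valuation (sB4 (P.freyCurve⁄Qbar) t) < 1 := by
      rw [h4]; exact pow_lt_one₀ zero_le hnlt P.hp0
    have hdisc := disc_unit_of_mult (W := P.freyCurve⁄Qbar) h2 hB2 hB4lt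
    have hXA : x - t ∈ A := sub_mem hxA htA
    have hXle : A.valuation (x - t) ≤ 1 := (A.valuation_le_one_iff _).mpr hXA
    rcases lt_or_eq_of_le hXle with hX1 | hX1
    swap
    · have hns := nonsing hcf htA h2 hB2A hB4A hdisc hpx hη hxA (Or.inr hX1)
      exact smul_sub_inKer P.freyCurve A h2 hb2 hb4 hb6 hσ hpx hη hxA hns
    -- the node case
    have halg : Algebra.IsAlgebraic ℚ Qbar := AlgebraicClosure.isAlgebraic ℚ
    set v : OrdFn Qbar := freyOrd A hq hA with hvdef
    have hv2 : v.IsUnit (2 : Qbar) := (freyOrd_isUnit_iff A hq hA).mpr h2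
    have h2ne : (2 : Qbar) ≠ 0 := two_ne_zero
    have hv4 : v.IsUnit (4 : Qbar) := by
      have := hv2.mul v hv2
      norm_num at this
      exact this
    have hvB2 : v.IsUnit (sB2 (P.freyCurve⁄Qbar) t) := (freyOrd_isUnit_iff A hq hA).mpr hB2
    have hpow0 : (n : Qbar) ^ P.p ≠ 0 := pow_ne_zero _ hn0'
    have hB4ne : sB4 (P.freyCurve⁄Qbar) t ≠ 0 := by
      intro h0
      rw [h0, map_zero] at h4
      have : A.valuation (n : Qbar) ^ P.p ≠ 0 := by
        rw [← map_pow]
        exact (Valuation.ne_zero_iff _).mpr hpow0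
      exact this h4.symm
    have hordB4 : v.ord (sB4 (P.freyCurve⁄Qbar) t) = (P.p : ℚ) * v.ord (n : Qbar) := by
      have h4' : A.valuation (sB4 (P.freyCurve⁄Qbar) t) = A.valuation ((n : Qbar) ^ P.p) := by
        rw [h4, map_pow]
      rw [hvdef, freyOrd_eq_of_val_eq A hq hA hB4ne hpow0 h4', OrdFn.ord_pow _ hn0']
    have hordn : 0 < v.ord (n : Qbar) := (freyOrd_pos_iff A hq hA hn0').mpr hnlt
    have hA4ne : sB4 (P.freyCurve⁄Qbar) t / 2 ≠ 0 := div_ne_zero hB4ne h2ne
    have hordA4 : v.ord (sB4 (P.freyCurve⁄Qbar) t / 2) = v.ord (sB4 (P.freyCurve⁄Qbar) t) := by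
      rw [v.ord_div hB4ne h2ne, hv2.2, sub_zero]
    have hp0 : (0 : ℚ) < P.p := by exact_mod_cast P.hppos
    have hm : 0 < v.ord (sB4 (P.freyCurve⁄Qbar) t / 2) := by
      rw [hordA4, hordB4]; exact mul_pos hp0 hordn
    have hvA2 : v.IsUnit (sB2 (P.freyCurve⁄Qbar) t / 4) := by
      rw [div_eq_mul_inv]; exact hvB2.mul v (hv4.inv v)
    obtain ⟨hTL, hTD⟩ := hT v _ _ hv2 hvA2 hA4ne hm
    have hsmall : v.IsSmall (x - t) :=
      (freyOrd_isSmall_iff A hq hA).mpr (A.mem_nonunits_iff.mpr hX1)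
    have hodd : P.p ≠ 2 := by have := P.hp5; omega
    obtain ⟨hX0, hXlt, k, hk⟩ :=
      node_component_R v hcf hm hTL hTD P.pp hodd hPt0 hpPt hpx hsmall
    rw [hordA4] at hXlt
    rw [hordA4, hordB4] at hk
    -- `ord X = 2 k ord n`
    have hordX : v.ord (x - t) = v.ord ((n : Qbar) ^ (2 * k)) := by
      rw [v.ord_zpow hn0']
      have hp0' : (P.p : ℚ) ≠ 0 := hp0.ne'
      have : (P.p : ℚ) * v.ord (x - t) = (P.p : ℚ) * (((2 * k : ℤ) : ℚ) * v.ord (n : Qbar)) := by
        rw [hk]; push_cast; ring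
      exact mul_left_cancel₀ hp0' this
    have hr0 : (n : Qbar) ^ (2 * k) ≠ 0 := zpow_ne_zero _ hn0'
    have hvr : A.valuation (x - t) = A.valuation ((n : Qbar) ^ (2 * k)) := by
      apply le_antisymm
      · exact (ordOf_le_iff A hq hA hr0 hX0).mp hordX.ge
      · exact (ordOf_le_iff A hq hA hX0 hr0).mp hordX.le
    have hσr : σ ((n : Qbar) ^ (2 * k)) = (n : Qbar) ^ (2 * k) := by
      rw [map_zpow₀, map_intCast]
    have hB4X : A.valuation (sB4 (P.freyCurve⁄Qbar) t) < A.valuation (x - t) :=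
      (ordOf_lt_iff A hq hA hX0 hB4ne).mp hXlt
    exact smul_sub_inKer_node P.freyCurve A hcf htA h2 hB2 hσ hσt hpx hη hX1 hB4X
      ⟨_, hσr, hvr⟩


/-! ### The kernel of reduction as a subspace of `E[p]` -/

noncomputable section Submodule

open WeierstrassCurve.Affine.Point
open scoped Pointwise

variable (P : FreyPackage) {q : ℕ} (hq : q.Prime) (hq2 : q ≠ 2)
  (A : ValuationSubring Qbar) (hA : A.LiesOverPrime q)

/-- the `p`-torsion of the Frey curve over `Qbar` (the space of the frozen statement) -/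
abbrev V : Type := Submodule.torsionBy ℤ (P.freyCurve⁄Qbar).Point P.p

include hq hq2 hA in
/-- closure of the kernel of reduction of the Frey curve under addition (odd residue
characteristic) -/
theorem frey_inKer_add {Pt Qt : (P.freyCurve⁄Qbar).toAffine.Point}
    (hP : InKer A (P.freyCurve⁄Qbar) Pt) (hQ : InKer A (P.freyCurve⁄Qbar) Qt) :
    InKer A (P.freyCurve⁄Qbar) (Pt + Qt) :=
  KerAdd.inKer_add (frey_val_two A hq hq2 hA) (local_b₂_mem P A) (local_b₄_mem P A hq hq2 hA)
    (local_b₆_mem P A) hP hQ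

/-- `C_A`: the kernel of reduction inside `E[p]`, as an additive subgroup -/
def kerAddSubgroup : AddSubgroup (V P) where
  carrier := {x | InKer A (P.freyCurve⁄Qbar) x.1}
  zero_mem' := inKer_zero
  add_mem' := fun {x y} hx hy => frey_inKer_add P hq hq2 A hA hx hy
  neg_mem' := fun {x} hx => inKer_neg hx

/-- `C_A`: the kernel of reduction inside `E[p]`, as an `𝔽_p`-subspace -/
def kerSubmodule : Submodule (ZMod P.p) (V P) :=
  AddSubgroup.toZModSubmodule P.p (kerAddSubgroup P hq hq2 A hA)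

theorem mem_kerSubmodule (x : V P) :
    x ∈ kerSubmodule P hq hq2 A hA ↔ InKer A (P.freyCurve⁄Qbar) x.1 := Iff.rfl

theorem mem_kerSubmodule_iff (x : V P) :
    x ∈ kerSubmodule P hq hq2 A hA ↔
      (x = 0 ∨ ∃ x₀ : Qbar, px (P.freyCurve⁄Qbar) x.1 = Option.some x₀ ∧ x₀ ∉ A) := by
  rw [mem_kerSubmodule, inKer_iff]
  constructor
  · rintro (h | h)
    · left; exact Subtype.ext h
    · right; exact h
  · rintro (h | h)
    · left; rw [h]; rfl
    · right; exact h

/-- **(G2), subspace form**: `(σ - 1) E[p] ⊆ C_A` for `σ` in the inertia group of `A`. -/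
theorem smul_sub_mem_kerSubmodule {σ : Qbar ≃ₐ[ℚ] Qbar} (hσ : σ ∈ A.inertiaSubgroupIn ℚ)
    (x : V P) : σ • x - x ∈ kerSubmodule P hq hq2 A hA := by
  rw [mem_kerSubmodule]
  have hx : (P.p : ℤ) • x.1 = 0 := (Submodule.mem_torsionBy_iff _ _).mp x.2
  rw [natCast_zsmul] at hx
  exact smul_sub_inKer_frey P hq hq2 A hA hσ x.1 hx

/-- the decomposition group of `A` stabilises `C_A` -/
theorem smul_mem_kerSubmodule {σ : Qbar ≃ₐ[ℚ] Qbar}
    (hσ : σ • A = A) {x : V P} (hx : x ∈ kerSubmodule P hq hq2 A hA) :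
    σ • x ∈ kerSubmodule P hq hq2 A hA :=
  inKer_smul P.freyCurve A hσ hx

end Submodule

/-! ### Linear algebra for the case analysis (G3) -/

section LinAlg

variable {k M : Type*} [Field k] [AddCommGroup M] [Module k M] [FiniteDimensional k M]

/-- In a space of dimension `≤ 2`, a proper subspace `C` meeting a proper nonzero subspace `N`
nontrivially is equal to it. -/
theorem eq_of_inf_ne_bot (hM : Module.finrank k M ≤ 2) {N C : Submodule k M} (hN0 : N ≠ ⊥)
    (hNtop : N ≠ ⊤) (hC : C ≠ ⊤) (h : N ⊓ C ≠ ⊥) : C = N := by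
  have h1 : 0 < Module.finrank k N := by
    rw [Module.finrank_pos_iff]
    exact (Submodule.nontrivial_iff_ne_bot).mpr hN0
  have h2 : Module.finrank k N < Module.finrank k M := Submodule.finrank_lt hNtop
  have h3 : Module.finrank k C < Module.finrank k M := Submodule.finrank_lt hC
  have h4 : 0 < Module.finrank k ↥(N ⊓ C) := by
    rw [Module.finrank_pos_iff]
    exact (Submodule.nontrivial_iff_ne_bot).mpr h
  have hNC : N ⊓ C = N := by
    apply Submodule.eq_of_le_of_finrank_le inf_le_left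
    omega
  have hle : N ≤ C := by
    rw [← hNC]; exact inf_le_right
  have h5 : Module.finrank k N ≤ Module.finrank k C := Submodule.finrank_mono hle
  exact (Submodule.eq_of_le_of_finrank_le hle (by omega)).symm

/-- a proper nonzero subspace of a space of dimension `≤ 2` is a line -/
theorem finrank_eq_one_of_ne (hM : Module.finrank k M ≤ 2) {N : Submodule k M} (hN0 : N ≠ ⊥)
    (hNtop : N ≠ ⊤) : Module.finrank k N = 1 ∧ Module.finrank k M = 2 := by
  have h1 : 0 < Module.finrank k N := by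
    rw [Module.finrank_pos_iff]
    exact (Submodule.nontrivial_iff_ne_bot).mpr hN0
  have h2 : Module.finrank k N < Module.finrank k M := Submodule.finrank_lt hNtop
  omega

end LinAlg

/-! ### The two cases of (G3) -/

section Cases

open WeierstrassCurve.Affine.Point

variable (P : FreyPackage) {q : ℕ} (hq : q.Prime) (hq2 : q ≠ 2)
  (A : ValuationSubring Qbar) (hA : A.LiesOverPrime q)

/-- **(G3a)** if the stable line `N0` is the kernel of reduction, inertia acts trivially on
`E[p] / N0`. -/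
theorem smul_sub_mem_of_eq_ker {N0 : Submodule (ZMod P.p) (V P)}
    (h : kerSubmodule P hq hq2 A hA = N0) {σ : Qbar ≃ₐ[ℚ] Qbar}
    (hσ : σ ∈ A.inertiaSubgroupIn ℚ) (x : V P) : σ • x - x ∈ N0 := by
  rw [← h]
  exact smul_sub_mem_kerSubmodule P hq hq2 A hA hσ x

/-- **(G3b)** if the stable line `N0` meets the kernel of reduction trivially, inertia acts
trivially on `N0`. -/
theorem smul_eq_of_inf_ker_eq_bot {N0 : Submodule (ZMod P.p) (V P)}
    (hstab : IsGaloisStable ℚ N0)
    (h : N0 ⊓ kerSubmodule P hq hq2 A hA = ⊥) {σ : Qbar ≃ₐ[ℚ] Qbar}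
    (hσ : σ ∈ A.inertiaSubgroupIn ℚ) {x : V P} (hx : x ∈ N0) : σ • x = x := by
  have h1 : σ • x - x ∈ N0 := N0.sub_mem (hstab σ x hx) hx
  have h2 : σ • x - x ∈ kerSubmodule P hq hq2 A hA :=
    smul_sub_mem_kerSubmodule P hq hq2 A hA hσ x
  have h3 : σ • x - x ∈ N0 ⊓ kerSubmodule P hq hq2 A hA := ⟨h1, h2⟩
  rw [h] at h3
  exact sub_eq_zero.mp ((Submodule.mem_bot _).mp h3)

end Cases

end Fermat.Agent.S13.LocalP
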