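import Mathlib

/-!
# S13, package [T2]: abstract linear algebra of a two-dimensional `𝔽_p`-vector space with a line

`V` is an additive group with a `ZMod p`-module structure, `p` prime, finite with at most `p ^ 2`
elements, and `N` is a submodule with `N ≠ ⊥`, `N ≠ ⊤`.  Then `N` is a line, `V / N` is a line, and

* (a) `card_eq`, `eq_span_singleton`;
* (b) `exists_smul_sub_mem`;
* (c) `unipotent`: an additive endomorphism `T` with `T N ⊆ N` and `(T - 1)² = 0` is trivial on
  `N` and on `V / N`;
* (d) `subset_or_inter_trivial`, `eq_of_subset`: an additive subgroup `C ≠ V` either contains `N`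
  (and then equals `N`) or meets it trivially.
-/

set_option autoImplicit false
set_option linter.unusedSectionVars false

namespace Fermat.Agent.S13.TorsionStruct

open Module

variable {p : ℕ} [Fact p.Prime] {V : Type*} [AddCommGroup V] [Module (ZMod p) V]

/-- `Nat.card V ≤ p ^ 2` bounds the dimension by two. -/
theorem finrank_le_two [Finite V] (hcard : Nat.card V ≤ p ^ 2) : finrank (ZMod p) V ≤ 2 := by
  have hp : 1 < p := (Fact.out : p.Prime).one_lt
  have h := Module.natCard_eq_pow_finrank (K := ZMod p) (V := V)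
  rw [Nat.card_zmod] at h
  rw [h] at hcard
  exact (Nat.pow_le_pow_iff_right hp).mp hcard

section

variable [Finite V] (hcard : Nat.card V ≤ p ^ 2) (N : Submodule (ZMod p) V)
  (hbot : N ≠ ⊥) (htop : N ≠ ⊤)

include hcard hbot htop

/-- `N` is a line. -/
theorem finrank_eq_one : finrank (ZMod p) N = 1 := by
  have h2 := finrank_le_two hcard
  have hlt : finrank (ZMod p) N < finrank (ZMod p) V := Submodule.finrank_lt htop
  have hpos : 0 < finrank (ZMod p) N := by
    rw [Module.finrank_pos_iff, Submodule.nontrivial_iff_ne_bot]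
    exact hbot
  omega

/-- `V` is a plane. -/
theorem finrank_eq_two : finrank (ZMod p) V = 2 := by
  have h2 := finrank_le_two hcard
  have h1 := finrank_eq_one hcard N hbot htop
  have hlt : finrank (ZMod p) N < finrank (ZMod p) V := Submodule.finrank_lt htop
  omega

/-- (a) `N` has exactly `p` elements. -/
theorem card_eq : Nat.card N = p := by
  have h := Module.natCard_eq_pow_finrank (K := ZMod p) (V := N)
  rw [Nat.card_zmod, finrank_eq_one hcard N hbot htop, pow_one] at h
  exact h

/-- (a) `N` is spanned by any of its nonzero elements. -/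
theorem eq_span_singleton {n0 : V} (hn0 : n0 ∈ N) (h0 : n0 ≠ 0) :
    N = Submodule.span (ZMod p) {n0} := by
  symm
  apply Submodule.eq_of_le_of_finrank_eq
  · rw [Submodule.span_singleton_le_iff_mem]; exact hn0
  · rw [finrank_span_singleton h0, finrank_eq_one hcard N hbot htop]

/-- every element of `N` is a multiple of a given nonzero element of `N` -/
theorem exists_smul_eq {n0 : V} (hn0 : n0 ∈ N) (h0 : n0 ≠ 0) {n : V} (hn : n ∈ N) :
    ∃ a : ZMod p, a • n0 = n := by
  rw [eq_span_singleton hcard N hbot htop hn0 h0] at hn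
  exact Submodule.mem_span_singleton.mp hn

/-- (b) `V / N` is a line: every `v` is congruent modulo `N` to a multiple of any `x ∉ N`. -/
theorem exists_smul_sub_mem {x : V} (hx : x ∉ N) (v : V) : ∃ a : ZMod p, v - a • x ∈ N := by
  have hx0 : x ≠ 0 := fun h => hx (h ▸ N.zero_mem)
  have hsup : N ⊔ Submodule.span (ZMod p) {x} = ⊤ := by
    apply Submodule.eq_top_of_finrank_eq
    have hlt : N < N ⊔ Submodule.span (ZMod p) {x} := by
      refine lt_of_le_of_ne le_sup_left fun h => hx ?_
      rw [h]
      exact Submodule.mem_sup_right (Submodule.mem_span_singleton_self x)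
    have h1 := Submodule.finrank_lt_finrank_of_lt hlt
    have h2 := Submodule.finrank_le (N ⊔ Submodule.span (ZMod p) {x})
    rw [finrank_eq_one hcard N hbot htop] at h1
    rw [finrank_eq_two hcard N hbot htop] at h2 ⊢
    omega
  have hv : v ∈ N ⊔ Submodule.span (ZMod p) {x} := hsup ▸ Submodule.mem_top
  obtain ⟨n, hn, y, hy, rfl⟩ := Submodule.mem_sup.mp hv
  obtain ⟨a, rfl⟩ := Submodule.mem_span_singleton.mp hy
  exact ⟨a, by simpa using hn⟩

/-- there is a vector outside `N` -/
theorem exists_not_mem : ∃ x : V, x ∉ N := by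
  by_contra h
  exact htop (Submodule.eq_top_iff'.mpr fun x => by_contra fun hx => h ⟨x, hx⟩)

/-- there is a nonzero vector in `N` -/
theorem exists_mem_ne_zero : ∃ n0 ∈ N, n0 ≠ 0 := (Submodule.ne_bot_iff N).mp hbot

/-- (c) **Unipotent lemma.** An additive endomorphism `T` of `V` preserving `N` with
`(T - 1)² = 0` acts trivially on `N` and on `V / N`. -/
theorem unipotent (T : V →+ V) (hTN : ∀ n ∈ N, T n ∈ N)
    (hT : ∀ v, T (T v - v) = T v - v) :
    (∀ n ∈ N, T n = n) ∧ ∀ v, T v - v ∈ N := by
  -- `T` is `ZMod p`-linear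
  have hlin : ∀ (a : ZMod p) (v : V), T (a • v) = a • T v := fun a v =>
    (T.toZModLinearMap p).map_smul a v
  -- `U = T - 1` squares to zero
  have hU2 : ∀ v, T (T v - v) - (T v - v) = 0 := fun v => by rw [hT v, sub_self]
  obtain ⟨n0, hn0, h0⟩ := exists_mem_ne_zero hcard N hbot htop
  -- on `N`
  have hN : ∀ n ∈ N, T n = n := by
    obtain ⟨c, hc⟩ := exists_smul_eq hcard N hbot htop hn0 h0
      (N.sub_mem (hTN n0 hn0) hn0)
    -- `T n0 - n0 = c • n0`, and applying `U` again gives `c² • n0 = 0`
    have h1 : T (T n0 - n0) - (T n0 - n0) = (c * c) • n0 := by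
      rw [← hc, hlin, mul_smul]
      have : T n0 = c • n0 + n0 := by rw [hc]; abel
      rw [this, smul_add]
      abel
    rw [hU2] at h1
    have hc0 : c = 0 := by
      rcases smul_eq_zero.mp h1.symm with h | h
      · exact mul_self_eq_zero.mp h
      · exact absurd h h0
    have hTn0 : T n0 = n0 := by
      rw [hc0, zero_smul] at hc
      exact (sub_eq_zero.mp hc.symm)
    intro n hn
    obtain ⟨a, rfl⟩ := exists_smul_eq hcard N hbot htop hn0 h0 hn
    rw [hlin, hTn0]
  refine ⟨hN, ?_⟩
  obtain ⟨x, hx⟩ := exists_not_mem hcard N hbot htop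
  -- `U x = n + a • x`
  obtain ⟨a, ha⟩ := exists_smul_sub_mem hcard N hbot htop hx (T x - x)
  set n := T x - x - a • x with hn
  have hUx : T x - x = n + a • x := by rw [hn]; abel
  have hTnn : T n = n := hN n ha
  -- apply `U` once more
  have h2 : T (T x - x) - (T x - x) = a • n + (a * a) • x := by
    rw [hUx, map_add, hlin, hTnn]
    have hTx : T x = n + a • x + x := by rw [← hUx]; abel
    rw [hTx, smul_add, smul_add, mul_smul]
    abel
  rw [hU2] at h2
  have ha0 : a = 0 := by
    by_contra hne
    have haa : a * a ≠ 0 := mul_ne_zero hne hne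
    apply hx
    have hmem : (a * a) • x ∈ N := by
      have : (a * a) • x = -(a • n) := by
        rw [eq_neg_iff_add_eq_zero, add_comm]; exact h2.symm
      rw [this]
      exact N.neg_mem (N.smul_mem a ha)
    have := N.smul_mem (a * a)⁻¹ hmem
    rwa [smul_smul, inv_mul_cancel₀ haa, one_smul] at this
  have hUxN : T x - x ∈ N := by
    rw [hUx, ha0, zero_smul, add_zero]; exact ha
  intro v
  obtain ⟨b, hb⟩ := exists_smul_sub_mem hcard N hbot htop hx v
  -- `v = m + b • x` with `m ∈ N`
  set m := v - b • x with hm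
  have hv : v = m + b • x := by rw [hm]; abel
  have : T v - v = b • (T x - x) := by
    rw [hv, map_add, hlin, hN m hb, smul_sub]
    abel
  rw [this]
  exact N.smul_mem b hUxN

/-- (d) an additive subgroup `C` either contains `N` or meets it trivially. -/
theorem subset_or_inter_trivial (C : AddSubgroup V) :
    (∀ n ∈ N, n ∈ C) ∨ ∀ n ∈ N, n ∈ C → n = 0 := by
  by_cases h : ∀ n ∈ N, n ∈ C → n = 0
  · exact Or.inr h
  · left
    obtain ⟨n0, hn0, hn0C, h0⟩ : ∃ n0 ∈ N, n0 ∈ C ∧ n0 ≠ 0 := by
      by_contra h'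
      exact h fun n hn hnC => by_contra fun h0 => h' ⟨n, hn, hnC, h0⟩
    intro n hn
    obtain ⟨a, rfl⟩ := exists_smul_eq hcard N hbot htop hn0 h0 hn
    have : a • n0 = a.val • n0 := by
      conv_lhs => rw [← ZMod.natCast_zmod_val a]
      rw [Nat.cast_smul_eq_nsmul]
    rw [this]
    exact C.nsmul_mem hn0C _

/-- (d) an additive subgroup `C ≠ V` containing `N` is equal to `N`. -/
theorem eq_of_subset (C : AddSubgroup V) (hC : ∃ v : V, v ∉ C) (hNC : ∀ n ∈ N, n ∈ C) :
    ∀ v, v ∈ C ↔ v ∈ N := by
  intro v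
  refine ⟨fun hv => ?_, hNC v⟩
  by_contra hvN
  obtain ⟨w, hw⟩ := hC
  apply hw
  obtain ⟨a, ha⟩ := exists_smul_sub_mem hcard N hbot htop hvN w
  have h1 : w - a • v ∈ C := hNC _ ha
  have h2 : a • v ∈ C := by
    have : a • v = a.val • v := by
      conv_lhs => rw [← ZMod.natCast_zmod_val a]
      rw [Nat.cast_smul_eq_nsmul]
    rw [this]
    exact C.nsmul_mem hv _
  have := C.add_mem h1 h2
  rwa [sub_add_cancel] at this

end

end Fermat.Agent.S13.TorsionStruct
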