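import Fermat.Agent.S13.TwoRational
import Fermat.Agent.S51.Endgame
import Fermat.Agent.Lib.Frobenius

/-!
# S13, the prime 2 for the Frey curve (packages (L2) and (G4))

The Prelude's Frey curve `y² + xy = x³ + ((bᵖ - 1 - aᵖ)/4) x² - (aᵖbᵖ/16) x` is already minimal at
`2`, with multiplicative reduction (node at `(0,0)`) and `ord₂ a₄ = p·ord₂ b - 4`, prime to `p`.

* `frey_inertia_two` **(L2)**: for `A` over `2`, `σ ∈ I_A` and `Pt ∈ E[p]`: `σ` fixes `σ Pt - Pt`
  (so `(σ - 1)² = 0` on `E[p]`: inertia at `2` acts unipotently);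
* `frey_no_rational_torsion` **(G4)**: no nonzero point of `E[p]` is fixed by all of `G_ℚ`.
-/

set_option autoImplicit false
set_option linter.unusedSectionVars false

namespace Fermat.Agent.S13.Two

open WeierstrassCurve WeierstrassCurve.Affine
open Fermat.Agent.S05

local notation "Qbar" => AlgebraicClosure ℚ

variable (P : FreyPackage)

/-! ### the coefficients -/

lemma frey_a₁ : (P.freyCurve⁄Qbar).a₁ = 1 := by
  simp [WeierstrassCurve.baseChange, FreyPackage.freyCurve]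

lemma frey_a₃ : (P.freyCurve⁄Qbar).a₃ = 0 := by
  simp [WeierstrassCurve.baseChange, FreyPackage.freyCurve]

lemma frey_a₆ : (P.freyCurve⁄Qbar).a₆ = 0 := by
  simp [WeierstrassCurve.baseChange, FreyPackage.freyCurve]

lemma frey_a₂ : (P.freyCurve⁄Qbar).a₂ = ((P.b : Qbar) ^ P.p - 1 - (P.a : Qbar) ^ P.p) / 4 := by
  simp [WeierstrassCurve.baseChange, FreyPackage.freyCurve]

lemma frey_a₄ : (P.freyCurve⁄Qbar).a₄ = -((P.a : Qbar) ^ P.p * (P.b : Qbar) ^ P.p) / 16 := by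
  simp [WeierstrassCurve.baseChange, FreyPackage.freyCurve]

/-! ### integer arithmetic at `2` -/

lemma frey_two_dvd_b : (2 : ℤ) ∣ P.b := by
  have := (ZMod.intCast_zmod_eq_zero_iff_dvd P.b 2).1 P.hb2
  simpa using this

lemma frey_a_odd : ¬ (2 : ℤ) ∣ P.a := by
  intro h
  obtain ⟨k, hk⟩ := h
  have h4 := P.ha4
  rw [hk] at h4
  push_cast at h4
  have : ∀ z : ZMod 4, (2 : ZMod 4) * z ≠ 3 := by decide
  exact this _ h4

/-- `4 ∣ bᵖ - 1 - aᵖ` -/
lemma frey_four_dvd : (4 : ℤ) ∣ P.b ^ P.p - 1 - P.a ^ P.p := by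
  have hcast := (ZMod.intCast_zmod_eq_zero_iff_dvd (P.b ^ P.p - 1 - P.a ^ P.p) 4).1
  have : ((4 : ℕ) : ℤ) ∣ P.b ^ P.p - 1 - P.a ^ P.p := by
    apply hcast
    obtain ⟨t, ht⟩ := P.hp_odd
    have ht1 : 1 ≤ t := by have := P.hp5; omega
    obtain ⟨k, hk⟩ := frey_two_dvd_b P
    push_cast
    rw [P.ha4, ht]
    have hb : ((P.b : ZMod 4)) ^ (2 * t + 1) = 0 := by
      rw [hk]
      push_cast
      have h2 : ((2 : ZMod 4) * (k : ZMod 4)) ^ 2 = 0 := by
        have : ∀ z : ZMod 4, ((2 : ZMod 4) * z) ^ 2 = 0 := by decide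
        exact this _
      have : 2 * t + 1 = 2 + (2 * t - 1) := by omega
      rw [this, pow_add, h2, zero_mul]
    have h3 : (3 : ZMod 4) ^ (2 * t + 1) = 3 := by
      rw [pow_succ, pow_mul]
      have : (3 : ZMod 4) ^ 2 = 1 := by decide
      rw [this, one_pow, one_mul]
    rw [hb, h3]
    decide
  simpa using this

/-- `b = 2 ^ s * c` with `c` odd and `s ≥ 1` -/
lemma frey_b_decomp : ∃ (s : ℕ) (c : ℤ), 1 ≤ s ∧ ¬ (2 : ℤ) ∣ c ∧ P.b = 2 ^ s * c := by
  have hfin : FiniteMultiplicity (2 : ℤ) P.b :=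
    Int.finiteMultiplicity_iff.mpr ⟨by norm_num, P.hb0⟩
  obtain ⟨c, hc, hnd⟩ := hfin.exists_eq_pow_mul_and_not_dvd
  refine ⟨multiplicity (2 : ℤ) P.b, c, ?_, hnd, hc⟩
  by_contra h0
  have h0' : multiplicity (2 : ℤ) P.b = 0 := by omega
  rw [h0', pow_zero, one_mul] at hc
  exact hnd (hc ▸ frey_two_dvd_b P)

section Local

variable (A : ValuationSubring Qbar) (hA : A.LiesOverPrime 2)
include hA

lemma frey_val_two_lt : A.valuation (2 : Qbar) < 1 := by
  have := A.mem_nonunits_iff.mp hA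
  simpa using this

lemma frey_val_odd {n : ℤ} (hn : ¬ (2 : ℤ) ∣ n) : A.valuation (n : Qbar) = 1 :=
  frey_val_int_eq_one A Nat.prime_two hA (by simpa using hn)

/-- `a₂` is integral -/
lemma frey_a₂_mem : (P.freyCurve⁄Qbar).a₂ ∈ A := by
  obtain ⟨c, hc⟩ := frey_four_dvd P
  have : (P.freyCurve⁄Qbar).a₂ = (c : Qbar) := by
    rw [frey_a₂]
    have h := congrArg (Int.cast : ℤ → Qbar) hc
    push_cast at h
    rw [h]; field_simp
  rw [this]
  exact frey_intCast_mem A c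

/-- the valuation of `a₄` -/
lemma frey_val_a₄ : ∃ m : ℕ, 1 ≤ m ∧ ¬ P.p ∣ m ∧
    A.valuation (P.freyCurve⁄Qbar).a₄ = A.valuation (2 : Qbar) ^ m := by
  obtain ⟨s, c, hs, hc, hb⟩ := frey_b_decomp P
  have hp5 := P.hp5
  have hsp : 5 ≤ s * P.p := by nlinarith
  refine ⟨s * P.p - 4, by omega, ?_, ?_⟩
  · intro hd
    have h1 : P.p ∣ s * P.p := dvd_mul_left _ _
    have h2 : P.p ∣ s * P.p - (s * P.p - 4) := Nat.dvd_sub h1 hd
    have h3 : s * P.p - (s * P.p - 4) = 4 := by omega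
    rw [h3] at h2
    have := Nat.le_of_dvd (by norm_num) h2
    omega
  · have e : (P.freyCurve⁄Qbar).a₄ =
        -(((P.a ^ P.p * c ^ P.p : ℤ) : Qbar)) * (2 : Qbar) ^ (s * P.p - 4) := by
      rw [frey_a₄, hb]
      push_cast
      have h16 : (16 : Qbar) = 2 ^ 4 := by norm_num
      have hpow : ((2 : Qbar) ^ s) ^ P.p = 2 ^ 4 * 2 ^ (s * P.p - 4) := by
        rw [← pow_mul, ← pow_add]; congr 1; omega
      rw [mul_pow, hpow, h16]
      field_simp
    have hodd : ¬ (2 : ℤ) ∣ P.a ^ P.p * c ^ P.p := by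
      intro hd
      rcases (Int.prime_two.dvd_or_dvd hd) with h1 | h1
      · exact frey_a_odd P (Int.prime_two.dvd_of_dvd_pow h1)
      · exact hc (Int.prime_two.dvd_of_dvd_pow h1)
    rw [e, map_mul, Valuation.map_neg, frey_val_odd A hA hodd, one_mul, map_pow]

/-- the node data for the Frey curve at a place over `2` -/
theorem frey_nodeAt : ∃ α : Qbar, NodeAt A.valuation (P.freyCurve⁄Qbar) α := by
  -- a square root of `b₂ = 1 + 4 a₂ = bᵖ - aᵖ`
  obtain ⟨γ, hγ⟩ := IsAlgClosed.exists_pow_nat_eq ((P.b : Qbar) ^ P.p - (P.a : Qbar) ^ P.p)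
    (n := 2) (by norm_num)
  have hγodd : ¬ (2 : ℤ) ∣ P.b ^ P.p - P.a ^ P.p := by
    intro hd
    have h1 : (2 : ℤ) ∣ P.b ^ P.p := dvd_pow (frey_two_dvd_b P) P.hp0
    have h2 : (2 : ℤ) ∣ P.a ^ P.p := by
      have := dvd_sub h1 hd
      simpa using this
    exact frey_a_odd P (Int.prime_two.dvd_of_dvd_pow h2)
  have hvγ : A.valuation γ = 1 := by
    have h1 : A.valuation (γ ^ 2) = 1 := by
      rw [hγ]
      have := frey_val_odd A hA hγodd
      push_cast at this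
      exact this
    rw [map_pow] at h1
    exact (pow_eq_one_iff_of_nonneg zero_le (by norm_num)).mp h1
  have h2lt := frey_val_two_lt A hA
  have ha2 := frey_a₂_mem P A hA
  set α := (γ - 1) / 2 with hα
  have hroot : α ^ 2 + (P.freyCurve⁄Qbar).a₁ * α - (P.freyCurve⁄Qbar).a₂ = 0 := by
    rw [frey_a₁, frey_a₂, hα]
    linear_combination (1 / 4 : Qbar) * hγ
  have h2α : 2 * α + (P.freyCurve⁄Qbar).a₁ = γ := by
    rw [frey_a₁, hα]; field_simp; ring
  -- integrality of `α`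
  have hvα : A.valuation α ≤ 1 := by
    by_contra hlt
    rw [not_le] at hlt
    have h1 : A.valuation (α + 1) = A.valuation α :=
      Valuation.map_add_eq_of_lt_left _ (by rw [map_one]; exact hlt)
    have e : α * (α + 1) = (P.freyCurve⁄Qbar).a₂ := by
      rw [frey_a₁] at hroot
      linear_combination hroot
    have h3 : A.valuation (α * (α + 1)) ≤ 1 := by
      rw [e]; exact (A.valuation_le_one_iff _).mpr ha2
    rw [map_mul, h1] at h3
    have : 1 < A.valuation α * A.valuation α := by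
      calc (1 : A.ValueGroup) = 1 * 1 := (one_mul 1).symm
        _ < A.valuation α * A.valuation α := mul_lt_mul'' hlt hlt zero_le zero_le
    exact absurd h3 (not_le.mpr this)
  obtain ⟨m, hm1, -, hm⟩ := frey_val_a₄ P A hA
  refine ⟨α, ⟨frey_a₃ P, frey_a₆ P, hroot, hvα, ?_, ?_, h2lt.le, ?_, ?_⟩⟩
  · rw [frey_a₁, map_one]
  · rw [h2α, hvγ]
  · rw [hm]
    exact pow_lt_one₀ zero_le h2lt (by omega)
  · intro h0
    rw [h0, map_zero] at hm
    have : A.valuation (2 : Qbar) ^ m ≠ 0 :=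
      pow_ne_zero _ ((Valuation.ne_zero_iff _).mpr two_ne_zero)
    exact this hm.symm

/-- **(L2)** Inertia at `2` acts unipotently on `E[p]`: `σ` fixes `σ Pt - Pt`. -/
theorem frey_inertia_two {σ : Qbar ≃ₐ[ℚ] Qbar} (hσ : σ ∈ A.inertiaSubgroupIn ℚ)
    (Pt : (P.freyCurve⁄Qbar).toAffine.Point) (hpPt : P.p • Pt = 0) :
    σ • (σ • Pt - Pt) = σ • Pt - Pt := by
  obtain ⟨α, H⟩ := frey_nodeAt P A hA
  have hp2 : (2 : ℕ) ≠ P.p := by have := P.hp5; omega
  have hpv : A.valuation (P.p : Qbar) = 1 :=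
    frey_val_natCast_prime A Nat.prime_two P.pp hp2 hA
  exact H.smul_smul_sub_eq hσ (frey_val_two_lt A hA) hpv hpPt

/-- no `p`-torsion point with rational abscissa -/
theorem frey_no_rational_abscissa {x y : Qbar} (h : (P.freyCurve⁄Qbar).toAffine.Nonsingular x y)
    (r : ℚ) (hxr : x = (r : Qbar))
    (hpPt : P.p • (Point.some x y h : (P.freyCurve⁄Qbar).toAffine.Point) = 0) : False := by
  obtain ⟨α, H⟩ := frey_nodeAt P A hA
  obtain ⟨m, -, hpm, hm⟩ := frey_val_a₄ P A hA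
  exact H.no_rational_torsion (frey_a₁ P) hA P.pp P.hp5 hm hpm h r hxr hpPt

end Local

/-- **(G4)** The Frey curve has no nonzero `p`-torsion point fixed by the absolute Galois group. -/
theorem frey_no_rational_torsion (Pt : (P.freyCurve⁄Qbar).toAffine.Point) (hPt0 : Pt ≠ 0)
    (hpPt : P.p • Pt = 0) (hfix : ∀ σ : Qbar ≃ₐ[ℚ] Qbar, σ • Pt = Pt) : False := by
  obtain ⟨A, -, hA, -⟩ := Fermat.Agent.Lib.exists_isFrobeniusAt 2 Nat.prime_two
  cases Pt with
  | zero => exact hPt0 rfl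
  | some x y h =>
    have hx : ∀ σ : Qbar ≃ₐ[ℚ] Qbar, σ x = x := by
      intro σ
      have h1 := hfix σ
      obtain ⟨h', e⟩ := smul_some σ h
      rw [e] at h1
      simp only [Point.some.injEq] at h1
      exact h1.1
    obtain ⟨r, hr⟩ := Fermat.Agent.S51.exists_rat_of_fixed x hx
    refine frey_no_rational_abscissa P A hA h r ?_ hpPt
    rw [← hr]
    exact (eq_ratCast (algebraMap ℚ Qbar) r)

end Fermat.Agent.S13.Two
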