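import Fermat.Statements.S13
import Fermat.Agent.S05
import Fermat.Agent.Lib.Frobenius
import Fermat.Agent.S13.LadderFrey_h9
import Fermat.Agent.S13.TorsionStruct
import Fermat.Agent.S13.TwoFrey
import Fermat.Agent.S13.AtP
import Fermat.Agent.S13.LocalP

/-!
# S13: assembly

A reducible mod `p` representation of the Frey curve has a Galois-stable line `N` with trivial
action on `V/N`.  All local packages are imported; the global input (Minkowski: a normal open
subgroup of `G_ℚ` containing an inertia group at every prime is everything) is taken as the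
hypothesis `MinkowskiHyp` and discharged in `Fermat/Agent/S13.lean`.
-/

set_option autoImplicit false

open WeierstrassCurve WeierstrassCurve.Affine WeierstrassCurve.Affine.Point

namespace Fermat.Agent.S13.Asm

local notation "Qbar" => AlgebraicClosure ℚ

/-- the absolute Galois group -/
abbrev GQ : Type := Qbar ≃ₐ[ℚ] Qbar

/-- the `p`-torsion module of the Frey curve -/
abbrev V (P : FreyPackage) : Type :=
  Submodule.torsionBy ℤ (P.freyCurve⁄Qbar).Point P.p

/-- the global input: `ℚ` has no everywhere unramified extension -/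
def MinkowskiHyp : Prop :=
  ∀ (H : Subgroup GQ) [H.Normal],
    (∃ L : IntermediateField ℚ Qbar, FiniteDimensional ℚ L ∧ L.fixingSubgroup ≤ H) →
    (∀ q : ℕ, q.Prime → ∃ A : ValuationSubring Qbar,
      A.LiesOverPrime q ∧ A.inertiaSubgroupIn ℚ ≤ H) → H = ⊤

/-! ### Openness of point stabilisers -/

theorem exists_field_fixing_point (P : FreyPackage) (x : V P) :
    ∃ L : IntermediateField ℚ Qbar, FiniteDimensional ℚ L ∧
      ∀ σ : GQ, σ ∈ L.fixingSubgroup → σ • x = x := by
  obtain ⟨Pt, hPt⟩ := x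
  cases Pt with
  | zero =>
    refine ⟨⊥, inferInstance, fun σ _ => ?_⟩
    apply Subtype.ext
    rfl
  | some a b h =>
    refine ⟨IntermediateField.adjoin ℚ {a, b}, ?_, fun σ hσ => ?_⟩
    · apply IntermediateField.finiteDimensional_adjoin
      intro z _
      have halg : Algebra.IsAlgebraic ℚ Qbar := AlgebraicClosure.isAlgebraic ℚ
      exact (Algebra.IsAlgebraic.isAlgebraic z).isIntegral
    · apply Subtype.ext
      have ha : σ a = a := by
        have := (IntermediateField.mem_fixingSubgroup_iff _ σ).mp hσ a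
          (IntermediateField.subset_adjoin ℚ _ (by simp))
        simpa using this
      have hb : σ b = b := by
        have := (IntermediateField.mem_fixingSubgroup_iff _ σ).mp hσ b
          (IntermediateField.subset_adjoin ℚ _ (by simp))
        simpa using this
      show σ • (Affine.Point.some a b h) = Affine.Point.some a b h
      rw [algEquiv_smul_def]
      simp only [Affine.Point.map_some]
      congr 1

theorem card_V_le (P : FreyPackage) : Finite (V P) ∧ Nat.card (V P) ≤ P.p ^ 2 :=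
  Fermat.Agent.S13.LadderFreyH9.card_V_le P

theorem nontrivial_V (P : FreyPackage) : Nontrivial (V P) :=
  Fermat.Agent.S13.LadderFreyH9.nontrivial_V P

/-- a subgroup containing the fixing subgroups of all points of `V` is open -/
theorem exists_field_fixing_V (P : FreyPackage) :
    ∃ L : IntermediateField ℚ Qbar, FiniteDimensional ℚ L ∧
      ∀ σ : GQ, σ ∈ L.fixingSubgroup → ∀ x : V P, σ • x = x := by
  have : Finite (V P) := (card_V_le P).1
  choose L hL hfix using exists_field_fixing_point P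
  refine ⟨⨆ x, L x, ?_, fun σ hσ x => hfix x σ ?_⟩
  · have := hL
    exact IntermediateField.finiteDimensional_iSup_of_finite
  · rw [IntermediateField.mem_fixingSubgroup_iff] at hσ ⊢
    intro y hy
    exact hσ y ((le_iSup L x) hy)

/-- the kernel of the action on `V/N` -/
def kerQuot (P : FreyPackage) (N : Submodule (ZMod P.p) (V P)) (hN : IsGaloisStable ℚ N) :
    Subgroup GQ where
  carrier := {σ | ∀ x : V P, σ • x - x ∈ N}
  one_mem' := fun x => by simp
  mul_mem' := by
    intro σ τ hσ hτ x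
    have h1 : (σ * τ) • x - x = σ • (τ • x - x) + (σ • x - x) := by
      rw [mul_smul, smul_sub]; abel
    rw [h1]
    exact N.add_mem (hN σ _ (hτ x)) (hσ x)
  inv_mem' := by
    intro σ hσ x
    have h1 : σ⁻¹ • x - x = -(σ⁻¹ • (σ • x - x)) := by
      rw [smul_sub, inv_smul_smul]; abel
    rw [h1]
    exact N.neg_mem (hN σ⁻¹ _ (hσ x))

/-- the pointwise stabiliser of `N` -/
def kerSub (P : FreyPackage) (N : Submodule (ZMod P.p) (V P)) :
    Subgroup GQ where
  carrier := {σ | ∀ x ∈ N, σ • x = x}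
  one_mem' := fun x _ => one_smul _ x
  mul_mem' := by
    intro σ τ hσ hτ x hx
    rw [mul_smul, hτ x hx, hσ x hx]
  inv_mem' := by
    intro σ hσ x hx
    conv_lhs => rw [← hσ x hx]
    exact inv_smul_smul σ x

theorem kerQuot_normal (P : FreyPackage) (N : Submodule (ZMod P.p) (V P))
    (hN : IsGaloisStable ℚ N) : (kerQuot P N hN).Normal where
  conj_mem := by
    intro σ hσ τ x
    have h1 : (τ * σ * τ⁻¹) • x - x = τ • (σ • (τ⁻¹ • x) - τ⁻¹ • x) := by
      rw [mul_smul, mul_smul, smul_sub, smul_inv_smul]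
    rw [h1]
    exact hN τ _ (hσ _)

theorem kerSub_normal (P : FreyPackage) (N : Submodule (ZMod P.p) (V P))
    (hN : IsGaloisStable ℚ N) : (kerSub P N).Normal where
  conj_mem := by
    intro σ hσ τ x hx
    rw [mul_smul, mul_smul, hσ _ (hN τ⁻¹ x hx), smul_inv_smul]

/-! ### The local inputs in the shapes used below -/

/-- inertia at `2` is unipotent on `V` -/
theorem unipotent_at_two (P : FreyPackage) (A : ValuationSubring Qbar) (hA : A.LiesOverPrime 2)
    {σ : GQ} (hσ : σ ∈ A.inertiaSubgroupIn ℚ) (x : V P) :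
    σ • (σ • x - x) = σ • x - x := by
  apply Subtype.ext
  have hx : (P.p : ℤ) • x.1 = 0 := (Submodule.mem_torsionBy_iff _ _).mp x.2
  rw [natCast_zsmul] at hx
  exact Fermat.Agent.S13.Two.frey_inertia_two P A hA hσ x.1 hx

/-- no rational point of order `p` -/
theorem no_rational_torsion (P : FreyPackage) (x : V P) (hx : ∀ σ : GQ, σ • x = x) : x = 0 := by
  by_contra hne
  have hx0 : x.1 ≠ 0 := fun h => hne (Subtype.ext h)
  have hpx : (P.p : ℤ) • x.1 = 0 := (Submodule.mem_torsionBy_iff _ _).mp x.2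
  rw [natCast_zsmul] at hpx
  refine Fermat.Agent.S13.Two.frey_no_rational_torsion P x.1 hx0 hpx (fun σ => ?_)
  exact congrArg Subtype.val (hx σ)

/-- the dichotomy at `p` -/
theorem dichotomy_at_p (P : FreyPackage) (A : ValuationSubring Qbar) (hA : A.LiesOverPrime P.p)
    (N : Submodule (ZMod P.p) (V P)) (hN : IsGaloisStable ℚ N) (hbot : N ≠ ⊥) (htop : N ≠ ⊤) :
    (∀ σ ∈ A.inertiaSubgroupIn ℚ, ∀ x : V P, σ • x - x ∈ N) ∨
      (∀ σ ∈ A.inertiaSubgroupIn ℚ, ∀ x ∈ N, σ • x = x) := by
  have hp2 : P.p ≠ 2 := Fermat.Agent.S13.LadderFreyH9.hp2 P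
  refine Fermat.Agent.S13.AtP.dichotomy_of (W' := P.freyCurve) P.pp hp2
    (Fermat.Agent.S13.LadderFreyH9.freyPsi P)
    (Fermat.Agent.S13.LadderFreyH9.two_mul_natDegree_freyPsi P)
    (Fermat.Agent.S13.LadderFreyH9.leadingCoeff_freyPsi P)
    (Fermat.Agent.S13.LadderFreyH9.isRoot_of_mem_torsionBy P)
    (card_V_le P).1 (card_V_le P).2 N hN hbot htop A hA
    (Fermat.Agent.S05.InKer A (P.freyCurve⁄Qbar)) Fermat.Agent.S05.inKer_zero
    (fun Pt Qt hP hQ => Fermat.Agent.S13.LocalP.frey_inKer_add P P.pp hp2 A hA hP hQ)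
    (fun Pt hP => Fermat.Agent.S05.inKer_neg hP)
    (fun x y h hk => hk x (by simp [Fermat.Agent.S51.px]))
    (fun σ hσ Pt hPt => ?_)
  have hpx : (P.p : ℤ) • Pt = 0 := (Submodule.mem_torsionBy_iff _ _).mp hPt
  rw [natCast_zsmul] at hpx
  exact Fermat.Agent.S13.LocalP.smul_sub_inKer_frey P P.pp hp2 A hA hσ Pt hpx

/-! ### The global argument -/

theorem result_of_minkowski (hM : MinkowskiHyp) (P : FreyPackage)
    (hred : ¬ GaloisRepIsIrreducible (K := AlgebraicClosure ℚ) ℚ P.freyCurve P.p) :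
    HasGaloisStableCofixedLine (K := AlgebraicClosure ℚ) ℚ P.freyCurve P.p := by
  have : Fact P.p.Prime := ⟨P.pp⟩
  have hfin : Finite (V P) := (card_V_le P).1
  have hcard := (card_V_le P).2
  -- a stable line
  have hnt := nontrivial_V P
  have hex : ∃ N : Submodule (ZMod P.p) (V P), IsGaloisStable ℚ N ∧ N ≠ ⊥ ∧ N ≠ ⊤ := by
    by_contra hcon
    apply hred
    refine ⟨hnt, fun N hN => ?_⟩
    by_contra h2
    rw [not_or] at h2
    exact hcon ⟨N, hN, h2.1, h2.2⟩
  obtain ⟨N, hN, hbot, htop⟩ := hex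
  -- the action maps
  let T : GQ → (V P →+ V P) := fun σ => DistribSMul.toAddMonoidHom (V P) σ
  have hTapp : ∀ σ x, T σ x = σ • x := fun _ _ => rfl
  -- openness
  obtain ⟨L, hLfin, hLfix⟩ := exists_field_fixing_V P
  have hopen1 : ∃ L : IntermediateField ℚ Qbar, FiniteDimensional ℚ L ∧
      L.fixingSubgroup ≤ kerQuot P N hN :=
    ⟨L, hLfin, fun σ hσ x => by rw [hLfix σ hσ x, sub_self]; exact N.zero_mem⟩
  have hopen2 : ∃ L : IntermediateField ℚ Qbar, FiniteDimensional ℚ L ∧
      L.fixingSubgroup ≤ kerSub P N :=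
    ⟨L, hLfin, fun σ hσ x _ => hLfix σ hσ x⟩
  -- inertia away from `2, p`
  have hS05 : ∀ q : ℕ, q.Prime → q ≠ 2 → q ≠ P.p → ∀ A : ValuationSubring Qbar,
      A.LiesOverPrime q → ∀ σ ∈ A.inertiaSubgroupIn ℚ, ∀ x : V P, σ • x = x :=
    fun q hq hq2 hqp A hA σ hσ x => Fermat.Agent.S05.result P hq hq2 hqp A hA σ hσ x
  -- inertia at `2`
  have h2 : ∀ A : ValuationSubring Qbar, A.LiesOverPrime 2 → ∀ σ ∈ A.inertiaSubgroupIn ℚ,
      (∀ n ∈ N, σ • n = n) ∧ ∀ x : V P, σ • x - x ∈ N := by
    intro A hA σ hσ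
    exact Fermat.Agent.S13.TorsionStruct.unipotent hcard N hbot htop (T σ)
      (fun n hn => hN σ n hn) (fun v => unipotent_at_two P A hA hσ v)
  -- a valuation subring over each prime
  have hexA : ∀ q : ℕ, q.Prime → ∃ A : ValuationSubring Qbar, A.LiesOverPrime q := by
    intro q hq
    obtain ⟨A, _, hA, _⟩ := Fermat.Agent.Lib.exists_isFrobeniusAt q hq
    exact ⟨A, hA⟩
  -- the dichotomy at `p`
  obtain ⟨Ap, hAp⟩ := hexA P.p P.pp
  have hp2 : P.p ≠ 2 := by have := P.hp5; omega
  rcases dichotomy_at_p P Ap hAp N hN hbot htop with hα | hβ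
  · -- `V/N` is unramified everywhere
    have htop1 : kerQuot P N hN = ⊤ := by
      have := kerQuot_normal P N hN
      apply hM _ hopen1
      intro q hq
      by_cases hq2 : q = 2
      · subst hq2
        obtain ⟨A, hA⟩ := hexA 2 hq
        exact ⟨A, hA, fun σ hσ => (h2 A hA σ hσ).2⟩
      by_cases hqp : q = P.p
      · subst hqp
        exact ⟨Ap, hAp, fun σ hσ => hα σ hσ⟩
      · obtain ⟨A, hA⟩ := hexA q hq
        refine ⟨A, hA, fun σ hσ x => ?_⟩
        rw [hS05 q hq hq2 hqp A hA σ hσ x, sub_self]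
        exact N.zero_mem
    refine ⟨N, hN, hbot, htop, fun σ x => ?_⟩
    have : σ ∈ kerQuot P N hN := by rw [htop1]; trivial
    exact this x
  · -- `N` is unramified everywhere: a rational point of order `p`
    exfalso
    have htop2 : kerSub P N = ⊤ := by
      have := kerSub_normal P N hN
      apply hM _ hopen2
      intro q hq
      by_cases hq2 : q = 2
      · subst hq2
        obtain ⟨A, hA⟩ := hexA 2 hq
        exact ⟨A, hA, fun σ hσ => (h2 A hA σ hσ).1⟩
      by_cases hqp : q = P.p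
      · subst hqp
        exact ⟨Ap, hAp, fun σ hσ => hβ σ hσ⟩
      · obtain ⟨A, hA⟩ := hexA q hq
        exact ⟨A, hA, fun σ hσ x _ => hS05 q hq hq2 hqp A hA σ hσ x⟩
    obtain ⟨n0, hn0, hn0ne⟩ := (Submodule.ne_bot_iff N).mp hbot
    apply hn0ne
    apply no_rational_torsion P n0
    intro σ
    have : σ ∈ kerSub P N := by rw [htop2]; trivial
    exact this n0 hn0

end Fermat.Agent.S13.Asm
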