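import Mathlib
import Fermat.Prelude.Def_FLTPrelim_Ramification

set_option autoImplicit false

/-!
# S13 / Minkowski, part A: valuation subrings of an algebraic extension of `ℚ` and the ring of
algebraic integers

For a valuation subring `A` of a field `K` algebraic over `ℚ`, lying over a prime number `q`:
every `x ∈ A` is a fraction `b / s` of algebraic integers with `s` a unit of `A`.  Hence `A` is
determined by the prime `𝔮 = 𝔪_A ∩ ℤ̄` of the ring `ℤ̄` of algebraic integers.
-/

namespace Fermat.Agent.S13.ValInt

open Polynomial ValuationSubring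

variable {K : Type*} [Field K]

/-! ### Horner sums -/

theorem coeff_iterate_divX (p : ℤ[X]) (k n : ℕ) : (divX^[k] p).coeff n = p.coeff (n + k) := by
  induction k generalizing n with
  | zero => simp
  | succ k ih =>
    rw [Function.iterate_succ_apply', coeff_divX, ih]
    congr 1
    ring

/-- Horner recursion: `y_k = x * y_{k+1} + a_k`. -/
theorem aeval_iterate_divX (p : ℤ[X]) (x : K) (k : ℕ) :
    aeval x (divX^[k] p) = x * aeval x (divX^[k + 1] p) + (p.coeff k : K) := by
  have h := divX_mul_X_add (divX^[k] p)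
  rw [Function.iterate_succ_apply']
  conv_lhs => rw [← h]
  rw [map_add, map_mul, aeval_X, aeval_C, coeff_iterate_divX, zero_add]
  simp [mul_comm]

theorem aeval_int_mem (V : ValuationSubring K) {x : K} (hx : x ∈ V) (q : ℤ[X]) :
    aeval x q ∈ V := by
  induction q using Polynomial.induction_on' with
  | add p q hp hq => rw [map_add]; exact V.add_mem _ _ hp hq
  | monomial n a =>
    rw [aeval_monomial]
    refine V.mul_mem _ _ ?_ (pow_mem hx n)
    simp

/-- The Horner sums of an integer polynomial at a root lie in every valuation subring. -/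
theorem horner_mem (V : ValuationSubring K) (p : ℤ[X]) (x : K) (hx : aeval x p = 0) (k : ℕ) :
    aeval x (divX^[k] p) ∈ V := by
  rcases V.mem_or_inv_mem x with h | h
  · exact aeval_int_mem V h _
  · by_cases hx0 : x = 0
    · subst hx0
      exact aeval_int_mem V V.zero_mem _
    induction k with
    | zero => simp [hx, V.zero_mem]
    | succ k ih =>
      have h1 := aeval_iterate_divX p x k
      have h2 : aeval x (divX^[k + 1] p) = x⁻¹ * (aeval x (divX^[k] p) - (p.coeff k : K)) := by
        rw [h1]
        field_simp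
        ring
      rw [h2]
      exact V.mul_mem _ _ h (sub_mem ih (intCast_mem V _))

instance instIsIntegrallyClosedIn_integralClosure :
    IsIntegrallyClosedIn (integralClosure ℤ K).toSubring K := by
  rw [Subring.isIntegrallyClosedIn_iff]
  intro x hx
  have h1 : IsIntegral (integralClosure ℤ K) x := hx
  have h2 : Algebra.IsIntegral ℤ (integralClosure ℤ K) := inferInstance
  exact isIntegral_trans x h1

/-- **Dedekind**: the Horner sums of an integer polynomial at a root are algebraic integers. -/
theorem isIntegral_horner (p : ℤ[X]) (x : K) (hx : aeval x p = 0) (k : ℕ) :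
    IsIntegral ℤ (aeval x (divX^[k] p)) := by
  by_contra hcon
  have hnot : aeval x (divX^[k] p) ∉ (integralClosure ℤ K).toSubring := hcon
  obtain ⟨V, -, hV⟩ := Subring.exists_le_valuationSubring_of_isIntegrallyClosedIn hnot
  exact hV (horner_mem V p x hx k)

/-! ### every element of a valuation subring over `q` is a fraction of algebraic integers -/

/-- integers prime to `q` are units in a valuation subring lying over `q`. -/
theorem valuation_intCast_eq_one (A : ValuationSubring K) {q : ℕ} (hq : q.Prime)
    (hqA : (q : K) ∈ A.nonunits) {a : ℤ} (ha : ¬ (q : ℤ) ∣ a) : A.valuation (a : K) = 1 := by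
  have hle : A.valuation (a : K) ≤ 1 := (A.valuation_le_one_iff _).mpr (intCast_mem A a)
  rcases lt_or_eq_of_le hle with hlt | heq
  · exfalso
    have hcop : IsCoprime (q : ℤ) a :=
      (Nat.prime_iff_prime_int.mp hq).irreducible.coprime_iff_not_dvd.mpr ha
    obtain ⟨u, w, huw⟩ := hcop
    have h1 : A.valuation ((u : K) * (q : K) + (w : K) * (a : K)) < 1 := by
      refine A.valuation.map_add_lt ?_ ?_
      · rw [map_mul]
        have h2 : A.valuation (u : K) ≤ 1 := (A.valuation_le_one_iff _).mpr (intCast_mem A u)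
        have h3 : A.valuation (q : K) < 1 := (A.mem_nonunits_iff).mp hqA
        exact mul_lt_one_of_nonneg_of_lt_one_right h2 zero_le h3
      · rw [map_mul]
        have h2 : A.valuation (w : K) ≤ 1 := (A.valuation_le_one_iff _).mpr (intCast_mem A w)
        exact mul_lt_one_of_nonneg_of_lt_one_right h2 zero_le hlt
    have h4 : ((u : K) * (q : K) + (w : K) * (a : K)) = 1 := by
      have := congrArg (fun z : ℤ => (z : K)) huw
      simpa using this
    rw [h4, map_one] at h1
    exact lt_irrefl _ h1
  · exact heq

/-- **Key lemma**: if `A` is a valuation subring of `K` (algebraic over `ℚ`) lying over the prime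
`q`, every `x ∈ A` can be written `x * s = b` with `b, s` algebraic integers and `s` a unit of
`A`. -/
theorem exists_integral_fraction [CharZero K] [Algebra.IsAlgebraic ℚ K] (A : ValuationSubring K)
    {q : ℕ} (hq : q.Prime) (hqA : (q : K) ∈ A.nonunits) {x : K} (hx : x ∈ A) :
    ∃ b s : K, IsIntegral ℤ b ∧ IsIntegral ℤ s ∧ A.valuation s = 1 ∧ x * s = b := by
  classical
  -- an integer polynomial killing `x`
  have halg : IsAlgebraic ℤ x :=
    (IsFractionRing.isAlgebraic_iff ℤ ℚ K).mpr (Algebra.IsAlgebraic.isAlgebraic x)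
  obtain ⟨p₀, hp₀, hp₀x⟩ := halg
  -- its primitive part
  set p := p₀.primPart with hp
  have hpx : aeval x p = 0 := by
    have h1 := eq_C_content_mul_primPart p₀
    rw [h1, map_mul, aeval_C] at hp₀x
    have h2 : (algebraMap ℤ K) p₀.content ≠ 0 := by
      simpa using (content_eq_zero_iff.not.mpr hp₀)
    exact (mul_eq_zero.mp hp₀x).resolve_left h2
  have hprim : p.IsPrimitive := isPrimitive_primPart p₀
  -- some coefficient is prime to q
  have hex : ∃ i ∈ p.support, ¬ (q : ℤ) ∣ p.coeff i := by
    by_contra hcon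
    push Not at hcon
    have hdvd : C (q : ℤ) ∣ p := by
      rw [C_dvd_iff_dvd_coeff]
      intro i
      by_cases hi : i ∈ p.support
      · exact hcon i hi
      · rw [notMem_support_iff.mp hi]
        exact dvd_zero _
    have hu := hprim _ hdvd
    exact (Nat.prime_iff_prime_int.mp hq).not_isUnit hu
  -- the largest such index
  set T := p.support.filter (fun i => ¬ (q : ℤ) ∣ p.coeff i) with hT
  have hTne : T.Nonempty := by
    obtain ⟨i, hi, hi'⟩ := hex
    exact ⟨i, Finset.mem_filter.mpr ⟨hi, hi'⟩⟩
  set k := T.max' hTne with hk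
  have hkT : k ∈ T := Finset.max'_mem T hTne
  have hk1 : ¬ (q : ℤ) ∣ p.coeff k := (Finset.mem_filter.mp hkT).2
  have hk2 : ∀ i, k < i → (q : ℤ) ∣ p.coeff i := by
    intro i hi
    by_contra hcon
    have hi' : i ∈ T := by
      refine Finset.mem_filter.mpr ⟨?_, hcon⟩
      rw [mem_support_iff]
      rintro h0
      exact hcon (h0 ▸ dvd_zero _)
    exact absurd (Finset.le_max' T i hi') (not_le.mpr hi)
  -- the Horner sums
  set s := aeval x (divX^[k] p) with hs
  have hrec := aeval_iterate_divX p x k
  -- the higher Horner sum is in q A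
  have hhigh : A.valuation (aeval x (divX^[k + 1] p)) < 1 := by
    have hdvd : C (q : ℤ) ∣ divX^[k + 1] p := by
      rw [C_dvd_iff_dvd_coeff]
      intro i
      rw [coeff_iterate_divX]
      exact hk2 _ (by omega)
    obtain ⟨r, hr⟩ := hdvd
    rw [hr, map_mul, aeval_C, map_mul]
    have h2 : A.valuation (aeval x r) ≤ 1 := (A.valuation_le_one_iff _).mpr (aeval_int_mem A hx r)
    have h3 : A.valuation ((algebraMap ℤ K) (q : ℤ)) < 1 := by
      have : (algebraMap ℤ K) (q : ℤ) = (q : K) := by simp
      rw [this]
      exact (A.mem_nonunits_iff).mp hqA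
    rw [mul_comm]
    exact mul_lt_one_of_nonneg_of_lt_one_right h2 zero_le h3
  have hxv : A.valuation x ≤ 1 := (A.valuation_le_one_iff _).mpr hx
  have hs1 : A.valuation s = 1 := by
    rw [hs, hrec]
    have h1 : A.valuation (x * aeval x (divX^[k + 1] p)) < 1 := by
      rw [map_mul]
      exact mul_lt_one_of_nonneg_of_lt_one_right hxv zero_le hhigh
    have h2 : A.valuation (p.coeff k : K) = 1 := valuation_intCast_eq_one A hq hqA hk1
    rw [A.valuation.map_add_eq_of_lt_right (by rw [h2]; exact h1), h2]
  refine ⟨x * s, s, ?_, isIntegral_horner p x hpx k, hs1, rfl⟩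
  -- `x * s` is a Horner sum minus an integer
  rcases Nat.eq_zero_or_pos k with hk0 | hkpos
  · have : s = 0 := by
      rw [hs, hk0]
      simpa using hpx
    rw [this, mul_zero]
    exact isIntegral_zero
  · obtain ⟨j, hj⟩ : ∃ j, k = j + 1 := ⟨k - 1, by omega⟩
    have hrec' := aeval_iterate_divX p x j
    have : x * s = aeval x (divX^[j] p) - (p.coeff j : K) := by
      rw [hs, hj, hrec']
      ring
    rw [this]
    exact (isIntegral_horner p x hpx j).sub (by simpa using isIntegral_algebraMap (R := ℤ) (A := K) (x := p.coeff j))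

/-! ### an automorphism acting trivially on `ℤ̄ / 𝔮` is in the inertia subgroup -/

open scoped Pointwise

section Inertia

variable [CharZero K] [Algebra.IsAlgebraic ℚ K] {k : Type*} [Field k] [Algebra k K]
  (A : ValuationSubring K) {q : ℕ}

omit [CharZero K] [Algebra.IsAlgebraic ℚ K] in
theorem isIntegral_apply (σ : K ≃ₐ[k] K) {b : K} (hb : IsIntegral ℤ b) : IsIntegral ℤ (σ b) :=
  map_isIntegral_int σ hb

omit [CharZero K] [Algebra.IsAlgebraic ℚ K] in
theorem valuation_le_one_of_isIntegral {b : K} (hb : IsIntegral ℤ b) : A.valuation b ≤ 1 := by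
  rw [A.valuation_le_one_iff]
  by_contra hcon
  have h1 : IsIntegral A b := hb.tower_top
  have h2 : IsIntegrallyClosed A := inferInstance
  obtain ⟨y, hy⟩ := IsIntegrallyClosed.algebraMap_eq_of_integral (R := A) (K := K) h1
  exact hcon (hy ▸ y.2)

/-- if `σ` moves every algebraic integer by an element of `𝔪_A`, then `σ x - x ∈ 𝔪_A` for all
`x ∈ A`, and `σ x ∈ A`. -/
theorem apply_sub_lt_one (hq : q.Prime) (hqA : (q : K) ∈ A.nonunits) (σ : K ≃ₐ[k] K)
    (h : ∀ b : K, IsIntegral ℤ b → A.valuation (σ b - b) < 1) {x : K} (hx : x ∈ A) :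
    A.valuation (σ x - x) < 1 := by
  obtain ⟨b, s, hb, hs, hs1, hxs⟩ := exists_integral_fraction A hq hqA hx
  have hs0 : s ≠ 0 := by
    rintro rfl
    simp at hs1
  have hσs0 : σ s ≠ 0 := by simpa using hs0
  -- valuation of `σ s` is one
  have hσs1 : A.valuation (σ s) = 1 := by
    have h1 : σ s = s + (σ s - s) := by ring
    rw [h1, A.valuation.map_add_eq_of_lt_left (by rw [hs1]; exact h s hs), hs1]
  have hxb : x = b / s := by rw [← hxs]; field_simp
  have hσx : σ x = σ b / σ s := by rw [hxb, map_div₀]
  have key : σ x - x = ((σ b - b) * s - b * (σ s - s)) / (s * σ s) := by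
    rw [hσx, hxb]
    field_simp
    ring
  rw [key, map_div₀, map_mul, hs1, hσs1, mul_one, div_one]
  refine A.valuation.map_sub_lt ?_ ?_
  · rw [map_mul, hs1, mul_one]
    exact h b hb
  · rw [map_mul]
    exact mul_lt_one_of_nonneg_of_lt_one_right (valuation_le_one_of_isIntegral A hb) zero_le
      (h s hs)

theorem apply_mem (hq : q.Prime) (hqA : (q : K) ∈ A.nonunits) (σ : K ≃ₐ[k] K)
    (h : ∀ b : K, IsIntegral ℤ b → A.valuation (σ b - b) < 1) {x : K} (hx : x ∈ A) :
    σ x ∈ A := by
  have h1 := apply_sub_lt_one A hq hqA σ h hx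
  have h2 : σ x = (σ x - x) + x := by ring
  rw [h2, ← A.valuation_le_one_iff]
  exact A.valuation.map_add_le h1.le ((A.valuation_le_one_iff _).mpr hx)

/-- **Inertia criterion.** -/
theorem mem_inertiaSubgroupIn (hq : q.Prime) (hqA : (q : K) ∈ A.nonunits) (σ : K ≃ₐ[k] K)
    (h : ∀ b : K, IsIntegral ℤ b → A.valuation (σ b - b) < 1) :
    σ ∈ A.inertiaSubgroupIn k := by
  -- the same hypothesis for `σ⁻¹`
  have hinv : ∀ b : K, IsIntegral ℤ b → A.valuation (σ.symm b - b) < 1 := by
    intro b hb
    have hb' : IsIntegral ℤ (σ.symm b) := map_isIntegral_int σ.symm hb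
    have := h _ hb'
    rw [AlgEquiv.apply_symm_apply] at this
    rw [← Valuation.map_neg]
    convert this using 2
    ring
  have hdec : σ ∈ A.decompositionSubgroup k := by
    rw [MulAction.mem_stabilizer_iff]
    ext x
    rw [ValuationSubring.mem_pointwise_smul_iff_inv_smul_mem]
    constructor
    · intro hx
      have := apply_mem A hq hqA σ h hx
      have e : σ (σ⁻¹ • x) = x := by
        show σ (σ.symm x) = x
        exact σ.apply_symm_apply x
      rwa [e] at this
    · intro hx
      exact apply_mem A hq hqA σ.symm hinv hx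
  unfold ValuationSubring.inertiaSubgroupIn
  refine Subgroup.mem_map.mpr ⟨⟨σ, hdec⟩, ?_, rfl⟩
  show (⟨σ, hdec⟩ : A.decompositionSubgroup k) ∈ MonoidHom.ker
      (MulSemiringAction.toRingAut (A.decompositionSubgroup k) (IsLocalRing.ResidueField A))
  rw [MonoidHom.mem_ker]
  ext r
  obtain ⟨a, rfl⟩ := IsLocalRing.residue_surjective r
  show IsLocalRing.residue A ((⟨σ, hdec⟩ : A.decompositionSubgroup k) • a) = IsLocalRing.residue A a
  rw [← sub_eq_zero, ← map_sub, IsLocalRing.residue_eq_zero_iff, A.valuation_lt_one_iff]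
  exact apply_sub_lt_one A hq hqA σ h a.2

end Inertia

end Fermat.Agent.S13.ValInt
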