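import Mathlib
import Fermat.Prelude.Def_FLTPrelim_Ramification
import Fermat.Agent.S13.ValInt

set_option autoImplicit false

/-!
# S13 / Minkowski, part B: lifting inertia elements to the absolute Galois group

`Ω = ℚ̄`, `G = Gal(ℚ̄/ℚ)`, `A` a valuation subring of `Ω` over the prime `q`, `U ≤ G` a closed normal
subgroup, `τ ∈ G` acting trivially modulo `𝔪_A` on the algebraic integers fixed by `U`.  Then some
`u * τ` with `u ∈ U` lies in the inertia subgroup of `A`.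
-/

namespace Fermat.Agent.S13.Minkowski

open scoped Pointwise
open ValuationSubring Fermat.Agent.S13.ValInt

/-- `ℚ̄` -/
abbrev Qb : Type := AlgebraicClosure ℚ

/-- `Gal(ℚ̄/ℚ)` -/
abbrev GQ : Type := Qb ≃ₐ[ℚ] Qb

/-- the ring `ℤ̄` of all algebraic integers -/
abbrev Zb : Type := ↥(integralClosure ℤ Qb)

instance instIsAlgebraicQb : Algebra.IsAlgebraic ℚ Qb := AlgebraicClosure.isAlgebraic ℚ

instance instIsAlgClosureQb : IsAlgClosure ℚ Qb := ⟨inferInstance, inferInstance⟩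

instance instIsGaloisQb : IsGalois ℚ Qb := IsAlgClosure.isGalois ℚ Qb

noncomputable instance instMulSemiringActionZb : MulSemiringAction GQ Zb where
  smul σ b := ⟨σ b.1, map_isIntegral_int σ b.2⟩
  one_smul _ := Subtype.ext rfl
  mul_smul _ _ _ := Subtype.ext rfl
  smul_zero σ := Subtype.ext (map_zero σ)
  smul_add σ _ _ := Subtype.ext (map_add σ _ _)
  smul_one σ := Subtype.ext (map_one σ)
  smul_mul σ _ _ := Subtype.ext (map_mul σ _ _)

@[simp] theorem coe_smul_Zb (σ : GQ) (b : Zb) : ((σ • b : Zb) : Qb) = σ (b : Qb) := rfl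

@[simp] theorem coe_subgroup_smul_Zb (U : Subgroup GQ) (u : U) (b : Zb) :
    ((u • b : Zb) : Qb) = (u : GQ) (b : Qb) := rfl

instance instSMulCommClassFixed (U : Subgroup GQ) :
    SMulCommClass ↥U (FixedPoints.subring Zb ↥U) Zb where
  smul_comm u a b := by
    show u • ((a : Zb) * b) = (a : Zb) * (u • b)
    rw [smul_mul', a.2 u]

instance instIsInvariantFixed (U : Subgroup GQ) :
    Algebra.IsInvariant (FixedPoints.subring Zb ↥U) Zb ↥U where
  isInvariant b hb := ⟨⟨b, hb⟩, rfl⟩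

instance instTopZb : TopologicalSpace Zb := ⊥

instance instDiscreteZb : DiscreteTopology Zb := ⟨rfl⟩

instance instContinuousSMulZb (U : Subgroup GQ) : ContinuousSMul ↥U Zb := by
  rw [continuousSMul_iff_stabilizer_isOpen]
  intro b
  have h1 : IsOpen (MulAction.stabilizer GQ (b : Qb) : Set GQ) :=
    stabilizer_isOpen_of_isIntegral (K := ℚ) (L := Qb) (b : Qb)
  have h2 : (MulAction.stabilizer ↥U b : Set ↥U)
      = (fun u : ↥U => (u : GQ)) ⁻¹' (MulAction.stabilizer GQ (b : Qb) : Set GQ) := by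
    ext u
    simp only [SetLike.mem_coe, MulAction.mem_stabilizer_iff, Set.mem_preimage]
    constructor
    · intro h
      exact congrArg Subtype.val h
    · intro h
      exact Subtype.ext h
  rw [h2]
  exact h1.preimage continuous_subtype_val

/-- the prime `𝔮 = 𝔪_A ∩ ℤ̄` -/
def centre (A : ValuationSubring Qb) : Ideal Zb where
  carrier := {b | A.valuation (b : Qb) < 1}
  add_mem' {a b} ha hb := A.valuation.map_add_lt ha hb
  zero_mem' := by simp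
  smul_mem' c b hb := by
    show A.valuation ((c * b : Zb) : Qb) < 1
    rw [Subalgebra.coe_mul, map_mul]
    exact mul_lt_one_of_nonneg_of_lt_one_right (valuation_le_one_of_isIntegral A c.2) zero_le hb

theorem mem_centre {A : ValuationSubring Qb} {b : Zb} :
    b ∈ centre A ↔ A.valuation (b : Qb) < 1 := Iff.rfl

instance centre_isPrime (A : ValuationSubring Qb) : (centre A).IsPrime where
  ne_top' := by
    intro h
    have : (1 : Zb) ∈ centre A := h ▸ Submodule.mem_top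
    rw [mem_centre] at this
    simp at this
  mem_or_mem' {a b} hab := by
    rw [mem_centre] at hab ⊢
    rw [mem_centre]
    rw [Subalgebra.coe_mul, map_mul] at hab
    by_contra hcon
    push Not at hcon
    have ha : A.valuation (a : Qb) = 1 :=
      le_antisymm (valuation_le_one_of_isIntegral A a.2) hcon.1
    have hb : A.valuation (b : Qb) = 1 :=
      le_antisymm (valuation_le_one_of_isIntegral A b.2) hcon.2
    rw [ha, hb, one_mul] at hab
    exact lt_irrefl _ hab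

theorem lt_one_iff_of_sub_lt_one (A : ValuationSubring Qb) {a b : Qb}
    (h : A.valuation (a - b) < 1) : A.valuation a < 1 ↔ A.valuation b < 1 := by
  constructor
  · intro ha
    have : b = a - (a - b) := by ring
    rw [this]
    exact A.valuation.map_sub_lt ha h
  · intro hb
    have : a = (a - b) + b := by ring
    rw [this]
    exact A.valuation.map_add_lt h hb

/-- elements fixed by a normal subgroup `U` are mapped by any `τ` to elements fixed by `U`. -/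
theorem fixed_apply_of_normal (U : Subgroup GQ) [U.Normal] (τ : GQ) {x : Qb}
    (hx : ∀ u ∈ U, u x = x) : ∀ u ∈ U, u (τ x) = τ x := by
  intro u hu
  have h1 : τ⁻¹ * u * τ ∈ U := by
    have := ‹U.Normal›.conj_mem u hu τ⁻¹
    simpa using this
  have h2 := hx _ h1
  have h3 : (τ⁻¹ * u * τ) x = τ⁻¹ (u (τ x)) := rfl
  rw [h3] at h2
  have h4 := congrArg τ h2
  have h5 : τ (τ⁻¹ (u (τ x))) = u (τ x) := by
    show (τ * τ⁻¹) (u (τ x)) = _
    rw [mul_inv_cancel]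
    rfl
  rw [h5] at h4
  exact h4

/-- shortcut instance (the generic search is very slow) -/
noncomputable instance instMulSemiringActionIdealZb : MulSemiringAction GQ (Ideal Zb) :=
  Ideal.pointwiseMulSemiringAction

noncomputable instance instMulActionIdealZb : MulAction GQ (Ideal Zb) :=
  instMulSemiringActionIdealZb.toMulAction

theorem mem_smul_ideal_iff (σ : GQ) (I : Ideal Zb) (x : Zb) : x ∈ σ • I ↔ σ⁻¹ • x ∈ I :=
  Ideal.mem_pointwise_smul_iff_inv_smul_mem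

/-- **Lifting lemma.** -/
theorem exists_mul_mem_inertia (A : ValuationSubring Qb) {q : ℕ} (hq : q.Prime)
    (hqA : (q : Qb) ∈ A.nonunits) (U : Subgroup GQ) [hUn : U.Normal]
    (hU : IsClosed (U : Set GQ)) (τ : GQ)
    (hτ : ∀ x : Qb, IsIntegral ℤ x → (∀ u ∈ U, u x = x) → A.valuation (τ x - x) < 1) :
    ∃ u ∈ U, u * τ ∈ A.inertiaSubgroupIn ℚ := by
  have : CompactSpace ↥U := isCompact_iff_compactSpace.mp hU.isCompact
  set 𝔔 : Ideal Zb := centre A with h𝔔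
  -- Step 1: `τ • 𝔔` and `𝔔` have the same restriction to the `U`-invariants
  have h1 : (τ • 𝔔).under (FixedPoints.subring Zb ↥U) = 𝔔.under (FixedPoints.subring Zb ↥U) := by
    ext x
    rw [Ideal.under_def, Ideal.under_def, Ideal.mem_comap, Ideal.mem_comap,
      mem_smul_ideal_iff]
    have hx : ∀ u ∈ U, u ((x : Zb) : Qb) = ((x : Zb) : Qb) := fun u hu =>
      congrArg Subtype.val (x.2 ⟨u, hu⟩)
    show A.valuation (τ⁻¹ ((x : Zb) : Qb)) < 1 ↔ A.valuation ((x : Zb) : Qb) < 1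
    have hy : ∀ u ∈ U, u (τ⁻¹ ((x : Zb) : Qb)) = τ⁻¹ ((x : Zb) : Qb) :=
      fixed_apply_of_normal U τ⁻¹ hx
    have h2 := hτ (τ⁻¹ ((x : Zb) : Qb)) (map_isIntegral_int τ⁻¹ (x : Zb).2) hy
    have h3 : τ (τ⁻¹ ((x : Zb) : Qb)) = ((x : Zb) : Qb) := by
      show (τ * τ⁻¹) _ = _
      rw [mul_inv_cancel]
      rfl
    rw [h3] at h2
    exact (lt_one_iff_of_sub_lt_one A h2).symm
  obtain ⟨u₁, hu₁⟩ := Algebra.IsInvariant.exists_smul_of_under_eq_of_profinite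
    (A := FixedPoints.subring Zb ↥U) (G := ↥U) (τ • 𝔔) 𝔔 h1
  -- `σ₁ = u₁ τ` stabilises `𝔔`
  set σ₁ : GQ := (u₁ : GQ) * τ with hσ₁
  have hσ₁𝔔 : σ₁ • 𝔔 = 𝔔 := by
    ext x
    rw [mem_smul_ideal_iff]
    have h2 : x ∈ 𝔔 ↔ u₁⁻¹ • x ∈ τ • 𝔔 := by
      conv_lhs => rw [hu₁]
      exact Ideal.mem_pointwise_smul_iff_inv_smul_mem
    rw [h2, mem_smul_ideal_iff]
    have h3 : σ₁⁻¹ • x = τ⁻¹ • (u₁⁻¹ • x) := by
      rw [hσ₁, mul_inv_rev, mul_smul]
      rfl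
    rw [h3]
  -- Step 2: the automorphism of `ℤ̄ / 𝔔` induced by `σ₁`
  let e : Zb ≃+* Zb := MulSemiringAction.toRingEquiv GQ Zb σ₁
  have he : 𝔔 = 𝔔.map (e : Zb →+* Zb) := hσ₁𝔔.symm
  let φ₀ : (Zb ⧸ 𝔔) ≃+* (Zb ⧸ 𝔔) := Ideal.quotientEquiv 𝔔 𝔔 e he
  have hfix : ∀ a : FixedPoints.subring Zb ↥U, e (a : Zb) - (a : Zb) ∈ 𝔔 := by
    intro a
    have ha : ∀ u ∈ U, u ((a : Zb) : Qb) = ((a : Zb) : Qb) := fun u hu =>
      congrArg Subtype.val (a.2 ⟨u, hu⟩)
    have h2 := fixed_apply_of_normal U τ ha (u₁ : GQ) u₁.2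
    show A.valuation (((e (a : Zb) - (a : Zb) : Zb)) : Qb) < 1
    have h3 : ((e (a : Zb) - (a : Zb) : Zb) : Qb) = (u₁ : GQ) (τ ((a : Zb) : Qb)) - ((a : Zb) : Qb) :=
      rfl
    rw [h3, h2]
    exact hτ _ (a : Zb).2 ha
  let φ : (Zb ⧸ 𝔔) ≃ₐ[(FixedPoints.subring Zb ↥U) ⧸ 𝔔.under (FixedPoints.subring Zb ↥U)] (Zb ⧸ 𝔔) :=
    AlgEquiv.ofRingEquiv (f := φ₀) (by
      intro r
      obtain ⟨a, rfl⟩ := Ideal.Quotient.mk_surjective r
      rw [Ideal.Quotient.algebraMap_mk_of_liesOver]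
      show Ideal.Quotient.mk 𝔔 (e (a : Zb)) = Ideal.Quotient.mk 𝔔 (a : Zb)
      rw [Ideal.Quotient.eq]
      exact hfix a)
  obtain ⟨u₂, hu₂⟩ := Ideal.Quotient.stabilizerHom_surjective_of_profinite (G := ↥U)
    (𝔔.under (FixedPoints.subring Zb ↥U)) 𝔔 φ
  -- Step 3: `σ = u₂⁻¹ σ₁`
  have hu₂𝔔 : ((u₂ : ↥U) : GQ) • 𝔔 = 𝔔 := by
    ext x
    rw [mem_smul_ideal_iff]
    have h2 : (u₂ : ↥U) • 𝔔 = 𝔔 := u₂.2
    have h3 : x ∈ 𝔔 ↔ (u₂ : ↥U)⁻¹ • x ∈ 𝔔 := by
      conv_lhs => rw [← h2]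
      exact Ideal.mem_pointwise_smul_iff_inv_smul_mem
    rw [h3]
    rfl
  have hcmp : ∀ b : Zb, ((u₂ : ↥U) : GQ) • b - σ₁ • b ∈ 𝔔 := by
    intro b
    have h2 := congrArg (fun f => f (Ideal.Quotient.mk 𝔔 b)) hu₂
    simp only [Ideal.Quotient.stabilizerHom_apply] at h2
    have h3 : φ (Ideal.Quotient.mk 𝔔 b) = Ideal.Quotient.mk 𝔔 (σ₁ • b) := rfl
    rw [h3, Ideal.Quotient.eq] at h2
    exact h2
  refine ⟨((u₂ : ↥U) : GQ)⁻¹ * (u₁ : GQ), U.mul_mem (U.inv_mem (u₂ : ↥U).2) u₁.2, ?_⟩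
  refine mem_inertiaSubgroupIn A hq hqA _ (fun b hb => ?_)
  -- `σ b - b = u₂⁻¹ (σ₁ b - u₂ b)`
  have h4 := hcmp ⟨b, hb⟩
  have h5 : ((u₂ : ↥U) : GQ)⁻¹ • ((((u₂ : ↥U) : GQ) • (⟨b, hb⟩ : Zb)) - σ₁ • (⟨b, hb⟩ : Zb)) ∈ 𝔔 := by
    rw [← mem_smul_ideal_iff, hu₂𝔔]
    exact h4
  have h6 : A.valuation ((((u₂ : ↥U) : GQ)⁻¹ • ((((u₂ : ↥U) : GQ) • (⟨b, hb⟩ : Zb))
      - σ₁ • (⟨b, hb⟩ : Zb)) : Zb) : Qb) < 1 := h5
  have h7 : ((((u₂ : ↥U) : GQ)⁻¹ • ((((u₂ : ↥U) : GQ) • (⟨b, hb⟩ : Zb))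
      - σ₁ • (⟨b, hb⟩ : Zb)) : Zb) : Qb)
      = b - (((u₂ : ↥U) : GQ)⁻¹ * (u₁ : GQ) * τ) b := by
    rw [smul_sub, inv_smul_smul]
    rfl
  rw [h7, ← Valuation.map_neg] at h6
  convert h6 using 2
  ring

end Fermat.Agent.S13.Minkowski
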