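import Mathlib
import Fermat.Prelude.Def_FLTPrelim_Ramification
import Fermat.Agent.S13.InertiaLift

set_option autoImplicit false

/-!
# S13 / Minkowski: an everywhere unramified character of `Gal(ℚ̄/ℚ)` is trivial

Stated in the language of the Prelude (`ValuationSubring.inertiaSubgroupIn`, `LiesOverPrime`).
-/

namespace Fermat.Agent.S13.Minkowski

open scoped NumberField Pointwise
open ValuationSubring

/-- In a Galois number field `E ≠ ℚ` there is a prime `p` such that the inertia group of every prime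
of `𝓞 E` over `p` is nontrivial. -/
theorem exists_inertia_ne_one (E : Type*) [Field E] [NumberField E] [IsGalois ℚ E]
    (h : 1 < Module.finrank ℚ E) :
    ∃ p : ℕ, p.Prime ∧ ∀ (P : Ideal (𝓞 E)), P.IsPrime → (p : 𝓞 E) ∈ P →
      ∃ τ : Gal(E/ℚ), τ ≠ 1 ∧ ∀ x : 𝓞 E, ∃ y ∈ P, τ (x : E) - (x : E) = (y : E) := by
  let _ : MulSemiringAction Gal(E/ℚ) (𝓞 E) := IsIntegralClosure.MulSemiringAction ℤ ℚ E (𝓞 E)
  have hG := IsGaloisGroup.of_isFractionRing Gal(E/ℚ) ℤ (𝓞 E) ℚ E
  obtain ⟨p, hp, hram⟩ :=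
    NumberField.exists_not_isUnramifiedAt_int_of_isGalois (K := E) (𝒪 := 𝓞 E) h
  refine ⟨p, hp, fun P hP hpP => ?_⟩
  have h1 := hram P hP hpP
  rw [← Ideal.ramificationIdx_eq_one_iff] at h1
  have h2 : Nat.card (P.inertia Gal(E/ℚ)) = Ideal.ramificationIdxIn (P.under ℤ) (𝓞 E) :=
    Ideal.card_inertia_eq_ramificationIdxIn (G := Gal(E/ℚ)) (P.under ℤ) P
  rw [Ideal.ramificationIdxIn_eq_ramificationIdx (P.under ℤ) P Gal(E/ℚ)] at h2
  have h3 : Nat.card (P.inertia Gal(E/ℚ)) ≠ 1 := by rw [h2]; exact h1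
  have h4 : ∃ τ : Gal(E/ℚ), τ ∈ P.inertia Gal(E/ℚ) ∧ τ ≠ 1 := by
    by_contra hcon
    push Not at hcon
    apply h3
    have : (P.inertia Gal(E/ℚ)) = ⊥ := by
      rw [eq_bot_iff]
      intro τ hτ
      exact Subgroup.mem_bot.mpr (hcon τ hτ)
    rw [this]
    simp
  obtain ⟨τ, hτ, hτ1⟩ := h4
  refine ⟨τ, hτ1, fun x => ⟨τ • x - x, hτ x, ?_⟩⟩
  have e : ((τ • x : 𝓞 E) : E) = τ (x : E) := algebraMap_galRestrict_apply ℤ τ x
  rw [← e]
  rfl

/-- a valuation subring of `ℚ̄` over any given prime number exists -/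
theorem exists_valuationSubring_over {p : ℕ} (hp : p.Prime) :
    ∃ A : ValuationSubring Qb, (p : Qb) ∈ A.nonunits := by
  let R : Subring Qb := (Int.castRingHom Qb).range
  let pR : R := ⟨(p : Qb), ⟨(p : ℤ), by simp⟩⟩
  have hne : Ideal.span {pR} ≠ ⊤ := by
    intro htop
    rw [Ideal.span_singleton_eq_top] at htop
    obtain ⟨b, hu⟩ := htop.exists_right_inv
    obtain ⟨k, hk⟩ := b.2
    have h1 : ((p : Qb)) * ((Int.castRingHom Qb) k) = 1 := by
      rw [hk]
      exact congrArg Subtype.val hu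
    have h2 : ((p : ℤ) * k : ℤ) = 1 := by
      have : (((p : ℤ) * k : ℤ) : Qb) = ((1 : ℤ) : Qb) := by
        push_cast
        simpa using h1
      exact_mod_cast this
    have h3 : IsUnit (p : ℤ) := IsUnit.of_mul_eq_one _ h2
    exact (Nat.prime_iff_prime_int.mp hp).not_isUnit h3
  obtain ⟨A, -, hA⟩ := Ideal.image_subset_nonunits_valuationSubring (Ideal.span {pR}) hne
  exact ⟨A, hA ⟨pR, Ideal.subset_span rfl, rfl⟩⟩

/-- the prime of `𝓞 E` below a valuation subring of `ℚ̄` -/
def primeBelow (A : ValuationSubring Qb) (E : IntermediateField ℚ Qb) : Ideal (𝓞 E) where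
  carrier := {x | A.valuation (((x : E) : Qb)) < 1}
  add_mem' {a b} ha hb := by
    show A.valuation ((((a + b : 𝓞 E) : E) : Qb)) < 1
    have e : (((a + b : 𝓞 E) : E) : Qb) = ((a : E) : Qb) + ((b : E) : Qb) := by
      rw [show ((a + b : 𝓞 E) : E) = (a : E) + (b : E) from map_add (algebraMap (𝓞 E) E) a b]
      rfl
    rw [e]
    exact A.valuation.map_add_lt ha hb
  zero_mem' := by
    show A.valuation ((((0 : 𝓞 E) : E) : Qb)) < 1
    simp
  smul_mem' c b hb := by
    show A.valuation ((((c * b : 𝓞 E) : E) : Qb)) < 1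
    have e : (((c * b : 𝓞 E) : E) : Qb) = ((c : E) : Qb) * ((b : E) : Qb) := by
      rw [show ((c * b : 𝓞 E) : E) = (c : E) * (b : E) from map_mul (algebraMap (𝓞 E) E) c b]
      rfl
    rw [e, map_mul]
    have hc : IsIntegral ℤ (((c : E) : Qb)) := by
      have h1 : IsIntegral ℤ (c : E) := NumberField.RingOfIntegers.isIntegral_coe c
      exact map_isIntegral_int (algebraMap E Qb) h1
    exact mul_lt_one_of_nonneg_of_lt_one_right
      (ValInt.valuation_le_one_of_isIntegral A hc) zero_le hb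

theorem mem_primeBelow {A : ValuationSubring Qb} {E : IntermediateField ℚ Qb} {x : 𝓞 E} :
    x ∈ primeBelow A E ↔ A.valuation (((x : E) : Qb)) < 1 := Iff.rfl

theorem primeBelow_isPrime (A : ValuationSubring Qb) (E : IntermediateField ℚ Qb) :
    (primeBelow A E).IsPrime where
  ne_top' := by
    intro h
    have : (1 : 𝓞 E) ∈ primeBelow A E := h ▸ Submodule.mem_top
    rw [mem_primeBelow] at this
    simp at this
  mem_or_mem' {a b} hab := by
    rw [mem_primeBelow] at hab ⊢
    rw [mem_primeBelow]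
    have e : (((a * b : 𝓞 E) : E) : Qb) = ((a : E) : Qb) * ((b : E) : Qb) := by
      rw [show ((a * b : 𝓞 E) : E) = (a : E) * (b : E) from map_mul (algebraMap (𝓞 E) E) a b]
      rfl
    rw [e, map_mul] at hab
    have hint : ∀ c : 𝓞 E, A.valuation (((c : E) : Qb)) ≤ 1 := fun c =>
      ValInt.valuation_le_one_of_isIntegral A
        (map_isIntegral_int (algebraMap E Qb) (NumberField.RingOfIntegers.isIntegral_coe c))
    by_contra hcon
    push Not at hcon
    have ha := le_antisymm (hint a) hcon.1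
    have hb := le_antisymm (hint b) hcon.2
    rw [ha, hb, one_mul] at hab
    exact lt_irrefl _ hab

/-- **Minkowski** (strong form: one valuation subring per prime suffices): a homomorphism from
`Gal(ℚ̄/ℚ)` which factors through a finite extension and, for every prime `q`, is trivial on the
inertia subgroup of SOME valuation subring over `q`, is trivial. -/
theorem eq_one_of_unramified_somewhere {M : Type*} [Group M] (χ : GQ →* M)
    (hopen : ∃ L : IntermediateField ℚ Qb, FiniteDimensional ℚ L ∧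
      ∀ σ : GQ, (∀ x ∈ L, σ x = x) → χ σ = 1)
    (hunr : ∀ q : ℕ, q.Prime → ∃ A : ValuationSubring Qb, A.LiesOverPrime q ∧
      ∀ σ ∈ A.inertiaSubgroupIn ℚ, χ σ = 1) :
    ∀ σ : GQ, χ σ = 1 := by
  classical
  obtain ⟨L, hLfin, hL⟩ := hopen
  -- the kernel, an open normal subgroup
  set H : Subgroup GQ := χ.ker with hH
  have hLH : L.fixingSubgroup ≤ H := by
    intro σ hσ
    rw [hH, MonoidHom.mem_ker]
    exact hL σ (fun x hx => (IntermediateField.mem_fixingSubgroup_iff L σ).mp hσ x hx)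
  have hHopen : IsOpen (H : Set GQ) :=
    Subgroup.isOpen_mono hLH (IntermediateField.fixingSubgroup_isOpen L)
  have hHclosed : IsClosed (H : Set GQ) := Subgroup.isClosed_of_isOpen H hHopen
  -- its fixed field
  set E : IntermediateField ℚ Qb := IntermediateField.fixedField H with hE
  have hfix : E.fixingSubgroup = H :=
    InfiniteGalois.fixingSubgroup_fixedField ⟨H, hHclosed⟩
  have hEL : E ≤ L := by
    intro x hx
    rw [← InfiniteGalois.fixedField_fixingSubgroup L]
    rw [IntermediateField.mem_fixedField_iff] at hx ⊢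
    exact fun σ hσ => hx σ (hLH hσ)
  have hEfin : FiniteDimensional ℚ E :=
    Module.Finite.of_injective (IntermediateField.inclusion hEL).toLinearMap
      (IntermediateField.inclusion hEL).injective
  have hHn : H.Normal := by rw [hH]; infer_instance
  have hEgal : IsGalois ℚ E := by
    have h := (InfiniteGalois.normal_iff_isGalois E).mp (by rw [hfix]; exact hHn)
    convert h
    exact Subsingleton.elim _ _
  by_contra hcon
  push Not at hcon
  obtain ⟨σ₀, hσ₀⟩ := hcon
  have hEbot : E ≠ ⊥ := by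
    intro hbot
    apply hσ₀
    have : σ₀ ∈ H := by
      rw [← hfix, hbot, IntermediateField.fixingSubgroup_bot]
      exact Subgroup.mem_top _
    exact MonoidHom.mem_ker.mp this
  have hrank : 1 < Module.finrank ℚ E := by
    have h1 : Module.finrank ℚ E ≠ 1 := fun h => hEbot (IntermediateField.finrank_eq_one_iff.mp h)
    have h2 : 0 < Module.finrank ℚ E := Module.finrank_pos
    omega
  have : NumberField E := ⟨⟩
  obtain ⟨p, hp, hin⟩ := exists_inertia_ne_one E hrank
  obtain ⟨A, hA, hunrA⟩ := hunr p hp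
  have hP := primeBelow_isPrime A E
  have hpP : (p : 𝓞 E) ∈ primeBelow A E := by
    rw [mem_primeBelow]
    have : ((((p : 𝓞 E)) : E) : Qb) = (p : Qb) := by simp
    rw [this]
    exact (A.mem_nonunits_iff).mp hA
  obtain ⟨τbar, hτbar1, hτbar⟩ := hin (primeBelow A E) hP hpP
  -- lift to the absolute Galois group
  obtain ⟨τ, hτ⟩ := AlgEquiv.restrictNormalHom_surjective (F := ℚ) (K₁ := E) Qb τbar
  have hτE : ∀ x : E, τ (x : Qb) = ((τbar x : E) : Qb) := by
    intro x
    rw [← hτ]
    exact (AlgEquiv.restrictNormal_commutes τ E x).symm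
  -- apply the lifting lemma
  obtain ⟨u, huH, huτ⟩ := exists_mul_mem_inertia A hp hA H hHclosed τ (by
    intro x hxint hxfix
    have hxE : x ∈ E := by
      rw [hE, IntermediateField.mem_fixedField_iff]
      exact fun σ hσ => hxfix σ hσ
    have hxEint : IsIntegral ℤ (⟨x, hxE⟩ : E) := by
      rw [← isIntegral_algebraMap_iff (FaithfulSMul.algebraMap_injective E Qb)]
      exact hxint
    obtain ⟨y, hy, hxy⟩ := hτbar ⟨⟨x, hxE⟩, hxEint⟩
    have h1 := hτE ⟨x, hxE⟩
    have h2 : τ x - x = ((y : E) : Qb) := by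
      have h3 := congrArg (fun z : E => (z : Qb)) hxy
      have h4 : ((τbar (⟨x, hxE⟩ : E) - (⟨x, hxE⟩ : E) : E) : Qb)
          = ((τbar (⟨x, hxE⟩ : E) : E) : Qb) - x := rfl
      rw [← h3]
      show τ x - x = ((τbar (⟨x, hxE⟩ : E) - (⟨x, hxE⟩ : E) : E) : Qb)
      rw [h4, ← h1]
    rw [h2]
    exact hy)
  have h1 : χ (u * τ) = 1 := hunrA _ huτ
  have h2 : χ u = 1 := MonoidHom.mem_ker.mp huH
  rw [map_mul, h2, one_mul] at h1
  have hτH : τ ∈ E.fixingSubgroup := by
    rw [hfix]
    exact MonoidHom.mem_ker.mpr h1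
  apply hτbar1
  ext x
  have h3 := hτE x
  have h4 : τ (x : Qb) = (x : Qb) := (IntermediateField.mem_fixingSubgroup_iff E τ).mp hτH x x.2
  rw [h4] at h3
  exact h3.symm

/-- **Minkowski**, `∀ A` form. -/
theorem eq_one_of_unramified_everywhere {M : Type*} [Group M] (χ : GQ →* M)
    (hopen : ∃ L : IntermediateField ℚ Qb, FiniteDimensional ℚ L ∧
      ∀ σ : GQ, (∀ x ∈ L, σ x = x) → χ σ = 1)
    (hunr : ∀ (A : ValuationSubring Qb) (q : ℕ), q.Prime → A.LiesOverPrime q →
      ∀ σ ∈ A.inertiaSubgroupIn ℚ, χ σ = 1) :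
    ∀ σ : GQ, χ σ = 1 := by
  refine eq_one_of_unramified_somewhere χ hopen (fun q hq => ?_)
  obtain ⟨A, hA⟩ := exists_valuationSubring_over hq
  exact ⟨A, hA, hunr A q hq hA⟩

/-- **Minkowski for subgroups** (the shape of the S13 blueprint): a normal subgroup of `Gal(ℚ̄/ℚ)`
containing the fixing subgroup of a finite extension and, for every prime `q`, the inertia subgroup
of some valuation subring over `q`, is everything. -/
theorem eq_top_of_unramified (H : Subgroup GQ) [H.Normal]
    (hopen : ∃ L : IntermediateField ℚ Qb, FiniteDimensional ℚ L ∧ L.fixingSubgroup ≤ H)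
    (hunr : ∀ q : ℕ, q.Prime → ∃ A : ValuationSubring Qb, A.LiesOverPrime q ∧
      A.inertiaSubgroupIn ℚ ≤ H) : H = ⊤ := by
  have hker : (QuotientGroup.mk' H).ker = H := QuotientGroup.ker_mk' H
  have hmem : ∀ σ : GQ, σ ∈ H ↔ QuotientGroup.mk' H σ = 1 := fun σ => by
    rw [← MonoidHom.mem_ker, hker]
  have h := eq_one_of_unramified_somewhere (QuotientGroup.mk' H)
    (by
      obtain ⟨L, hLfin, hL⟩ := hopen
      refine ⟨L, hLfin, fun σ hσ => (hmem σ).mp (hL ?_)⟩
      exact (IntermediateField.mem_fixingSubgroup_iff L σ).mpr hσ)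
    (fun q hq => by
      obtain ⟨A, hA, hAH⟩ := hunr q hq
      exact ⟨A, hA, fun σ hσ => (hmem σ).mp (hAH hσ)⟩)
  rw [_root_.eq_top_iff]
  intro σ _
  exact (hmem σ).mpr (h σ)

/-- `∀ A` variant of `eq_top_of_unramified`. -/
theorem eq_top_of_unramified_forall (H : Subgroup GQ) [H.Normal]
    (hopen : ∃ L : IntermediateField ℚ Qb, FiniteDimensional ℚ L ∧ L.fixingSubgroup ≤ H)
    (hunr : ∀ q : ℕ, q.Prime → ∀ A : ValuationSubring Qb, A.LiesOverPrime q →
      A.inertiaSubgroupIn ℚ ≤ H) : H = ⊤ := by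
  refine eq_top_of_unramified H hopen (fun q hq => ?_)
  obtain ⟨A, hA⟩ := exists_valuationSubring_over hq
  exact ⟨A, hA, hunr q hq A hA⟩

end Fermat.Agent.S13.Minkowski
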