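import Mathlib
import Fermat.Agent.S05.XLaws
import Fermat.Agent.S51.GroupLaw
import Fermat.Agent.S51.Count
import Fermat.Agent.S51.Exists

/-!
# The x-only binary ladder: torsion polynomials without elliptic divisibility sequences

For `b₂ b₄ b₆ b₈ x` in a commutative ring we define pairs `lad n = (N_n, D_n)` by
`lad 1 = (x, 1)`, `lad (2k) = dbl (lad k)`, `lad (2k+1) = add (lad k) (lad (k+1))`
(differential addition with difference `x`).  For a point `P = (x, y)` of a Weierstrass curve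
over a field, `n • P = 0 ↔ D_n = 0`, and otherwise `x(n • P) = N_n / D_n`.  No identity between
different terms of the sequence is ever needed.
-/

set_option autoImplicit false
set_option linter.unusedSectionVars false
set_option linter.unusedVariables false

namespace Fermat.Agent.S13.Ladder

open Polynomial

section Defs

variable {R : Type*} [CommRing R]

/-- homogeneous duplication on `(N, D)` -/
def dbl (b2 b4 b6 b8 : R) (L : R × R) : R × R :=
  (L.1 ^ 4 - b4 * L.1 ^ 2 * L.2 ^ 2 - 2 * b6 * L.1 * L.2 ^ 3 - b8 * L.2 ^ 4,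
   L.2 * (4 * L.1 ^ 3 + b2 * L.1 ^ 2 * L.2 + 2 * b4 * L.1 * L.2 ^ 2 + b6 * L.2 ^ 3))

/-- the cross term `N₁ D₂ - N₂ D₁` -/
def gg (L₁ L₂ : R × R) : R := L₁.1 * L₂.2 - L₂.1 * L₁.2

/-- homogeneous differential addition on `(N, D)`, the difference having abscissa `x` -/
def add (b2 b4 b6 x : R) (L₁ L₂ : R × R) : R × R :=
  (2 * L₁.1 * L₂.1 * (L₁.1 * L₂.2 + L₂.1 * L₁.2) + b2 * L₁.1 * L₂.1 * L₁.2 * L₂.2
      + b4 * L₁.2 * L₂.2 * (L₁.1 * L₂.2 + L₂.1 * L₁.2) + b6 * L₁.2 ^ 2 * L₂.2 ^ 2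
      - x * gg L₁ L₂ ^ 2,
   gg L₁ L₂ ^ 2)

/-- the binary ladder -/
def lad (b2 b4 b6 b8 x : R) : ℕ → R × R
  | 0 => (1, 0)
  | 1 => (x, 1)
  | (n + 2) =>
    if h : n % 2 = 0 then dbl b2 b4 b6 b8 (lad b2 b4 b6 b8 x ((n + 2) / 2))
    else add b2 b4 b6 x (lad b2 b4 b6 b8 x ((n + 2) / 2)) (lad b2 b4 b6 b8 x ((n + 2) / 2 + 1))
termination_by n => n
decreasing_by all_goals omega

variable (b2 b4 b6 b8 x : R)

@[simp] lemma lad_zero : lad b2 b4 b6 b8 x 0 = (1, 0) := by rw [lad]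

@[simp] lemma lad_one : lad b2 b4 b6 b8 x 1 = (x, 1) := by rw [lad]

lemma lad_even (k : ℕ) (hk : 1 ≤ k) :
    lad b2 b4 b6 b8 x (2 * k) = dbl b2 b4 b6 b8 (lad b2 b4 b6 b8 x k) := by
  obtain ⟨j, rfl⟩ : ∃ j, k = j + 1 := ⟨k - 1, by omega⟩
  have e : 2 * (j + 1) = 2 * j + 2 := by ring
  rw [e, lad]
  have h1 : (2 * j) % 2 = 0 := by omega
  have h2 : (2 * j + 2) / 2 = j + 1 := by omega
  rw [dif_pos h1, h2]

lemma lad_odd (k : ℕ) (hk : 1 ≤ k) :
    lad b2 b4 b6 b8 x (2 * k + 1) =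
      add b2 b4 b6 x (lad b2 b4 b6 b8 x k) (lad b2 b4 b6 b8 x (k + 1)) := by
  obtain ⟨j, rfl⟩ : ∃ j, k = j + 1 := ⟨k - 1, by omega⟩
  have e : 2 * (j + 1) + 1 = (2 * j + 1) + 2 := by ring
  rw [e, lad]
  have h1 : ¬ (2 * j + 1) % 2 = 0 := by omega
  have h2 : (2 * j + 1 + 2) / 2 = j + 1 := by omega
  rw [dif_neg h1, h2]

/-- induction along the ladder -/
theorem lad_induction {P : ℕ → Prop} (h1 : P 1) (he : ∀ k, 1 ≤ k → P k → P (2 * k))
    (ho : ∀ k, 1 ≤ k → P k → P (k + 1) → P (2 * k + 1)) : ∀ n, 1 ≤ n → P n := by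
  intro n
  induction n using Nat.strong_induction_on with
  | _ n ih =>
    intro hn
    rcases Nat.even_or_odd' n with ⟨k, rfl | rfl⟩
    · exact he k (by omega) (ih k (by omega) (by omega))
    · rcases Nat.eq_zero_or_pos k with rfl | hk
      · simpa using h1
      · exact ho k hk (ih k (by omega) hk) (ih (k + 1) (by omega) (by omega))

end Defs

section Map

variable {R S : Type*} [CommRing R] [CommRing S] (φ : R →+* S)

lemma map_dbl (b2 b4 b6 b8 : R) (L : R × R) :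
    Prod.map φ φ (dbl b2 b4 b6 b8 L) = dbl (φ b2) (φ b4) (φ b6) (φ b8) (Prod.map φ φ L) := by
  simp only [dbl, Prod.map_apply, Prod.map_fst, Prod.map_snd, map_sub, map_mul, map_pow, map_add,
    map_ofNat]

lemma map_gg (L₁ L₂ : R × R) : φ (gg L₁ L₂) = gg (Prod.map φ φ L₁) (Prod.map φ φ L₂) := by
  simp only [gg, Prod.map_fst, Prod.map_snd, map_sub, map_mul]

lemma map_add' (b2 b4 b6 x : R) (L₁ L₂ : R × R) :
    Prod.map φ φ (add b2 b4 b6 x L₁ L₂) =
      add (φ b2) (φ b4) (φ b6) (φ x) (Prod.map φ φ L₁) (Prod.map φ φ L₂) := by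
  simp only [add, Prod.map_apply, Prod.map_fst, Prod.map_snd, map_sub, map_mul, map_pow, map_add,
    map_ofNat, map_gg]

theorem map_lad (b2 b4 b6 b8 x : R) (n : ℕ) :
    Prod.map φ φ (lad b2 b4 b6 b8 x n) = lad (φ b2) (φ b4) (φ b6) (φ b8) (φ x) n := by
  rcases Nat.eq_zero_or_pos n with rfl | hn
  · simp
  · revert hn
    refine lad_induction (P := fun n => Prod.map φ φ (lad b2 b4 b6 b8 x n) =
      lad (φ b2) (φ b4) (φ b6) (φ b8) (φ x) n) ?_ ?_ ?_ n
    · simp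
    · intro k hk ih
      rw [lad_even _ _ _ _ _ k hk, lad_even _ _ _ _ _ k hk, map_dbl, ih]
    · intro k hk ih ih'
      rw [lad_odd _ _ _ _ _ k hk, lad_odd _ _ _ _ _ k hk, map_add', ih, ih']

end Map

section Spec

open WeierstrassCurve WeierstrassCurve.Affine Fermat.Agent.S05.XLaws

variable {F : Type*} [Field F] [DecidableEq F] (W : WeierstrassCurve.Affine F)

/-- the numerator of the duplication formula does not vanish at a 2-torsion point -/
lemma xDblNum_ne_zero {x y : F} (h : W.Nonsingular x y) (hpsi : xPsi2Sq W x = 0) :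
    xDblNum W x ≠ 0 := by
  have e : 2 * y + W.a₁ * x + W.a₃ = 0 := by
    have := psi2Sq_eq W h.1
    rw [hpsi] at this
    exact (pow_eq_zero_iff (two_ne_zero)).mp this.symm
  have hns := (nonsingular_iff x y).mp h
  have h1 : W.a₁ * y ≠ 3 * x ^ 2 + 2 * W.a₂ * x + W.a₄ := by
    rcases hns.2 with h1 | h1
    · exact h1
    · exact absurd (by linear_combination e) h1
  have hid := xDbl_identity W h.1
  have hneg : y - W.negY x y = 0 := by simp only [negY]; linear_combination e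
  rw [hneg] at hid
  rw [← hid]
  have : 3 * x ^ 2 + 2 * W.a₂ * x + W.a₄ - W.a₁ * y ≠ 0 := by
    intro h0; apply h1; linear_combination -h0
  simpa using this

lemma xSumNum_self (x : F) : xSumNum W x x = xPsi2Sq W x := by
  simp only [xSumNum, xPsi2Sq]; ring

/-- the specification of the ladder at `n` for the point `(x, y)` -/
def Spec {x y : F} (h : W.Nonsingular x y) (n : ℕ) : Prop :=
  (n • Point.some x y h = 0 ∧ (lad W.b₂ W.b₄ W.b₆ W.b₈ x n).2 = 0 ∧
      (lad W.b₂ W.b₄ W.b₆ W.b₈ x n).1 ≠ 0) ∨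
    ∃ (x' y' : F) (h' : W.Nonsingular x' y'), n • Point.some x y h = Point.some x' y' h' ∧
      (lad W.b₂ W.b₄ W.b₆ W.b₈ x n).2 ≠ 0 ∧
      x' * (lad W.b₂ W.b₄ W.b₆ W.b₈ x n).2 = (lad W.b₂ W.b₄ W.b₆ W.b₈ x n).1

lemma spec_one {x y : F} (h : W.Nonsingular x y) : Spec W h 1 := by
  right
  exact ⟨x, y, h, one_nsmul _, by simp, by simp⟩

lemma spec_even {x y : F} (h : W.Nonsingular x y) (k : ℕ) (hk : 1 ≤ k) (ih : Spec W h k) :
    Spec W h (2 * k) := by
  have e2 : (2 * k) • Point.some x y h = k • Point.some x y h + k • Point.some x y h := by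
    rw [two_mul, add_nsmul]
  unfold Spec
  rw [lad_even _ _ _ _ _ k hk]
  rcases ih with ⟨h0, hD, hN⟩ | ⟨x', y', h', hP, hD, hx⟩
  · left
    refine ⟨by rw [e2, h0, add_zero], by simp [dbl, hD], ?_⟩
    simp only [dbl, hD]
    simpa using hN
  · set N := (lad W.b₂ W.b₄ W.b₆ W.b₈ x k).1 with hNdef
    set D := (lad W.b₂ W.b₄ W.b₆ W.b₈ x k).2 with hDdef
    have eD : (dbl W.b₂ W.b₄ W.b₆ W.b₈ (N, D)).2 = D ^ 4 * xPsi2Sq W x' := by
      simp only [dbl, xPsi2Sq, ← hx]; ring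
    have eN : (dbl W.b₂ W.b₄ W.b₆ W.b₈ (N, D)).1 = D ^ 4 * xDblNum W x' := by
      simp only [dbl, xDblNum, ← hx]; ring
    have hpair : lad W.b₂ W.b₄ W.b₆ W.b₈ x k = (N, D) := rfl
    rw [hpair]
    by_cases hpsi : xPsi2Sq W x' = 0
    · left
      refine ⟨?_, by rw [eD, hpsi, mul_zero], ?_⟩
      · rw [e2, hP]; exact (add_self_eq_zero_iff W h').mpr hpsi
      · rw [eN]; exact mul_ne_zero (pow_ne_zero 4 hD) (xDblNum_ne_zero W h' hpsi)
    · right
      have hy : y' ≠ W.negY x' y' := by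
        intro h0
        apply hpsi
        rw [psi2Sq_eq W h'.1]
        have : 2 * y' + W.a₁ * x' + W.a₃ = 0 := by
          simp only [negY] at h0; linear_combination h0
        rw [this]; ring
      obtain ⟨x₅, y₅, h₅, hadd, hx₅⟩ := dbl_x W h' hy
      refine ⟨x₅, y₅, h₅, by rw [e2, hP, hadd], ?_, ?_⟩
      · rw [eD]; exact mul_ne_zero (pow_ne_zero 4 hD) hpsi
      · rw [eD, eN]; linear_combination D ^ 4 * hx₅

lemma spec_odd {x y : F} (h : W.Nonsingular x y) (k : ℕ) (hk : 1 ≤ k) (ih : Spec W h k)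
    (ih' : Spec W h (k + 1)) : Spec W h (2 * k + 1) := by
  set P := Point.some x y h with hPdef
  have hP0 : P ≠ 0 := Point.some_ne_zero h
  have e1 : (2 * k + 1) • P = k • P + (k + 1) • P := by
    rw [← add_nsmul]; congr 1; ring
  have e2 : (k + 1) • P = k • P + P := succ_nsmul P k
  unfold Spec
  rw [lad_odd _ _ _ _ _ k hk]
  set N₁ := (lad W.b₂ W.b₄ W.b₆ W.b₈ x k).1 with hN₁
  set D₁ := (lad W.b₂ W.b₄ W.b₆ W.b₈ x k).2 with hD₁
  set N₂ := (lad W.b₂ W.b₄ W.b₆ W.b₈ x (k + 1)).1 with hN₂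
  set D₂ := (lad W.b₂ W.b₄ W.b₆ W.b₈ x (k + 1)).2 with hD₂
  have hpair₁ : lad W.b₂ W.b₄ W.b₆ W.b₈ x k = (N₁, D₁) := rfl
  have hpair₂ : lad W.b₂ W.b₄ W.b₆ W.b₈ x (k + 1) = (N₂, D₂) := rfl
  rw [hpair₁, hpair₂]
  unfold Spec at ih ih'
  rw [hpair₁] at ih
  rw [hpair₂] at ih'
  simp only at ih ih'
  rcases ih with ⟨h0, hD, hN⟩ | ⟨x₁, y₁, h₁, hP₁, hD₁', hx₁⟩
  · -- `k • P = 0`
    have e3 : (k + 1) • P = P := by rw [e2, h0, zero_add]
    rcases ih' with ⟨h0', _, _⟩ | ⟨x₂, y₂, h₂, hP₂, hD₂', hx₂⟩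
    · exact absurd (e3 ▸ h0') hP0
    · have hxx : x₂ = x := by
        have := hP₂.symm.trans e3
        rw [hPdef] at this
        simp only [Point.some.injEq] at this
        exact this.1
      subst hxx
      right
      refine ⟨x₂, y, h, by rw [e1, h0, zero_add, e3], ?_, ?_⟩
      · simp only [add, gg, hD, mul_zero, sub_zero]
        exact pow_ne_zero 2 (mul_ne_zero hN hD₂')
      · simp only [add, gg, hD, ← hx₂]; ring
  · rcases ih' with ⟨h0', hD', hN'⟩ | ⟨x₂, y₂, h₂, hP₂, hD₂', hx₂⟩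
    · -- `(k+1) • P = 0`
      have e3 : k • P = -P := eq_neg_of_add_eq_zero_left (e2 ▸ h0')
      have hxx : x₁ = x := by
        have := hP₁.symm.trans e3
        rw [hPdef, Point.neg_some] at this
        simp only [Point.some.injEq] at this
        exact this.1
      subst hxx
      right
      refine ⟨x₁, y₁, h₁, by rw [e1, h0', add_zero, hP₁], ?_, ?_⟩
      · simp only [add, gg, hD', mul_zero, zero_sub]
        exact pow_ne_zero 2 (neg_ne_zero.mpr (mul_ne_zero hN' hD₁'))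
      · simp only [add, gg, hD', ← hx₁]; ring
    · -- both affine
      have eG : gg (N₁, D₁) (N₂, D₂) = D₁ * D₂ * (x₁ - x₂) := by
        simp only [gg, ← hx₁, ← hx₂]; ring
      have eS : (add W.b₂ W.b₄ W.b₆ x (N₁, D₁) (N₂, D₂)).1 =
          (D₁ * D₂) ^ 2 * (xSumNum W x₂ x₁ - x * (x₂ - x₁) ^ 2) := by
        simp only [add, xSumNum]
        rw [eG, ← hx₁, ← hx₂]; ring
      have eD : (add W.b₂ W.b₄ W.b₆ x (N₁, D₁) (N₂, D₂)).2 = (D₁ * D₂) ^ 2 * (x₂ - x₁) ^ 2 := by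
        simp only [add, eG]; ring
      have hDD : (D₁ * D₂) ^ 2 ≠ 0 := pow_ne_zero 2 (mul_ne_zero hD₁' hD₂')
      by_cases hxx : x₂ = x₁
      · subst hxx
        rcases Y_eq_of_X_eq h₂.1 h₁.1 rfl with hy | hy
        · -- `(k+1) • P = k • P`, impossible
          subst hy
          exfalso
          apply hP0
          have : k • P + P = k • P := by rw [← e2, hP₂, hP₁]
          simp at this
        · -- `(k+1) • P = - k • P`
          have e3 : (k + 1) • P = -(k • P) := by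
            rw [hP₂, hP₁, Point.neg_some]
            simp only [Point.some.injEq, true_and]
            exact hy
          left
          refine ⟨by rw [e1, e3, add_neg_cancel], by rw [eD]; simp, ?_⟩
          rw [eS]
          refine mul_ne_zero hDD ?_
          simp only [sub_self, ne_eq, OfNat.ofNat_ne_zero, not_false_eq_true, zero_pow, mul_zero,
            sub_zero]
          rw [xSumNum_self]
          intro hpsi
          apply hP0
          have h2 : k • P + k • P = 0 := by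
            rw [hP₁]; exact (add_self_eq_zero_iff W h₁).mpr hpsi
          have h3 : k • P = -(k • P) := eq_neg_of_add_eq_zero_left h2
          have h4 : k • P + P = k • P := by rw [← e2, e3, ← h3]
          simp at h4
      · right
        obtain ⟨x₃, y₃, x₄, y₄, h₃, h₄, hadd, hsub, _, _, hsum, _⟩ := add_sub_x W h₂ h₁ hxx
        have hx₄ : x₄ = x := by
          have : Point.some x₄ y₄ h₄ = P := by
            rw [← hsub, ← hP₂, ← hP₁, e2]; abel
          rw [hPdef] at this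
          simp only [Point.some.injEq] at this
          exact this.1
        subst hx₄
        refine ⟨x₃, y₃, h₃, by rw [e1, hP₁, hP₂, add_comm, hadd], ?_, ?_⟩
        · rw [eD]
          exact mul_ne_zero hDD (pow_ne_zero 2 (sub_ne_zero.mpr hxx))
        · rw [eD, eS]
          linear_combination (D₁ * D₂) ^ 2 * hsum

/-- **The ladder computes multiples.** -/
theorem spec {x y : F} (h : W.Nonsingular x y) (n : ℕ) (hn : 1 ≤ n) : Spec W h n :=
  lad_induction (P := fun n => Spec W h n) (spec_one W h) (spec_even W h) (spec_odd W h) n hn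

end Spec

section Lead

variable {R : Type*} [CommRing R]

/-- `p` has degree at most `d` and its coefficient in degree `d` is `c` -/
def IsLead (p : R[X]) (d : ℕ) (c : R) : Prop := p.natDegree ≤ d ∧ p.coeff d = c

namespace IsLead

variable {p q : R[X]} {d e : ℕ} {c c' : R}

lemma mul (hp : IsLead p d c) (hq : IsLead q e c') : IsLead (p * q) (d + e) (c * c') :=
  ⟨natDegree_mul_le_of_le hp.1 hq.1, by
    rw [coeff_mul_add_eq_of_natDegree_le hp.1 hq.1, hp.2, hq.2]⟩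

lemma pow (hp : IsLead p d c) (n : ℕ) : IsLead (p ^ n) (n * d) (c ^ n) :=
  ⟨natDegree_pow_le_of_le n hp.1, by rw [coeff_pow_of_natDegree_le hp.1, hp.2]⟩

lemma add (hp : IsLead p d c) (hq : IsLead q d c') : IsLead (p + q) d (c + c') :=
  ⟨natDegree_add_le_of_degree_le hp.1 hq.1, by rw [coeff_add, hp.2, hq.2]⟩

lemma sub (hp : IsLead p d c) (hq : IsLead q d c') : IsLead (p - q) d (c - c') :=
  ⟨(natDegree_sub_le_of_le hp.1 hq.1).trans (by simp), by rw [coeff_sub, hp.2, hq.2]⟩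

lemma of_lt (hp : IsLead p e c) (h : e < d) : IsLead p d 0 :=
  ⟨hp.1.trans h.le, coeff_eq_zero_of_natDegree_lt (lt_of_le_of_lt hp.1 h)⟩

lemma const (a : R) : IsLead (C a) 0 a := ⟨by simp, by simp⟩

lemma X' : IsLead (X : R[X]) 1 1 := ⟨natDegree_X_le, by simp⟩

lemma one' : IsLead (1 : R[X]) 0 1 := ⟨natDegree_one.le, by simp⟩

lemma ofNat' (n : ℕ) [n.AtLeastTwo] : IsLead (OfNat.ofNat n : R[X]) 0 (OfNat.ofNat n) := by
  have : (OfNat.ofNat n : R[X]) = C (OfNat.ofNat n : R) := (map_ofNat C n).symm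
  rw [this]; exact const _

lemma congr (hp : IsLead p d c) (hd : d = e) (hc : c = c') : IsLead p e c' := by
  subst hd; subst hc; exact hp

end IsLead

end Lead

section Poly

variable {R : Type*} [CommRing R] (b2 b4 b6 b8 : R)

/-- the polynomial ladder -/
noncomputable def ladP (n : ℕ) : R[X] × R[X] := lad (C b2) (C b4) (C b6) (C b8) X n

/-- the degree statement for the ladder polynomials -/
def Deg (n : ℕ) : Prop :=
  ∃ e, e + 1 = n ^ 2 ∧ IsLead (ladP b2 b4 b6 b8 n).1 (n ^ 2) 1 ∧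
    IsLead (ladP b2 b4 b6 b8 n).2 e ((n : R) ^ 2)

lemma deg_one : Deg b2 b4 b6 b8 1 := by
  refine ⟨0, by norm_num, ?_, ?_⟩
  · simp only [ladP, lad_one]
    exact IsLead.X'.congr (by norm_num) rfl
  · simp only [ladP, lad_one]
    exact IsLead.one'.congr rfl (by simp)

lemma deg_even (k : ℕ) (hk : 1 ≤ k) (ih : Deg b2 b4 b6 b8 k) : Deg b2 b4 b6 b8 (2 * k) := by
  obtain ⟨e, he, hN, hD⟩ := ih
  obtain ⟨s, hs⟩ : ∃ s, s = k ^ 2 := ⟨_, rfl⟩
  have h2 : (2 * k) ^ 2 = 4 * s := by rw [hs]; ring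
  rw [← hs] at he hN
  unfold Deg
  simp only [ladP] at hN hD ⊢
  rw [lad_even _ _ _ _ _ k hk, h2]
  set N := (lad (C b2) (C b4) (C b6) (C b8) X k).1
  set D := (lad (C b2) (C b4) (C b6) (C b8) X k).2
  refine ⟨e + (0 + 3 * s), by omega, ?_, ?_⟩
  · have t1 : IsLead (N ^ 4) (4 * s) (1 ^ 4) := hN.pow 4
    have t2 : IsLead (C b4 * N ^ 2 * D ^ 2) (4 * s) 0 :=
      (((IsLead.const b4).mul (hN.pow 2)).mul (hD.pow 2)).of_lt (by omega)
    have t3 : IsLead (2 * C b6 * N * D ^ 3) (4 * s) 0 :=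
      ((((IsLead.ofNat' 2).mul (IsLead.const b6)).mul hN).mul (hD.pow 3)).of_lt (by omega)
    have t4 : IsLead (C b8 * D ^ 4) (4 * s) 0 :=
      ((IsLead.const b8).mul (hD.pow 4)).of_lt (by omega)
    exact (((t1.sub t2).sub t3).sub t4).congr rfl (by ring)
  · have u1 : IsLead (4 * N ^ 3) (0 + 3 * s) (4 * 1 ^ 3) := (IsLead.ofNat' 4).mul (hN.pow 3)
    have u2 : IsLead (C b2 * N ^ 2 * D) (0 + 3 * s) 0 :=
      (((IsLead.const b2).mul (hN.pow 2)).mul hD).of_lt (by omega)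
    have u3 : IsLead (2 * C b4 * N * D ^ 2) (0 + 3 * s) 0 :=
      ((((IsLead.ofNat' 2).mul (IsLead.const b4)).mul hN).mul (hD.pow 2)).of_lt (by omega)
    have u4 : IsLead (C b6 * D ^ 3) (0 + 3 * s) 0 :=
      ((IsLead.const b6).mul (hD.pow 3)).of_lt (by omega)
    exact (hD.mul (((u1.add u2).add u3).add u4)).congr rfl (by push_cast; ring)

lemma deg_odd (k : ℕ) (hk : 1 ≤ k) (ih : Deg b2 b4 b6 b8 k) (ih' : Deg b2 b4 b6 b8 (k + 1)) :
    Deg b2 b4 b6 b8 (2 * k + 1) := by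
  obtain ⟨e, he, hN₁, hD₁⟩ := ih
  obtain ⟨e', he', hN₂, hD₂⟩ := ih'
  obtain ⟨s, hs⟩ : ∃ s, s = k ^ 2 := ⟨_, rfl⟩
  obtain ⟨t, ht⟩ : ∃ t, t = (k + 1) ^ 2 := ⟨_, rfl⟩
  have hts : t = s + 2 * k + 1 := by rw [hs, ht]; ring
  have h2 : (2 * k + 1) ^ 2 = 4 * s + 4 * k + 1 := by rw [hs]; ring
  rw [← hs] at he hN₁
  rw [← ht] at he' hN₂
  unfold Deg
  simp only [ladP] at hN₁ hD₁ hN₂ hD₂ ⊢
  rw [lad_odd _ _ _ _ _ k hk, h2]
  set N₁ := (lad (C b2) (C b4) (C b6) (C b8) X k).1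
  set D₁ := (lad (C b2) (C b4) (C b6) (C b8) X k).2
  set N₂ := (lad (C b2) (C b4) (C b6) (C b8) X (k + 1)).1
  set D₂ := (lad (C b2) (C b4) (C b6) (C b8) X (k + 1)).2
  have hpair₁ : lad (C b2) (C b4) (C b6) (C b8) X k = (N₁, D₁) := rfl
  have hpair₂ : lad (C b2) (C b4) (C b6) (C b8) X (k + 1) = (N₂, D₂) := rfl
  rw [hpair₁, hpair₂]
  have a1 : IsLead (N₁ * D₂) (s + e') (1 * ((k + 1 : ℕ) : R) ^ 2) := hN₁.mul hD₂
  have a2 : IsLead (N₂ * D₁) (s + e') (1 * (k : R) ^ 2) := (hN₂.mul hD₁).congr (by omega) rfl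
  have hG : IsLead (gg (N₁, D₁) (N₂, D₂)) (s + e')
      (1 * ((k + 1 : ℕ) : R) ^ 2 - 1 * (k : R) ^ 2) := a1.sub a2
  have hH : IsLead (N₁ * D₂ + N₂ * D₁) (s + e')
      (1 * ((k + 1 : ℕ) : R) ^ 2 + 1 * (k : R) ^ 2) := a1.add a2
  refine ⟨2 * (s + e'), by omega, ?_, ?_⟩
  · have v1 : IsLead (2 * N₁ * N₂ * (N₁ * D₂ + N₂ * D₁)) (0 + s + t + (s + e'))
        (2 * 1 * 1 * (1 * ((k + 1 : ℕ) : R) ^ 2 + 1 * (k : R) ^ 2)) :=
      (((IsLead.ofNat' 2).mul hN₁).mul hN₂).mul hH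
    have v2 : IsLead (C b2 * N₁ * N₂ * D₁ * D₂) (0 + s + t + (s + e')) 0 :=
      (((((IsLead.const b2).mul hN₁).mul hN₂).mul hD₁).mul hD₂).of_lt (by omega)
    have v3 : IsLead (C b4 * D₁ * D₂ * (N₁ * D₂ + N₂ * D₁)) (0 + s + t + (s + e')) 0 :=
      ((((IsLead.const b4).mul hD₁).mul hD₂).mul hH).of_lt (by omega)
    have v4 : IsLead (C b6 * D₁ ^ 2 * D₂ ^ 2) (0 + s + t + (s + e')) 0 :=
      (((IsLead.const b6).mul (hD₁.pow 2)).mul (hD₂.pow 2)).of_lt (by omega)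
    have v5 : IsLead (X * gg (N₁, D₁) (N₂, D₂) ^ 2) (0 + s + t + (s + e'))
        (1 * (1 * ((k + 1 : ℕ) : R) ^ 2 - 1 * (k : R) ^ 2) ^ 2) :=
      (IsLead.X'.mul (hG.pow 2)).congr (by omega) rfl
    exact ((((v1.add v2).add v3).add v4).sub v5).congr (by omega) (by push_cast; ring)
  · exact (hG.pow 2).congr rfl (by push_cast; ring)

theorem deg (n : ℕ) (hn : 1 ≤ n) : Deg b2 b4 b6 b8 n :=
  lad_induction (P := fun n => Deg b2 b4 b6 b8 n) (deg_one _ _ _ _) (deg_even _ _ _ _)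
    (deg_odd _ _ _ _) n hn

end Poly

section Curve

variable {R : Type*} [CommRing R] (W : WeierstrassCurve R)

/-- numerator of `x(n • P)` as a polynomial in `x(P)` -/
noncomputable def ladN (n : ℕ) : R[X] := (ladP W.b₂ W.b₄ W.b₆ W.b₈ n).1

/-- denominator of `x(n • P)` as a polynomial in `x(P)` -/
noncomputable def ladD (n : ℕ) : R[X] := (ladP W.b₂ W.b₄ W.b₆ W.b₈ n).2

/-- the torsion polynomial for the odd number `2k+1` (a substitute for `preΨ (2k+1)`):
degree `2k²+2k`, leading coefficient `2k+1`. -/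
noncomputable def tors (k : ℕ) : R[X] :=
  ladN W k * ladD W (k + 1) - ladN W (k + 1) * ladD W k

lemma ladD_odd (k : ℕ) (hk : 1 ≤ k) : ladD W (2 * k + 1) = tors W k ^ 2 := by
  simp only [ladD, ladP, tors, ladN]
  rw [lad_odd _ _ _ _ _ k hk]
  simp only [add, gg]

lemma ladN_one : ladN W 1 = X := by simp [ladN, ladP]

lemma ladD_one : ladD W 1 = 1 := by simp [ladD, ladP]

section map

variable {S : Type*} [CommRing S] (φ : R →+* S)

lemma map_ladP (n : ℕ) :
    Prod.map (Polynomial.map φ) (Polynomial.map φ) (ladP W.b₂ W.b₄ W.b₆ W.b₈ n) =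
      ladP (W.map φ).b₂ (W.map φ).b₄ (W.map φ).b₆ (W.map φ).b₈ n := by
  have := map_lad (Polynomial.mapRingHom φ) (C W.b₂) (C W.b₄) (C W.b₆) (C W.b₈) X n
  simp only [coe_mapRingHom, map_C, map_X] at this
  simp only [ladP, WeierstrassCurve.map_b₂, WeierstrassCurve.map_b₄, WeierstrassCurve.map_b₆,
    WeierstrassCurve.map_b₈]
  exact this

lemma map_ladN (n : ℕ) : (ladN W n).map φ = ladN (W.map φ) n := by
  have := congrArg Prod.fst (map_ladP W φ n)
  simpa [ladN] using this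

lemma map_ladD (n : ℕ) : (ladD W n).map φ = ladD (W.map φ) n := by
  have := congrArg Prod.snd (map_ladP W φ n)
  simpa [ladD] using this

lemma map_tors (k : ℕ) : (tors W k).map φ = tors (W.map φ) k := by
  simp only [tors, Polynomial.map_sub, Polynomial.map_mul, map_ladN, map_ladD]

end map

lemma eval_ladP (x : R) (n : ℕ) :
    Prod.map (Polynomial.eval x) (Polynomial.eval x) (ladP W.b₂ W.b₄ W.b₆ W.b₈ n) =
      lad W.b₂ W.b₄ W.b₆ W.b₈ x n := by
  have := map_lad (Polynomial.evalRingHom x) (C W.b₂) (C W.b₄) (C W.b₆) (C W.b₈) X n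
  simp only [coe_evalRingHom, eval_C, eval_X] at this
  exact this

lemma eval_ladN (x : R) (n : ℕ) : (ladN W n).eval x = (lad W.b₂ W.b₄ W.b₆ W.b₈ x n).1 := by
  have := congrArg Prod.fst (eval_ladP W x n)
  simpa [ladN] using this

lemma eval_ladD (x : R) (n : ℕ) : (ladD W n).eval x = (lad W.b₂ W.b₄ W.b₆ W.b₈ x n).2 := by
  have := congrArg Prod.snd (eval_ladP W x n)
  simpa [ladD] using this

/-- `N_n` has degree `≤ n²` and is monic of that degree. -/
lemma lead_ladN (n : ℕ) (hn : 1 ≤ n) : IsLead (ladN W n) (n ^ 2) 1 := by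
  obtain ⟨e, _, hN, _⟩ := deg W.b₂ W.b₄ W.b₆ W.b₈ n hn
  exact hN

/-- `D_n` has degree `≤ n² - 1` with coefficient `n²` there. -/
lemma lead_ladD (n : ℕ) (hn : 1 ≤ n) : IsLead (ladD W n) (n ^ 2 - 1) ((n : R) ^ 2) := by
  obtain ⟨e, he, _, hD⟩ := deg W.b₂ W.b₄ W.b₆ W.b₈ n hn
  exact hD.congr (by omega) rfl

/-- `tors k` has degree `≤ 2k²+2k` with coefficient `2k+1` there. -/
lemma lead_tors (k : ℕ) (hk : 1 ≤ k) :
    IsLead (tors W k) (2 * k ^ 2 + 2 * k) ((2 * k + 1 : ℕ) : R) := by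
  obtain ⟨e, he, hN₁, hD₁⟩ := deg W.b₂ W.b₄ W.b₆ W.b₈ k hk
  obtain ⟨e', he', hN₂, hD₂⟩ := deg W.b₂ W.b₄ W.b₆ W.b₈ (k + 1) (by omega)
  have h1 : (k + 1) ^ 2 = k ^ 2 + 2 * k + 1 := by ring
  have a1 : IsLead (ladN W k * ladD W (k + 1)) (2 * k ^ 2 + 2 * k)
      (1 * ((k + 1 : ℕ) : R) ^ 2) := (hN₁.mul hD₂).congr (by omega) rfl
  have a2 : IsLead (ladN W (k + 1) * ladD W k) (2 * k ^ 2 + 2 * k) (1 * (k : R) ^ 2) :=
    (hN₂.mul hD₁).congr (by omega) rfl
  exact (a1.sub a2).congr rfl (by push_cast; ring)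

lemma natDegree_tors_of_ne (k : ℕ) (hk : 1 ≤ k) (h : ((2 * k + 1 : ℕ) : R) ≠ 0) :
    (tors W k).natDegree = 2 * k ^ 2 + 2 * k := by
  refine le_antisymm (lead_tors W k hk).1 (le_natDegree_of_ne_zero ?_)
  rw [(lead_tors W k hk).2]
  exact h

lemma leadingCoeff_tors_of_ne (k : ℕ) (hk : 1 ≤ k) (h : ((2 * k + 1 : ℕ) : R) ≠ 0) :
    (tors W k).leadingCoeff = ((2 * k + 1 : ℕ) : R) := by
  rw [leadingCoeff, natDegree_tors_of_ne W k hk h, (lead_tors W k hk).2]

end Curve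

section Field

open WeierstrassCurve WeierstrassCurve.Affine Fermat.Agent.S51

variable {F : Type*} [Field F] [DecidableEq F] [CharZero F] (W : WeierstrassCurve F)

lemma ladD_ne_zero (n : ℕ) (hn : 1 ≤ n) : ladD W n ≠ 0 := by
  intro h0
  have h := (lead_ladD W n hn).2
  rw [h0, coeff_zero] at h
  have : (n : F) ≠ 0 := Nat.cast_ne_zero.mpr (by omega)
  exact pow_ne_zero 2 this h.symm

lemma natDegree_ladD (n : ℕ) (hn : 1 ≤ n) : (ladD W n).natDegree = n ^ 2 - 1 := by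
  refine le_antisymm (lead_ladD W n hn).1 (le_natDegree_of_ne_zero ?_)
  rw [(lead_ladD W n hn).2]
  exact pow_ne_zero 2 (Nat.cast_ne_zero.mpr (by omega))

lemma tors_ne_zero (k : ℕ) (hk : 1 ≤ k) : tors W k ≠ 0 := by
  intro h0
  have h := (lead_tors W k hk).2
  rw [h0, coeff_zero] at h
  exact (Nat.cast_ne_zero (R := F)).mpr (by omega : 2 * k + 1 ≠ 0) h.symm

lemma natDegree_tors (k : ℕ) (hk : 1 ≤ k) : (tors W k).natDegree = 2 * k ^ 2 + 2 * k := by
  refine le_antisymm (lead_tors W k hk).1 (le_natDegree_of_ne_zero ?_)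
  rw [(lead_tors W k hk).2]
  exact Nat.cast_ne_zero.mpr (by omega)

lemma leadingCoeff_tors (k : ℕ) (hk : 1 ≤ k) : (tors W k).leadingCoeff = ((2 * k + 1 : ℕ) : F) := by
  rw [leadingCoeff, natDegree_tors W k hk, (lead_tors W k hk).2]

variable {W}

/-- **(T1)+(T2)** `n • P = 0` iff the abscissa of `P` is a root of `D_n`. -/
theorem nsmul_eq_zero_iff {P : W.toAffine.Point} {x : F} (hP : px W P = some x) {n : ℕ}
    (hn : 1 ≤ n) : n • P = 0 ↔ (ladD W n).eval x = 0 := by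
  obtain ⟨y, h, rfl⟩ := exists_of_px_eq_some hP
  rw [eval_ladD]
  rcases spec W.toAffine h n hn with ⟨h0, hD, _⟩ | ⟨x', y', h', hP', hD, _⟩
  · exact ⟨fun _ => hD, fun _ => h0⟩
  · exact ⟨fun h0 => absurd (hP' ▸ h0) (Point.some_ne_zero h'), fun h0 => absurd h0 hD⟩

/-- the abscissa of `n • P` -/
theorem px_nsmul {P : W.toAffine.Point} {x : F} (hP : px W P = some x) {n : ℕ}
    (hn : 1 ≤ n) (hD : (ladD W n).eval x ≠ 0) :
    px W (n • P) = some ((ladN W n).eval x / (ladD W n).eval x) := by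
  obtain ⟨y, h, rfl⟩ := exists_of_px_eq_some hP
  rw [eval_ladD] at hD ⊢
  rw [eval_ladN]
  rcases spec W.toAffine h n hn with ⟨_, hD', _⟩ | ⟨x', y', h', hP', hD', hx⟩
  · exact absurd hD' hD
  · rw [hP', px_some, ← hx, mul_div_cancel_right₀ _ hD']

/-- for odd `n = 2k+1`: `n • P = 0` iff the abscissa of `P` is a root of `tors k`. -/
theorem odd_nsmul_eq_zero_iff {P : W.toAffine.Point} {x : F} (hP : px W P = some x) {k : ℕ}
    (hk : 1 ≤ k) : (2 * k + 1) • P = 0 ↔ (tors W k).eval x = 0 := by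
  rw [nsmul_eq_zero_iff hP (by omega), ladD_odd W k hk, eval_pow]
  exact pow_eq_zero_iff (two_ne_zero)

variable (W)

/-- **Existence of torsion points** over an algebraically closed field of characteristic zero. -/
theorem exists_torsion_point [IsAlgClosed F] (hΔ : W.Δ ≠ 0) (n : ℕ) (hn : 2 ≤ n) :
    ∃ P : W.toAffine.Point, P ≠ 0 ∧ n • P = 0 := by
  have hdeg : (ladD W n).degree ≠ 0 := by
    rw [degree_eq_natDegree (ladD_ne_zero W n (by omega)), natDegree_ladD W n (by omega)]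
    have : 2 ^ 2 ≤ n ^ 2 := Nat.pow_le_pow_left hn 2
    have h3 : n ^ 2 - 1 ≠ 0 := by omega
    exact_mod_cast h3
  obtain ⟨x, hx⟩ := IsAlgClosed.exists_root (ladD W n) hdeg
  obtain ⟨P, hP⟩ := exists_point_of_x W hΔ x
  exact ⟨P, ne_zero_of_px hP, (nsmul_eq_zero_iff hP (by omega)).mpr hx⟩

/-- **Counting**: at most `(2k+1)²` points of order dividing `2k+1`. -/
theorem card_odd_torsion_le (k : ℕ) (hk : 1 ≤ k) :
    Finite (Submodule.torsionBy ℤ W.toAffine.Point (2 * k + 1 : ℕ)) ∧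
      Nat.card (Submodule.torsionBy ℤ W.toAffine.Point (2 * k + 1 : ℕ)) ≤ (2 * k + 1) ^ 2 := by
  have := torsion_finite_card_le W (2 * k + 1) (2 * k ^ 2 + 2 * k) (tors W k) (tors_ne_zero W k hk)
    (lead_tors W k hk).1 (fun P x hP hx => (odd_nsmul_eq_zero_iff hx hk).mp hP)
  refine ⟨this.1, this.2.trans (le_of_eq ?_)⟩
  ring

/-! ### Odd primes -/

lemma two_mul_half_add_one {p : ℕ} (hp : p.Prime) (hp2 : p ≠ 2) : 2 * (p / 2) + 1 = p :=
  Nat.two_mul_div_two_add_one_of_odd (hp.odd_of_ne_two hp2)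

lemma one_le_half {p : ℕ} (hp : p.Prime) (hp2 : p ≠ 2) : 1 ≤ p / 2 := by
  have := hp.two_le
  have := two_mul_half_add_one hp hp2
  omega

variable {W} in
/-- for an odd prime `p`: `p • P = 0` iff the abscissa of `P` is a root of `tors (p / 2)`. -/
theorem prime_nsmul_eq_zero_iff {p : ℕ} (hp : p.Prime) (hp2 : p ≠ 2) {P : W.toAffine.Point}
    {x : F} (hP : px W P = some x) : p • P = 0 ↔ (tors W (p / 2)).eval x = 0 := by
  rw [← odd_nsmul_eq_zero_iff hP (one_le_half hp hp2), two_mul_half_add_one hp hp2]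

theorem natDegree_tors_prime {p : ℕ} (hp : p.Prime) (hp2 : p ≠ 2) :
    2 * (tors W (p / 2)).natDegree + 1 = p ^ 2 := by
  rw [natDegree_tors W _ (one_le_half hp hp2)]
  have h := two_mul_half_add_one hp hp2
  calc 2 * (2 * (p / 2) ^ 2 + 2 * (p / 2)) + 1 = (2 * (p / 2) + 1) ^ 2 := by ring
    _ = p ^ 2 := by rw [h]

theorem leadingCoeff_tors_prime {p : ℕ} (hp : p.Prime) (hp2 : p ≠ 2) :
    (tors W (p / 2)).leadingCoeff = (p : F) := by
  rw [leadingCoeff_tors W _ (one_le_half hp hp2), two_mul_half_add_one hp hp2]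

/-- at most `p²` points of order dividing an odd prime `p` -/
theorem card_prime_torsion_le {p : ℕ} (hp : p.Prime) (hp2 : p ≠ 2) :
    Finite (Submodule.torsionBy ℤ W.toAffine.Point (p : ℕ)) ∧
      Nat.card (Submodule.torsionBy ℤ W.toAffine.Point (p : ℕ)) ≤ p ^ 2 := by
  have := card_odd_torsion_le W (p / 2) (one_le_half hp hp2)
  rwa [two_mul_half_add_one hp hp2] at this

end Field

end Fermat.Agent.S13.Ladder
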