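import Fermat.Agent.S13.AtP
import Fermat.Agent.S13.LocalP
import Fermat.Agent.S13.Ladder

set_option autoImplicit false

/-!
# S13 [P7]: the dichotomy at `p` for the Frey curve

Instantiation of `AtP.dichotomy_of` with the kernel of reduction `S05.InKer` and the local package
`LocalP` (inertia at `p` moves `E[p]` inside the kernel of reduction).  The torsion polynomial
enters as a hypothesis in `dichotomy_at_p_of_psi`; `dichotomy_at_p` is the unconditional statement,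
with `freyTors P : ℤ[X]` the ladder polynomial (`Ladder.tors`) of `P.freyCurveInt`.
-/

namespace Fermat.Agent.S13.AtP

open WeierstrassCurve WeierstrassCurve.Affine WeierstrassCurve.Affine.Point Polynomial
open Fermat.Agent.S51 Fermat.Agent.S05

local notation "Qbar" => AlgebraicClosure ℚ

/-- **Dichotomy at `p` for the Frey curve**, given a torsion polynomial `f ∈ ℤ[X]` of degree
`(p² - 1)/2` and leading coefficient `p` vanishing at the abscissas of `E[p]`, and `#E[p] ≤ p²`: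
for `A` over `p` and a Galois-stable line `N0`, the inertia group of `A` acts trivially on
`V/N0` or on `N0`. -/
theorem dichotomy_at_p_of_psi (P : FreyPackage)
    (f : ℤ[X]) (hdeg : 2 * f.natDegree = P.p ^ 2 - 1) (hlead : f.leadingCoeff = P.p)
    (hT1 : ∀ (x y : Qbar) (h : (P.freyCurve⁄Qbar).toAffine.Nonsingular x y),
      Point.some x y h ∈ Submodule.torsionBy ℤ (P.freyCurve⁄Qbar).toAffine.Point P.p →
        (f.map (Int.castRingHom Qbar)).IsRoot x)
    (hcard : Finite (Submodule.torsionBy ℤ (P.freyCurve⁄Qbar).toAffine.Point P.p) ∧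
      Nat.card (Submodule.torsionBy ℤ (P.freyCurve⁄Qbar).toAffine.Point P.p) ≤ P.p ^ 2)
    (A : ValuationSubring Qbar) (hA : A.LiesOverPrime P.p)
    (N0 : Submodule (ZMod P.p) (Submodule.torsionBy ℤ (P.freyCurve⁄Qbar).toAffine.Point P.p))
    (hst : IsGaloisStable ℚ N0) (hbot : N0 ≠ ⊥) (htop : N0 ≠ ⊤) :
    (∀ σ ∈ A.inertiaSubgroupIn ℚ,
        ∀ x : Submodule.torsionBy ℤ (P.freyCurve⁄Qbar).toAffine.Point P.p, σ • x - x ∈ N0) ∨
      (∀ σ ∈ A.inertiaSubgroupIn ℚ, ∀ x ∈ N0, σ • x = x) := by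
  have hp2 : P.p ≠ 2 := by have := P.hp5; omega
  refine dichotomy_of (W' := P.freyCurve) P.pp hp2 f hdeg hlead hT1 hcard.1 hcard.2 N0 hst hbot htop
    A hA (fun Pt => InKer A (P.freyCurve⁄Qbar) Pt) inKer_zero
    (fun _ _ h1 h2 => LocalP.frey_inKer_add P P.pp hp2 A hA h1 h2)
    (fun _ h => inKer_neg h) ?_ ?_
  · intro x y h hk
    exact hk x (px_some h)
  · intro σ hσ Pt hPt
    have hx : (P.p : ℤ) • Pt = 0 := (Submodule.mem_torsionBy_iff _ _).mp hPt
    rw [natCast_zsmul] at hx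
    exact LocalP.smul_sub_inKer_frey P P.pp hp2 A hA hσ Pt hx

section FreyInt

variable (P : FreyPackage)

lemma two_dvd_b : (2 : ℤ) ∣ P.b := (ZMod.intCast_zmod_eq_zero_iff_dvd P.b 2).1 P.hb2

lemma sixteen_dvd_b_pow : (16 : ℤ) ∣ P.b ^ P.p := by
  have h1 : (2 : ℤ) ^ P.p ∣ P.b ^ P.p := pow_dvd_pow_of_dvd (two_dvd_b P) _
  have h2 : (2 : ℤ) ^ 4 ∣ 2 ^ P.p := pow_dvd_pow 2 (by have := P.hp5; omega)
  have h3 : (16 : ℤ) = 2 ^ 4 := by norm_num
  rw [h3]
  exact h2.trans h1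

lemma four_dvd_a₂_num : (4 : ℤ) ∣ P.b ^ P.p - 1 - P.a ^ P.p := by
  have hb : (4 : ℤ) ∣ P.b ^ P.p := (by norm_num : (4 : ℤ) ∣ 16).trans (sixteen_dvd_b_pow P)
  have ha : (4 : ℤ) ∣ P.a ^ P.p + 1 := by
    refine (ZMod.intCast_zmod_eq_zero_iff_dvd _ 4).mp ?_
    push_cast
    rw [P.ha4]
    have h3 : (3 : ZMod 4) = -1 := by decide
    rw [h3, P.hp_odd.neg_one_pow]
    ring
  have : P.b ^ P.p - 1 - P.a ^ P.p = P.b ^ P.p - (P.a ^ P.p + 1) := by ring
  rw [this]
  exact dvd_sub hb ha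

lemma sixteen_dvd_a₄_num : (16 : ℤ) ∣ -(P.a ^ P.p) * P.b ^ P.p :=
  Dvd.dvd.mul_left (sixteen_dvd_b_pow P) _

theorem freyCurveInt_map_rat : P.freyCurveInt.map (Int.castRingHom ℚ) = P.freyCurve := by
  ext
  · simp [FreyPackage.freyCurveInt, FreyPackage.freyCurve]
  · simp only [FreyPackage.freyCurveInt, FreyPackage.freyCurve, WeierstrassCurve.map_a₂,
      eq_intCast]
    rw [Int.cast_div (four_dvd_a₂_num P) (by norm_num)]
    push_cast
    ring
  · simp [FreyPackage.freyCurveInt, FreyPackage.freyCurve]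
  · simp only [FreyPackage.freyCurveInt, FreyPackage.freyCurve, WeierstrassCurve.map_a₄,
      eq_intCast]
    rw [Int.cast_div (sixteen_dvd_a₄_num P) (by norm_num)]
    push_cast
    ring
  · simp [FreyPackage.freyCurveInt, FreyPackage.freyCurve]

theorem freyCurveInt_map_Qbar :
    P.freyCurveInt.map (Int.castRingHom Qbar) = P.freyCurve⁄Qbar := by
  have h : Int.castRingHom Qbar = (algebraMap ℚ Qbar).comp (Int.castRingHom ℚ) :=
    RingHom.ext_int _ _
  rw [h, ← WeierstrassCurve.map_map, freyCurveInt_map_rat]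
  rfl

end FreyInt

section FreyTors

variable (P : FreyPackage)

/-- the `p`-torsion polynomial of the Frey curve, with integer coefficients -/
noncomputable def freyTors : ℤ[X] := Ladder.tors P.freyCurveInt (P.p / 2)

lemma frey_p_ne_two : P.p ≠ 2 := by have := P.hp5; omega

theorem freyTors_map :
    (freyTors P).map (Int.castRingHom Qbar) = Ladder.tors (P.freyCurve⁄Qbar) (P.p / 2) := by
  rw [freyTors, Ladder.map_tors, freyCurveInt_map_Qbar]

theorem freyTors_natDegree : 2 * (freyTors P).natDegree = P.p ^ 2 - 1 := by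
  have hk := Ladder.one_le_half P.pp (frey_p_ne_two P)
  have h2 := Ladder.two_mul_half_add_one P.pp (frey_p_ne_two P)
  have hne : ((2 * (P.p / 2) + 1 : ℕ) : ℤ) ≠ 0 := by
    rw [h2]; exact_mod_cast P.hp0
  rw [freyTors, Ladder.natDegree_tors_of_ne P.freyCurveInt _ hk hne]
  have : P.p ^ 2 = (2 * (P.p / 2) + 1) ^ 2 := by rw [h2]
  rw [this]
  have h4 : (2 * (P.p / 2) + 1) ^ 2 = 2 * (2 * (P.p / 2) ^ 2 + 2 * (P.p / 2)) + 1 := by ring
  rw [h4]
  omega

theorem freyTors_leadingCoeff : (freyTors P).leadingCoeff = (P.p : ℤ) := by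
  have hk := Ladder.one_le_half P.pp (frey_p_ne_two P)
  have h2 := Ladder.two_mul_half_add_one P.pp (frey_p_ne_two P)
  have hne : ((2 * (P.p / 2) + 1 : ℕ) : ℤ) ≠ 0 := by
    rw [h2]; exact_mod_cast P.hp0
  rw [freyTors, Ladder.leadingCoeff_tors_of_ne P.freyCurveInt _ hk hne, h2]

theorem freyTors_isRoot (x y : Qbar) (h : (P.freyCurve⁄Qbar).toAffine.Nonsingular x y)
    (hmem : Point.some x y h ∈ Submodule.torsionBy ℤ (P.freyCurve⁄Qbar).toAffine.Point P.p) :
    ((freyTors P).map (Int.castRingHom Qbar)).IsRoot x := by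
  have hx : (P.p : ℤ) • (Point.some x y h : (P.freyCurve⁄Qbar).toAffine.Point) = 0 :=
    (Submodule.mem_torsionBy_iff _ _).mp hmem
  rw [natCast_zsmul] at hx
  rw [freyTors_map, IsRoot.def]
  exact (Ladder.prime_nsmul_eq_zero_iff P.pp (frey_p_ne_two P) (px_some h)).mp hx

theorem frey_card_le :
    Finite (Submodule.torsionBy ℤ (P.freyCurve⁄Qbar).toAffine.Point P.p) ∧
      Nat.card (Submodule.torsionBy ℤ (P.freyCurve⁄Qbar).toAffine.Point P.p) ≤ P.p ^ 2 :=
  Ladder.card_prime_torsion_le (P.freyCurve⁄Qbar) P.pp (frey_p_ne_two P)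

theorem freyCurve_Δ :
    P.freyCurve.Δ = ((P.a : ℚ) ^ P.p * (P.b : ℚ) ^ P.p * (P.c : ℚ) ^ P.p) ^ 2 / 256 := by
  have h : (P.c : ℚ) ^ P.p = (P.a : ℚ) ^ P.p + (P.b : ℚ) ^ P.p := by exact_mod_cast P.hFLT.symm
  rw [h]
  simp only [WeierstrassCurve.Δ, WeierstrassCurve.b₂, WeierstrassCurve.b₄, WeierstrassCurve.b₆,
    WeierstrassCurve.b₈, FreyPackage.freyCurve]
  ring

theorem freyCurve_Δ_ne_zero : (P.freyCurve⁄Qbar).Δ ≠ 0 := by
  intro h0
  change (P.freyCurve.map (algebraMap ℚ Qbar)).Δ = 0 at h0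
  rw [WeierstrassCurve.map_Δ] at h0
  have h1 : P.freyCurve.Δ = 0 := (algebraMap ℚ Qbar).injective (by rw [h0, _root_.map_zero])
  rw [freyCurve_Δ] at h1
  have ha : (P.a : ℚ) ≠ 0 := Int.cast_ne_zero.mpr P.ha0
  have hb : (P.b : ℚ) ≠ 0 := Int.cast_ne_zero.mpr P.hb0
  have hc : (P.c : ℚ) ≠ 0 := Int.cast_ne_zero.mpr P.hc0
  have : ((P.a : ℚ) ^ P.p * (P.b : ℚ) ^ P.p * (P.c : ℚ) ^ P.p) ^ 2 / 256 ≠ 0 := by positivity
  exact this h1

/-- `E[p]` of the Frey curve is nontrivial. -/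
theorem frey_nontrivial :
    Nontrivial (Submodule.torsionBy ℤ (P.freyCurve⁄Qbar).toAffine.Point P.p) := by
  obtain ⟨Pt, hPt0, hPt⟩ := Ladder.exists_torsion_point (P.freyCurve⁄Qbar) (freyCurve_Δ_ne_zero P)
    P.p (by have := P.hp5; omega)
  have hmem : Pt ∈ Submodule.torsionBy ℤ (P.freyCurve⁄Qbar).toAffine.Point P.p := by
    rw [Submodule.mem_torsionBy_iff, natCast_zsmul]
    exact hPt
  refine ⟨⟨⟨Pt, hmem⟩, 0, ?_⟩⟩
  intro h
  exact hPt0 (congrArg Subtype.val h)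

/-- **Dichotomy at `p` for the Frey curve** (unconditional): for `A` over `p` and a Galois-stable
line `N0` of `E[p]`, the inertia group of `A` acts trivially on `E[p]/N0` or on `N0`. -/
theorem dichotomy_at_p (A : ValuationSubring Qbar) (hA : A.LiesOverPrime P.p)
    (N0 : Submodule (ZMod P.p) (Submodule.torsionBy ℤ (P.freyCurve⁄Qbar).toAffine.Point P.p))
    (hst : IsGaloisStable ℚ N0) (hbot : N0 ≠ ⊥) (htop : N0 ≠ ⊤) :
    (∀ σ ∈ A.inertiaSubgroupIn ℚ,
        ∀ x : Submodule.torsionBy ℤ (P.freyCurve⁄Qbar).toAffine.Point P.p, σ • x - x ∈ N0) ∨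
      (∀ σ ∈ A.inertiaSubgroupIn ℚ, ∀ x ∈ N0, σ • x = x) :=
  dichotomy_at_p_of_psi P (freyTors P) (freyTors_natDegree P) (freyTors_leadingCoeff P)
    (freyTors_isRoot P) (frey_card_le P) A hA N0 hst hbot htop

end FreyTors

end Fermat.Agent.S13.AtP
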