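import Mathlib
import Fermat.Agent.S05.Congr
import Fermat.Agent.S05.Inertia
import Fermat.Agent.S05.KernelPx

/-!
# S13 / L2a: congruent integral points with nonsingular reduction differ by a point of the kernel
of reduction, in ARBITRARY residue characteristic (in particular residue characteristic `2`)

`K` a field of characteristic zero, `A` a valuation subring of `K`, `W` a Weierstrass curve over `K`
with `A`-integral coefficients `a₁, a₂`.  If `(x, y)` and `(x', y')` are affine points with
`x ∈ A`, `x' ≡ x`, `y' ≡ y` modulo the maximal ideal, and the reduction of `(x, y)` is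
nonsingular (one of the two partial derivatives is a unit), then `(x', y') - (x, y)` lies in the
kernel of reduction `InKer A W` (it is `0` or has non-integral abscissa).

Contrary to `Fermat.Agent.S05.sub_inKer_of_congr` no hypothesis on `A.valuation 2` is needed: the
proof works directly with the `(x, y)`-coordinates.
-/

set_option autoImplicit false

namespace Fermat.Agent.S13.KerTwo

open WeierstrassCurve WeierstrassCurve.Affine
open Fermat.Agent.S05 Fermat.Agent.S51

variable {K : Type*} [Field K] [DecidableEq K] [CharZero K]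
variable {A : ValuationSubring K} {W : WeierstrassCurve K}

/-- valuation estimate: if `x₄ d² = s² + c₁ s d - c₂ d²` with `c₁, c₂` integral and `v d < v s`,
then `x₄` is not integral. -/
lemma not_mem_of_quadratic {x₄ d s c₁ c₂ : K} (hc₁ : c₁ ∈ A) (hc₂ : c₂ ∈ A) (hd0 : d ≠ 0)
    (hds : A.valuation d < A.valuation s)
    (h : x₄ * d ^ 2 = s ^ 2 + c₁ * s * d - c₂ * d ^ 2) : x₄ ∉ A := by
  set v := A.valuation with hv
  have hvc₁ : v c₁ ≤ 1 := (A.valuation_le_one_iff _).mpr hc₁
  have hvc₂ : v c₂ ≤ 1 := (A.valuation_le_one_iff _).mpr hc₂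
  have hvd0 : v d ≠ 0 := (Valuation.ne_zero_iff v).mpr hd0
  have hvd : 0 < v d := zero_lt_iff.mpr hvd0
  have hvs : 0 < v s := lt_trans hvd hds
  have h1 : v (c₁ * s * d) < v (s ^ 2) := by
    rw [map_mul, map_mul, map_pow, pow_two]
    calc v c₁ * v s * v d ≤ 1 * v s * v d := by gcongr
      _ = v s * v d := by rw [one_mul]
      _ < v s * v s := by gcongr
  have h2 : v (c₂ * d ^ 2) < v (s ^ 2) := by
    rw [map_mul, map_pow, map_pow]
    calc v c₂ * v d ^ 2 ≤ 1 * v d ^ 2 := by gcongr
      _ = v d ^ 2 := one_mul _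
      _ < v s ^ 2 := by gcongr
  have h3 : v (s ^ 2 + c₁ * s * d) = v (s ^ 2) := Valuation.map_add_eq_of_lt_left v h1
  have h4 : v (s ^ 2 + c₁ * s * d - c₂ * d ^ 2) = v (s ^ 2) := by
    have : v (c₂ * d ^ 2) < v (s ^ 2 + c₁ * s * d) := by rw [h3]; exact h2
    rw [Valuation.map_sub_eq_of_lt_left v this, h3]
  have h5 : v x₄ * v d ^ 2 = v s ^ 2 := by
    have := congrArg v h
    rw [h4, map_mul, map_pow, map_pow] at this
    exact this
  rw [not_mem_iff_one_lt]
  by_contra hle
  rw [not_lt] at hle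
  have : v s ^ 2 ≤ v d ^ 2 := by
    rw [← h5]
    calc v x₄ * v d ^ 2 ≤ 1 * v d ^ 2 := by gcongr
      _ = v d ^ 2 := one_mul _
  have hlt : v d ^ 2 < v s ^ 2 := by gcongr
  exact absurd this (not_le.mpr hlt)


/-- **Congruent integral points with nonsingular reduction differ by a point of the kernel of
reduction** (any residue characteristic, `(x, y)`-coordinates). -/
theorem sub_inKer_of_congr_xy (ha₁ : W.a₁ ∈ A) (ha₂ : W.a₂ ∈ A)
    {x y x' y' : K} (h : W.toAffine.Nonsingular x y) (h' : W.toAffine.Nonsingular x' y')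
    (hx : x ∈ A)
    (hdx : A.valuation (x' - x) < 1) (hdy : A.valuation (y' - y) < 1)
    (hns : A.valuation (2 * y + W.a₁ * x + W.a₃) = 1 ∨
      A.valuation (W.a₁ * y - (3 * x ^ 2 + 2 * W.a₂ * x + W.a₄)) = 1) :
    InKer A W (Point.some x' y' h' - Point.some x y h) := by
  set v := A.valuation with hv
  have hva₁ : v W.a₁ ≤ 1 := (A.valuation_le_one_iff _).mpr ha₁
  have hx'A : x' ∈ A := by
    have : x' = (x' - x) + x := by ring
    rw [this]
    exact A.add_mem _ _ ((A.valuation_le_one_iff _).mp hdx.le) hx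
  have h3A : (3 : K) ∈ A := by
    have : (3 : K) = ((3 : ℕ) : K) := by norm_num
    rw [this]; exact natCast_mem A 3
  have heq := (W.toAffine.equation_iff x y).mp h.1
  have heq' := (W.toAffine.equation_iff x' y').mp h'.1
  set d := x' - x with hd
  set e := y' - y with he
  set Fy := 2 * y + W.a₁ * x + W.a₃ with hFy
  set Fx := W.a₁ * y - (3 * x ^ 2 + 2 * W.a₂ * x + W.a₄) with hFx
  -- the fundamental relation
  have hrel : e * (e + Fy) = -(d * (Fx + W.a₁ * e - (3 * x + W.a₂) * d - d ^ 2)) := by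
    simp only [hd, he, hFy, hFx]
    linear_combination heq' - heq
  rw [sub_eq_add_neg, Point.neg_some]
  by_cases hxx : x' = x
  · -- same abscissa
    have hd0 : d = 0 := by rw [hd, hxx, sub_self]
    rcases Y_eq_of_X_eq h'.1 h.1 hxx with hyy | hyy
    · -- the same point
      have : Point.some x' y' h' + Point.some x (W.toAffine.negY x y) ((nonsingular_neg ..).mpr h)
          = 0 := by
        apply Point.add_of_Y_eq hxx
        rw [hyy, negY_negY]
      rw [this]
      exact inKer_zero
    · -- `P' = -P`, so the difference is `-(P + P)`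
      have hFye : Fy = -e := by
        simp only [hFy, he, hyy, Affine.negY]
        ring
      have hvFy : v Fy < 1 := by rw [hFye, Valuation.map_neg]; exact hdy
      have hFx1 : v Fx = 1 := by
        rcases hns with h1 | h1
        · exact absurd h1 (ne_of_lt hvFy)
        · exact h1
      subst hxx
      subst hyy
      by_cases hFy0 : Fy = 0
      · have hneg : W.toAffine.negY x' y = W.toAffine.negY x' (W.toAffine.negY x' y) := by
          rw [negY_negY]
          simp only [Affine.negY]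
          linear_combination -hFy0
        rw [Point.add_self_of_Y_eq hneg]
        exact inKer_zero
      · have hne : W.toAffine.negY x' y ≠ W.toAffine.negY x' (W.toAffine.negY x' y) := by
          rw [negY_negY]
          intro hc
          apply hFy0
          simp only [Affine.negY] at hc
          simp only [hFy]
          linear_combination -hc
        rw [Point.add_self_of_Y_ne hne]
        intro x₂ hx₂
        rw [px_some] at hx₂
        have hx₂' := Option.some.inj hx₂
        rw [slope_of_Y_ne rfl hne, negY_negY] at hx₂'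
        -- slope = Fx / Fy up to sign
        set ℓ := (3 * x' ^ 2 + 2 * W.toAffine.a₂ * x' + W.toAffine.a₄ -
            W.toAffine.a₁ * W.toAffine.negY x' y) / (W.toAffine.negY x' y - y) with hℓ
        have hden : W.toAffine.negY x' y - y = -Fy := by
          simp only [Affine.negY, hFy]; ring
        have hnum : 3 * x' ^ 2 + 2 * W.toAffine.a₂ * x' + W.toAffine.a₄ -
            W.toAffine.a₁ * W.toAffine.negY x' y = -Fx + W.a₁ * Fy := by
          simp only [Affine.negY, hFy, hFx]; ring
        have hℓFy : ℓ * Fy = Fx - W.a₁ * Fy := by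
          rw [hℓ, hden, hnum]
          field_simp
          ring
        have hvFy0 : 0 < v Fy := zero_lt_iff.mpr ((Valuation.ne_zero_iff v).mpr hFy0)
        have hvℓ : 1 < v ℓ := by
          have h1 : v (Fx - W.a₁ * Fy) = 1 := by
            have : v (W.a₁ * Fy) < v Fx := by
              rw [hFx1, map_mul]
              calc v W.a₁ * v Fy ≤ 1 * v Fy := by gcongr
                _ = v Fy := one_mul _
                _ < 1 := hvFy
            rw [Valuation.map_sub_eq_of_lt_left v this, hFx1]
          have h2 : v ℓ * v Fy = 1 := by rw [← map_mul, hℓFy, h1]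
          by_contra hle
          rw [not_lt] at hle
          have : v ℓ * v Fy < 1 := by
            calc v ℓ * v Fy ≤ 1 * v Fy := by gcongr
              _ = v Fy := one_mul _
              _ < 1 := hvFy
          rw [h2] at this
          exact lt_irrefl _ this
        -- `x₂ = ℓ² + a₁ ℓ - a₂ - 2 x'`
        have hx₂'' : x₂ * (1 : K) ^ 2 = ℓ ^ 2 + W.a₁ * ℓ * 1 - (W.a₂ + x' + x') * 1 ^ 2 := by
          rw [← hx₂']
          simp only [Affine.addX]
          ring
        refine not_mem_of_quadratic (A := A) ha₁ (A.add_mem _ _ (A.add_mem _ _ ha₂ hx) hx)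
          one_ne_zero ?_ hx₂''
        rw [map_one]
        exact hvℓ
  · -- different abscissae
    have hd0 : d ≠ 0 := sub_ne_zero.mpr hxx
    rw [Point.add_of_X_ne hxx]
    intro x₄ hx₄
    rw [px_some] at hx₄
    have hx₄' := Option.some.inj hx₄
    rw [slope_of_X_ne hxx] at hx₄'
    set s := e + Fy with hs
    have hsy : y' - W.toAffine.negY x y = s := by
      simp only [Affine.negY, hs, he, hFy]; ring
    have hvd0 : 0 < v d := zero_lt_iff.mpr ((Valuation.ne_zero_iff v).mpr hd0)
    -- `v d < v s`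
    have hds : v d < v s := by
      rcases hns with h1 | h1
      · have : v s = 1 := by
          rw [hs, add_comm]
          rw [← h1]
          exact Valuation.map_add_eq_of_lt_left v (by rw [h1]; exact hdy)
        rw [this]; exact hdx
      · -- `Fx` is a unit
        set u := Fx + W.a₁ * e - (3 * x + W.a₂) * d - d ^ 2 with hu
        have hvu : v u = 1 := by
          have h2 : v (W.a₁ * e) < 1 := by
            rw [map_mul]
            calc v W.a₁ * v e ≤ 1 * v e := by gcongr
              _ = v e := one_mul _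
              _ < 1 := hdy
          have h3 : v ((3 * x + W.a₂) * d) < 1 := by
            have hc : v (3 * x + W.a₂) ≤ 1 :=
              (A.valuation_le_one_iff _).mpr (A.add_mem _ _ (A.mul_mem _ _ h3A hx) ha₂)
            rw [map_mul]
            calc v (3 * x + W.a₂) * v d ≤ 1 * v d := by gcongr
              _ = v d := one_mul _
              _ < 1 := hdx
          have h4 : v (d ^ 2) < 1 := by
            rw [map_pow]; exact pow_lt_one₀ zero_le hdx two_ne_zero
          have e1 : v (Fx + W.a₁ * e) = 1 := by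
            rw [← h1]; exact Valuation.map_add_eq_of_lt_left v (by rw [h1]; exact h2)
          have e2 : v (Fx + W.a₁ * e - (3 * x + W.a₂) * d) = 1 := by
            rw [← e1]; exact Valuation.map_sub_eq_of_lt_left v (by rw [e1]; exact h3)
          rw [hu, ← e2]
          exact Valuation.map_sub_eq_of_lt_left v (by rw [e2]; exact h4)
        have hprod : v e * v s = v d := by
          have := congrArg v hrel
          rw [map_mul, Valuation.map_neg, map_mul, hvu, mul_one] at this
          exact this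
        have hvs0 : 0 < v s := by
          rw [zero_lt_iff]
          intro h0
          rw [h0, mul_zero] at hprod
          exact hvd0.ne hprod
        calc v d = v e * v s := hprod.symm
          _ < 1 * v s := by gcongr
          _ = v s := one_mul _
    have hquad : x₄ * d ^ 2 = s ^ 2 + W.a₁ * s * d - (W.a₂ + x' + x) * d ^ 2 := by
      rw [← hx₄', hsy]
      simp only [Affine.addX]
      field_simp
      ring
    exact not_mem_of_quadratic ha₁ (A.add_mem _ _ (A.add_mem _ _ ha₂ hx'A) hx) hd0 hds hquad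


/-! ### Integrality of the ordinate -/

/-- A point of an integral Weierstrass equation with integral abscissa has integral ordinate. -/
theorem y_mem_of_x_mem (ha₁ : W.a₁ ∈ A) (ha₂ : W.a₂ ∈ A) (ha₃ : W.a₃ ∈ A) (ha₄ : W.a₄ ∈ A)
    (ha₆ : W.a₆ ∈ A) {x y : K} (h : W.toAffine.Equation x y) (hx : x ∈ A) : y ∈ A := by
  have heq := (W.toAffine.equation_iff x y).mp h
  by_contra hy
  set v := A.valuation with hv
  have hvy : 1 < v y := not_mem_iff_one_lt.mp hy
  have hy0 : y ≠ 0 := fun h0 => hy (h0 ▸ A.zero_mem)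
  -- `y (y + a₁ x + a₃) = c` with `c` integral
  have hc : x ^ 3 + W.a₂ * x ^ 2 + W.a₄ * x + W.a₆ ∈ A :=
    A.add_mem _ _ (A.add_mem _ _ (A.add_mem _ _ (pow_mem hx 3) (A.mul_mem _ _ ha₂ (pow_mem hx 2)))
      (A.mul_mem _ _ ha₄ hx)) ha₆
  have hb : W.a₁ * x + W.a₃ ∈ A := A.add_mem _ _ (A.mul_mem _ _ ha₁ hx) ha₃
  have hvb : v (W.a₁ * x + W.a₃) ≤ 1 := (A.valuation_le_one_iff _).mpr hb
  have h1 : v (y + (W.a₁ * x + W.a₃)) = v y :=
    Valuation.map_add_eq_of_lt_left v (lt_of_le_of_lt hvb hvy)
  have h2 : y * (y + (W.a₁ * x + W.a₃)) = x ^ 3 + W.a₂ * x ^ 2 + W.a₄ * x + W.a₆ := by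
    linear_combination heq
  have h3 : v y * v y ≤ 1 := by
    have := (A.valuation_le_one_iff _).mpr hc
    rw [← h2, map_mul, h1] at this
    exact this
  have h4 : 1 < v y * v y := by
    calc (1 : A.ValueGroup) = 1 * 1 := (one_mul 1).symm
      _ < v y * v y := mul_lt_mul'' hvy hvy zero_le_one zero_le_one
  exact absurd h3 (not_le.mpr h4)

/-! ### The kernel of reduction for integral equations (no hypothesis on `2`) -/

/-- The kernel of reduction is stable under multiplication by natural numbers. -/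
theorem inKer_nsmul_of_coeff (ha₁ : W.a₁ ∈ A) (ha₂ : W.a₂ ∈ A) (ha₃ : W.a₃ ∈ A) (ha₄ : W.a₄ ∈ A)
    (ha₆ : W.a₆ ∈ A) {P : W.toAffine.Point} (hP : InKer A W P) (n : ℕ) : InKer A W (n • P) := by
  have h2 : (2 : K) ≠ 0 := two_ne_zero
  obtain ⟨hb2, hb4, hb6, hb8⟩ := Kernel.b_mem A ha₁ ha₂ ha₃ ha₄ ha₆
  rcases inKer_iff_kernel.mp hP with rfl | hx
  · rw [smul_zero]; exact inKer_zero
  · have hP0 : P ≠ 0 := by
      rintro rfl
      exact hx (by simp [A.zero_mem])
    have := (Kernel.inv_nsmul A h2 hb2 hb4 hb6 hb8 hP0 hx n).1.1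
    exact inKer_iff_kernel.mpr this

/-- **The kernel of reduction has no `n`-torsion for `n` a unit of `A`** (integral equation, any
residue characteristic). -/
theorem eq_zero_of_inKer_of_nsmul_eq_zero_of_coeff (ha₁ : W.a₁ ∈ A) (ha₂ : W.a₂ ∈ A)
    (ha₃ : W.a₃ ∈ A) (ha₄ : W.a₄ ∈ A) (ha₆ : W.a₆ ∈ A) {n : ℕ} (hn : A.valuation (n : K) = 1)
    {P : W.toAffine.Point} (hP : InKer A W P) (hnP : n • P = 0) : P = 0 := by
  by_contra hP0
  have hx : Kernel.xCoord P ∉ A := (inKer_iff_kernel.mp hP).resolve_left hP0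
  have hn' : (n : K) ∉ A.nonunits := by
    rw [ValuationSubring.mem_nonunits_iff, hn]
    exact lt_irrefl _
  exact Kernel.nsmul_ne_zero_of_xCoord_not_mem A two_ne_zero ha₁ ha₂ ha₃ ha₄ ha₆ n hn' hP0 hx hnP

section Galois

local notation "Qbar" => AlgebraicClosure ℚ

open scoped Pointwise

/-- If `σ • P - P` lies in the kernel of reduction of an integral equation and `P` is killed by a
unit `n` of `A`, then `σ • P = P`. -/
theorem smul_eq_of_sub_inKer_of_coeff (E : WeierstrassCurve ℚ) (A : ValuationSubring Qbar)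
    (ha₁ : (E⁄Qbar).a₁ ∈ A) (ha₂ : (E⁄Qbar).a₂ ∈ A) (ha₃ : (E⁄Qbar).a₃ ∈ A)
    (ha₄ : (E⁄Qbar).a₄ ∈ A) (ha₆ : (E⁄Qbar).a₆ ∈ A)
    {n : ℕ} (hn : A.valuation (n : Qbar) = 1) (σ : Qbar ≃ₐ[ℚ] Qbar)
    {P : (E⁄Qbar).toAffine.Point} (hnP : n • P = 0)
    (hker : InKer A (E⁄Qbar) (σ • P - P)) : σ • P = P := by
  have h1 : n • (σ • P - P) = 0 := by
    rw [nsmul_sub, hnP, sub_zero]
    have : n • (σ • P) = σ • (n • P) := by
      change n • (WeierstrassCurve.Affine.Point.map σ.toAlgHom P) =
        WeierstrassCurve.Affine.Point.map σ.toAlgHom (n • P)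
      rw [map_nsmul]
    rw [this, hnP]
    rfl
  have := eq_zero_of_inKer_of_nsmul_eq_zero_of_coeff ha₁ ha₂ ha₃ ha₄ ha₆ hn hker h1
  exact sub_eq_zero.mp this

/-- **Inertia moves an integral point with nonsingular reduction by a point of the kernel of
reduction** (any residue characteristic). -/
theorem smul_sub_inKer_xy (E : WeierstrassCurve ℚ) (A : ValuationSubring Qbar)
    (ha₁ : (E⁄Qbar).a₁ ∈ A) (ha₂ : (E⁄Qbar).a₂ ∈ A)
    {σ : Qbar ≃ₐ[ℚ] Qbar} (hσ : σ ∈ A.inertiaSubgroupIn ℚ)
    {x y : Qbar} (h : (E⁄Qbar).toAffine.Nonsingular x y) (hx : x ∈ A) (hy : y ∈ A)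
    (hns : A.valuation (2 * y + (E⁄Qbar).a₁ * x + (E⁄Qbar).a₃) = 1 ∨
      A.valuation ((E⁄Qbar).a₁ * y - (3 * x ^ 2 + 2 * (E⁄Qbar).a₂ * x + (E⁄Qbar).a₄)) = 1) :
    InKer A (E⁄Qbar) (σ • (Point.some x y h : (E⁄Qbar).toAffine.Point) - Point.some x y h) := by
  have hσP : ∃ h' : (E⁄Qbar).toAffine.Nonsingular (σ x) (σ y),
      σ • (Point.some x y h : (E⁄Qbar).toAffine.Point) = Point.some (σ x) (σ y) h' :=
    ⟨_, rfl⟩
  obtain ⟨h', hσP⟩ := hσP
  rw [hσP]
  exact sub_inKer_of_congr_xy ha₁ ha₂ h h' hx (valuation_apply_sub_lt_one hσ hx)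
    (valuation_apply_sub_lt_one hσ hy) hns

/-- **Inertia fixes torsion points with integral coordinates and nonsingular reduction**, when the
order is a unit of `A` (integral equation, any residue characteristic). -/
theorem smul_eq_of_nonsingular_reduction (E : WeierstrassCurve ℚ) (A : ValuationSubring Qbar)
    (ha₁ : (E⁄Qbar).a₁ ∈ A) (ha₂ : (E⁄Qbar).a₂ ∈ A) (ha₃ : (E⁄Qbar).a₃ ∈ A)
    (ha₄ : (E⁄Qbar).a₄ ∈ A) (ha₆ : (E⁄Qbar).a₆ ∈ A)
    {n : ℕ} (hn : A.valuation (n : Qbar) = 1)
    {σ : Qbar ≃ₐ[ℚ] Qbar} (hσ : σ ∈ A.inertiaSubgroupIn ℚ)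
    {x y : Qbar} (h : (E⁄Qbar).toAffine.Nonsingular x y) (hx : x ∈ A)
    (hnP : n • (Point.some x y h : (E⁄Qbar).toAffine.Point) = 0)
    (hns : A.valuation (2 * y + (E⁄Qbar).a₁ * x + (E⁄Qbar).a₃) = 1 ∨
      A.valuation ((E⁄Qbar).a₁ * y - (3 * x ^ 2 + 2 * (E⁄Qbar).a₂ * x + (E⁄Qbar).a₄)) = 1) :
    σ • (Point.some x y h : (E⁄Qbar).toAffine.Point) = Point.some x y h := by
  have hy : y ∈ A := y_mem_of_x_mem ha₁ ha₂ ha₃ ha₄ ha₆ h.1 hx
  exact smul_eq_of_sub_inKer_of_coeff E A ha₁ ha₂ ha₃ ha₄ ha₆ hn σ hnP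
    (smul_sub_inKer_xy E A ha₁ ha₂ hσ h hx hy hns)

end Galois

end Fermat.Agent.S13.KerTwo
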