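import Mathlib
import Fermat.Prelude.Def_FLTPrelim_FreyPackage
import Fermat.Prelude.Def_FLTPrelim_GaloisRep
import Fermat.Prelude.Def_FLTPrelim_Ramification
import Fermat.Agent.S05.KernelPx
import Fermat.Agent.S05.FreyLocalOrd
import Fermat.Agent.S13.KerTwo
import Fermat.Agent.Lib.Frobenius

/-!
# S13 [L2]: the prime `2`

The Frey curve `y² + x y = x³ + a₂ x² + a₄ x` (`a₂, a₄ ∈ ℤ`, `a₄` even and nonzero) has
multiplicative reduction at `2`, with node `(0, 0)`.  For a valuation subring `A` of `Qbar` over `2`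
and `σ` in the inertia group of `A` we show that `σ - 1` is nilpotent of order two on the
`p`-torsion (`unipotent_at_two`), and that there is no nonzero rational `p`-torsion point
(`no_rational_torsion`), the latter modulo the component relation at `2`.
-/

set_option autoImplicit false
set_option linter.unusedSectionVars false

namespace Fermat.Agent.S13.AtTwo

open WeierstrassCurve WeierstrassCurve.Affine
open Fermat.Agent.S05 Fermat.Agent.S51

/-! ### General lemmas on the model `y² + x y = x³ + a₂ x² + a₄ x` -/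

section General

variable {K : Type*} [Field K] [DecidableEq K] [CharZero K]
variable {A : ValuationSubring K} {W : WeierstrassCurve K}

/-- the abscissa of a difference of two affine points with distinct abscissas -/
lemma xCoord_sub_of_ne {x₁ y₁ x₂ y₂ : K} (h₁ : W.toAffine.Nonsingular x₁ y₁)
    (h₂ : W.toAffine.Nonsingular x₂ y₂) (hx : x₁ ≠ x₂) :
    Kernel.xCoord (Point.some x₁ y₁ h₁ - Point.some x₂ y₂ h₂) =
      W.toAffine.addX x₁ x₂ (W.toAffine.slope x₁ x₂ y₁ (W.toAffine.negY x₂ y₂)) := by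
  rw [sub_eq_add_neg, Point.neg_some, Point.add_of_X_ne hx]
  rfl

/-- product formula: for a curve with `a₃ = a₆ = 0` the third intersection point of the chord
through `(x₁, y₁)`, `(x₂, y₂)` has abscissa `x₃` with `x₃ x₁ x₂ (x₁ - x₂)² = (x₁ y₂ - x₂ y₁)²`. -/
lemma addX_mul_of_a3_a6 (ha3 : W.a₃ = 0) (ha6 : W.a₆ = 0) {x₁ y₁ x₂ y₂ : K}
    (h₁ : W.toAffine.Equation x₁ y₁) (h₂ : W.toAffine.Equation x₂ y₂) (hx : x₁ ≠ x₂) :
    W.toAffine.addX x₁ x₂ (W.toAffine.slope x₁ x₂ y₁ y₂) * (x₁ * x₂ * (x₁ - x₂) ^ 2) =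
      (x₁ * y₂ - x₂ * y₁) ^ 2 := by
  rw [Affine.slope_of_X_ne hx]
  have hd : x₁ - x₂ ≠ 0 := sub_ne_zero.mpr hx
  have E₁ := (Affine.equation_iff ..).mp h₁
  have E₂ := (Affine.equation_iff ..).mp h₂
  simp only [ha3, ha6] at E₁ E₂
  simp only [Affine.addX]
  field_simp
  linear_combination (x₂ * (x₁ - x₂)) * E₁ - (x₁ * (x₁ - x₂)) * E₂

/-- the curve equation of the model `a₁ = 1`, `a₃ = a₆ = 0` -/
lemma equation_model (ha1 : W.a₁ = 1) (ha3 : W.a₃ = 0) (ha6 : W.a₆ = 0) {x y : K}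
    (h : W.toAffine.Equation x y) : y ^ 2 + x * y = x ^ 3 + W.a₂ * x ^ 2 + W.a₄ * x := by
  have E := (Affine.equation_iff ..).mp h
  simp only [ha1, ha3, ha6] at E
  linear_combination E

/-- near the node the slope `w = y / x` is integral -/
lemma slope_mem (ha1 : W.a₁ = 1) (ha3 : W.a₃ = 0) (ha6 : W.a₆ = 0) (ha2 : W.a₂ ∈ A)
    {x y : K} (h : W.toAffine.Equation x y) (hx0 : x ≠ 0) (hxA : x ∈ A)
    (ha4x : A.valuation W.a₄ ≤ A.valuation x) : y / x ∈ A := by
  have E := equation_model ha1 ha3 ha6 h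
  set v := A.valuation with hv
  have hw : (y / x) * (y / x + 1) = x + W.a₂ + W.a₄ / x := by
    field_simp
    linear_combination E
  have hR : x + W.a₂ + W.a₄ / x ∈ A := by
    refine A.add_mem _ _ (A.add_mem _ _ hxA ha2) ?_
    rw [← A.valuation_le_one_iff, map_div₀]
    exact div_le_one_of_le₀ ha4x zero_le
  by_contra hwA
  have h1 : 1 < v (y / x) := not_mem_iff_one_lt.mp hwA
  have h2 : v (y / x + 1) = v (y / x) := by
    apply Valuation.map_add_eq_of_lt_left
    rw [map_one]; exact h1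
  have h3 : v ((y / x) * (y / x + 1)) = v (y / x) * v (y / x) := by rw [map_mul, h2]
  have h4 : 1 < v (y / x) * v (y / x) := by
    calc (1 : A.ValueGroup) = 1 * 1 := (one_mul 1).symm
      _ < v (y / x) * v (y / x) := mul_lt_mul'' h1 h1 zero_le zero_le
  rw [← h3, hw] at h4
  exact absurd ((A.valuation_le_one_iff _).mpr hR) (not_le.mpr h4)

/-- **Same-branch lemma.** Two affine points near the node with abscissas of the same valuation
(not smaller than that of `a₄`) and congruent slopes `y / x` are equal, or their difference does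
not reduce to the node. -/
theorem same_branch (h2 : (2 : K) ∈ A.nonunits) (ha1 : W.a₁ = 1) (ha3 : W.a₃ = 0)
    (ha6 : W.a₆ = 0) (ha2 : W.a₂ ∈ A)
    {x y x' y' : K} (h : W.toAffine.Nonsingular x y) (h' : W.toAffine.Nonsingular x' y')
    (hx0 : x ≠ 0) (hxA : x ∈ A) (hxx' : A.valuation x' = A.valuation x)
    (ha4x : A.valuation W.a₄ ≤ A.valuation x)
    (hw : A.valuation (y' / x' - y / x) < 1) :
    Point.some x' y' h' = Point.some x y h ∨
      Kernel.xCoord (Point.some x' y' h' - Point.some x y h) ∉ A.nonunits := by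
  set v := A.valuation with hv
  have hx'0 : x' ≠ 0 := by
    intro h0
    rw [h0, map_zero] at hxx'
    exact hx0 ((map_eq_zero _).mp hxx'.symm)
  have hwA : y / x ∈ A := slope_mem ha1 ha3 ha6 ha2 h.1 hx0 hxA ha4x
  -- `u = w + w' + 1` is a unit
  have hu : v (y / x + y' / x' + 1) = 1 := by
    have h2w : v (2 * (y / x)) < 1 := by
      rw [map_mul]
      calc v 2 * v (y / x) ≤ v 2 * 1 := by
            gcongr; exact (A.valuation_le_one_iff _).mpr hwA
        _ = v 2 := mul_one _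
        _ < 1 := A.mem_nonunits_iff.mp h2
    have he : v (2 * (y / x) + (y' / x' - y / x)) < 1 :=
      lt_of_le_of_lt (v.map_add _ _) (max_lt h2w hw)
    have : y / x + y' / x' + 1 = 1 + (2 * (y / x) + (y' / x' - y / x)) := by ring
    rw [this]
    exact v.map_one_add_of_lt he
  by_cases hxx : x' = x
  · left
    subst hxx
    rcases W.toAffine.Y_eq_of_X_eq h'.1 h.1 rfl with hy | hy
    · subst hy; rfl
    · exfalso
      have hneg : y' = -y - x' := by
        rw [hy]; simp only [Affine.negY, ha1, ha3]; ring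
      have h1 : y' / x' - y / x' = -(2 * (y / x') + 1) := by
        rw [hneg]; field_simp; ring
      have h2w : v (2 * (y / x')) < 1 := by
        rw [map_mul]
        calc v 2 * v (y / x') ≤ v 2 * 1 := by
              gcongr; exact (A.valuation_le_one_iff _).mpr hwA
          _ = v 2 := mul_one _
          _ < 1 := A.mem_nonunits_iff.mp h2
      have h3 : v (2 * (y / x') + 1) = 1 := by
        rw [add_comm]; exact v.map_one_add_of_lt h2w
      rw [h1, Valuation.map_neg, h3] at hw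
      exact lt_irrefl _ hw
  · right
    rw [xCoord_sub_of_ne h' h hxx]
    have hneg : W.toAffine.Equation x (W.toAffine.negY x y) := (Affine.equation_neg _ _).mpr h.1
    have key := addX_mul_of_a3_a6 ha3 ha6 h'.1 hneg hxx
    set xD := W.toAffine.addX x' x (W.toAffine.slope x' x y' (W.toAffine.negY x y)) with hxD
    have hrhs : x' * W.toAffine.negY x y - x * y' = -(x * x' * (y / x + y' / x' + 1)) := by
      simp only [Affine.negY, ha1, ha3]
      field_simp
      ring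
    rw [hrhs] at key
    have hvk := congrArg v key
    simp only [map_mul, map_pow, Valuation.map_neg, hu, mul_one, hxx'] at hvk
    -- `v xD * (v x * v x * v (x' - x) ^ 2) = (v x * v x) ^ 2`
    intro hsmall
    have hlt : v xD < 1 := A.mem_nonunits_iff.mp hsmall
    have hd0 : x' - x ≠ 0 := sub_ne_zero.mpr hxx
    have hdpos : 0 < v (x' - x) := (Valuation.pos_iff v).mpr hd0
    have hxpos : 0 < v x := (Valuation.pos_iff v).mpr hx0
    have hdle : v (x' - x) ≤ v x := by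
      refine le_trans (Valuation.map_sub _ _ _) (max_le hxx'.le le_rfl)
    have hcontra : v xD * (v x * v x * v (x' - x) ^ 2) < (v x * v x) ^ 2 := by
      calc v xD * (v x * v x * v (x' - x) ^ 2) < 1 * (v x * v x * v (x' - x) ^ 2) := by
            apply mul_lt_mul_of_pos_right hlt
            exact mul_pos (mul_pos hxpos hxpos) (pow_pos hdpos 2)
        _ = v x * v x * v (x' - x) ^ 2 := one_mul _
        _ ≤ v x * v x * v x ^ 2 := by gcongr
        _ = (v x * v x) ^ 2 := by rw [pow_two (v x), pow_two]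
    rw [hvk] at hcontra
    exact lt_irrefl _ hcontra

/-- **Deep case.** A point whose abscissa is closer to the node than `a₄` doubles into the kernel
of reduction. -/
theorem xCoord_add_self_not_mem (ha1 : W.a₁ = 1) (ha3 : W.a₃ = 0) (ha6 : W.a₆ = 0)
    (ha2 : W.a₂ ∈ A) (ha4 : W.a₄ ∈ A.nonunits) {P : W.toAffine.Point} (hP : P ≠ 0)
    (h2P : P + P ≠ 0) (hx : A.valuation (Kernel.xCoord P) < A.valuation W.a₄) :
    Kernel.xCoord (P + P) ∉ A := by
  set v := A.valuation with hv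
  set x := Kernel.xCoord P with hxdef
  have key := Kernel.xCoord_add_self hP h2P
  rw [← hxdef] at key
  have hnum : Kernel.dblNum W.toAffine x = (x ^ 2 - W.a₄) ^ 2 := by
    simp only [Kernel.dblNum, WeierstrassCurve.b₄, WeierstrassCurve.b₆, WeierstrassCurve.b₈,
      ha1, ha3, ha6]
    ring
  have hden : Kernel.dblDen W.toAffine x = x * (4 * x ^ 2 + W.b₂ * x + 4 * W.a₄) := by
    simp only [Kernel.dblDen, WeierstrassCurve.b₄, WeierstrassCurve.b₆, ha1, ha3, ha6]
    ring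
  rw [hnum, hden] at key
  have hm1 : v W.a₄ < 1 := A.mem_nonunits_iff.mp ha4
  have hmpos : 0 < v W.a₄ := lt_of_le_of_lt zero_le hx
  have hx1 : v x < 1 := lt_trans hx hm1
  have h4 : v (4 : K) ≤ 1 := (A.valuation_le_one_iff _).mpr (by exact_mod_cast natCast_mem A 4)
  have hb2 : v W.b₂ ≤ 1 := by
    apply (A.valuation_le_one_iff _).mpr
    simp only [WeierstrassCurve.b₂, ha1]
    exact A.add_mem _ _ (pow_mem A.one_mem 2)
      (A.mul_mem _ _ (by exact_mod_cast natCast_mem A 4) ha2)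
  have hx2 : v (x ^ 2) < v W.a₄ := by
    rw [map_pow, pow_two]
    calc v x * v x ≤ v x * 1 := by gcongr
      _ = v x := mul_one _
      _ < v W.a₄ := hx
  have hN : v ((x ^ 2 - W.a₄) ^ 2) = v W.a₄ * v W.a₄ := by
    rw [map_pow, Valuation.map_sub_eq_of_lt_right v hx2, pow_two]
  have hD : v (4 * x ^ 2 + W.b₂ * x + 4 * W.a₄) ≤ v W.a₄ := by
    refine Valuation.map_add_le v (Valuation.map_add_le v ?_ ?_) ?_
    · rw [map_mul]
      calc v 4 * v (x ^ 2) ≤ 1 * v (x ^ 2) := by gcongr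
        _ = v (x ^ 2) := one_mul _
        _ ≤ v W.a₄ := hx2.le
    · rw [map_mul]
      calc v W.b₂ * v x ≤ 1 * v x := by gcongr
        _ = v x := one_mul _
        _ ≤ v W.a₄ := hx.le
    · rw [map_mul]
      calc v 4 * v W.a₄ ≤ 1 * v W.a₄ := by gcongr
        _ = v W.a₄ := one_mul _
  intro hmem
  have hle : v (Kernel.xCoord (P + P)) ≤ 1 := (A.valuation_le_one_iff _).mpr hmem
  have hvk := congrArg v key
  rw [hN, map_mul, map_mul] at hvk
  have : v W.a₄ * v W.a₄ < v W.a₄ * v W.a₄ := by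
    calc v W.a₄ * v W.a₄ = v (Kernel.xCoord (P + P)) *
          (v x * v (4 * x ^ 2 + W.b₂ * x + 4 * W.a₄)) := hvk.symm
      _ ≤ 1 * (v x * v (4 * x ^ 2 + W.b₂ * x + 4 * W.a₄)) := by gcongr
      _ = v x * v (4 * x ^ 2 + W.b₂ * x + 4 * W.a₄) := one_mul _
      _ ≤ v x * v W.a₄ := by gcongr
      _ < v W.a₄ * v W.a₄ := mul_lt_mul_of_pos_right hx hmpos
  exact lt_irrefl _ this

end General

/-! ### Inertia at a place of residue characteristic `2` -/

section Galois

local notation "Qbar" => AlgebraicClosure ℚ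

variable (E : WeierstrassCurve ℚ) (A : ValuationSubring Qbar)

/-- Galois commutes with multiplication by `n` -/
lemma galois_nsmul (σ : Qbar ≃ₐ[ℚ] Qbar) (n : ℕ) (Q : (E⁄Qbar).toAffine.Point) :
    n • (σ • Q) = σ • (n • Q) := by
  change n • (WeierstrassCurve.Affine.Point.map σ.toAlgHom Q) =
    WeierstrassCurve.Affine.Point.map σ.toAlgHom (n • Q)
  rw [map_nsmul]

lemma galois_zero (σ : Qbar ≃ₐ[ℚ] Qbar) : σ • (0 : (E⁄Qbar).toAffine.Point) = 0 :=
  smul_zero (A := (E⁄Qbar).Point) σ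

lemma galois_sub (σ : Qbar ≃ₐ[ℚ] Qbar) (Q R : (E⁄Qbar).toAffine.Point) :
    σ • (Q - R) = σ • Q - σ • R :=
  smul_sub (A := (E⁄Qbar).Point) σ Q R

/-- a point killed by `2` and by an odd number is zero -/
lemma eq_zero_of_two_of_odd {G : Type*} [AddGroup G] {Q : G} {n : ℕ} (hodd : Odd n)
    (h2 : Q + Q = 0) (hn : n • Q = 0) : Q = 0 := by
  obtain ⟨k, rfl⟩ := hodd
  have h2' : (2 : ℕ) • Q = 0 := by rw [two_nsmul]; exact h2
  rw [add_nsmul, mul_nsmul, h2', smul_zero, zero_add, one_nsmul] at hn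
  exact hn

variable {E A}

/-- **Unit case**: inertia fixes torsion points (of order prime to the residue characteristic)
whose abscissa is a unit. -/
theorem smul_eq_of_unit (h2 : (2 : Qbar) ∈ A.nonunits)
    (ha1 : (E⁄Qbar).a₁ = 1) (ha3 : (E⁄Qbar).a₃ = 0) (ha6 : (E⁄Qbar).a₆ = 0)
    (ha2 : (E⁄Qbar).a₂ ∈ A) (ha4 : (E⁄Qbar).a₄ ∈ A)
    {n : ℕ} (hn : A.valuation (n : Qbar) = 1)
    {σ : Qbar ≃ₐ[ℚ] Qbar} (hσ : σ ∈ A.inertiaSubgroupIn ℚ)
    {Q : (E⁄Qbar).toAffine.Point} (hnQ : n • Q = 0)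
    (hQ : Q = 0 ∨ Kernel.xCoord Q ∉ A.nonunits) : σ • Q = Q := by
  have h1A : (E⁄Qbar).a₁ ∈ A := by rw [ha1]; exact A.one_mem
  have h3A : (E⁄Qbar).a₃ ∈ A := by rw [ha3]; exact A.zero_mem
  have h6A : (E⁄Qbar).a₆ ∈ A := by rw [ha6]; exact A.zero_mem
  cases Q with
  | zero => exact galois_zero E σ
  | some x y h =>
    have hx : x ∉ A.nonunits := by
      rcases hQ with hQ | hQ
      · exact absurd hQ (Point.some_ne_zero h)
      · simpa using hQ
    by_cases hxA : x ∈ A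
    · have hyA : y ∈ A := KerTwo.y_mem_of_x_mem h1A ha2 h3A ha4 h6A h.1 hxA
      have hxu : A.valuation x = 1 := by
        rcases lt_or_eq_of_le ((A.valuation_le_one_iff _).mpr hxA) with h' | h'
        · exact absurd (A.mem_nonunits_iff.mpr h') hx
        · exact h'
      have h2y : A.valuation (2 * y) < 1 := by
        rw [map_mul]
        calc A.valuation 2 * A.valuation y ≤ A.valuation 2 * 1 := by
              gcongr; exact (A.valuation_le_one_iff _).mpr hyA
          _ = A.valuation 2 := mul_one _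
          _ < 1 := A.mem_nonunits_iff.mp h2
      have hns : A.valuation (2 * y + (E⁄Qbar).a₁ * x + (E⁄Qbar).a₃) = 1 := by
        rw [ha1, ha3, add_zero, one_mul, add_comm, ← hxu]
        exact Valuation.map_add_eq_of_lt_left _ (by rw [hxu]; exact h2y)
      exact KerTwo.smul_eq_of_nonsingular_reduction E A h1A ha2 h3A ha4 h6A hn hσ h hxA hnQ
        (Or.inl hns)
    · exfalso
      have hker : InKer A (E⁄Qbar) (Point.some x y h) := by
        rw [inKer_iff_kernel]; right; simpa using hxA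
      exact Point.some_ne_zero h
        (KerTwo.eq_zero_of_inKer_of_nsmul_eq_zero_of_coeff h1A ha2 h3A ha4 h6A hn hker hnQ)

/-- **Component step**: for a torsion point `Pt` of odd order prime to the residue characteristic,
`σ • Pt - Pt` is zero or does not reduce to the node. -/
theorem smul_sub_nonsing (h2 : (2 : Qbar) ∈ A.nonunits)
    (ha1 : (E⁄Qbar).a₁ = 1) (ha3 : (E⁄Qbar).a₃ = 0) (ha6 : (E⁄Qbar).a₆ = 0)
    (ha2 : (E⁄Qbar).a₂ ∈ A) (ha4 : (E⁄Qbar).a₄ ∈ A.nonunits) (ha4ne : (E⁄Qbar).a₄ ≠ 0)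
    {n : ℕ} (hn : A.valuation (n : Qbar) = 1) (hodd : Odd n)
    {σ : Qbar ≃ₐ[ℚ] Qbar} (hσ : σ ∈ A.inertiaSubgroupIn ℚ)
    {Pt : (E⁄Qbar).toAffine.Point} (hnP : n • Pt = 0) :
    σ • Pt - Pt = 0 ∨ Kernel.xCoord (σ • Pt - Pt) ∉ A.nonunits := by
  have h1A : (E⁄Qbar).a₁ ∈ A := by rw [ha1]; exact A.one_mem
  have h3A : (E⁄Qbar).a₃ ∈ A := by rw [ha3]; exact A.zero_mem
  have h6A : (E⁄Qbar).a₆ ∈ A := by rw [ha6]; exact A.zero_mem
  have h4A : (E⁄Qbar).a₄ ∈ A := A.nonunits_le ha4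
  by_cases hx : Pt = 0 ∨ Kernel.xCoord Pt ∉ A.nonunits
  · left
    rw [smul_eq_of_unit h2 ha1 ha3 ha6 ha2 h4A hn hσ hnP hx, sub_self]
  rw [not_or, not_not] at hx
  obtain ⟨hP0, hxs⟩ := hx
  -- `2 • Pt ≠ 0`
  have h2P : Pt + Pt ≠ 0 := fun h => hP0 (eq_zero_of_two_of_odd hodd h hnP)
  by_cases hdeep : A.valuation (Kernel.xCoord Pt) < A.valuation (E⁄Qbar).a₄
  · -- deep case: `2 • Pt` is in the kernel of reduction
    exfalso
    have hnot := xCoord_add_self_not_mem ha1 ha3 ha6 ha2 ha4 hP0 h2P hdeep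
    have hker : InKer A (E⁄Qbar) (Pt + Pt) := by
      rw [inKer_iff_kernel]; exact Or.inr hnot
    have hn2 : n • (Pt + Pt) = 0 := by rw [nsmul_add, hnP, add_zero]
    exact h2P (KerTwo.eq_zero_of_inKer_of_nsmul_eq_zero_of_coeff h1A ha2 h3A h4A h6A hn hker hn2)
  · -- branch case
    rw [not_lt] at hdeep
    cases Pt with
    | zero => exact absurd rfl hP0
    | some x y h =>
      simp only [Kernel.xCoord_some] at hxs hdeep
      have hxA : x ∈ A := A.nonunits_le hxs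
      have hx0 : x ≠ 0 := by
        intro h0
        rw [h0, map_zero] at hdeep
        exact ha4ne ((map_eq_zero _).mp (le_antisymm hdeep zero_le))
      obtain ⟨h', hσP⟩ : ∃ h' : (E⁄Qbar).toAffine.Nonsingular (σ x) (σ y),
          σ • (Point.some x y h : (E⁄Qbar).toAffine.Point) = Point.some (σ x) (σ y) h' :=
        ⟨_, rfl⟩
      rw [hσP]
      have hwA : y / x ∈ A := slope_mem ha1 ha3 ha6 ha2 h.1 hx0 hxA hdeep
      have hw : A.valuation (σ y / σ x - y / x) < 1 := by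
        have := valuation_apply_sub_lt_one hσ hwA
        rwa [map_div₀] at this
      rcases same_branch h2 ha1 ha3 ha6 ha2 h h' hx0 hxA (valuation_apply_eq_rat hσ x) hdeep hw
        with heq | hns
      · left; rw [heq, sub_self]
      · right; exact hns

/-- **Inertia at `2` acts unipotently** on torsion points of odd order prime to the residue
characteristic of the model `y² + x y = x³ + a₂ x² + a₄ x`, `a₄` small and nonzero. -/
theorem unipotent_of_model (h2 : (2 : Qbar) ∈ A.nonunits)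
    (ha1 : (E⁄Qbar).a₁ = 1) (ha3 : (E⁄Qbar).a₃ = 0) (ha6 : (E⁄Qbar).a₆ = 0)
    (ha2 : (E⁄Qbar).a₂ ∈ A) (ha4 : (E⁄Qbar).a₄ ∈ A.nonunits) (ha4ne : (E⁄Qbar).a₄ ≠ 0)
    {n : ℕ} (hn : A.valuation (n : Qbar) = 1) (hodd : Odd n)
    {σ : Qbar ≃ₐ[ℚ] Qbar} (hσ : σ ∈ A.inertiaSubgroupIn ℚ)
    {Pt : (E⁄Qbar).toAffine.Point} (hnP : n • Pt = 0) :
    σ • (σ • Pt - Pt) = σ • Pt - Pt := by
  have hD : n • (σ • Pt - Pt) = 0 := by
    rw [nsmul_sub, galois_nsmul, hnP, galois_zero, sub_zero]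
  exact smul_eq_of_unit h2 ha1 ha3 ha6 ha2 (A.nonunits_le ha4) hn hσ hD
    (smul_sub_nonsing h2 ha1 ha3 ha6 ha2 ha4 ha4ne hn hodd hσ hnP)

end Galois

/-! ### The Frey curve at `2` -/

section Frey

local notation "Qbar" => AlgebraicClosure ℚ

variable (P : FreyPackage)

/-- `2 ∣ b` -/
lemma two_dvd_b : (2 : ℤ) ∣ P.b := (ZMod.intCast_zmod_eq_zero_iff_dvd P.b 2).1 P.hb2

/-- `32 ∣ b ^ p` -/
lemma thirtytwo_dvd : (32 : ℤ) ∣ P.b ^ P.p := by
  have h1 : (2 : ℤ) ^ 5 ∣ P.b ^ 5 := pow_dvd_pow_of_dvd (two_dvd_b P) 5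
  have h2 : P.b ^ 5 ∣ P.b ^ P.p := pow_dvd_pow P.b P.hp5
  have : (32 : ℤ) = 2 ^ 5 := by norm_num
  rw [this]
  exact h1.trans h2

/-- `a` is odd -/
lemma a_odd : ¬ (2 : ℤ) ∣ P.a := by
  intro h
  have h4 := P.ha4
  obtain ⟨k, hk⟩ := h
  rw [hk] at h4
  push_cast at h4
  have h5 : ((2 : ZMod 4) * (k : ZMod 4)) * 2 = 3 * 2 := by rw [h4]
  have h6 : ((2 : ZMod 4) * (k : ZMod 4)) * 2 = 0 := by
    have : (2 : ZMod 4) * (k : ZMod 4) * 2 = 4 * (k : ZMod 4) := by ring
    rw [this]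
    have : (4 : ZMod 4) = 0 := by decide
    rw [this, zero_mul]
  rw [h6] at h5
  exact absurd h5 (by decide)

/-- `4 ∣ b ^ p - 1 - a ^ p` -/
lemma four_dvd : (4 : ℤ) ∣ P.b ^ P.p - 1 - P.a ^ P.p := by
  apply (ZMod.intCast_zmod_eq_zero_iff_dvd _ 4).1
  have hb : ((P.b ^ P.p : ℤ) : ZMod 4) = 0 := by
    apply (ZMod.intCast_zmod_eq_zero_iff_dvd _ 4).2
    exact (by norm_num : (4 : ℤ) ∣ 32).trans (thirtytwo_dvd P)
  have ha : ((P.a ^ P.p : ℤ) : ZMod 4) = 3 := by
    push_cast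
    rw [P.ha4]
    have h3 : (3 : ZMod 4) = -1 := by decide
    rw [h3, P.hp_odd.neg_one_pow]
  push_cast at hb ha ⊢
  rw [hb, ha]
  decide

lemma frey_a₁ : (P.freyCurve⁄Qbar).a₁ = 1 := by
  simp [WeierstrassCurve.baseChange, FreyPackage.freyCurve]

lemma frey_a₃ : (P.freyCurve⁄Qbar).a₃ = 0 := by
  simp [WeierstrassCurve.baseChange, FreyPackage.freyCurve]

lemma frey_a₆ : (P.freyCurve⁄Qbar).a₆ = 0 := by
  simp [WeierstrassCurve.baseChange, FreyPackage.freyCurve]

lemma frey_a₂ : ∃ k : ℤ, (P.freyCurve⁄Qbar).a₂ = (k : Qbar) := by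
  obtain ⟨k, hk⟩ := four_dvd P
  refine ⟨k, ?_⟩
  have h1 : P.freyCurve.a₂ = (k : ℚ) := by
    have : ((P.b : ℚ) ^ P.p - 1 - (P.a : ℚ) ^ P.p) = ((4 * k : ℤ) : ℚ) := by
      rw [← hk]; push_cast; ring
    simp only [FreyPackage.freyCurve]
    rw [this]
    push_cast
    field_simp
  simp only [WeierstrassCurve.baseChange, WeierstrassCurve.map_a₂, h1]
  simp

/-- `16 a₄ = - a ^ p b ^ p` -/
lemma frey_a₄_mul : (P.freyCurve⁄Qbar).a₄ * 16 = -((P.a : Qbar) ^ P.p * (P.b : Qbar) ^ P.p) := by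
  simp only [WeierstrassCurve.baseChange, WeierstrassCurve.map_a₄, FreyPackage.freyCurve]
  simp only [map_div₀, map_mul, map_neg, map_pow, map_intCast, map_ofNat]
  field_simp

lemma frey_a₄ : ∃ c : ℤ, P.b ^ P.p = 32 * c ∧
    (P.freyCurve⁄Qbar).a₄ = ((-(2 * (P.a ^ P.p * c)) : ℤ) : Qbar) := by
  obtain ⟨c, hc⟩ := thirtytwo_dvd P
  refine ⟨c, hc, ?_⟩
  have h := frey_a₄_mul P
  have hb : (P.b : Qbar) ^ P.p = 32 * (c : Qbar) := by
    have := congrArg (Int.cast : ℤ → Qbar) hc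
    push_cast at this
    exact this
  rw [hb] at h
  have h16 : (16 : Qbar) ≠ 0 := by norm_num
  apply mul_right_cancel₀ h16
  rw [h]
  push_cast
  ring

lemma frey_a₄_ne_zero : (P.freyCurve⁄Qbar).a₄ ≠ 0 := by
  intro h0
  have h := frey_a₄_mul P
  rw [h0, zero_mul] at h
  have ha : (P.a : Qbar) ≠ 0 := by exact_mod_cast P.ha0
  have hb : (P.b : Qbar) ≠ 0 := by exact_mod_cast P.hb0
  exact (mul_ne_zero (pow_ne_zero _ ha) (pow_ne_zero _ hb)) (neg_eq_zero.mp h.symm)

variable (A : ValuationSubring Qbar)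

lemma frey_a₂_mem : (P.freyCurve⁄Qbar).a₂ ∈ A := by
  obtain ⟨k, hk⟩ := frey_a₂ P
  rw [hk]; exact intCast_mem A k

lemma frey_a₄_mem_nonunits (hA : A.LiesOverPrime 2) : (P.freyCurve⁄Qbar).a₄ ∈ A.nonunits := by
  obtain ⟨c, -, hc⟩ := frey_a₄ P
  rw [hc, A.mem_nonunits_iff]
  exact frey_val_int_lt_one A hA (by push_cast; exact ⟨-(P.a ^ P.p * c), by ring⟩)

lemma two_mem_nonunits (hA : A.LiesOverPrime 2) : (2 : Qbar) ∈ A.nonunits := by
  have : ((2 : ℕ) : Qbar) ∈ A.nonunits := hA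
  simpa using this

lemma val_p_eq_one (hA : A.LiesOverPrime 2) : A.valuation (P.p : Qbar) = 1 :=
  frey_val_natCast_prime A Nat.prime_two P.pp (by have := P.hp5; omega) hA

/-- **Export 1.** Inertia at `2` acts unipotently on the `p`-torsion of the Frey curve. -/
theorem unipotent_at_two (hA : A.LiesOverPrime 2)
    {σ : Qbar ≃ₐ[ℚ] Qbar} (hσ : σ ∈ A.inertiaSubgroupIn ℚ)
    (x : Submodule.torsionBy ℤ (P.freyCurve⁄Qbar).Point P.p) :
    σ • (σ • x - x) = σ • x - x := by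
  apply Subtype.ext
  have hx : (P.p : ℤ) • x.1 = 0 := (Submodule.mem_torsionBy_iff _ _).mp x.2
  rw [natCast_zsmul] at hx
  exact unipotent_of_model (two_mem_nonunits A hA) (frey_a₁ P) (frey_a₃ P) (frey_a₆ P)
    (frey_a₂_mem P A) (frey_a₄_mem_nonunits P A hA) (frey_a₄_ne_zero P) (val_p_eq_one P A hA)
    P.hp_odd hσ hx

end Frey

end Fermat.Agent.S13.AtTwo
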