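import Mathlib
import Fermat.Agent.S13.KerTwo
import Fermat.Agent.S05.FreyLocal

/-!
# S13 / L2d: the Frey model `y² + xy = x³ + a₂x² + a₄x` at the prime `2`

* (F1) integrality of the coefficients of `P.freyCurve⁄Qbar` in every valuation subring, and
  smallness of `a₄` at `2`;
* (F2) reduction types at `2`: an affine point with integral abscissa either reduces to the node
  `(0,0)` or has nonsingular reduction;
* (F3) rational points: pigeonhole on the (at most two) nonsingular affine points of the reduction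
  over `𝔽₂`.
-/

set_option autoImplicit false

namespace Fermat.Agent.S13.FreyTwo

open WeierstrassCurve WeierstrassCurve.Affine
open Fermat.Agent.S05 Fermat.Agent.S51 Fermat.Agent.S13.KerTwo

local notation "Qbar" => AlgebraicClosure ℚ

variable (P : FreyPackage)

/-! ### (F1) the coefficients -/

lemma two_dvd_b : (2 : ℤ) ∣ P.b := (ZMod.intCast_zmod_eq_zero_iff_dvd P.b 2).1 P.hb2

lemma thirtytwo_dvd_b_pow : (32 : ℤ) ∣ P.b ^ P.p := by
  obtain ⟨c, hc⟩ := two_dvd_b P
  have h5 := P.hp5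
  obtain ⟨k, hk⟩ : ∃ k, P.p = 5 + k := ⟨P.p - 5, by omega⟩
  rw [hc, hk, mul_pow, pow_add]
  exact ⟨2 ^ k * (c ^ 5 * c ^ k), by ring⟩

lemma a_pow_mod_four : ((P.a ^ P.p : ℤ) : ZMod 4) = 3 := by
  obtain ⟨k, hk⟩ := P.hp_odd
  push_cast
  rw [P.ha4, hk, pow_succ, pow_mul]
  have : ((3 : ZMod 4)) ^ 2 = 1 := by decide
  rw [this, one_pow, one_mul]

lemma four_dvd_a₂_num : (4 : ℤ) ∣ P.b ^ P.p - 1 - P.a ^ P.p := by
  refine (ZMod.intCast_zmod_eq_zero_iff_dvd _ 4).mp ?_
  have hb : ((P.b ^ P.p : ℤ) : ZMod 4) = 0 := by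
    refine (ZMod.intCast_zmod_eq_zero_iff_dvd _ 4).mpr ?_
    exact Dvd.dvd.trans (by norm_num) (thirtytwo_dvd_b_pow P)
  have ha := a_pow_mod_four P
  push_cast at hb ha ⊢
  rw [hb, ha]
  decide

lemma thirtytwo_dvd_a₄_num : (32 : ℤ) ∣ P.a ^ P.p * P.b ^ P.p :=
  Dvd.dvd.mul_left (thirtytwo_dvd_b_pow P) _

/-- the integer `a₂` of the Frey model -/
def A₂ : ℤ := (P.b ^ P.p - 1 - P.a ^ P.p) / 4

/-- the integer `a₄` of the Frey model -/
def A₄ : ℤ := -(P.a ^ P.p) * (P.b ^ P.p) / 16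

lemma four_mul_A₂ : 4 * A₂ P = P.b ^ P.p - 1 - P.a ^ P.p :=
  Int.mul_ediv_cancel' (four_dvd_a₂_num P)

lemma sixteen_mul_A₄ : 16 * A₄ P = -(P.a ^ P.p) * (P.b ^ P.p) := by
  apply Int.mul_ediv_cancel'
  have := thirtytwo_dvd_a₄_num P
  rw [neg_mul, dvd_neg]
  exact Dvd.dvd.trans (by norm_num) this

lemma two_dvd_A₄ : (2 : ℤ) ∣ A₄ P := by
  obtain ⟨c, hc⟩ := thirtytwo_dvd_a₄_num P
  have h := sixteen_mul_A₄ P
  have : A₄ P = 2 * (-c) := by
    have h16 : (16 : ℤ) ≠ 0 := by norm_num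
    apply mul_left_cancel₀ h16
    rw [h, neg_mul, hc]
    ring
  exact ⟨-c, this⟩

lemma frey_a₁ : (P.freyCurve⁄Qbar).a₁ = 1 := by
  simp [WeierstrassCurve.baseChange, FreyPackage.freyCurve]

lemma frey_a₃ : (P.freyCurve⁄Qbar).a₃ = 0 := by
  simp [WeierstrassCurve.baseChange, FreyPackage.freyCurve]

lemma frey_a₆ : (P.freyCurve⁄Qbar).a₆ = 0 := by
  simp [WeierstrassCurve.baseChange, FreyPackage.freyCurve]

lemma frey_a₂ : (P.freyCurve⁄Qbar).a₂ = ((A₂ P : ℤ) : Qbar) := by
  have h := congrArg (Int.cast : ℤ → Qbar) (four_mul_A₂ P)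
  push_cast at h
  simp only [WeierstrassCurve.baseChange, WeierstrassCurve.map_a₂, FreyPackage.freyCurve,
    map_div₀, map_sub, map_pow, map_intCast, map_one, map_ofNat]
  field_simp
  linear_combination -h

lemma frey_a₄ : (P.freyCurve⁄Qbar).a₄ = ((A₄ P : ℤ) : Qbar) := by
  have h := congrArg (Int.cast : ℤ → Qbar) (sixteen_mul_A₄ P)
  push_cast at h
  simp only [WeierstrassCurve.baseChange, WeierstrassCurve.map_a₄, FreyPackage.freyCurve,
    map_div₀, map_mul, map_neg, map_pow, map_intCast, map_ofNat]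
  field_simp
  linear_combination -h

variable (A : ValuationSubring Qbar)

lemma frey_a₁_mem : (P.freyCurve⁄Qbar).a₁ ∈ A := by rw [frey_a₁]; exact A.one_mem
lemma frey_a₂_mem : (P.freyCurve⁄Qbar).a₂ ∈ A := by rw [frey_a₂]; exact intCast_mem A _
lemma frey_a₃_mem : (P.freyCurve⁄Qbar).a₃ ∈ A := by rw [frey_a₃]; exact A.zero_mem
lemma frey_a₄_mem : (P.freyCurve⁄Qbar).a₄ ∈ A := by rw [frey_a₄]; exact intCast_mem A _
lemma frey_a₆_mem : (P.freyCurve⁄Qbar).a₆ ∈ A := by rw [frey_a₆]; exact A.zero_mem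

variable {A}

lemma val_two_lt_one (hA : A.LiesOverPrime 2) : A.valuation (2 : Qbar) < 1 := by
  have := frey_val_int_lt_one A hA (n := 2) (by norm_num)
  simpa using this

lemma frey_val_a₄_lt_one (hA : A.LiesOverPrime 2) : A.valuation (P.freyCurve⁄Qbar).a₄ < 1 := by
  rw [frey_a₄]
  exact frey_val_int_lt_one A hA (by exact_mod_cast two_dvd_A₄ P)


/-! ### (F2) reduction types at `2` -/

/-- the Weierstrass equation of the Frey model, in coordinates -/
lemma frey_equation {x y : Qbar} (h : (P.freyCurve⁄Qbar).toAffine.Equation x y) :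
    y ^ 2 + x * y = x ^ 3 + (A₂ P : Qbar) * x ^ 2 + (A₄ P : Qbar) * x := by
  have := ((P.freyCurve⁄Qbar).toAffine.equation_iff x y).mp h
  rw [frey_a₁, frey_a₃, frey_a₆, frey_a₂, frey_a₄] at this
  linear_combination this

/-- integrality of the ordinate -/
lemma frey_y_mem (A : ValuationSubring Qbar) {x y : Qbar}
    (h : (P.freyCurve⁄Qbar).toAffine.Equation x y) (hx : x ∈ A) : y ∈ A :=
  y_mem_of_x_mem (frey_a₁_mem P A) (frey_a₂_mem P A) (frey_a₃_mem P A) (frey_a₄_mem P A)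
    (frey_a₆_mem P A) h hx

/-- A point of the Frey model whose abscissa reduces to `0` at `2` reduces to the node `(0,0)`. -/
lemma val_y_lt_one_of_val_x_lt_one {x y : Qbar}
    (h : (P.freyCurve⁄Qbar).toAffine.Equation x y) (hx : A.valuation x < 1) :
    A.valuation y < 1 := by
  set v := A.valuation with hv
  have hxA : x ∈ A := (A.valuation_le_one_iff x).mp hx.le
  have hyA : y ∈ A := frey_y_mem P A h hxA
  have heq := frey_equation P h
  -- `y² = x * (x² + A₂ x + A₄ - y)`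
  have h1 : y ^ 2 = x * (x ^ 2 + (A₂ P : Qbar) * x + (A₄ P : Qbar) - y) := by
    linear_combination heq
  have hc : x ^ 2 + (A₂ P : Qbar) * x + (A₄ P : Qbar) - y ∈ A :=
    A.sub_mem (A.add_mem _ _ (A.add_mem _ _ (pow_mem hxA 2) (A.mul_mem _ _ (intCast_mem A _) hxA))
      (intCast_mem A _)) hyA
  have h2 : v (y ^ 2) < 1 := by
    rw [h1, map_mul]
    calc v x * v (x ^ 2 + (A₂ P : Qbar) * x + (A₄ P : Qbar) - y) ≤ v x * 1 := by
          gcongr; exact (A.valuation_le_one_iff _).mpr hc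
      _ = v x := mul_one _
      _ < 1 := hx
  by_contra hy
  rw [not_lt] at hy
  have : (1 : A.ValueGroup) ≤ v (y ^ 2) := by
    rw [map_pow]; exact one_le_pow₀ hy
  exact absurd h2 (not_lt.mpr this)

/-- A point of the Frey model with unit abscissa has nonsingular reduction at `2`
(the partial derivative `F_Y = 2y + x` is a unit). -/
lemma val_FY_eq_one (hA : A.LiesOverPrime 2) {x y : Qbar}
    (h : (P.freyCurve⁄Qbar).toAffine.Equation x y) (hxA : x ∈ A) (hx : A.valuation x = 1) :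
    A.valuation (2 * y + (P.freyCurve⁄Qbar).a₁ * x + (P.freyCurve⁄Qbar).a₃) = 1 := by
  have hyA : y ∈ A := frey_y_mem P A h hxA
  rw [frey_a₁, frey_a₃, one_mul, add_zero, add_comm, ← hx]
  apply Valuation.map_add_eq_of_lt_left
  rw [hx, map_mul]
  calc A.valuation 2 * A.valuation y ≤ A.valuation 2 * 1 := by
        gcongr; exact (A.valuation_le_one_iff _).mpr hyA
    _ = A.valuation 2 := mul_one _
    _ < 1 := val_two_lt_one hA

/-- **Reduction types at `2`**: an affine point of the Frey model with integral abscissa either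
reduces to the node (`v x < 1`, and then `v y < 1`) or has nonsingular reduction. -/
theorem node_or_nonsing (hA : A.LiesOverPrime 2) {x y : Qbar}
    (h : (P.freyCurve⁄Qbar).toAffine.Equation x y) (hxA : x ∈ A) :
    (A.valuation x < 1 ∧ A.valuation y < 1) ∨
    (A.valuation x = 1 ∧
      A.valuation (2 * y + (P.freyCurve⁄Qbar).a₁ * x + (P.freyCurve⁄Qbar).a₃) = 1) := by
  rcases lt_or_eq_of_le ((A.valuation_le_one_iff x).mpr hxA) with hx | hx
  · exact Or.inl ⟨hx, val_y_lt_one_of_val_x_lt_one P h hx⟩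
  · exact Or.inr ⟨hx, val_FY_eq_one P hA h hxA hx⟩

/-- Inertia at `2` fixes the `n`-torsion points (`n` odd) of the Frey curve with unit abscissa. -/
theorem smul_eq_of_val_x_eq_one (hA : A.LiesOverPrime 2) {n : ℕ} (hn : A.valuation (n : Qbar) = 1)
    {σ : Qbar ≃ₐ[ℚ] Qbar} (hσ : σ ∈ A.inertiaSubgroupIn ℚ) {x y : Qbar}
    (h : (P.freyCurve⁄Qbar).toAffine.Nonsingular x y) (hx : A.valuation x = 1)
    (hnP : n • (Point.some x y h : (P.freyCurve⁄Qbar).toAffine.Point) = 0) :
    σ • (Point.some x y h : (P.freyCurve⁄Qbar).toAffine.Point) = Point.some x y h := by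
  have hxA : x ∈ A := (A.valuation_le_one_iff x).mp hx.le
  exact smul_eq_of_nonsingular_reduction P.freyCurve A (frey_a₁_mem P A) (frey_a₂_mem P A)
    (frey_a₃_mem P A) (frey_a₄_mem P A) (frey_a₆_mem P A) hn hσ h hxA hnP
    (Or.inl (val_FY_eq_one P hA h.1 hxA hx))

/-- A nonzero torsion point of odd order of the Frey curve has integral abscissa at `2`. -/
theorem x_mem_of_torsion {n : ℕ} (hn : A.valuation (n : Qbar) = 1) {x y : Qbar}
    (h : (P.freyCurve⁄Qbar).toAffine.Nonsingular x y)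
    (hnP : n • (Point.some x y h : (P.freyCurve⁄Qbar).toAffine.Point) = 0) : x ∈ A := by
  by_contra hx
  have hker : InKer A (P.freyCurve⁄Qbar) (Point.some x y h) := by
    intro x' hx'
    rw [px_some] at hx'
    cases hx'
    exact hx
  have := eq_zero_of_inKer_of_nsmul_eq_zero_of_coeff (frey_a₁_mem P A) (frey_a₂_mem P A)
    (frey_a₃_mem P A) (frey_a₄_mem P A) (frey_a₆_mem P A) hn hker hnP
  exact Point.some_ne_zero h this


/-! ### (F3) rational points: the residue field of `ℚ ∩ A` is `𝔽₂` -/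

/-- a rational number which is integral at `2` is congruent to `0` or `1` -/
lemma rat_val_lt_one_or (hA : A.LiesOverPrime 2) (r : ℚ) (hr : (r : Qbar) ∈ A) :
    A.valuation (r : Qbar) < 1 ∨ A.valuation ((r : Qbar) - 1) < 1 := by
  set v := A.valuation with hv
  have hden0 : ((r.den : ℤ) : Qbar) ≠ 0 := by
    exact_mod_cast r.den_ne_zero
  have hr' : (r : Qbar) * ((r.den : ℤ) : Qbar) = ((r.num : ℤ) : Qbar) := by
    have := Rat.mul_den_eq_num r
    have h2 := congrArg (fun q : ℚ => (q : Qbar)) this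
    simp only [Rat.cast_mul, Rat.cast_natCast, Rat.cast_intCast] at h2
    push_cast
    exact h2
  have hcop : Nat.Coprime r.num.natAbs r.den := r.reduced
  -- the denominator is odd
  have hden_odd : ¬ ((2 : ℕ) : ℤ) ∣ (r.den : ℤ) := by
    intro hd
    have hd' : 2 ∣ r.den := by exact_mod_cast hd
    have hnum : ¬ ((2 : ℕ) : ℤ) ∣ r.num := by
      intro hn
      have hn' : 2 ∣ r.num.natAbs := by
        have := Int.natAbs_dvd_natAbs.mpr hn
        simpa using this
      have := Nat.dvd_gcd hn' hd'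
      rw [hcop.gcd_eq_one] at this
      omega
    have h1 : v ((r.num : ℤ) : Qbar) = 1 := frey_val_int_eq_one A Nat.prime_two hA hnum
    have h2 : v ((r.den : ℤ) : Qbar) < 1 := frey_val_int_lt_one A hA hd
    have h3 : v (r : Qbar) * v ((r.den : ℤ) : Qbar) = 1 := by rw [← map_mul, hr', h1]
    have h4 : v (r : Qbar) ≤ 1 := (A.valuation_le_one_iff _).mpr hr
    have : v (r : Qbar) * v ((r.den : ℤ) : Qbar) < 1 := by
      calc v (r : Qbar) * v ((r.den : ℤ) : Qbar) ≤ 1 * v ((r.den : ℤ) : Qbar) := by gcongr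
        _ = v ((r.den : ℤ) : Qbar) := one_mul _
        _ < 1 := h2
    rw [h3] at this
    exact lt_irrefl _ this
  have hvden : v ((r.den : ℤ) : Qbar) = 1 := frey_val_int_eq_one A Nat.prime_two hA hden_odd
  by_cases hnum : ((2 : ℕ) : ℤ) ∣ r.num
  · left
    have h1 : v ((r.num : ℤ) : Qbar) < 1 := frey_val_int_lt_one A hA hnum
    have h3 : v (r : Qbar) * v ((r.den : ℤ) : Qbar) = v ((r.num : ℤ) : Qbar) := by
      rw [← map_mul, hr']
    rw [hvden, mul_one] at h3
    rw [h3]; exact h1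
  · right
    -- `num - den` is even
    have hdiff : ((2 : ℕ) : ℤ) ∣ r.num - (r.den : ℤ) := by
      have h1 : r.num % 2 = 1 := by
        have : ¬ (2 : ℤ) ∣ r.num := by simpa using hnum
        omega
      have h2 : (r.den : ℤ) % 2 = 1 := by
        have : ¬ (2 : ℤ) ∣ (r.den : ℤ) := by simpa using hden_odd
        omega
      have : (r.num - (r.den : ℤ)) % 2 = 0 := by omega
      exact Int.dvd_of_emod_eq_zero (by simpa using this)
    have h1 : v (((r.num - (r.den : ℤ) : ℤ)) : Qbar) < 1 := frey_val_int_lt_one A hA hdiff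
    have h3 : ((r : Qbar) - 1) * ((r.den : ℤ) : Qbar) = ((r.num - (r.den : ℤ) : ℤ) : Qbar) := by
      push_cast
      push_cast at hr'
      linear_combination hr'
    have h4 : v ((r : Qbar) - 1) * v ((r.den : ℤ) : Qbar)
        = v (((r.num - (r.den : ℤ) : ℤ)) : Qbar) := by
      rw [← map_mul, h3]
    rw [hvden, mul_one] at h4
    rw [h4]; exact h1

theorem algebra_eq_rat : (DivisionRing.toRatAlgebra : Algebra ℚ Qbar) =
    AlgebraicClosure.instAlgebra ℚ := Subsingleton.elim _ _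

local instance instIsAlgClosureRat' : IsAlgClosure ℚ Qbar := by
  rw [algebra_eq_rat]; infer_instance

/-- an element of `Qbar` fixed by the whole Galois group is rational -/
lemma exists_rat_of_fixed {x : Qbar} (hx : ∀ σ : Qbar ≃ₐ[ℚ] Qbar, σ x = x) :
    ∃ r : ℚ, x = (r : Qbar) := by
  obtain ⟨r, hr⟩ := (InfiniteGalois.mem_range_algebraMap_iff_fixed (k := ℚ) (K := Qbar) x).mpr hx
  exact ⟨r, by rw [← hr]; simp⟩


/-! ### (F3) the pigeonhole for rational torsion points -/

lemma val_p_eq_one (hA : A.LiesOverPrime 2) : A.valuation ((P.p : ℕ) : Qbar) = 1 :=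
  frey_val_natCast_prime A Nat.prime_two P.pp (by have := P.hp5; omega) hA

/-- multiples `k • Pt`, `0 < k < p`, of a nonzero `p`-torsion point are nonzero -/
lemma nsmul_ne_zero_of_lt {Pt : (P.freyCurve⁄Qbar).toAffine.Point} (hPt : Pt ≠ 0)
    (hp : P.p • Pt = 0) {k : ℕ} (hk0 : 0 < k) (hkp : k < P.p) : k • Pt ≠ 0 := by
  intro hk
  have h1 : addOrderOf Pt ∣ P.p := addOrderOf_dvd_of_nsmul_eq_zero hp
  have h2 : addOrderOf Pt ∣ k := addOrderOf_dvd_of_nsmul_eq_zero hk
  rcases (Nat.dvd_prime P.pp).mp h1 with h3 | h3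
  · exact hPt (AddMonoid.addOrderOf_eq_one_iff.mp h3)
  · rw [h3] at h2
    exact absurd (Nat.le_of_dvd hk0 h2) (not_le.mpr hkp)

lemma exists_some_of_ne_zero {Q : (P.freyCurve⁄Qbar).toAffine.Point} (hQ : Q ≠ 0) :
    ∃ (x y : Qbar) (h : (P.freyCurve⁄Qbar).toAffine.Nonsingular x y), Q = Point.some x y h := by
  cases Q with
  | zero => exact absurd rfl hQ
  | some x y h => exact ⟨x, y, h, rfl⟩

/-- coordinates of a Galois-fixed affine point are Galois-fixed -/
lemma coord_fixed_of_smul_eq {x y : Qbar} {h : (P.freyCurve⁄Qbar).toAffine.Nonsingular x y}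
    {σ : Qbar ≃ₐ[ℚ] Qbar}
    (hσ : σ • (Point.some x y h : (P.freyCurve⁄Qbar).toAffine.Point) = Point.some x y h) :
    σ x = x ∧ σ y = y := by
  have h1 : ∃ h' : (P.freyCurve⁄Qbar).toAffine.Nonsingular (σ x) (σ y),
      σ • (Point.some x y h : (P.freyCurve⁄Qbar).toAffine.Point) = Point.some (σ x) (σ y) h' :=
    ⟨_, rfl⟩
  obtain ⟨h', h2⟩ := h1
  rw [h2] at hσ
  simp only [Point.some.injEq] at hσ
  exact hσ

/-- the data attached to a rational torsion point with non-node reduction at `2` -/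
lemma rational_nonnode_data (hA : A.LiesOverPrime 2) {x y : Qbar}
    (h : (P.freyCurve⁄Qbar).toAffine.Nonsingular x y)
    (hrat : ∀ σ : Qbar ≃ₐ[ℚ] Qbar,
      σ • (Point.some x y h : (P.freyCurve⁄Qbar).toAffine.Point) = Point.some x y h)
    (hp : P.p • (Point.some x y h : (P.freyCurve⁄Qbar).toAffine.Point) = 0)
    (hnode : ¬ A.valuation x < 1) :
    x ∈ A ∧ A.valuation x = 1 ∧ A.valuation (x - 1) < 1 ∧
      (A.valuation y < 1 ∨ A.valuation (y - 1) < 1) := by
  have hxA : x ∈ A := x_mem_of_torsion P (val_p_eq_one P hA) h hp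
  have hyA : y ∈ A := frey_y_mem P A h.1 hxA
  obtain ⟨r, hr⟩ := exists_rat_of_fixed fun σ => (coord_fixed_of_smul_eq P (hrat σ)).1
  obtain ⟨s, hs⟩ := exists_rat_of_fixed fun σ => (coord_fixed_of_smul_eq P (hrat σ)).2
  have hx1 : A.valuation x = 1 :=
    le_antisymm ((A.valuation_le_one_iff x).mpr hxA) (not_lt.mp hnode)
  refine ⟨hxA, hx1, ?_, ?_⟩
  · rcases rat_val_lt_one_or hA r (hr ▸ hxA) with h1 | h1
    · exact absurd (hr ▸ h1) hnode
    · rw [hr]; exact h1
  · rcases rat_val_lt_one_or hA s (hs ▸ hyA) with h1 | h1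
    · left; rw [hs]; exact h1
    · right; rw [hs]; exact h1

/-- two rational torsion points with non-node reduction in the same residue class differ by a
point of the kernel of reduction -/
lemma sub_inKer_of_same_class (hA : A.LiesOverPrime 2) {x y x' y' : Qbar}
    (h : (P.freyCurve⁄Qbar).toAffine.Nonsingular x y)
    (h' : (P.freyCurve⁄Qbar).toAffine.Nonsingular x' y')
    (hd : x ∈ A ∧ A.valuation x = 1 ∧ A.valuation (x - 1) < 1 ∧
      (A.valuation y < 1 ∨ A.valuation (y - 1) < 1))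
    (hd' : x' ∈ A ∧ A.valuation x' = 1 ∧ A.valuation (x' - 1) < 1 ∧
      (A.valuation y' < 1 ∨ A.valuation (y' - 1) < 1))
    (hcls : A.valuation y < 1 ↔ A.valuation y' < 1) :
    InKer A (P.freyCurve⁄Qbar) (Point.some x' y' h' - Point.some x y h) := by
  obtain ⟨hxA, hx1, hx1', hy⟩ := hd
  obtain ⟨hx'A, hx'1, hx'1', hy'⟩ := hd'
  have hdx : A.valuation (x' - x) < 1 := by
    have : x' - x = (x' - 1) - (x - 1) := by ring
    rw [this]
    exact lt_of_le_of_lt (Valuation.map_sub _ _ _) (max_lt hx'1' hx1')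
  have hdy : A.valuation (y' - y) < 1 := by
    by_cases hc : A.valuation y < 1
    · exact lt_of_le_of_lt (Valuation.map_sub _ _ _) (max_lt (hcls.mp hc) hc)
    · have hc' : ¬ A.valuation y' < 1 := fun h0 => hc (hcls.mpr h0)
      have e1 := hy.resolve_left hc
      have e2 := hy'.resolve_left hc'
      have : y' - y = (y' - 1) - (y - 1) := by ring
      rw [this]
      exact lt_of_le_of_lt (Valuation.map_sub _ _ _) (max_lt e2 e1)
  exact sub_inKer_of_congr_xy (frey_a₁_mem P A) (frey_a₂_mem P A) h h' hxA hdx hdy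
    (Or.inl (val_FY_eq_one P hA h.1 hxA hx1))

private lemma exists_pair_iff (a b c : Prop) : (a ↔ b) ∨ (a ↔ c) ∨ (b ↔ c) := by
  by_cases ha : a <;> by_cases hb : b <;> by_cases hc : c <;> simp [ha, hb, hc]

/-- **Pigeonhole.** A nonzero rational `p`-torsion point `Pt` of the Frey curve has a multiple
`j • Pt`, `j ∈ {1, 2, 3}`, which reduces to the node at `2`. -/
theorem exists_node_multiple (hA : A.LiesOverPrime 2)
    {Pt : (P.freyCurve⁄Qbar).toAffine.Point} (hPt : Pt ≠ 0)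
    (hrat : ∀ σ : Qbar ≃ₐ[ℚ] Qbar, σ • Pt = Pt) (hp : P.p • Pt = 0) :
    ∃ j : ℕ, 1 ≤ j ∧ j ≤ 3 ∧ ∃ (x y : Qbar) (h : (P.freyCurve⁄Qbar).toAffine.Nonsingular x y),
      j • Pt = Point.some x y h ∧ A.valuation x < 1 ∧ A.valuation y < 1 := by
  have hp5 := P.hp5
  by_contra hcon
  -- rationality and torsion of the multiples
  have hratk : ∀ (k : ℕ) (σ : Qbar ≃ₐ[ℚ] Qbar), σ • (k • Pt) = k • Pt := by
    intro k σ
    have : σ • (k • Pt) = k • (σ • Pt) := by
      change WeierstrassCurve.Affine.Point.map σ.toAlgHom (k • Pt) =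
        k • (WeierstrassCurve.Affine.Point.map σ.toAlgHom Pt)
      rw [map_nsmul]
    rw [this, hrat σ]
  have hpk : ∀ k : ℕ, P.p • (k • Pt) = 0 := by
    intro k
    rw [smul_comm, hp]
    exact nsmul_zero k
  -- the data for `k = 1, 2, 3`
  have hdata : ∀ k : ℕ, 1 ≤ k → k ≤ 3 → ∃ (x y : Qbar)
      (h : (P.freyCurve⁄Qbar).toAffine.Nonsingular x y), k • Pt = Point.some x y h ∧
      (x ∈ A ∧ A.valuation x = 1 ∧ A.valuation (x - 1) < 1 ∧
        (A.valuation y < 1 ∨ A.valuation (y - 1) < 1)) := by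
    intro k hk1 hk3
    have hk0 : k • Pt ≠ 0 := nsmul_ne_zero_of_lt P hPt hp (by omega) (by omega)
    obtain ⟨x, y, h, hQ⟩ := exists_some_of_ne_zero P hk0
    refine ⟨x, y, h, hQ, ?_⟩
    have hnode : ¬ A.valuation x < 1 := by
      intro hx
      exact hcon ⟨k, hk1, hk3, x, y, h, hQ, hx, val_y_lt_one_of_val_x_lt_one P h.1 hx⟩
    exact rational_nonnode_data P hA h (fun σ => by rw [← hQ]; exact hratk k σ)
      (by rw [← hQ]; exact hpk k) hnode
  obtain ⟨x₁, y₁, h₁, hQ₁, hd₁⟩ := hdata 1 le_rfl (by norm_num)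
  obtain ⟨x₂, y₂, h₂, hQ₂, hd₂⟩ := hdata 2 (by norm_num) (by norm_num)
  obtain ⟨x₃, y₃, h₃, hQ₃, hd₃⟩ := hdata 3 (by norm_num) le_rfl
  -- a difference of two of them lies in the kernel of reduction
  have hkey : ∃ k : ℕ, 0 < k ∧ k < P.p ∧ InKer A (P.freyCurve⁄Qbar) (k • Pt) := by
    rcases exists_pair_iff (A.valuation y₁ < 1) (A.valuation y₂ < 1) (A.valuation y₃ < 1) with
      hc | hc | hc
    · refine ⟨1, by norm_num, by omega, ?_⟩
      have := sub_inKer_of_same_class P hA h₁ h₂ hd₁ hd₂ hc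
      rw [← hQ₁, ← hQ₂] at this
      have e : 2 • Pt - 1 • Pt = 1 • Pt := by
        rw [one_nsmul, two_nsmul]; abel
      rwa [e] at this
    · refine ⟨2, by norm_num, by omega, ?_⟩
      have := sub_inKer_of_same_class P hA h₁ h₃ hd₁ hd₃ hc
      rw [← hQ₁, ← hQ₃] at this
      have e : 3 • Pt - 1 • Pt = 2 • Pt := by
        rw [one_nsmul, two_nsmul, succ_nsmul, two_nsmul]; abel
      rwa [e] at this
    · refine ⟨1, by norm_num, by omega, ?_⟩
      have := sub_inKer_of_same_class P hA h₂ h₃ hd₂ hd₃ hc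
      rw [← hQ₂, ← hQ₃] at this
      have e : 3 • Pt - 2 • Pt = 1 • Pt := by
        rw [one_nsmul, succ_nsmul, two_nsmul]; abel
      rwa [e] at this
  obtain ⟨k, hk0, hkp, hker⟩ := hkey
  have := eq_zero_of_inKer_of_nsmul_eq_zero_of_coeff (frey_a₁_mem P A) (frey_a₂_mem P A)
    (frey_a₃_mem P A) (frey_a₄_mem P A) (frey_a₆_mem P A) (val_p_eq_one P hA) hker (hpk k)
  exact nsmul_ne_zero_of_lt P hPt hp hk0 hkp this

end Fermat.Agent.S13.FreyTwo
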