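import Mathlib
import Fermat.Agent.S05.KernelPx
import Fermat.Agent.S05.XLaws

/-!
# S13 hedge for [P6](ii): the kernel of reduction is a subgroup

`K` any field, `A` a valuation subring, `W` a Weierstrass curve over `K` with integral
`b`-invariants.  The set `E₁ = {O} ∪ {P : x(P) ∉ A}` is closed under addition (hence, with
`inKer_neg`, a subgroup).  No hypothesis on the residue characteristic.

Proof: with `u = 1/x ∈ 𝔪`, the x-only laws give `x₃ x₄ d = 1 - e` and `(x₃ + x₄) d = s` with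
`d, e, s ∈ 𝔪`; if `x₃ ∈ A` then `x₄ d ∈ 𝔪`, so `x₃ x₄ d ∈ 𝔪`, but `1 - e` is a unit.
-/

set_option autoImplicit false
set_option linter.unusedSectionVars false

namespace Fermat.Agent.S13.KerAdd18

open WeierstrassCurve WeierstrassCurve.Affine
open Fermat.Agent.S05 Fermat.Agent.S05.Kernel Fermat.Agent.S05.XLaws

section General

variable {K : Type*} [Field K] [DecidableEq K] (A : ValuationSubring K)
  {W : WeierstrassCurve.Affine K}

lemma inv_mem_nonunits_of_not_mem {x : K} (hx : x ∉ A) : x⁻¹ ∈ A.nonunits := by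
  rw [ValuationSubring.mem_nonunits_iff, map_inv₀]
  have h1 : 1 < A.valuation x := by
    rw [← not_le, A.valuation_le_one_iff]; exact hx
  exact inv_lt_one_of_one_lt₀ h1

lemma ne_zero_of_not_mem {x : K} (hx : x ∉ A) : x ≠ 0 := by
  rintro rfl; exact hx A.zero_mem

/-- chord case -/
lemma not_mem_of_add_sub {x₁ x₂ x₃ x₄ : K} (hb2 : W.b₂ ∈ A) (hb4 : W.b₄ ∈ A) (hb6 : W.b₆ ∈ A)
    (hb8 : W.b₈ ∈ A) (h1 : x₁ ∉ A) (h2 : x₂ ∉ A)
    (hsum : (x₃ + x₄) * (x₁ - x₂) ^ 2 = xSumNum W x₁ x₂)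
    (hprod : x₃ * x₄ * (x₁ - x₂) ^ 2 = xProdNum W x₁ x₂) : x₃ ∉ A := by
  intro h3
  have hx1 : x₁ ≠ 0 := ne_zero_of_not_mem A h1
  have hx2 : x₂ ≠ 0 := ne_zero_of_not_mem A h2
  set u₁ := x₁⁻¹ with hu₁
  set u₂ := x₂⁻¹ with hu₂
  have hu1 : u₁ ∈ A.nonunits := inv_mem_nonunits_of_not_mem A h1
  have hu2 : u₂ ∈ A.nonunits := inv_mem_nonunits_of_not_mem A h2
  have hu1A : u₁ ∈ A := mem_of_mem_nonunits A hu1
  have hu2A : u₂ ∈ A := mem_of_mem_nonunits A hu2
  have e1 : x₁ = u₁⁻¹ := by rw [hu₁, inv_inv]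
  have e2 : x₂ = u₂⁻¹ := by rw [hu₂, inv_inv]
  have hu10 : u₁ ≠ 0 := inv_ne_zero hx1
  have hu20 : u₂ ≠ 0 := inv_ne_zero hx2
  -- d := (u₂ - u₁)^2 ∈ 𝔪
  set d := (u₂ - u₁) ^ 2 with hd
  have hdm : d ∈ A.nonunits := by
    rw [hd, pow_two]
    exact mul_mem_nonunits_left A (sub_mem hu2A hu1A) (sub_mem_nonunits A hu2 hu1)
  set e := W.b₄ * u₁ * u₂ + W.b₆ * (u₁ + u₂) * u₁ * u₂ + W.b₈ * u₁ ^ 2 * u₂ ^ 2 with he
  have hem : e ∈ A.nonunits := by
    rw [he]
    refine add_mem_nonunits A (add_mem_nonunits A ?_ ?_) ?_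
    · exact mul_mem_nonunits_left A (mul_mem hb4 hu1A) hu2
    · exact mul_mem_nonunits_left A
        (mul_mem (mul_mem hb6 (add_mem hu1A hu2A)) hu1A) hu2
    · exact mul_mem_nonunits_left A (mul_mem hb8 (pow_mem hu1A 2))
        (by rw [pow_two]; exact mul_mem_nonunits_left A hu2A hu2)
  set s := 2 * (u₁ + u₂) + W.b₂ * u₁ * u₂ + W.b₄ * (u₁ + u₂) * u₁ * u₂ +
    W.b₆ * u₁ ^ 2 * u₂ ^ 2 with hs
  have hsm : s ∈ A.nonunits := by
    rw [hs]
    refine add_mem_nonunits A (add_mem_nonunits A (add_mem_nonunits A ?_ ?_) ?_) ?_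
    · exact mul_mem_nonunits_left A (two_mem A) (add_mem_nonunits A hu1 hu2)
    · exact mul_mem_nonunits_left A (mul_mem hb2 hu1A) hu2
    · exact mul_mem_nonunits_left A
        (mul_mem (mul_mem hb4 (add_mem hu1A hu2A)) hu1A) hu2
    · exact mul_mem_nonunits_left A (mul_mem hb6 (pow_mem hu1A 2))
        (by rw [pow_two]; exact mul_mem_nonunits_left A hu2A hu2)
  -- rewrite the two laws in terms of `u`
  have hprod' : x₃ * x₄ * d = 1 - e := by
    have h := hprod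
    rw [e1, e2] at h
    simp only [xProdNum] at h
    rw [hd, he]
    field_simp at h ⊢
    linear_combination h
  have hsum' : (x₃ + x₄) * d = s := by
    have h := hsum
    rw [e1, e2] at h
    simp only [xSumNum] at h
    rw [hd, hs]
    field_simp at h ⊢
    linear_combination h
  -- x₄ d ∈ 𝔪
  have h4d : x₄ * d ∈ A.nonunits := by
    have : x₄ * d = s - x₃ * d := by linear_combination hsum'
    rw [this]
    exact sub_mem_nonunits A hsm (mul_mem_nonunits_left A h3 hdm)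
  have hbad : x₃ * x₄ * d ∈ A.nonunits := by
    rw [mul_assoc]; exact mul_mem_nonunits_left A h3 h4d
  rw [hprod'] at hbad
  exact not_mem_nonunits_one_sub A hem hbad

/-- tangent case -/
lemma not_mem_of_dbl {x₁ x₅ : K} (hb2 : W.b₂ ∈ A) (hb4 : W.b₄ ∈ A) (hb6 : W.b₆ ∈ A)
    (hb8 : W.b₈ ∈ A) (h1 : x₁ ∉ A) (hdbl : x₅ * xPsi2Sq W x₁ = xDblNum W x₁) : x₅ ∉ A := by
  intro h5
  have hx1 : x₁ ≠ 0 := ne_zero_of_not_mem A h1
  set u := x₁⁻¹ with hu
  have hum : u ∈ A.nonunits := inv_mem_nonunits_of_not_mem A h1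
  have huA : u ∈ A := mem_of_mem_nonunits A hum
  have e1 : x₁ = u⁻¹ := by rw [hu, inv_inv]
  have hu0 : u ≠ 0 := inv_ne_zero hx1
  set t := 4 + W.b₂ * u + 2 * W.b₄ * u ^ 2 + W.b₆ * u ^ 3 with ht
  have htA : t ∈ A := by
    rw [ht]
    refine add_mem (add_mem (add_mem (four_mem A) (mul_mem hb2 huA)) ?_) ?_
    · exact mul_mem (mul_mem (two_mem A) hb4) (pow_mem huA 2)
    · exact mul_mem hb6 (pow_mem huA 3)
  set e := W.b₄ * u ^ 2 + 2 * W.b₆ * u ^ 3 + W.b₈ * u ^ 4 with he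
  have hem : e ∈ A.nonunits := by
    rw [he]
    have hpow : ∀ n : ℕ, u ^ (n + 1) ∈ A.nonunits := fun n => by
      rw [pow_succ]; exact mul_mem_nonunits_left A (pow_mem huA n) hum
    refine add_mem_nonunits A (add_mem_nonunits A ?_ ?_) ?_
    · exact mul_mem_nonunits_left A hb4 (hpow 1)
    · exact mul_mem_nonunits_left A (mul_mem (two_mem A) hb6) (hpow 2)
    · exact mul_mem_nonunits_left A hb8 (hpow 3)
  have key : x₅ * t * u = 1 - e := by
    have h := hdbl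
    rw [e1] at h
    simp only [xPsi2Sq, xDblNum] at h
    rw [ht, he]
    field_simp at h ⊢
    linear_combination h
  have hbad : x₅ * t * u ∈ A.nonunits :=
    mul_mem_nonunits_left A (mul_mem h5 htA) hum
  rw [key] at hbad
  exact not_mem_nonunits_one_sub A hem hbad

/-- **The kernel of reduction is closed under addition** (field form, `Kernel.xCoord`). -/
theorem ker_add (hb2 : W.b₂ ∈ A) (hb4 : W.b₄ ∈ A) (hb6 : W.b₆ ∈ A) (hb8 : W.b₈ ∈ A)
    {P Q : W.Point} (hP : P = 0 ∨ xCoord P ∉ A) (hQ : Q = 0 ∨ xCoord Q ∉ A) :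
    P + Q = 0 ∨ xCoord (P + Q) ∉ A := by
  rcases hP with rfl | hP
  · rw [zero_add]; exact hQ
  rcases hQ with rfl | hQ
  · rw [add_zero]; exact Or.inr hP
  cases P with
  | zero => exact absurd A.zero_mem hP
  | some x₁ y₁ h₁ =>
    cases Q with
    | zero => exact absurd A.zero_mem hQ
    | some x₂ y₂ h₂ =>
      simp only [xCoord_some] at hP hQ
      by_cases hx : x₁ = x₂
      · subst hx
        by_cases hy : y₁ = W.negY x₁ y₂
        · left
          exact Point.add_of_Y_eq rfl hy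
        · -- then `y₁ = y₂` and we are doubling
          have hyy : y₁ = y₂ := by
            rcases Affine.Y_eq_of_X_eq h₁.1 h₂.1 rfl with h | h
            · exact h
            · exact absurd h hy
          subst hyy
          obtain ⟨x₅, y₅, h₅, hadd, hdbl⟩ := dbl_x W h₁ hy
          right
          rw [hadd, xCoord_some]
          exact not_mem_of_dbl A hb2 hb4 hb6 hb8 hP hdbl
      · obtain ⟨x₃, y₃, x₄, y₄, h₃, h₄, hadd, -, -, -, hsum, hprod⟩ := add_sub_x W h₁ h₂ hx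
        right
        rw [hadd, xCoord_some]
        exact not_mem_of_add_sub A hb2 hb4 hb6 hb8 hP hQ hsum hprod

end General

section InKerForm

variable {K : Type*} [Field K] [DecidableEq K] [CharZero K]
variable {A : ValuationSubring K} {W : WeierstrassCurve K}

/-- **`InKer` is closed under addition.** -/
theorem inKer_add (hb2 : W.b₂ ∈ A) (hb4 : W.b₄ ∈ A) (hb6 : W.b₆ ∈ A) (hb8 : W.b₈ ∈ A)
    {P Q : W.toAffine.Point} (hP : InKer A W P) (hQ : InKer A W Q) : InKer A W (P + Q) := by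
  rw [inKer_iff_kernel] at hP hQ ⊢
  exact ker_add A hb2 hb4 hb6 hb8 hP hQ

theorem inKer_sub (hb2 : W.b₂ ∈ A) (hb4 : W.b₄ ∈ A) (hb6 : W.b₆ ∈ A) (hb8 : W.b₈ ∈ A)
    {P Q : W.toAffine.Point} (hP : InKer A W P) (hQ : InKer A W Q) : InKer A W (P - Q) := by
  rw [sub_eq_add_neg]
  exact inKer_add hb2 hb4 hb6 hb8 hP (inKer_neg hQ)

theorem inKer_nsmul' (hb2 : W.b₂ ∈ A) (hb4 : W.b₄ ∈ A) (hb6 : W.b₆ ∈ A) (hb8 : W.b₈ ∈ A)
    {P : W.toAffine.Point} (hP : InKer A W P) (n : ℕ) : InKer A W (n • P) := by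
  induction n with
  | zero => rw [zero_smul]; exact inKer_zero
  | succ n ih => rw [succ_nsmul]; exact inKer_add hb2 hb4 hb6 hb8 ih hP

theorem inKer_zsmul (hb2 : W.b₂ ∈ A) (hb4 : W.b₄ ∈ A) (hb6 : W.b₆ ∈ A) (hb8 : W.b₈ ∈ A)
    {P : W.toAffine.Point} (hP : InKer A W P) (n : ℤ) : InKer A W (n • P) := by
  cases n with
  | ofNat n => simpa using inKer_nsmul' hb2 hb4 hb6 hb8 hP n
  | negSucc n =>
    rw [negSucc_zsmul]
    exact inKer_neg (inKer_nsmul' hb2 hb4 hb6 hb8 hP (n + 1))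

/-- the kernel of reduction as an additive subgroup -/
def kerSubgroup (A : ValuationSubring K) (W : WeierstrassCurve K) (hb2 : W.b₂ ∈ A)
    (hb4 : W.b₄ ∈ A) (hb6 : W.b₆ ∈ A) (hb8 : W.b₈ ∈ A) : AddSubgroup W.toAffine.Point where
  carrier := {P | InKer A W P}
  zero_mem' := inKer_zero
  add_mem' := fun hP hQ => inKer_add hb2 hb4 hb6 hb8 hP hQ
  neg_mem' := fun hP => inKer_neg hP

@[simp] lemma mem_kerSubgroup (hb2 : W.b₂ ∈ A) (hb4 : W.b₄ ∈ A) (hb6 : W.b₆ ∈ A)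
    (hb8 : W.b₈ ∈ A) {P : W.toAffine.Point} :
    P ∈ kerSubgroup A W hb2 hb4 hb6 hb8 ↔ InKer A W P := Iff.rfl

end InKerForm

end Fermat.Agent.S13.KerAdd18
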