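import Mathlib
import Fermat.Agent.S05.KernelPx
import Fermat.Agent.S05.XLaws
import Fermat.Agent.S05.Inertia

/-!
# S13 [L2a] hedge: congruent integral points with nonsingular reduction differ by a point of the
kernel of reduction — `(x, y)`-coordinate form, ANY residue characteristic

`K` a field of characteristic zero, `A` a valuation subring, `W` a Weierstrass curve over `K` with
`a₁, a₂ ∈ A`.  For affine points `P = (x, y)`, `P' = (x', y')` with `x ∈ A`, `x' ≡ x`, `y' ≡ y`
modulo the maximal ideal and `P` of nonsingular reduction (one of the two partial derivatives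
`F_X = a₁ y - (3x² + 2a₂x + a₄)`, `F_Y = 2y + a₁x + a₃` is a unit), the difference `P' - P` lies in
the kernel of reduction `InKer`.  In particular this covers residue characteristic `2` and the
model `a₁ = 1`, `a₃ = a₆ = 0` of the Frey curve.
-/

set_option autoImplicit false
set_option linter.unusedSectionVars false

namespace Fermat.Agent.S13.KerTwo18

open WeierstrassCurve WeierstrassCurve.Affine
open Fermat.Agent.S05 Fermat.Agent.S05.Kernel Fermat.Agent.S05.XLaws

section General

variable {K : Type*} [Field K] [DecidableEq K] {A : ValuationSubring K}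

lemma not_mem_iff_one_lt' {x : K} : x ∉ A ↔ 1 < A.valuation x := by
  rw [← A.valuation_le_one_iff, not_le]

/-- if `x₄ d² = n² + a₁ n d - S d²` with `a₁, S` integral and `v d < v n`, then `x₄ ∉ A`. -/
lemma not_mem_of_chord_xy {x₄ d n a₁ S : K} (ha₁ : A.valuation a₁ ≤ 1) (hS : A.valuation S ≤ 1)
    (hd0 : d ≠ 0) (hdn : A.valuation d < A.valuation n)
    (h : x₄ * d ^ 2 = n ^ 2 + a₁ * n * d - S * d ^ 2) : x₄ ∉ A := by
  set v := A.valuation with hv
  have hvd0 : v d ≠ 0 := (Valuation.ne_zero_iff v).mpr hd0
  have hvd : 0 < v d := zero_lt_iff.mpr hvd0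
  have hvn : 0 < v n := lt_trans hvd hdn
  -- v (a₁ n d) < v (n^2)
  have h1 : v (a₁ * n * d) < v (n ^ 2) := by
    rw [map_mul, map_mul, map_pow, pow_two]
    calc v a₁ * v n * v d ≤ 1 * v n * v d := by gcongr
      _ = v n * v d := by rw [one_mul]
      _ < v n * v n := by gcongr
  have h2 : v (S * d ^ 2) < v (n ^ 2) := by
    rw [map_mul, map_pow, map_pow]
    calc v S * v d ^ 2 ≤ 1 * v d ^ 2 := by gcongr
      _ = v d ^ 2 := one_mul _
      _ < v n ^ 2 := by gcongr
  have h3 : v (n ^ 2 + a₁ * n * d) = v (n ^ 2) := Valuation.map_add_eq_of_lt_left v h1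
  have h4 : v (n ^ 2 + a₁ * n * d - S * d ^ 2) = v (n ^ 2) := by
    rw [Valuation.map_sub_eq_of_lt_left v (by rw [h3]; exact h2), h3]
  have h5 : v x₄ * v d ^ 2 = v n ^ 2 := by
    have := congrArg v h
    rw [h4, map_mul, map_pow, map_pow] at this
    exact this
  rw [not_mem_iff_one_lt']
  by_contra hle
  rw [not_lt] at hle
  have : v n ^ 2 ≤ v d ^ 2 := by
    rw [← h5]
    calc v x₄ * v d ^ 2 ≤ 1 * v d ^ 2 := by gcongr
      _ = v d ^ 2 := one_mul _
  have hlt : v d ^ 2 < v n ^ 2 := by gcongr
  exact absurd this (not_le.mpr hlt)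

variable {W : WeierstrassCurve.Affine K}

/-- **Field-level form** (`Kernel.xCoord`, no `CharZero`). -/
theorem sub_ker_of_congr_xy (ha1 : W.a₁ ∈ A) (ha2 : W.a₂ ∈ A)
    {x y x' y' : K} (h : W.Nonsingular x y) (h' : W.Nonsingular x' y')
    (hx : x ∈ A) (hdx : A.valuation (x' - x) < 1) (hdy : A.valuation (y' - y) < 1)
    (hns : A.valuation (W.a₁ * y - (3 * x ^ 2 + 2 * W.a₂ * x + W.a₄)) = 1 ∨
      A.valuation (2 * y + W.a₁ * x + W.a₃) = 1) :
    Point.some x' y' h' - Point.some x y h = 0 ∨
      xCoord (Point.some x' y' h' - Point.some x y h) ∉ A := by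
  set v := A.valuation with hv
  set FX := W.a₁ * y - (3 * x ^ 2 + 2 * W.a₂ * x + W.a₄) with hFX
  set FY := 2 * y + W.a₁ * x + W.a₃ with hFY
  have hvx : v x ≤ 1 := (A.valuation_le_one_iff x).mpr hx
  have hva1 : v W.a₁ ≤ 1 := (A.valuation_le_one_iff _).mpr ha1
  have hva2 : v W.a₂ ≤ 1 := (A.valuation_le_one_iff _).mpr ha2
  have hv3 : v (3 : K) ≤ 1 := by
    have : (3 : K) = ((3 : ℕ) : K) := by norm_num
    rw [this]; exact (A.valuation_le_one_iff _).mpr (natCast_mem A 3)
  have hv2 : v (2 : K) ≤ 1 := by
    have : (2 : K) = ((2 : ℕ) : K) := by norm_num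
    rw [this]; exact (A.valuation_le_one_iff _).mpr (natCast_mem A 2)
  have hvx' : v x' ≤ 1 := by
    have : x' = (x' - x) + x := by ring
    rw [this]; exact Valuation.map_add_le v hdx.le hvx
  by_cases hxx : x' = x
  · -- same abscissa
    subst hxx
    rcases Affine.Y_eq_of_X_eq h'.1 h.1 rfl with hyy | hyy
    · left
      subst hyy
      exact sub_self _
    · -- `P' = -P`
      by_cases hyy' : y' = y
      · left; subst hyy'; exact sub_self _
      right
      have hneg : Point.some x' y' h' = -Point.some x' y h := by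
        rw [Point.neg_some]; congr
      have hFYy : y' - y = -FY := by rw [hyy, hFY]; simp only [negY]; ring
      have hvFY : v FY < 1 := by
        have : FY = -(y' - y) := by rw [hFYy]; ring
        rw [this, Valuation.map_neg]; exact hdy
      have hvFX : v FX = 1 := by
        rcases hns with h1 | h1
        · exact h1
        · exact absurd h1 (ne_of_lt hvFY)
      have hFY0 : FY ≠ 0 := by
        intro h0
        apply hyy'
        have : y' - y = 0 := by rw [hFYy, h0, neg_zero]
        exact sub_eq_zero.mp this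
      have hy : y ≠ W.negY x' y := by
        intro h0
        apply hFY0
        rw [hFY]; simp only [negY] at h0; linear_combination h0
      obtain ⟨x₅, y₅, h₅, hadd, hdbl⟩ := dbl_x W h hy
      have e : Point.some x' y' h' - Point.some x' y h = -(Point.some x₅ y₅ h₅) := by
        rw [hneg, ← hadd]; abel
      rw [e, xCoord_neg, xCoord_some]
      -- `x₅ FY² = FX² - a₁ FX FY - (a₂ + 2x) FY²`
      have hpsi : xPsi2Sq W x' = FY ^ 2 := by rw [psi2Sq_eq W h.1]
      have hnum : xDblNum W x' = FX ^ 2 - W.a₁ * FX * FY - (W.a₂ + x' + x') * FY ^ 2 := by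
        rw [← xDbl_identity W h.1, hFX, hFY]; simp only [negY]; ring
      rw [hpsi, hnum] at hdbl
      have hS : v (W.a₂ + x' + x') ≤ 1 :=
        Valuation.map_add_le v (Valuation.map_add_le v hva2 hvx) hvx
      have key : x₅ * FY ^ 2 = FX ^ 2 + (-W.a₁) * FX * FY - (W.a₂ + x' + x') * FY ^ 2 := by
        rw [hdbl]; ring
      exact not_mem_of_chord_xy (by rw [Valuation.map_neg]; exact hva1) hS hFY0
        (by rw [hvFX]; exact hvFY) key
  · -- distinct abscissas
    right
    obtain ⟨x₃, y₃, x₄, y₄, h₃, h₄, -, hsub, -, e4, -, -⟩ := add_sub_x W h' h hxx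
    rw [hsub, xCoord_some]
    have hd0 : x' - x ≠ 0 := sub_ne_zero.mpr hxx
    set dx := x' - x with hdxdef
    set dy := y' - y with hdydef
    set N := y' - W.negY x y with hN
    have hNeq : N = dy + FY := by rw [hN, hdydef, hFY]; simp only [negY]; ring
    -- Taylor identity from the two curve equations
    have htaylor : dy * (N + W.a₁ * dx) =
        -(dx * (FX - (3 * x + W.a₂) * dx - dx ^ 2)) := by
      have e1 := h.1
      have e2 := h'.1
      rw [equation_iff] at e1 e2
      rw [hNeq, hdydef, hdxdef, hFX, hFY]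
      linear_combination e2 - e1
    have key : v dx < v N := by
      rcases hns with h1 | h1
      · -- `FX` unit
        have hU : v (FX - (3 * x + W.a₂) * dx - dx ^ 2) = 1 := by
          have hs1 : v ((3 * x + W.a₂) * dx) < 1 := by
            rw [map_mul]
            have : v (3 * x + W.a₂) ≤ 1 := by
              refine Valuation.map_add_le v ?_ hva2
              rw [map_mul]; exact mul_le_one₀ hv3 zero_le hvx
            calc v (3 * x + W.a₂) * v dx ≤ 1 * v dx := by gcongr
              _ = v dx := one_mul _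
              _ < 1 := hdx
          have hs2 : v (dx ^ 2) < 1 := by
            rw [map_pow]; exact pow_lt_one₀ zero_le hdx (by norm_num)
          rw [Valuation.map_sub_eq_of_lt_left v, Valuation.map_sub_eq_of_lt_left v, h1]
          · rw [h1]; exact hs1
          · rw [Valuation.map_sub_eq_of_lt_left v (by rw [h1]; exact hs1), h1]; exact hs2
        have hv := congrArg v htaylor
        rw [Valuation.map_neg, map_mul, map_mul, hU, mul_one] at hv
        have hvdx : 0 < v dx := zero_lt_iff.mpr ((Valuation.ne_zero_iff v).mpr hd0)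
        have hpos : 0 < v (N + W.a₁ * dx) := by
          rw [zero_lt_iff]
          intro h0
          rw [h0, mul_zero] at hv
          exact (ne_of_gt hvdx) hv.symm
        have hlt : v dx < v (N + W.a₁ * dx) := by
          rw [← hv]
          calc v dy * v (N + W.a₁ * dx) < 1 * v (N + W.a₁ * dx) := by gcongr
            _ = v (N + W.a₁ * dx) := one_mul _
        have hsmall : v (W.a₁ * dx) < v (N + W.a₁ * dx) := by
          rw [map_mul]
          calc v W.a₁ * v dx ≤ 1 * v dx := by gcongr
            _ = v dx := one_mul _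
            _ < _ := hlt
        have : N = (N + W.a₁ * dx) - W.a₁ * dx := by ring
        rw [this, Valuation.map_sub_eq_of_lt_left v hsmall]
        exact hlt
      · -- `FY` unit
        rw [hNeq, add_comm, Valuation.map_add_eq_of_lt_left v (by rw [h1]; exact hdy), h1]
        exact hdx
    have hS : v (W.a₂ + x' + x) ≤ 1 :=
      Valuation.map_add_le v (Valuation.map_add_le v hva2 hvx') hvx
    exact not_mem_of_chord_xy hva1 hS hd0 key e4

end General

section InKerForm

variable {K : Type*} [Field K] [DecidableEq K] [CharZero K]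
variable {A : ValuationSubring K} {W : WeierstrassCurve K}

/-- **Congruent integral points with nonsingular reduction differ by a point of the kernel of
reduction** (`(x,y)`-form, any residue characteristic). -/
theorem sub_inKer_of_congr_xy (ha1 : W.a₁ ∈ A) (ha2 : W.a₂ ∈ A)
    {x y x' y' : K} (h : W.toAffine.Nonsingular x y) (h' : W.toAffine.Nonsingular x' y')
    (hx : x ∈ A) (hdx : A.valuation (x' - x) < 1) (hdy : A.valuation (y' - y) < 1)
    (hns : A.valuation (W.a₁ * y - (3 * x ^ 2 + 2 * W.a₂ * x + W.a₄)) = 1 ∨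
      A.valuation (2 * y + W.a₁ * x + W.a₃) = 1) :
    InKer A W (Point.some x' y' h' - Point.some x y h) := by
  rw [inKer_iff_kernel]
  exact sub_ker_of_congr_xy (W := W.toAffine) ha1 ha2 h h' hx hdx hdy hns

end InKerForm

section Galois

local notation "Qbar" => AlgebraicClosure ℚ

/-- **Inertia moves an integral point with nonsingular reduction by a point of the kernel of
reduction** (any residue characteristic; `(x,y)`-form). -/
theorem smul_sub_inKer_xy (E : WeierstrassCurve ℚ) (A : ValuationSubring Qbar)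
    (ha1 : (E⁄Qbar).a₁ ∈ A) (ha2 : (E⁄Qbar).a₂ ∈ A)
    {σ : Qbar ≃ₐ[ℚ] Qbar} (hσ : σ ∈ A.inertiaSubgroupIn ℚ)
    {x y : Qbar} (h : (E⁄Qbar).toAffine.Nonsingular x y) (hx : x ∈ A) (hy : y ∈ A)
    (hns : A.valuation ((E⁄Qbar).a₁ * y - (3 * x ^ 2 + 2 * (E⁄Qbar).a₂ * x + (E⁄Qbar).a₄)) = 1 ∨
      A.valuation (2 * y + (E⁄Qbar).a₁ * x + (E⁄Qbar).a₃) = 1) :
    InKer A (E⁄Qbar) (σ • (Point.some x y h : (E⁄Qbar).toAffine.Point) - Point.some x y h) := by
  obtain ⟨h', hmap⟩ : ∃ h' : (E⁄Qbar).toAffine.Nonsingular (σ x) (σ y),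
      σ • (Point.some x y h : (E⁄Qbar).toAffine.Point) = Point.some (σ x) (σ y) h' :=
    ⟨_, rfl⟩
  rw [hmap]
  exact sub_inKer_of_congr_xy ha1 ha2 h h' hx (valuation_apply_sub_lt_one hσ hx)
    (valuation_apply_sub_lt_one hσ hy) hns

end Galois

end Fermat.Agent.S13.KerTwo18
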