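import Mathlib
import Fermat.Prelude.Def_FLTPrelim_GaloisRep
import Fermat.Prelude.Def_FLTPrelim_CofixedLine

/-!
# S13 (hedge for the assembly): openness of point stabilisers and the two subgroups `H1`, `H2`

For a Weierstrass curve `E` over `ℚ`:

* `exists_finite_fixing`: for a finite set `S` of points of `E(Qbar)` there is a finite extension
  `L/ℚ` inside `Qbar` such that every `σ` fixing `L` pointwise fixes every point of `S`;
* `exists_finite_fixing_torsion`: the same for all of `E[n]` if it is finite;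
* for a Galois-stable subspace `N` of `E[n]`: the subgroups
  `H1 N = {σ | ∀ x, σ • x - x ∈ N}` and `H2 N = {σ | ∀ x ∈ N, σ • x = x}` of `Gal(Qbar/ℚ)`,
  their normality, and `L.fixingSubgroup ≤ H1 N ⊓ H2 N`.
-/

set_option autoImplicit false

namespace Fermat.Agent.S13.Open6

open WeierstrassCurve WeierstrassCurve.Affine WeierstrassCurve.Affine.Point

local notation "Qbar" => AlgebraicClosure ℚ
local notation "GQ" => (AlgebraicClosure ℚ ≃ₐ[ℚ] AlgebraicClosure ℚ)

variable {E : WeierstrassCurve ℚ}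

/-- the coordinates of a point -/
noncomputable def coords : (E⁄Qbar).Point → Set Qbar
  | .zero => ∅
  | .some x y _ => {x, y}

lemma coords_finite (P : (E⁄Qbar).Point) : (coords P).Finite := by
  cases P with
  | zero => exact Set.finite_empty
  | some x y h => exact (Set.finite_singleton y).insert x

/-- an automorphism fixing the coordinates of a point fixes the point -/
lemma smul_eq_of_fix_coords (σ : GQ) (P : (E⁄Qbar).Point)
    (h : ∀ z ∈ coords P, σ z = z) : σ • P = P := by
  cases P with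
  | zero => rfl
  | some x y hxy =>
    have hx : σ x = x := h x (by simp [coords])
    have hy : σ y = y := h y (by simp [coords])
    show Point.map σ.toAlgHom (Point.some x y hxy) = Point.some x y hxy
    rw [Point.map_some]
    have hx' : σ.toAlgHom x = x := hx
    have hy' : σ.toAlgHom y = y := hy
    simp only [hx', hy']

/-- **Openness of point stabilisers**: finitely many points are fixed by the pointwise stabiliser
of a finite extension. -/
theorem exists_finite_fixing (S : Set (E⁄Qbar).Point) (hS : S.Finite) :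
    ∃ L : IntermediateField ℚ Qbar, FiniteDimensional ℚ L ∧
      ∀ σ : GQ, σ ∈ L.fixingSubgroup → ∀ P ∈ S, σ • P = P := by
  set T : Set Qbar := ⋃ P ∈ S, coords P with hT
  have hTfin : T.Finite := hS.biUnion fun P _ => coords_finite P
  refine ⟨IntermediateField.adjoin ℚ T, ?_, ?_⟩
  · have : Finite T := hTfin
    exact IntermediateField.finiteDimensional_adjoin fun x _ =>
      (AlgebraicClosure.isAlgebraic ℚ).isIntegral.isIntegral x
  · intro σ hσ P hP
    apply smul_eq_of_fix_coords
    intro z hz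
    have hzT : z ∈ T := Set.mem_biUnion hP hz
    have hzL : z ∈ IntermediateField.adjoin ℚ T := IntermediateField.subset_adjoin ℚ T hzT
    exact (IntermediateField.mem_fixingSubgroup_iff _ _).mp hσ z hzL

/-- openness for the whole `n`-torsion, if finite -/
theorem exists_finite_fixing_torsion (n : ℕ)
    [Finite (Submodule.torsionBy ℤ (E⁄Qbar).Point n)] :
    ∃ L : IntermediateField ℚ Qbar, FiniteDimensional ℚ L ∧
      ∀ σ : GQ, σ ∈ L.fixingSubgroup →
        ∀ x : Submodule.torsionBy ℤ (E⁄Qbar).Point n, σ • x = x := by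
  obtain ⟨L, hL, h⟩ := exists_finite_fixing
    (Set.range (Subtype.val : Submodule.torsionBy ℤ (E⁄Qbar).Point n → (E⁄Qbar).Point))
    (Set.finite_range _)
  refine ⟨L, hL, fun σ hσ x => ?_⟩
  apply Subtype.ext
  exact h σ hσ x.1 ⟨x, rfl⟩

section Subgroups

variable {n : ℕ} (N : Submodule (ZMod n) (Submodule.torsionBy ℤ (E⁄Qbar).Point n))

/-- the subgroup acting trivially on `E[n] / N` -/
def H1 (hN : IsGaloisStable ℚ N) : Subgroup GQ where
  carrier := {σ | ∀ x : Submodule.torsionBy ℤ (E⁄Qbar).Point n, σ • x - x ∈ N}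
  one_mem' := fun x => by simp
  mul_mem' := by
    intro σ τ hσ hτ x
    have h1 : (σ * τ) • x - x = σ • (τ • x - x) + (σ • x - x) := by
      rw [mul_smul, smul_sub]; abel
    rw [h1]
    exact N.add_mem (hN σ _ (hτ x)) (hσ x)
  inv_mem' := by
    intro σ hσ x
    have h1 : σ⁻¹ • x - x = -(σ⁻¹ • (σ • x - x)) := by
      rw [smul_sub, inv_smul_smul]; abel
    rw [h1]
    exact N.neg_mem (hN σ⁻¹ _ (hσ x))

/-- the subgroup acting trivially on `N` -/
def H2 : Subgroup GQ where
  carrier := {σ | ∀ x ∈ N, σ • x = x}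
  one_mem' := fun x _ => one_smul _ x
  mul_mem' := by
    intro σ τ hσ hτ x hx
    rw [mul_smul, hτ x hx, hσ x hx]
  inv_mem' := by
    intro σ hσ x hx
    conv_lhs => rw [← hσ x hx]
    exact inv_smul_smul σ x

theorem mem_H1 (hN : IsGaloisStable ℚ N) (σ : GQ) :
    σ ∈ H1 N hN ↔ ∀ x : Submodule.torsionBy ℤ (E⁄Qbar).Point n, σ • x - x ∈ N := Iff.rfl

theorem mem_H2 (σ : GQ) : σ ∈ H2 N ↔ ∀ x ∈ N, σ • x = x := Iff.rfl

theorem H1_normal (hN : IsGaloisStable ℚ N) : (H1 N hN).Normal := by
  constructor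
  intro σ hσ τ x
  have h1 : (τ * σ * τ⁻¹) • x - x = τ • (σ • (τ⁻¹ • x) - τ⁻¹ • x) := by
    rw [mul_smul, mul_smul, smul_sub, smul_inv_smul]
  rw [h1]
  exact hN τ _ (hσ _)

theorem H2_normal (hN : IsGaloisStable ℚ N) : (H2 N).Normal := by
  constructor
  intro σ hσ τ x hx
  rw [mul_smul, mul_smul, hσ _ (hN τ⁻¹ x hx), smul_inv_smul]

/-- the pointwise stabiliser of `E[n]` is contained in `H1` and `H2` -/
theorem fixing_le (hN : IsGaloisStable ℚ N) (L : IntermediateField ℚ Qbar)
    (hL : ∀ σ : GQ, σ ∈ L.fixingSubgroup →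
      ∀ x : Submodule.torsionBy ℤ (E⁄Qbar).Point n, σ • x = x) :
    L.fixingSubgroup ≤ H1 N hN ⊓ H2 N := by
  intro σ hσ
  refine ⟨fun x => ?_, fun x _ => hL σ hσ x⟩
  rw [hL σ hσ x, sub_self]
  exact N.zero_mem

/-- `H1 = ⊤` means that `N` is a cofixed line -/
theorem hasCofixedLine_of_H1_eq_top (hN : IsGaloisStable ℚ N) (hbot : N ≠ ⊥) (htop : N ≠ ⊤)
    (h : H1 N hN = ⊤) :
    HasGaloisStableCofixedLine (K := AlgebraicClosure ℚ) ℚ (E : Affine ℚ) n :=
  ⟨N, hN, hbot, htop, fun σ x => (mem_H1 N hN σ).mp (h ▸ Subgroup.mem_top σ) x⟩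

end Subgroups

end Fermat.Agent.S13.Open6
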