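import Mathlib

set_option autoImplicit false

/-!
# S13, package (Lp): the "all of `E[p]` lies in the kernel of reduction" case, without formal groups

Abstract valuation-theoretic statement.  `f ∈ ℤ[X]` (in the application the `p`-th division
polynomial `preΨ_p`) has leading coefficient `p` and splits over `L` with roots `x i`, all of
valuation `> 1` (i.e. non-integral).  Then every root satisfies `v p * v (x i) ^ m = 1`
(`m = deg f`, single slope of the Newton polygon), and consequently no product of `s` of the roots,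
`0 < s < m`, can be a rational number.
-/

namespace Fermat.Agent.S13.SlopeP

open Polynomial

variable {L : Type*} [Field L] {Γ : Type*} [LinearOrderedCommGroupWithZero Γ]
  (v : Valuation L Γ)

/-- A product of factors `1 - y X` with `v y < 1` has constant coefficient `1` and all other
coefficients of valuation `< 1`. -/
theorem coeff_prod_one_sub {ι : Type*} (s : Finset ι) (y : ι → L) (hy : ∀ i ∈ s, v (y i) < 1) :
    (∏ i ∈ s, (1 - C (y i) * X : L[X])).coeff 0 = 1 ∧
      ∀ k, 1 ≤ k → v ((∏ i ∈ s, (1 - C (y i) * X : L[X])).coeff k) < 1 := by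
  classical
  induction s using Finset.induction_on with
  | empty =>
    refine ⟨by simp, fun k hk => ?_⟩
    have : k ≠ 0 := by omega
    simp [Polynomial.coeff_one, this]
  | insert a s ha ih =>
    have hy' : ∀ i ∈ s, v (y i) < 1 := fun i hi => hy i (Finset.mem_insert_of_mem hi)
    obtain ⟨h0, hk⟩ := ih hy'
    have hya : v (y a) < 1 := hy a (Finset.mem_insert_self a s)
    rw [Finset.prod_insert ha]
    set Q : L[X] := ∏ i ∈ s, (1 - C (y i) * X : L[X]) with hQ
    have hmul : ∀ k, ((1 - C (y a) * X : L[X]) * Q).coeff (k + 1)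
        = Q.coeff (k + 1) - y a * Q.coeff k := by
      intro k
      rw [sub_mul, one_mul, Polynomial.coeff_sub, mul_assoc, Polynomial.coeff_C_mul,
        Polynomial.coeff_X_mul]
    refine ⟨?_, fun k hk1 => ?_⟩
    · rw [sub_mul, one_mul, Polynomial.coeff_sub, mul_assoc, Polynomial.coeff_C_mul,
        Polynomial.coeff_X_mul_zero, mul_zero, sub_zero, h0]
    · obtain ⟨j, rfl⟩ : ∃ j, k = j + 1 := ⟨k - 1, by omega⟩
      rw [hmul j]
      refine lt_of_le_of_lt (Valuation.map_sub _ _ _) (max_lt (hk _ (by omega)) ?_)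
      rw [map_mul]
      rcases Nat.eq_zero_or_pos j with rfl | hj
      · rw [h0, map_one, mul_one]; exact hya
      · calc v (y a) * v (Q.coeff j) ≤ v (y a) * 1 := by
              gcongr
              exact (hk j hj).le
          _ = v (y a) := mul_one _
          _ < 1 := hya


/-- For `0 < π < 1`, integers with `v n = π ^ k` (`k : ℤ`) and `v n ≤ 1` have `k ≥ 0`. -/
theorem exists_nat_pow {π g : Γ} (hπ0 : π ≠ 0) (hπ1 : π < 1) (hg : g ≤ 1)
    (h : ∃ k : ℤ, g = π ^ k) : ∃ k : ℕ, g = π ^ k := by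
  obtain ⟨k, rfl⟩ := h
  rcases le_or_gt 0 k with hk | hk
  · exact ⟨k.toNat, by rw [← zpow_natCast, Int.toNat_of_nonneg hk]⟩
  · exfalso
    have hπpos : 0 < π := lt_of_le_of_ne zero_le (Ne.symm hπ0)
    have : 1 < π ^ k := one_lt_zpow_of_neg₀ hπpos hπ1 hk
    exact absurd hg (not_le.mpr this)

variable {ι : Type*} [Fintype ι]

/-- **Single slope**: if `f ∈ ℤ[X]` has leading coefficient `p`, splits over `L` with all roots of
valuation `> 1`, and `v` restricted to `ℤ` takes values in the powers of `v p < 1`, then every root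
`x` satisfies `v p * v x ^ deg f = 1`. -/
theorem slope_eq (p : ℕ) (hp0 : (p : L) ≠ 0) (hvp : v (p : L) < 1)
    (hZ : ∀ n : ℤ, n ≠ 0 → ∃ k : ℕ, v (n : L) = v (p : L) ^ k)
    (f : ℤ[X]) (hdeg : f.natDegree = Fintype.card ι) (hcard : 0 < Fintype.card ι)
    (hlead : f.leadingCoeff = p)
    (x : ι → L) (hroots : f.map (Int.castRingHom L) = C (p : L) * ∏ i, (X - C (x i)))
    (hx : ∀ i, 1 < v (x i)) (i : ι) : v (p : L) * v (x i) ^ (Fintype.card ι) = 1 := by
  classical
  set π : Γ := v (p : L) with hπ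
  have hπ0 : π ≠ 0 := (Valuation.ne_zero_iff v).mpr hp0
  have hπpos : 0 < π := lt_of_le_of_ne zero_le (Ne.symm hπ0)
  obtain ⟨m', hm'⟩ : ∃ m', Fintype.card ι = m' + 1 := ⟨Fintype.card ι - 1, by omega⟩
  have hx0 : ∀ j, x j ≠ 0 := fun j h0 => by
    have := hx j
    rw [h0, map_zero] at this
    exact absurd this (not_lt.mpr zero_le)
  set y : ι → L := fun j => (x j)⁻¹ with hy
  have hyv : ∀ j ∈ (Finset.univ : Finset ι), v (y j) < 1 := fun j _ => by
    simp only [hy, map_inv₀]
    exact inv_lt_one_of_one_lt₀ (hx j)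
  set Q : L[X] := ∏ j, (1 - C (y j) * X : L[X]) with hQ
  obtain ⟨hQ0, hQk⟩ := coeff_prod_one_sub v Finset.univ y hyv
  set B : L := (p : L) * ∏ j, (-(x j)) with hB
  have hfac : f.map (Int.castRingHom L) = C B * Q := by
    rw [hroots, hB, hQ, C_mul, mul_assoc]
    congr 1
    rw [map_prod, ← Finset.prod_mul_distrib]
    refine Finset.prod_congr rfl fun j _ => ?_
    have hxy : -(x j) * y j = -1 := by rw [neg_mul, mul_inv_cancel₀ (hx0 j)]
    rw [mul_sub, mul_one, ← mul_assoc, ← C_mul, hxy]
    simp only [C_neg, C_1]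
    ring
  have hcoeff : ∀ k, ((f.coeff k : ℤ) : L) = B * Q.coeff k := fun k => by
    have := congrArg (fun g => Polynomial.coeff g k) hfac
    simpa [Polynomial.coeff_map, Polynomial.coeff_C_mul] using this
  -- valuation of `B`
  have hvB_gt : π < v B := by
    rw [hB, map_mul, map_prod]
    have h1 : (1 : Γ) < ∏ j, v (-(x j)) := by
      rw [← Finset.mul_prod_erase Finset.univ _ (Finset.mem_univ i), Valuation.map_neg]
      have h2 : (1 : Γ) ≤ ∏ j ∈ Finset.univ.erase i, v (-(x j)) :=
        Finset.one_le_prod' fun j _ => by rw [Valuation.map_neg]; exact (hx j).le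
      calc (1 : Γ) < v (x i) := hx i
        _ = v (x i) * 1 := (mul_one _).symm
        _ ≤ v (x i) * ∏ j ∈ Finset.univ.erase i, v (-(x j)) := by gcongr
    calc π = π * 1 := (mul_one _).symm
      _ < π * ∏ j, v (-(x j)) := by
          exact mul_lt_mul_of_pos_left h1 hπpos
  have hB0 : B ≠ 0 := fun h0 => by
    rw [h0, map_zero] at hvB_gt
    exact absurd hvB_gt (not_lt.mpr zero_le)
  have hb0 : ((f.coeff 0 : ℤ) : L) = B := by rw [hcoeff 0, hQ0, mul_one]
  have hb0ne : f.coeff 0 ≠ 0 := fun h0 => by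
    rw [h0, Int.cast_zero] at hb0
    exact hB0 hb0.symm
  have hvB : v B = 1 := by
    obtain ⟨k, hk⟩ := hZ (f.coeff 0) hb0ne
    rw [hb0] at hk
    rcases Nat.eq_zero_or_pos k with rfl | hkpos
    · rw [hk, pow_zero]
    · exfalso
      have : v B ≤ π := by
        rw [hk]
        calc π ^ k ≤ π ^ 1 := pow_le_pow_of_le_one zero_le hvp.le hkpos
          _ = π := pow_one _
      exact absurd hvB_gt (not_lt.mpr this)
  have hvcoeff : ∀ k, 1 ≤ k → v ((f.coeff k : ℤ) : L) ≤ π := fun k hk => by
    by_cases h0 : f.coeff k = 0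
    · rw [h0, Int.cast_zero, map_zero]; exact zero_le
    · obtain ⟨j, hj⟩ := hZ (f.coeff k) h0
      have hlt : v ((f.coeff k : ℤ) : L) < 1 := by
        rw [hcoeff k, map_mul, hvB, one_mul]; exact hQk k hk
      rcases Nat.eq_zero_or_pos j with rfl | hjpos
      · rw [hj, pow_zero] at hlt; exact absurd hlt (lt_irrefl _)
      · rw [hj]
        calc π ^ j ≤ π ^ 1 := pow_le_pow_of_le_one zero_le hvp.le hjpos
          _ = π := pow_one _
  -- the root equation
  have hroot : (f.map (Int.castRingHom L)).eval (x i) = 0 := by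
    rw [hroots, eval_mul, eval_prod]
    have : ∏ j, eval (x i) (X - C (x j)) = 0 :=
      Finset.prod_eq_zero (Finset.mem_univ i) (by simp)
    rw [this, mul_zero]
  have hnd : (f.map (Int.castRingHom L)).natDegree < m' + 1 + 1 := by
    have := Polynomial.natDegree_map_le (f := Int.castRingHom L) (p := f)
    omega
  rw [Polynomial.eval_eq_sum_range' hnd, Finset.sum_range_succ, Finset.sum_range_succ'] at hroot
  simp only [Polynomial.coeff_map, eq_intCast, pow_zero, mul_one] at hroot
  have htop : ((f.coeff (m' + 1) : ℤ) : L) = (p : L) := by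
    have : f.coeff (m' + 1) = f.leadingCoeff := by
      rw [Polynomial.leadingCoeff, hdeg, hm']
    rw [this, hlead]; simp
  rw [htop, hb0] at hroot
  set xi := x i with hxi
  have hxi1 : 1 < v xi := hx i
  have hxipos : 0 < v xi := lt_trans zero_lt_one hxi1
  set top : L := (p : L) * xi ^ (m' + 1) with htopdef
  have hvtop : v top = π * v xi ^ (m' + 1) := by rw [htopdef, map_mul, map_pow]
  have hvtop0 : v top ≠ 0 := by
    rw [hvtop]; exact mul_ne_zero hπ0 (pow_ne_zero _ hxipos.ne')
  have hmid : v (∑ k ∈ Finset.range m', ((f.coeff (k + 1) : ℤ) : L) * xi ^ (k + 1)) < v top := by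
    refine Valuation.map_sum_lt v hvtop0 fun k hk => ?_
    rw [map_mul, map_pow, hvtop]
    have hk' : k + 1 < m' + 1 := by
      have := Finset.mem_range.mp hk; omega
    calc v ((f.coeff (k + 1) : ℤ) : L) * v xi ^ (k + 1)
        ≤ π * v xi ^ (k + 1) := by
          gcongr
          exact hvcoeff (k + 1) (by omega)
      _ < π * v xi ^ (m' + 1) := by
          exact mul_lt_mul_of_pos_left (pow_lt_pow_right₀ hxi1 hk') hπpos
  have hT : v (∑ k ∈ Finset.range m', ((f.coeff (k + 1) : ℤ) : L) * xi ^ (k + 1) + top)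
      = v top := Valuation.map_add_eq_of_lt_right v hmid
  have hBeq : B = -(∑ k ∈ Finset.range m', ((f.coeff (k + 1) : ℤ) : L) * xi ^ (k + 1) + top) := by
    rw [eq_neg_iff_add_eq_zero]
    rw [← hroot]; ring
  have : v B = v top := by rw [hBeq, Valuation.map_neg, hT]
  rw [hm', ← hvtop, ← this, hvB]


/-- **No rational sub-product**: in the situation of `slope_eq`, a product of `s` of the roots with
`0 < s < deg f` is never a rational number (its valuation would be a non-integral multiple of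
`v p`).  This kills a Galois-stable line inside `E[p]` when all of `E[p]` reduces to `0`. -/
theorem no_rational_subproduct (p : ℕ) (hp0 : (p : L) ≠ 0) (hvp : v (p : L) < 1)
    (hZ : ∀ n : ℤ, v (n : L) ≤ 1)
    (hQ : ∀ c : ℚ, c ≠ 0 → ∃ k : ℤ, v (c : L) = v (p : L) ^ k)
    (f : ℤ[X]) (hdeg : f.natDegree = Fintype.card ι) (hlead : f.leadingCoeff = p)
    (x : ι → L) (hroots : f.map (Int.castRingHom L) = C (p : L) * ∏ i, (X - C (x i)))
    (hx : ∀ i, 1 < v (x i))
    (S : Finset ι) (hS0 : S.Nonempty) (hSm : S.card < Fintype.card ι)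
    (c : ℚ) (hc : (c : L) = ∏ i ∈ S, x i) : False := by
  classical
  set π : Γ := v (p : L) with hπ
  have hπ0 : π ≠ 0 := (Valuation.ne_zero_iff v).mpr hp0
  have hπpos : 0 < π := lt_of_le_of_ne zero_le (Ne.symm hπ0)
  have hcard : 0 < Fintype.card ι := by
    obtain ⟨i, _⟩ := hS0
    exact Fintype.card_pos_iff.mpr ⟨i⟩
  have hZ' : ∀ n : ℤ, n ≠ 0 → ∃ k : ℕ, v (n : L) = v (p : L) ^ k := fun n hn => by
    refine exists_nat_pow hπ0 hvp (hZ n) ?_
    obtain ⟨k, hk⟩ := hQ (n : ℚ) (by exact_mod_cast hn)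
    exact ⟨k, by rw [← hk, Rat.cast_intCast]⟩
  have hsl := slope_eq v p hp0 hvp hZ' f hdeg hcard hlead x hroots hx
  have hx0 : ∀ j, x j ≠ 0 := fun j h0 => by
    have := hx j
    rw [h0, map_zero] at this
    exact absurd this (not_lt.mpr zero_le)
  have hcL : (c : L) ≠ 0 := by
    rw [hc]; exact Finset.prod_ne_zero_iff.mpr fun j _ => hx0 j
  have hc0 : c ≠ 0 := fun h0 => hcL (by rw [h0, Rat.cast_zero])
  obtain ⟨k, hk⟩ := hQ c hc0
  set m := Fintype.card ι with hm
  have h1 : π ^ S.card * v (c : L) ^ m = 1 := by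
    rw [hc, map_prod, ← Finset.prod_pow, ← Finset.prod_const, ← Finset.prod_mul_distrib]
    exact Finset.prod_eq_one fun j _ => hsl j
  rw [hk, ← zpow_natCast, ← zpow_natCast, ← zpow_mul, ← zpow_add₀ hπ0] at h1
  have h2 : (S.card : ℤ) + k * (m : ℤ) = 0 := by
    by_contra hne
    rcases lt_or_gt_of_ne hne with hlt | hgt
    · have : 1 < π ^ ((S.card : ℤ) + k * (m : ℤ)) := one_lt_zpow_of_neg₀ hπpos hvp hlt
      rw [h1] at this; exact lt_irrefl _ this
    · have : π ^ ((S.card : ℤ) + k * (m : ℤ)) < 1 := zpow_lt_one₀ hπpos hvp hgt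
      rw [h1] at this; exact lt_irrefl _ this
  have hdvd : (m : ℤ) ∣ (S.card : ℤ) := ⟨-k, by linarith⟩
  have hle : m ≤ S.card := by
    have := Int.le_of_dvd (by exact_mod_cast Finset.card_pos.mpr hS0) hdvd
    exact_mod_cast this
  omega

end Fermat.Agent.S13.SlopeP
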