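import Fermat.Agent.S13.SlopeP
import Fermat.Agent.S05.FreyLocal

set_option autoImplicit false

/-!
# S13, package (Lp), `ValuationSubring` form

Specialisation of `SlopeP.no_rational_subproduct` to a valuation subring `A` of a characteristic-zero
field lying over a prime `p` (in the sense of the Prelude: `(p : K) ∈ A.nonunits`).
-/

namespace Fermat.Agent.S13.SlopeP

open Polynomial Fermat.Agent.S05

variable {K : Type*} [Field K] [CharZero K] (A : ValuationSubring K)

omit [CharZero K] in
/-- The valuation of a nonzero integer is a natural power of the valuation of `p`. -/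
theorem val_int_eq_pow {p : ℕ} (hp : p.Prime) (hA : A.LiesOverPrime p) {n : ℤ} (hn : n ≠ 0) :
    ∃ k : ℕ, A.valuation (n : K) = A.valuation (p : K) ^ k := by
  have hfin : FiniteMultiplicity (p : ℤ) n :=
    Int.finiteMultiplicity_iff.mpr ⟨by simpa using hp.ne_one, hn⟩
  obtain ⟨c, hc, hnd⟩ := hfin.exists_eq_pow_mul_and_not_dvd
  refine ⟨multiplicity (p : ℤ) n, ?_⟩
  have h1 : A.valuation (c : K) = 1 := frey_val_int_eq_one A hp hA hnd
  have : (n : K) = (p : K) ^ multiplicity (p : ℤ) n * (c : K) := by
    conv_lhs => rw [hc]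
    push_cast
    ring
  rw [this, map_mul, map_pow, h1, mul_one]

/-- The valuation of a nonzero rational is an integral power of the valuation of `p`. -/
theorem val_rat_eq_zpow {p : ℕ} (hp : p.Prime) (hA : A.LiesOverPrime p) {c : ℚ} (hc : c ≠ 0) :
    ∃ k : ℤ, A.valuation (c : K) = A.valuation (p : K) ^ k := by
  obtain ⟨a, ha⟩ := val_int_eq_pow A hp hA (Rat.num_ne_zero.mpr hc)
  obtain ⟨b, hb⟩ := val_int_eq_pow A hp hA (n := (c.den : ℤ)) (by exact_mod_cast c.den_ne_zero)
  refine ⟨(a : ℤ) - (b : ℤ), ?_⟩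
  have hp0 : A.valuation (p : K) ≠ 0 :=
    (Valuation.ne_zero_iff _).mpr (by exact_mod_cast hp.ne_zero)
  have hcast : (c : K) = (c.num : K) / ((c.den : ℤ) : K) := by
    rw [Rat.cast_def]; push_cast; rfl
  rw [hcast, map_div₀, ha, hb, zpow_sub₀ hp0, zpow_natCast, zpow_natCast]

/-- **(Lp), valuation-subring form.**  Let `f ∈ ℤ[X]` have leading coefficient `p` and split over `K`
as `p ∏ (X - x i)` with NO root in `A` (`A` lying over `p`).  Then no product of `s` roots with
`0 < s < deg f` is rational. -/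
theorem no_rational_subproduct_of_liesOver {ι : Type*} [Fintype ι] {p : ℕ} (hp : p.Prime)
    (hA : A.LiesOverPrime p) (f : ℤ[X]) (hdeg : f.natDegree = Fintype.card ι)
    (hlead : f.leadingCoeff = p) (x : ι → K)
    (hroots : f.map (Int.castRingHom K) = C (p : K) * ∏ i, (X - C (x i)))
    (hx : ∀ i, x i ∉ A) (S : Finset ι) (hS0 : S.Nonempty) (hSm : S.card < Fintype.card ι)
    (c : ℚ) (hc : (c : K) = ∏ i ∈ S, x i) : False := by
  refine no_rational_subproduct A.valuation p (by exact_mod_cast hp.ne_zero)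
    (A.mem_nonunits_iff.mp hA) (frey_val_intCast_le A)
    (fun c hc => val_rat_eq_zpow A hp hA hc) f hdeg hlead x hroots (fun i => ?_) S hS0 hSm c hc
  exact not_le.mp fun h => hx i ((A.valuation_le_one_iff _).mp h)

end Fermat.Agent.S13.SlopeP
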