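import Fermat.Agent.S13.SlopePVal
import Fermat.Prelude.Def_FLTPrelim_GaloisRep
import Fermat.Prelude.Def_FLTPrelim_Ramification
import Fermat.Agent.S51.Endgame

set_option autoImplicit false

/-!
# S13: the case "all of `E[p]` lies in the kernel of reduction at a place over `p`"

Glue between the point-level data and `SlopeP.no_rational_subproduct_of_liesOver`.
The torsion facts (`card E[p] = p^2`, `P ∈ E[p] ∖ 0 ⇒ f (x P) = 0` for an integral polynomial `f` of
degree `(p^2-1)/2` with leading coefficient `p`) enter as hypotheses.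
-/

namespace Fermat.Agent.S13.SuperSing

open WeierstrassCurve WeierstrassCurve.Affine WeierstrassCurve.Affine.Point Polynomial

local notation "Qbar" => AlgebraicClosure ℚ

variable {W' : Affine ℚ}

/-- The `x`-coordinate of a point (`0` at the point at infinity). -/
noncomputable def xOf (P : (W'⁄Qbar).Point) : Qbar :=
  match P with
  | .zero => 0
  | .some x _ _ => x

@[simp] theorem xOf_zero : xOf (0 : (W'⁄Qbar).Point) = 0 := rfl

@[simp] theorem xOf_some {x y : Qbar} (h : (W'⁄Qbar).Nonsingular x y) :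
    xOf (Point.some x y h) = x := rfl

theorem xOf_smul (σ : Qbar ≃ₐ[ℚ] Qbar) (P : (W'⁄Qbar).Point) : xOf (σ • P) = σ (xOf P) := by
  rcases P with _ | ⟨x, y, h⟩
  · show (0 : Qbar) = σ 0
    rw [_root_.map_zero]
  · rfl

theorem xOf_neg (P : (W'⁄Qbar).Point) : xOf (-P) = xOf P := by
  rcases P with _ | ⟨x, y, h⟩ <;> rfl

theorem eq_or_eq_neg_of_xOf_eq {P Q : (W'⁄Qbar).Point} (hP : P ≠ 0) (hQ : Q ≠ 0)
    (h : xOf P = xOf Q) : P = Q ∨ P = -Q := by
  rcases P with _ | ⟨x, y, hxy⟩
  · exact absurd rfl hP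
  rcases Q with _ | ⟨x', y', hxy'⟩
  · exact absurd rfl hQ
  simp only [xOf_some] at h
  subst h
  rcases Y_eq_of_X_eq hxy.1 hxy'.1 rfl with hy | hy
  · left; subst hy; rfl
  · right; rw [neg_some]; subst hy; rfl


section Main

variable {p : ℕ}

/-- **No Galois-stable line when all of `E[p]` reduces to `0`.**
`f ∈ ℤ[X]` plays the role of the `p`-th division polynomial of an integral model. -/
theorem false_of_all_in_kernel (hp : p.Prime) (hp2 : p ≠ 2)
    (f : ℤ[X]) (hdeg : 2 * f.natDegree = p ^ 2 - 1) (hlead : f.leadingCoeff = p)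
    (hT1 : ∀ (x y : Qbar) (h : (W'⁄Qbar).Nonsingular x y),
      Point.some x y h ∈ Submodule.torsionBy ℤ (W'⁄Qbar).Point (p : ℕ) →
        (f.map (Int.castRingHom Qbar)).IsRoot x)
    (hcard : Nat.card (Submodule.torsionBy ℤ (W'⁄Qbar).Point (p : ℕ)) = p ^ 2)
    (N0 : Submodule (ZMod p) (Submodule.torsionBy ℤ (W'⁄Qbar).Point (p : ℕ)))
    (hst : IsGaloisStable ℚ N0) (hbot : N0 ≠ ⊥) (htop : N0 ≠ ⊤)
    (A : ValuationSubring Qbar) (hA : A.LiesOverPrime p)
    (hker : ∀ (x y : Qbar) (h : (W'⁄Qbar).Nonsingular x y),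
      Point.some x y h ∈ Submodule.torsionBy ℤ (W'⁄Qbar).Point (p : ℕ) → x ∉ A) : False := by
  classical
  have hp3 : 3 ≤ p := by
    have := hp.two_le
    omega
  have hp2pos : 0 < p ^ 2 := pow_pos hp.pos 2
  have hfin : Finite (Submodule.torsionBy ℤ (W'⁄Qbar).Point (p : ℕ)) :=
    Nat.finite_of_card_ne_zero (by rw [hcard]; exact hp2pos.ne')
  let _inst : Fintype (Submodule.torsionBy ℤ (W'⁄Qbar).Point (p : ℕ)) := Fintype.ofFinite _
  set m := f.natDegree with hm
  -- the x-coordinate on `V`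
  set xc : (Submodule.torsionBy ℤ (W'⁄Qbar).Point (p : ℕ)) → Qbar := fun P => xOf (P : (W'⁄Qbar).Point)
    with hxc
  set nz : Finset (Submodule.torsionBy ℤ (W'⁄Qbar).Point (p : ℕ)) :=
    Finset.univ.filter (fun P => P ≠ 0) with hnz
  have hnzcard : nz.card = p ^ 2 - 1 := by
    have h1 : (Finset.univ.filter (fun P : (Submodule.torsionBy ℤ (W'⁄Qbar).Point (p : ℕ)) => P ≠ 0)).card
        = Fintype.card (Submodule.torsionBy ℤ (W'⁄Qbar).Point (p : ℕ)) - 1 := by
      rw [Finset.filter_ne' Finset.univ (0 : Submodule.torsionBy ℤ (W'⁄Qbar).Point (p : ℕ)),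
        Finset.card_erase_of_mem (Finset.mem_univ _), Finset.card_univ]
    rw [hnz, h1, ← Nat.card_eq_fintype_card, hcard]
  set XV : Finset Qbar := nz.image xc with hXV
  -- nonzero points are affine
  have haff : ∀ P : (Submodule.torsionBy ℤ (W'⁄Qbar).Point (p : ℕ)), P ≠ 0 →
      ∃ (x y : Qbar) (h : (W'⁄Qbar).Nonsingular x y),
        (P : (W'⁄Qbar).Point) = Point.some x y h := by
    rintro ⟨P, hP⟩ hne
    rcases P with _ | ⟨x, y, h⟩
    · exact absurd (Subtype.ext rfl) hne
    · exact ⟨x, y, h, rfl⟩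
  have hcoe_ne : ∀ P : (Submodule.torsionBy ℤ (W'⁄Qbar).Point (p : ℕ)), P ≠ 0 →
      (P : (W'⁄Qbar).Point) ≠ 0 := fun P hP h0 => hP (Subtype.ext h0)
  -- fibres of `xc` on `nz` have at most two elements
  have hfib : ∀ a ∈ nz.image xc, (nz.filter (fun P => xc P = a)).card ≤ 2 := by
    intro a ha
    obtain ⟨P0, hP0, rfl⟩ := Finset.mem_image.mp ha
    have hP0ne : P0 ≠ 0 := (Finset.mem_filter.mp hP0).2
    have hsub : nz.filter (fun P => xc P = xc P0) ⊆ {P0, -P0} := by
      intro Q hQ
      obtain ⟨hQnz, hQx⟩ := Finset.mem_filter.mp hQ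
      have hQne : Q ≠ 0 := (Finset.mem_filter.mp hQnz).2
      rcases eq_or_eq_neg_of_xOf_eq (hcoe_ne Q hQne) (hcoe_ne P0 hP0ne) hQx with h | h
      · simp [Subtype.ext h]
      · have : Q = -P0 := Subtype.ext h
        simp [this]
    exact (Finset.card_le_card hsub).trans Finset.card_le_two
  have hXVge : p ^ 2 - 1 ≤ 2 * XV.card := by
    rw [← hnzcard]
    exact Finset.card_le_mul_card_image nz 2 hfib
  -- roots of `g := f.map`
  set g : Qbar[X] := f.map (Int.castRingHom Qbar) with hg
  have hinj : Function.Injective (Int.castRingHom Qbar) := Int.cast_injective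
  have hgdeg : g.natDegree = m := Polynomial.natDegree_map_eq_of_injective hinj f
  have hglead : g.leadingCoeff = (p : Qbar) := by
    rw [hg, Polynomial.leadingCoeff_map_of_injective hinj, hlead]; simp
  have hf0 : f ≠ 0 := fun h0 => by
    rw [h0, leadingCoeff_zero] at hlead
    exact hp.ne_zero (by exact_mod_cast hlead.symm)
  have hg0 : g ≠ 0 := (Polynomial.map_ne_zero_iff hinj).mpr hf0
  have hXVroots : XV ⊆ g.roots.toFinset := by
    intro a ha
    obtain ⟨P, hP, rfl⟩ := Finset.mem_image.mp ha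
    have hPne : P ≠ 0 := (Finset.mem_filter.mp hP).2
    obtain ⟨x, y, h, hPxy⟩ := haff P hPne
    rw [Multiset.mem_toFinset, Polynomial.mem_roots hg0]
    have : xc P = x := by simp only [hxc, hPxy, xOf_some]
    rw [this]
    exact hT1 x y h (hPxy ▸ P.2)
  have hc1 : XV.card ≤ g.roots.toFinset.card := Finset.card_le_card hXVroots
  have hc2 : g.roots.toFinset.card ≤ Multiset.card g.roots := Multiset.toFinset_card_le _
  have hc3 : Multiset.card g.roots ≤ m := hgdeg ▸ Polynomial.card_roots' g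
  have hXVcard : XV.card = m := by omega
  have hrootscard : Multiset.card g.roots = m := by omega
  have htoF : g.roots.toFinset = XV :=
    (Finset.eq_of_subset_of_card_le hXVroots (by omega)).symm
  have hnodup : g.roots.Nodup := by
    rw [← Multiset.toFinset_card_eq_card_iff_nodup]; omega
  have hrootsval : g.roots = XV.val := by
    rw [← htoF, Multiset.toFinset_val, Multiset.dedup_eq_self.mpr hnodup]
  -- factorisation
  have hfac : g = C (p : Qbar) * ∏ i : {a // a ∈ XV}, (X - C (i : Qbar)) := by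
    have h := Polynomial.C_leadingCoeff_mul_prod_multiset_X_sub_C (p := g) (by rw [hrootscard, hgdeg])
    rw [hglead, hrootsval] at h
    rw [← h]
    congr 1
    rw [Finset.prod_coe_sort XV (fun a => (X - C a : Qbar[X]))]
    rfl
  -- the roots are not in `A`
  have hxA : ∀ i : {a // a ∈ XV}, (i : Qbar) ∉ A := by
    rintro ⟨a, ha⟩
    obtain ⟨P, hP, rfl⟩ := Finset.mem_image.mp ha
    have hPne : P ≠ 0 := (Finset.mem_filter.mp hP).2
    obtain ⟨x, y, h, hPxy⟩ := haff P hPne
    have : xc P = x := by simp only [hxc, hPxy, xOf_some]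
    show xc P ∉ A
    rw [this]
    exact hker x y h (hPxy ▸ P.2)
  -- the stable line
  set nzN : Finset (Submodule.torsionBy ℤ (W'⁄Qbar).Point (p : ℕ)) :=
    nz.filter (fun P => P ∈ N0) with hnzN
  set XN : Finset Qbar := nzN.image xc with hXN
  have hXNsub : XN ⊆ XV := Finset.image_subset_image (Finset.filter_subset _ _)
  have hXNne : XN.Nonempty := by
    obtain ⟨P, hPN, hPne⟩ := (Submodule.ne_bot_iff N0).mp hbot
    exact ⟨xc P, Finset.mem_image.mpr ⟨P, Finset.mem_filter.mpr
      ⟨Finset.mem_filter.mpr ⟨Finset.mem_univ _, hPne⟩, hPN⟩, rfl⟩⟩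
  -- cardinality of `N0`
  have hN0card : Nat.card N0 ≤ p := by
    have hdvd : Nat.card N0 ∣ p ^ 2 := by
      rw [← hcard]
      exact AddSubgroup.card_addSubgroup_dvd_card N0.toAddSubgroup
    obtain ⟨k, hk2, hk⟩ := (Nat.dvd_prime_pow hp).mp hdvd
    have hkne : k ≠ 2 := fun h2 => by
      apply htop
      rw [h2, ← hcard] at hk
      have : N0.toAddSubgroup = ⊤ := (AddSubgroup.card_eq_iff_eq_top _).mp hk
      rw [eq_top_iff]
      intro x _
      have hx : x ∈ N0.toAddSubgroup := this ▸ AddSubgroup.mem_top x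
      exact hx
    have hk1 : k ≤ 1 := by omega
    rw [hk]
    calc p ^ k ≤ p ^ 1 := Nat.pow_le_pow_right hp.pos hk1
      _ = p := pow_one p
  have hnzNcard : nzN.card + 1 ≤ p := by
    have h1 : nzN.card + 1 ≤ Nat.card N0 := by
      rw [Nat.card_eq_fintype_card, ← Finset.card_univ]
      have hinjN : Function.Injective (fun P : N0 => (P : Submodule.torsionBy ℤ (W'⁄Qbar).Point (p : ℕ))) :=
        Subtype.val_injective
      have : insert 0 nzN ⊆ (Finset.univ : Finset N0).image
          (fun P : N0 => (P : Submodule.torsionBy ℤ (W'⁄Qbar).Point (p : ℕ))) := by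
        intro Q hQ
        rcases Finset.mem_insert.mp hQ with rfl | hQ
        · exact Finset.mem_image.mpr ⟨0, Finset.mem_univ _, rfl⟩
        · exact Finset.mem_image.mpr ⟨⟨Q, (Finset.mem_filter.mp hQ).2⟩, Finset.mem_univ _, rfl⟩
      have h0 : (0 : Submodule.torsionBy ℤ (W'⁄Qbar).Point (p : ℕ)) ∉ nzN := fun h =>
        (Finset.mem_filter.mp (Finset.mem_filter.mp h).1).2 rfl
      calc nzN.card + 1 = (insert 0 nzN).card := (Finset.card_insert_of_notMem h0).symm
        _ ≤ ((Finset.univ : Finset N0).image _).card := Finset.card_le_card this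
        _ ≤ (Finset.univ : Finset N0).card := Finset.card_image_le
    exact h1.trans hN0card
  have hXNcard : XN.card < m := by
    have h1 : XN.card ≤ nzN.card := Finset.card_image_le
    have h2 : 2 * (p - 1) < p ^ 2 - 1 := by
      have : p ^ 2 = p * p := sq p
      have h3 : 3 * p ≤ p * p := Nat.mul_le_mul_right p hp3
      omega
    omega
  -- Galois invariance of the product
  set cK : Qbar := ∏ a ∈ XN, a with hcK
  have hfix : ∀ σ : Qbar ≃ₐ[ℚ] Qbar, σ cK = cK := by
    intro σ
    have himg : XN.image σ = XN := by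
      refine Finset.eq_of_subset_of_card_le ?_ ?_
      · intro b hb
        obtain ⟨a, ha, rfl⟩ := Finset.mem_image.mp hb
        obtain ⟨P, hP, rfl⟩ := Finset.mem_image.mp ha
        obtain ⟨hPnz, hPN⟩ := Finset.mem_filter.mp hP
        have hPne : P ≠ 0 := (Finset.mem_filter.mp hPnz).2
        refine Finset.mem_image.mpr ⟨σ • P, ?_, ?_⟩
        · refine Finset.mem_filter.mpr ⟨Finset.mem_filter.mpr ⟨Finset.mem_univ _, ?_⟩, hst σ P hPN⟩
          intro h0
          apply hPne
          have : σ⁻¹ • (σ • P) = σ⁻¹ • (0 : Submodule.torsionBy ℤ (W'⁄Qbar).Point (p : ℕ)) := by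
            rw [h0]
          rwa [inv_smul_smul, smul_zero] at this
        · exact xOf_smul σ (P : (W'⁄Qbar).Point)
      · rw [Finset.card_image_of_injective _ σ.injective]
    rw [hcK, map_prod]
    conv_rhs => rw [← himg]
    rw [Finset.prod_image (fun a _ b _ hab => σ.injective hab)]
  obtain ⟨c, hc⟩ := Fermat.Agent.S51.exists_rat_of_fixed cK hfix
  -- apply the slope lemma
  set S : Finset {a // a ∈ XV} := XN.subtype (fun a => a ∈ XV) with hS
  have hScard : S.card = XN.card := by
    rw [hS, Finset.card_subtype, Finset.filter_true_of_mem (fun a ha => hXNsub ha)]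
  have hSprod : ∏ i ∈ S, (i : Qbar) = cK := by
    rw [hS, hcK]
    exact Finset.prod_subtype_of_mem (fun a => a) (fun a ha => hXNsub ha)
  refine SlopeP.no_rational_subproduct_of_liesOver A hp hA f ?_ hlead
    (fun i : {a // a ∈ XV} => (i : Qbar)) hfac hxA S ?_ ?_ c ?_
  · rw [Fintype.card_coe, hXVcard]
  · rw [← Finset.card_pos, hScard]; exact Finset.card_pos.mpr hXNne
  · rw [hScard, Fintype.card_coe, hXVcard]; exact hXNcard
  · rw [hSprod, ← hc, eq_ratCast]

end Main

end Fermat.Agent.S13.SuperSing
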