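import Fermat.Agent.S13.TentGen
import Fermat.Agent.S05.NodeComponent

set_option autoImplicit false

/-!
# S13 (L2): the duplication tent lemma without `2` being a unit, and the `S05` tent hypotheses
`TentLemma v A2 A4`, `TentDouble v A2 A4` under `0 ≤ ord 2`, `4 * A2` a unit.

For the model `Y² + XY = X³ + a2 X² + a4 X` at the prime `2` (two-torsion abscissa `t = 0`):
`A2 = sB2 / 4 = b₂ / 4` is not integral, but `4 * A2 = b₂ = 1 + 4 a2` is a unit, and
`A4 = sB4 / 2 = a4`.  So `S05.node_component_R` applies verbatim at the prime `2`.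
-/

namespace Fermat.Agent.S13.TentGen

open Fermat.Agent.S05 Fermat.Agent.S05.OrdFn

variable {K : Type*} [Field K]

/-- **The tent lemma for duplication**, general denominators:
`Z * (X * (c4 X² + u X + c4 A4)) = (X² - A4)²` with `0 ≤ ord c4`, `u` a unit. -/
theorem tent_double_gen (v : OrdFn K) {c4 u A4 : K} (hc4 : v.Ge c4 0) (hu : v.IsUnit u)
    (hA4 : A4 ≠ 0) (hm : 0 < v.ord A4) {X Z : K}
    (hden0 : X * (c4 * X ^ 2 + u * X + c4 * A4) ≠ 0)
    (hD : Z * (X * (c4 * X ^ 2 + u * X + c4 * A4)) = (X ^ 2 - A4) ^ 2) :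
    kap v (v.ord A4) Z = tent (v.ord A4) (2 * kap v (v.ord A4) X) := by
  have hA4is : v.Is A4 (v.ord A4) := is_self hA4
  generalize v.ord A4 = m at hm hA4is ⊢
  have hX : X ≠ 0 := left_ne_zero_of_mul hden0
  have hQ0 : c4 * X ^ 2 + u * X + c4 * A4 ≠ 0 := right_ne_zero_of_mul hden0
  have h1 : v.Is X (v.ord X) := is_self hX
  generalize v.ord X = o at h1
  have huX : v.Is (u * X) o := (hu.is.mul h1).congr (by ring)
  have hQ : v.Is (c4 * X ^ 2 + u * X + c4 * A4) (v.ord (c4 * X ^ 2 + u * X + c4 * A4)) :=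
    is_self hQ0
  -- valuation of `Z` from the valuations of `Q` and `X ^ 2 - A4`
  have hZis : ∀ {q r : ℚ}, v.Is (c4 * X ^ 2 + u * X + c4 * A4) q → v.Is (X ^ 2 - A4) r →
      v.Is Z (2 * r - (o + q)) := by
    intro q r hQ hR
    have hden : v.Is (X * (c4 * X ^ 2 + u * X + c4 * A4)) (o + q) := h1.mul hQ
    exact Is.of_mul_eq hden hR.sq hD
  -- a general lower bound for `Q`
  have hQge : ∀ {c : ℚ}, c ≤ 2 * o → c ≤ o → c ≤ m →
      c ≤ v.ord (c4 * X ^ 2 + u * X + c4 * A4) := by
    intro c hc1 hc2 hc3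
    have t1 : v.Ge (c4 * X ^ 2) c := (hc4.mul h1.sq.ge).mono (by linarith)
    have t2 : v.Ge (u * X) c := huX.ge_of_le hc2
    have t3 : v.Ge (c4 * A4) c := (hc4.mul hA4is.ge).mono (by linarith)
    exact ((t1.add t2).add t3).le_ord hQ0
  rcases lt_trichotomy o 0 with ho | ho | ho
  · -- `X` not integral
    have hq : 2 * o ≤ v.ord (c4 * X ^ 2 + u * X + c4 * A4) :=
      hQge le_rfl (by linarith) (by linarith)
    have hR : v.Is (X ^ 2 - A4) (2 * o) := h1.sq.sub_ge hA4is.ge (by linarith)
    have hZ := hZis hQ hR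
    rw [kap_of_is_nonpos hZ (by linarith), kap_of_is_nonpos h1 ho.le]
    unfold tent
    rw [mul_zero, min_eq_left (by linarith)]
  · -- `X` a unit
    subst ho
    have hq : (0 : ℚ) ≤ v.ord (c4 * X ^ 2 + u * X + c4 * A4) :=
      hQge (by linarith) le_rfl hm.le
    have hR : v.Is (X ^ 2 - A4) 0 := (h1.sq.sub_ge hA4is.ge (by linarith)).congr (by ring)
    have hZ := hZis hQ hR
    rw [kap_of_is_nonpos hZ (by linarith), kap_of_is_nonpos h1 le_rfl]
    unfold tent
    rw [mul_zero, min_eq_left (by linarith)]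
  · rcases lt_or_ge o m with hom | hom
    · -- `X` small, not as small as `A4`
      have hQ' : v.Is (c4 * X ^ 2 + u * X + c4 * A4) o := by
        have : c4 * X ^ 2 + u * X + c4 * A4 = u * X + (c4 * X ^ 2 + c4 * A4) := by ring
        rw [this]
        refine huX.add_ge (c := min (2 * o) m) ?_ ?_
        · exact ((hc4.mul h1.sq.ge).mono (by linarith [min_le_left (2 * o) m])).add
            ((hc4.mul hA4is.ge).mono (by linarith [min_le_right (2 * o) m]))
        · exact lt_min (by linarith) hom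
      have kX : kap v m X = o := kap_of_is_mid h1 ho.le hom.le
      rcases lt_trichotomy (2 * o) m with hlt | heq | hgt
      · have hR : v.Is (X ^ 2 - A4) (2 * o) := h1.sq.sub_ge hA4is.ge hlt
        have hZ := hZis hQ' hR
        rw [kap_of_is_mid hZ (by linarith) (by linarith), kX]
        unfold tent
        rw [min_eq_left (by linarith)]
        ring
      · have hR : v.Ge (X ^ 2 - A4) m := (h1.sq.ge_of_le heq.ge).sub hA4is.ge
        have hden : v.Is (X * (c4 * X ^ 2 + u * X + c4 * A4)) (o + o) := h1.mul hQ'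
        have hZ : v.Ge Z m := (Ge.of_mul_eq hden hR.sq hD).mono (by linarith)
        rw [kap_of_ge hm.le hZ, kX]
        unfold tent
        rw [min_eq_left (by linarith)]
        linarith
      · have hR : v.Is (X ^ 2 - A4) m := hA4is.ge_sub h1.sq.ge hgt
        have hZ := hZis hQ' hR
        rw [kap_of_is_mid hZ (by linarith) (by linarith), kX]
        unfold tent
        rw [min_eq_right (by linarith)]
        ring
    · -- `X` at least as small as `A4`
      have hq : m ≤ v.ord (c4 * X ^ 2 + u * X + c4 * A4) :=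
        hQge (by linarith) hom le_rfl
      have hR : v.Is (X ^ 2 - A4) m := hA4is.ge_sub h1.sq.ge (by linarith)
      have hZ := hZis hQ hR
      rw [kap_of_is_nonpos hZ (by linarith), kap_of_ge hm.le (h1.ge_of_le hom)]
      unfold tent
      rw [min_eq_right (by linarith)]
      ring

/-- the `S05` hypothesis `TentLemma v A2 A4`, valid as soon as `0 ≤ ord 2` and `4 * A2` is a
unit (in particular at the prime `2`). -/
theorem tentLemma_of_unit (v : OrdFn K) (h2 : v.Ge (2 : K) 0) {A2 A4 : K}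
    (hu : v.IsUnit (4 * A2)) (hA4 : A4 ≠ 0) (hm : 0 < v.ord A4) : TentLemma v A2 A4 := by
  intro X1 X2 Zp Zm hne hPi hS
  exact tent_lemma_gen v h2 hu hA4 hm hne hPi (by rw [hS]; ring)

/-- the `S05` hypothesis `TentDouble v A2 A4`, valid as soon as `2 ≠ 0`, `0 ≤ ord 2` and `4 * A2`
is a unit (in particular at the prime `2`). -/
theorem tentDouble_of_unit (v : OrdFn K) (h20 : (2 : K) ≠ 0) (h2 : v.Ge (2 : K) 0) {A2 A4 : K}
    (hu : v.IsUnit (4 * A2)) (hA4 : A4 ≠ 0) (hm : 0 < v.ord A4) : TentDouble v A2 A4 := by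
  intro X Y Z hY hE hD
  have h4 : v.Ge (4 : K) 0 := by
    have : (4 : K) = 2 * 2 := by norm_num
    rw [this]
    exact (h2.mul h2).mono (by norm_num)
  have h40 : (4 : K) ≠ 0 := by
    have : (4 : K) = 2 * 2 := by norm_num
    rw [this]
    exact mul_ne_zero h20 h20
  have hden : X * (4 * X ^ 2 + 4 * A2 * X + 4 * A4) = 4 * Y ^ 2 := by rw [hE]; ring
  refine tent_double_gen v h4 hu hA4 hm ?_ (by rw [hden]; exact hD)
  rw [hden]
  exact mul_ne_zero h40 (pow_ne_zero 2 hY)

end Fermat.Agent.S13.TentGen
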