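import Fermat.Agent.S05.Tent

set_option autoImplicit false

/-!
# S13 (L2): the generalised tent lemma

Mechanical generalisation of `Fermat.Agent.S05.tent_lemma`: the numerator of the sum
`x(P+Q) + x(P-Q)` is allowed to be `c2 * ((X1 + X2) * (X1 * X2 + B)) + u * (X1 * X2)` with
`0 ≤ ord c2` (not necessarily a unit) and `u` a unit.  This covers

* the model `Y² = X³ + A2 X² + A4 X` away from `2` (`c2 = 2`, `u = 4 A2`, `B = A4`), and
* the model `Y² + XY = X³ + a2 X² + a4 X` at the prime `2` (`c2 = 2`, `u = b₂ = 1 + 4 a2`,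
  `B = a4`), where `2` is not a unit.
-/

namespace Fermat.Agent.S13.TentGen

open Fermat.Agent.S05 Fermat.Agent.S05.OrdFn

section numerators

variable {K : Type*} [Field K] {v : OrdFn K} {c2 u A4 X1 X2 : K}

/-- lower bound for the numerator of the sum -/
lemma numS_ge_gen (h2 : v.Ge c2 0) (hA2 : v.IsUnit u) {m a b e c n : ℚ}
    (hA4 : v.Ge A4 m) (h1 : v.Ge X1 a) (hx2 : v.Ge X2 b) (he1 : e ≤ a) (he2 : e ≤ b)
    (hc1 : c ≤ a + b) (hc2 : c ≤ m) (hn1 : n ≤ e + c) (hn2 : n ≤ a + b) :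
    v.Ge (c2 * ((X1 + X2) * (X1 * X2 + A4)) + u * (X1 * X2)) n := by
  have hσ : v.Ge (X1 + X2) e := (h1.mono he1).add (hx2.mono he2)
  have hq : v.Ge (X1 * X2 + A4) c := ((h1.mul hx2).mono hc1).add (hA4.mono hc2)
  have ht1 : v.Ge (c2 * ((X1 + X2) * (X1 * X2 + A4))) n :=
    (h2.mul (hσ.mul hq)).mono (by linarith)
  have ht2 : v.Ge (u * (X1 * X2)) n := by
    have := hA2.is.ge.mul (h1.mul hx2)
    exact this.mono (by linarith)
  exact ht1.add ht2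

/-- exact valuation of the numerator of the sum when both abscissas are small -/
lemma numS_is_gen (h2 : v.Ge c2 0) (hA2 : v.IsUnit u) {m a b : ℚ}
    (hA4 : v.Ge A4 m) (h1 : v.Is X1 a) (hx2 : v.Is X2 b) (ha : 0 < a) (hab : a ≤ b)
    (hb : b < m) :
    v.Is (c2 * ((X1 + X2) * (X1 * X2 + A4)) + u * (X1 * X2)) (a + b) := by
  have hσ : v.Ge (X1 + X2) a := h1.ge.add (hx2.ge_of_le hab)
  have hq : v.Ge (X1 * X2 + A4) (min (a + b) m) :=
    ((h1.ge.mul hx2.ge).mono (min_le_left _ _)).add (hA4.mono (min_le_right _ _))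
  have ht1 : v.Ge (c2 * ((X1 + X2) * (X1 * X2 + A4))) (a + min (a + b) m) :=
    (h2.mul (hσ.mul hq)).mono (by linarith)
  have ht2 : v.Is (u * (X1 * X2)) (a + b) :=
    (hA2.is.mul (h1.mul hx2)).congr (by ring)
  have hlt : a + b < a + min (a + b) m := by
    have : b < min (a + b) m := lt_min (by linarith) hb
    linarith
  exact ht2.ge_add ht1 hlt

end numerators

/-! ### the cases -/

section cases

variable {K : Type*} [Field K] {v : OrdFn K} {c2 u A4 X1 X2 Zp Zm : K}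

/-- `X1` not small, `X2` at least as small as `A4` -/
lemma tent_gen_case1 (h2 : v.Ge c2 0) (hA2 : v.IsUnit u) {m o1 : ℚ} (hm : 0 < m)
    (hA4 : v.Is A4 m) (h1 : v.Is X1 o1) (ho1 : o1 ≤ 0) (hx2 : v.Ge X2 m)
    (hPi : Zp * Zm * (X1 - X2) ^ 2 = (X1 * X2 - A4) ^ 2)
    (hS : (Zp + Zm) * (X1 - X2) ^ 2 = c2 * ((X1 + X2) * (X1 * X2 + A4)) + u * (X1 * X2)) :
    TentConcl v m X1 X2 Zp Zm := by
  have hd : v.Is (X1 - X2) o1 := h1.sub_ge hx2 (by linarith)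
  have hR : v.Ge (X1 * X2 - A4) (o1 + m) := numP_ge hA4.ge (h1.ge.mul hx2) (by linarith)
  have hN := numS_ge_gen h2 hA2 hA4.ge h1.ge hx2 (e := o1) (c := o1 + m) (n := 2 * o1 + m)
    le_rfl (by linarith) le_rfl (by linarith) (by linarith) (by linarith)
  have hPr : v.Ge (Zp * Zm) (2 * m) := (Ge.of_mul_eq hd.sq hR.sq hPi).mono (by linarith)
  have hSm : v.Ge (Zp + Zm) m := (Ge.of_mul_eq hd.sq hN hS).mono (by linarith)
  obtain ⟨gp, gm⟩ := both_ge hSm hPr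
  have k1 : kap v m X1 = 0 := kap_of_is_nonpos h1 ho1
  have k2 : kap v m X2 = m := kap_of_ge hm.le hx2
  refine tentConcl_of_both (c := m) (kap_of_ge hm.le gp) (kap_of_ge hm.le gm) ?_ ?_
  · rw [k1, k2]; unfold tent; rw [zero_add, min_eq_left (by linarith)]
  · rw [k1, k2, zero_sub, abs_neg, abs_of_pos hm]

/-- `X1` not small, `X2` strictly smaller than `X1` but not as small as `A4` -/
lemma tent_gen_case2 (h2 : v.Ge c2 0) (hA2 : v.IsUnit u) {m o1 o2 : ℚ} (hm : 0 < m)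
    (hA4 : v.Is A4 m) (h1 : v.Is X1 o1) (ho1 : o1 ≤ 0) (hx2 : v.Is X2 o2) (h12 : o1 < o2)
    (h2m : o2 < m)
    (hPi : Zp * Zm * (X1 - X2) ^ 2 = (X1 * X2 - A4) ^ 2)
    (hS : (Zp + Zm) * (X1 - X2) ^ 2 = c2 * ((X1 + X2) * (X1 * X2 + A4)) + u * (X1 * X2)) :
    TentConcl v m X1 X2 Zp Zm := by
  have hd : v.Is (X1 - X2) o1 := h1.sub_ge hx2.ge h12
  have hR : v.Is (X1 * X2 - A4) (o1 + o2) := numP_is_lt hA4 (h1.mul hx2) (by linarith)
  have hN := numS_ge_gen h2 hA2 hA4.ge h1.ge hx2.ge (e := o1) (c := o1 + o2) (n := 2 * o1 + o2)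
    le_rfl h12.le le_rfl (by linarith) (by linarith) (by linarith)
  have hPr : v.Is (Zp * Zm) (2 * o2) := (Is.of_mul_eq hd.sq hR.sq hPi).congr (by ring)
  have hSm : v.Ge (Zp + Zm) o2 := (Ge.of_mul_eq hd.sq hN hS).mono (by linarith)
  obtain ⟨ip, im⟩ := both_is hSm hPr
  have k1 : kap v m X1 = 0 := kap_of_is_nonpos h1 ho1
  have kp : kap v m Zp = kap v m X2 := by rw [kap_of_is ip, kap_of_is hx2]
  have km : kap v m Zm = kap v m X2 := by rw [kap_of_is im, kap_of_is hx2]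
  have hk0 : 0 ≤ kap v m X2 := kap_nonneg hm.le X2
  have hkm : kap v m X2 ≤ m := kap_le hm.le X2
  refine tentConcl_of_both (c := kap v m X2) kp km ?_ ?_
  · rw [k1, zero_add]; unfold tent; rw [min_eq_left (by linarith)]
  · rw [k1, zero_sub, abs_neg, abs_of_nonneg hk0]

/-- `X1`, `X2` not small, of the same valuation -/
lemma tent_gen_case3 (h2 : v.Ge c2 0) (hA2 : v.IsUnit u) {m o1 : ℚ} (hm : 0 < m)
    (hA4 : v.Is A4 m) (h1 : v.Is X1 o1) (ho1 : o1 ≤ 0) (hx2 : v.Is X2 o1) (hne : X1 ≠ X2)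
    (hPi : Zp * Zm * (X1 - X2) ^ 2 = (X1 * X2 - A4) ^ 2)
    (hS : (Zp + Zm) * (X1 - X2) ^ 2 = c2 * ((X1 + X2) * (X1 * X2 + A4)) + u * (X1 * X2)) :
    TentConcl v m X1 X2 Zp Zm := by
  have hd0 : X1 - X2 ≠ 0 := sub_ne_zero.mpr hne
  have hδ : o1 ≤ v.ord (X1 - X2) := (h1.ge.sub hx2.ge).le_ord hd0
  have hd : v.Is (X1 - X2) (v.ord (X1 - X2)) := is_self hd0
  generalize v.ord (X1 - X2) = δ at hδ hd
  have hR : v.Is (X1 * X2 - A4) (o1 + o1) := numP_is_lt hA4 (h1.mul hx2) (by linarith)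
  have hN := numS_ge_gen h2 hA2 hA4.ge h1.ge hx2.ge (e := o1) (c := o1 + o1) (n := 4 * o1)
    le_rfl le_rfl le_rfl (by linarith) (by linarith) (by linarith)
  have hPr : v.Is (Zp * Zm) (4 * o1 - 2 * δ) := (Is.of_mul_eq hd.sq hR.sq hPi).congr (by ring)
  have hSm : v.Ge (Zp + Zm) (4 * o1 - 2 * δ) := Ge.of_mul_eq hd.sq hN hS
  obtain ⟨⟨hp0, hp⟩, ⟨hm0, hm'⟩⟩ := both_le hPr (by linarith) hSm
  have k1 : kap v m X1 = 0 := kap_of_is_nonpos h1 ho1
  have k2 : kap v m X2 = 0 := kap_of_is_nonpos hx2 ho1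
  refine tentConcl_of_both (c := 0) (kap_of_ord_nonpos hp0 hp) (kap_of_ord_nonpos hm0 hm') ?_ ?_
  · rw [k1, k2]; unfold tent; rw [add_zero, min_eq_left (by linarith)]
  · rw [k1, k2, sub_self, abs_zero]

/-- `X1` small but not as small as `A4`, `X2` at least as small as `A4` -/
lemma tent_gen_case4 (h2 : v.Ge c2 0) (hA2 : v.IsUnit u) {m o1 : ℚ} (hm : 0 < m)
    (hA4 : v.Is A4 m) (h1 : v.Is X1 o1) (ho1 : 0 < o1) (h1m : o1 < m) (hx2 : v.Ge X2 m)
    (hPi : Zp * Zm * (X1 - X2) ^ 2 = (X1 * X2 - A4) ^ 2)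
    (hS : (Zp + Zm) * (X1 - X2) ^ 2 = c2 * ((X1 + X2) * (X1 * X2 + A4)) + u * (X1 * X2)) :
    TentConcl v m X1 X2 Zp Zm := by
  have hd : v.Is (X1 - X2) o1 := h1.sub_ge hx2 h1m
  have hR : v.Is (X1 * X2 - A4) m := numP_is_gt hA4 (h1.ge.mul hx2) (by linarith)
  have hN := numS_ge_gen h2 hA2 hA4.ge h1.ge hx2 (e := o1) (c := m) (n := o1 + m)
    le_rfl h1m.le (by linarith) le_rfl le_rfl le_rfl
  have hPr : v.Is (Zp * Zm) (2 * (m - o1)) := (Is.of_mul_eq hd.sq hR.sq hPi).congr (by ring)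
  have hSm : v.Ge (Zp + Zm) (m - o1) := (Ge.of_mul_eq hd.sq hN hS).mono (by linarith)
  obtain ⟨ip, im⟩ := both_is hSm hPr
  have k1 : kap v m X1 = o1 := kap_of_is_mid h1 ho1.le h1m.le
  have k2 : kap v m X2 = m := kap_of_ge hm.le hx2
  refine tentConcl_of_both (c := m - o1) (kap_of_is_mid ip (by linarith) (by linarith))
    (kap_of_is_mid im (by linarith) (by linarith)) ?_ ?_
  · rw [k1, k2]; unfold tent; rw [min_eq_right (by linarith)]; ring
  · rw [k1, k2, abs_of_nonpos (by linarith)]; ring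

/-- `X1`, `X2` both at least as small as `A4` -/
lemma tent_gen_case6 (h2 : v.Ge c2 0) (hA2 : v.IsUnit u) {m : ℚ} (hm : 0 < m)
    (hA4 : v.Is A4 m) (h1 : v.Ge X1 m) (hx2 : v.Ge X2 m) (hne : X1 ≠ X2)
    (hPi : Zp * Zm * (X1 - X2) ^ 2 = (X1 * X2 - A4) ^ 2)
    (hS : (Zp + Zm) * (X1 - X2) ^ 2 = c2 * ((X1 + X2) * (X1 * X2 + A4)) + u * (X1 * X2)) :
    TentConcl v m X1 X2 Zp Zm := by
  have hd0 : X1 - X2 ≠ 0 := sub_ne_zero.mpr hne
  have hδ : m ≤ v.ord (X1 - X2) := (h1.sub hx2).le_ord hd0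
  have hd : v.Is (X1 - X2) (v.ord (X1 - X2)) := is_self hd0
  generalize v.ord (X1 - X2) = δ at hδ hd
  have hR : v.Is (X1 * X2 - A4) m := numP_is_gt hA4 (h1.mul hx2) (by linarith)
  have hN := numS_ge_gen h2 hA2 hA4.ge h1 hx2 (e := m) (c := m) (n := 2 * m)
    le_rfl le_rfl (by linarith) le_rfl (by linarith) (by linarith)
  have hPr : v.Is (Zp * Zm) (2 * m - 2 * δ) := Is.of_mul_eq hd.sq hR.sq hPi
  have hSm : v.Ge (Zp + Zm) (2 * m - 2 * δ) := Ge.of_mul_eq hd.sq hN hS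
  obtain ⟨⟨hp0, hp⟩, ⟨hm0, hm'⟩⟩ := both_le hPr (by linarith) hSm
  have k1 : kap v m X1 = m := kap_of_ge hm.le h1
  have k2 : kap v m X2 = m := kap_of_ge hm.le hx2
  refine tentConcl_of_both (c := 0) (kap_of_ord_nonpos hp0 hp) (kap_of_ord_nonpos hm0 hm') ?_ ?_
  · rw [k1, k2]; unfold tent; rw [min_eq_right (by linarith)]; ring
  · rw [k1, k2, sub_self, abs_zero]

/-- `X1`, `X2` both small but not as small as `A4`: the generic case -/
lemma tent_gen_case5 (h2 : v.Ge c2 0) (hA2 : v.IsUnit u) {m a b δ : ℚ} (hm : 0 < m)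
    (hA4 : v.Is A4 m) (h1 : v.Is X1 a) (hx2 : v.Is X2 b) (ha : 0 < a) (hab : a ≤ b)
    (hb : b < m) (hd : v.Is (X1 - X2) δ) (hδ : a ≤ δ) (hδ' : a < b → δ = a)
    (hPi : Zp * Zm * (X1 - X2) ^ 2 = (X1 * X2 - A4) ^ 2)
    (hS : (Zp + Zm) * (X1 - X2) ^ 2 = c2 * ((X1 + X2) * (X1 * X2 + A4)) + u * (X1 * X2)) :
    TentConcl v m X1 X2 Zp Zm := by
  have hN := numS_is_gen h2 hA2 hA4.ge h1 hx2 ha hab hb
  have hSm : v.Is (Zp + Zm) (a + b - 2 * δ) := Is.of_mul_eq hd.sq hN hS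
  have k1 : kap v m X1 = a := kap_of_is_mid h1 ha.le (by linarith)
  have k2 : kap v m X2 = b := kap_of_is_mid hx2 (by linarith) hb.le
  -- the root carrying the difference
  have hDroot : ∀ z : K, v.Is z (a + b - 2 * δ) → kap v m z = |kap v m X1 - kap v m X2| := by
    intro z hz
    rw [k1, k2]
    rcases hab.lt_or_eq with h | h
    · have hδa := hδ' h
      rw [kap_of_is_mid hz (by linarith) (by linarith), abs_of_nonpos (by linarith), hδa]
      ring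
    · rw [kap_of_is_nonpos hz (by linarith), h, sub_self, abs_zero]
  -- the root carrying the tent
  rcases lt_trichotomy (a + b) m with hlt | heq | hgt
  · have hR : v.Is (X1 * X2 - A4) (a + b) := numP_is_lt hA4 (h1.mul hx2) hlt
    have hPr : v.Is (Zp * Zm) (2 * (a + b) - 2 * δ) := Is.of_mul_eq hd.sq hR.sq hPi
    have hT : ∀ z : K, v.Is z (2 * (a + b) - 2 * δ - (a + b - 2 * δ)) →
        kap v m z = tent m (kap v m X1 + kap v m X2) := by
      intro z hz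
      rw [k1, k2, kap_of_is_mid hz (by linarith) (by linarith)]
      unfold tent
      rw [min_eq_left (by linarith)]
      ring
    rcases split_is hSm hPr (by linarith) with ⟨hp, hmm⟩ | ⟨hmm, hp⟩
    · exact Or.inr ⟨hT _ hmm, hDroot _ hp⟩
    · exact Or.inl ⟨hT _ hp, hDroot _ hmm⟩
  · have hR : v.Ge (X1 * X2 - A4) (a + b) := numP_ge hA4.ge (h1.ge.mul hx2.ge) heq.le
    have hPr : v.Ge (Zp * Zm) (a + b - 2 * δ + m) :=
      (Ge.of_mul_eq hd.sq hR.sq hPi).mono (by linarith)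
    have hT : ∀ z : K, v.Ge z m → kap v m z = tent m (kap v m X1 + kap v m X2) := by
      intro z hz
      rw [k1, k2, kap_of_ge hm.le hz]
      unfold tent
      rw [min_eq_left (by linarith)]
      linarith
    rcases split_ge hSm hPr (by linarith) with ⟨hp, hmm⟩ | ⟨hmm, hp⟩
    · exact Or.inr ⟨hT _ hmm, hDroot _ hp⟩
    · exact Or.inl ⟨hT _ hp, hDroot _ hmm⟩
  · have hR : v.Is (X1 * X2 - A4) m := numP_is_gt hA4 (h1.ge.mul hx2.ge) hgt
    have hPr : v.Is (Zp * Zm) (2 * m - 2 * δ) := Is.of_mul_eq hd.sq hR.sq hPi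
    have hT : ∀ z : K, v.Is z (2 * m - 2 * δ - (a + b - 2 * δ)) →
        kap v m z = tent m (kap v m X1 + kap v m X2) := by
      intro z hz
      rw [k1, k2, kap_of_is_mid hz (by linarith) (by linarith)]
      unfold tent
      rw [min_eq_right (by linarith)]
      ring
    rcases split_is hSm hPr (by linarith) with ⟨hp, hmm⟩ | ⟨hmm, hp⟩
    · exact Or.inr ⟨hT _ hmm, hDroot _ hp⟩
    · exact Or.inl ⟨hT _ hp, hDroot _ hmm⟩

end cases

/-! ### assembly -/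

section main

variable {K : Type*} [Field K]

/-- the tent lemma, under the normalisation `ord X1 ≤ ord X2` (with `ord 0 = ∞`) -/
theorem tent_lemma_aux_gen (v : OrdFn K) {c2 u A4 : K} (h2 : v.Ge c2 0) (hA2 : v.IsUnit u)
    (hA4 : A4 ≠ 0) (hm : 0 < v.ord A4) {X1 X2 Zp Zm : K} (hne : X1 ≠ X2)
    (hPi : Zp * Zm * (X1 - X2) ^ 2 = (X1 * X2 - A4) ^ 2)
    (hS : (Zp + Zm) * (X1 - X2) ^ 2 = c2 * ((X1 + X2) * (X1 * X2 + A4)) + u * (X1 * X2))
    (hX1 : X1 ≠ 0) (hord : X2 = 0 ∨ (X2 ≠ 0 ∧ v.ord X1 ≤ v.ord X2)) :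
    TentConcl v (v.ord A4) X1 X2 Zp Zm := by
  have hA4is : v.Is A4 (v.ord A4) := is_self hA4
  have h1 : v.Is X1 (v.ord X1) := is_self hX1
  generalize v.ord A4 = m at hm hA4is ⊢
  rcases le_or_gt (v.ord X1) 0 with ho1 | ho1
  · by_cases hx2 : v.Ge X2 m
    · exact tent_gen_case1 h2 hA2 hm hA4is h1 ho1 hx2 hPi hS
    · have hX2 : X2 ≠ 0 := fun h => hx2 (Or.inl h)
      have h2m : v.ord X2 < m := by
        by_contra h
        exact hx2 (Or.inr (not_lt.mp h))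
      have hle : v.ord X1 ≤ v.ord X2 := (hord.resolve_left hX2).2
      rcases hle.lt_or_eq with hlt | heq
      · exact tent_gen_case2 h2 hA2 hm hA4is h1 ho1 (is_self hX2) hlt h2m hPi hS
      · exact tent_gen_case3 h2 hA2 hm hA4is h1 ho1 ⟨hX2, heq.symm⟩ hne hPi hS
  · rcases lt_or_ge (v.ord X1) m with h1m | h1m
    · by_cases hx2 : v.Ge X2 m
      · exact tent_gen_case4 h2 hA2 hm hA4is h1 ho1 h1m hx2 hPi hS
      · have hX2 : X2 ≠ 0 := fun h => hx2 (Or.inl h)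
        have h2m : v.ord X2 < m := by
          by_contra h
          exact hx2 (Or.inr (not_lt.mp h))
        have hle : v.ord X1 ≤ v.ord X2 := (hord.resolve_left hX2).2
        have hx2is : v.Is X2 (v.ord X2) := is_self hX2
        rcases hle.lt_or_eq with hlt | heq
        · have hd : v.Is (X1 - X2) (v.ord X1) := h1.sub_ge hx2is.ge hlt
          exact tent_gen_case5 h2 hA2 hm hA4is h1 hx2is ho1 hle h2m hd le_rfl (fun _ => rfl) hPi hS
        · have hd0 : X1 - X2 ≠ 0 := sub_ne_zero.mpr hne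
          have hδ : v.ord X1 ≤ v.ord (X1 - X2) :=
            (h1.ge.sub (hx2is.ge_of_le hle)).le_ord hd0
          exact tent_gen_case5 h2 hA2 hm hA4is h1 hx2is ho1 hle h2m (is_self hd0) hδ
            (fun h => absurd heq h.ne) hPi hS
    · have hx2 : v.Ge X2 m := by
        rcases hord with h | ⟨_, hle⟩
        · exact Or.inl h
        · exact Or.inr (by linarith)
      exact tent_gen_case6 h2 hA2 hm hA4is (h1.ge_of_le h1m) hx2 hne hPi hS

/-- **The tent lemma.** -/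
theorem tent_lemma_gen (v : OrdFn K) {c2 u A4 : K} (h2 : v.Ge c2 0) (hA2 : v.IsUnit u)
    (hA4 : A4 ≠ 0) (hm : 0 < v.ord A4) {X1 X2 Zp Zm : K} (hne : X1 ≠ X2)
    (hPi : Zp * Zm * (X1 - X2) ^ 2 = (X1 * X2 - A4) ^ 2)
    (hS : (Zp + Zm) * (X1 - X2) ^ 2 = c2 * ((X1 + X2) * (X1 * X2 + A4)) + u * (X1 * X2)) :
    (kap v (v.ord A4) Zp = tent (v.ord A4) (kap v (v.ord A4) X1 + kap v (v.ord A4) X2) ∧
      kap v (v.ord A4) Zm = |kap v (v.ord A4) X1 - kap v (v.ord A4) X2|) ∨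
    (kap v (v.ord A4) Zm = tent (v.ord A4) (kap v (v.ord A4) X1 + kap v (v.ord A4) X2) ∧
      kap v (v.ord A4) Zp = |kap v (v.ord A4) X1 - kap v (v.ord A4) X2|) := by
  have hPi' : Zp * Zm * (X2 - X1) ^ 2 = (X2 * X1 - A4) ^ 2 := by linear_combination hPi
  have hS' : (Zp + Zm) * (X2 - X1) ^ 2 =
      c2 * ((X2 + X1) * (X2 * X1 + A4)) + u * (X2 * X1) := by linear_combination hS
  change TentConcl v (v.ord A4) X1 X2 Zp Zm
  by_cases hX2 : X2 = 0
  · have hX1 : X1 ≠ 0 := fun h => hne (h.trans hX2.symm)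
    exact tent_lemma_aux_gen v h2 hA2 hA4 hm hne hPi hS hX1 (Or.inl hX2)
  by_cases hX1 : X1 = 0
  · exact (tent_lemma_aux_gen v h2 hA2 hA4 hm hne.symm hPi' hS' hX2 (Or.inl hX1)).swap
  rcases le_total (v.ord X1) (v.ord X2) with h | h
  · exact tent_lemma_aux_gen v h2 hA2 hA4 hm hne hPi hS hX1 (Or.inr ⟨hX2, h⟩)
  · exact (tent_lemma_aux_gen v h2 hA2 hA4 hm hne.symm hPi' hS' hX2 (Or.inr ⟨hX1, h⟩)).swap

end main

/-- the shape of the sum formula for the model `Y² + XY = X³ + a2 X² + a4 X`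
(`b₂ = 1 + 4 a2`, `b₄ = 2 a4`, `b₆ = 0`, `b₈ = -a4²`). -/
theorem tent_lemma_two {K : Type*} [Field K] (v : OrdFn K) {b2 B : K} (h2 : v.Ge (2 : K) 0)
    (hb2 : v.IsUnit b2) (hB : B ≠ 0) (hm : 0 < v.ord B) {X1 X2 Zp Zm : K} (hne : X1 ≠ X2)
    (hPi : Zp * Zm * (X1 - X2) ^ 2 = (X1 * X2 - B) ^ 2)
    (hS : (Zp + Zm) * (X1 - X2) ^ 2 =
      2 * X1 * X2 * (X1 + X2) + b2 * X1 * X2 + 2 * B * (X1 + X2)) :
    TentConcl v (v.ord B) X1 X2 Zp Zm :=
  tent_lemma_gen v h2 hb2 hB hm hne hPi (by rw [hS]; ring)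

end Fermat.Agent.S13.TentGen
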