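import Mathlib
import Fermat.Agent.S05.Line
import Fermat.Agent.S13.TwoCore

/-!
# S13 (prime 2): the signed component homomorphism for a nodal model `y² + a₁xy = x³ + a₂x² + a₄x`

`W` a Weierstrass curve over a valued field with `a₃ = a₆ = 0`, `α` a root of `T² + a₁T - a₂`
(a tangent direction at the node `(0,0)`), `a₁, α` integral, `2α + a₁` a unit, `2` integral,
`0 < v a₄ < 1`.  No assumption on the residue characteristic.

* `comp_add_good`, `comp_nsmul_good`: `comp` is a homomorphism modulo even powers of `v a₄`;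
* `one_le_of_good`: a point whose component value is good does not reduce to the node.
-/

set_option autoImplicit false
set_option linter.unusedSectionVars false

namespace Fermat.Agent.S13.Two

open WeierstrassCurve WeierstrassCurve.Affine
open Fermat.Agent.S05

variable {F : Type*} [Field F] [DecidableEq F] {Γ₀ : Type*} [LinearOrderedCommGroupWithZero Γ₀]

/-- Hypotheses: multiplicative reduction with node at `(0, 0)`. -/
structure NodeAt (v : Valuation F Γ₀) (W : WeierstrassCurve F) (α : F) : Prop where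
  h3 : W.a₃ = 0
  h6 : W.a₆ = 0
  hα : α ^ 2 + W.a₁ * α - W.a₂ = 0
  vα : v α ≤ 1
  va1 : v W.a₁ ≤ 1
  hδ : v (2 * α + W.a₁) = 1
  h2 : v (2 : F) ≤ 1
  ha4 : v W.a₄ < 1
  ha40 : W.a₄ ≠ 0

namespace NodeAt

variable {v : Valuation F Γ₀} {W : WeierstrassCurve F} {α : F} (H : NodeAt v W α)
include H

/-- The associated node data. -/
def nodeData : NodeData v where
  α := α
  β := -W.a₁ - α
  a₄ := W.a₄
  hα := H.vα
  hβ := by
    apply Valuation.map_sub_le
    · rw [Valuation.map_neg]; exact H.va1
    · exact H.vα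
  hδ := by
    have : α - (-W.a₁ - α) = 2 * α + W.a₁ := by ring
    rw [this]; exact H.hδ
  h2 := H.h2
  ha₄ := H.ha4
  ha₄0 := H.ha40

lemma onCurve {x y : F} (h : W.toAffine.Equation x y) : H.nodeData.OnCurve x y := by
  rw [Affine.equation_iff] at h
  have hα := H.hα
  change (y - α * x) * (y - (-W.a₁ - α) * x) = x * (x ^ 2 + W.a₄)
  rw [H.h3, H.h6] at h
  linear_combination h - x ^ 2 * hα

/-- The line data. -/
lemma lineData {x₁ y₁ x₂ y₂ x₃ y₃ : F} {h₁ : W.toAffine.Nonsingular x₁ y₁}
    {h₂ : W.toAffine.Nonsingular x₂ y₂} {h₃ : W.toAffine.Nonsingular x₃ y₃}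
    (h : Point.some x₁ y₁ h₁ + Point.some x₂ y₂ h₂ + Point.some x₃ y₃ h₃ = 0) :
    ∃ ℓ c : F, H.nodeData.LineData x₁ y₁ x₂ y₂ x₃ y₃ ℓ c := by
  obtain ⟨ℓ, c, l₁, l₂, l₃, e₁, e₂, e₃⟩ := line_of_add_eq_zero h
  have hα := H.hα
  refine ⟨ℓ, c, H.onCurve h₁.1, H.onCurve h₂.1, H.onCurve h₃.1, l₁, l₂, l₃, ?_, ?_, ?_⟩
  · change _ = (ℓ - α) * (ℓ - (-W.a₁ - α))
    linear_combination e₁ + hα
  · change _ = W.a₄ - (2 * ℓ - α - (-W.a₁ - α)) * c
    rw [H.h3] at e₂
    linear_combination e₂
  · rw [H.h3, H.h6] at e₃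
    linear_combination e₃

/-- The component value of a point. -/
noncomputable def comp (H : NodeAt v W α) : W.toAffine.Point → Γ₀
  | .zero => 1
  | .some x y _ => H.nodeData.cval x y

lemma comp_zero : H.comp (0 : W.toAffine.Point) = 1 := rfl

lemma comp_some {x y : F} (h : W.toAffine.Nonsingular x y) :
    H.comp (Point.some x y h) = H.nodeData.cval x y := rfl

/-- `cval` is never zero. -/
lemma cval_ne_zero (x y : F) : H.nodeData.cval x y ≠ 0 := by
  unfold NodeData.cval
  split_ifs with h1 h2 h3
  · exact one_ne_zero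
  · exact H.nodeData.eps_ne_zero
  · rw [not_le] at h2; exact (lt_trans H.nodeData.eps_pos h2).ne'
  · rw [not_le] at h2; exact inv_ne_zero (lt_trans H.nodeData.eps_pos h2).ne'

lemma comp_ne_zero (P : W.toAffine.Point) : H.comp P ≠ 0 := by
  cases P with
  | zero => exact one_ne_zero
  | some x y h => exact H.cval_ne_zero _ _

/-- `cval` at the negative of a point is the swapped `cval`. -/
lemma cval_negY (x y : F) :
    H.nodeData.cval x (W.toAffine.negY x y) = H.nodeData.swap.cval x y := by
  have e : v (W.toAffine.negY x y - H.nodeData.α * x) = v (y - H.nodeData.swap.α * x) := by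
    change v (W.toAffine.negY x y - α * x) = v (y - (-W.a₁ - α) * x)
    have : W.toAffine.negY x y - α * x = -(y - (-W.a₁ - α) * x) := by
      simp only [Affine.negY, H.h3]; ring
    rw [this, Valuation.map_neg]
  unfold NodeData.cval
  rw [e]
  rfl

lemma comp_neg_mul (P : W.toAffine.Point) : H.nodeData.Good (H.comp P * H.comp (-P)) := by
  cases P with
  | zero =>
    change H.nodeData.Good (1 * 1)
    rw [one_mul]; exact H.nodeData.good_one
  | some x y h =>
    rw [Point.neg_some, comp_some, comp_some, H.cval_negY]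
    exact H.nodeData.cval_mul_swap (H.onCurve h.1)

/-- Three points with sum zero: the product of the component values is good. -/
theorem comp_mul_of_add_eq_zero {P₁ P₂ P₃ : W.toAffine.Point} (h : P₁ + P₂ + P₃ = 0) :
    H.nodeData.Good (H.comp P₁ * H.comp P₂ * H.comp P₃) := by
  cases P₁ with
  | zero =>
    change (0 : W.toAffine.Point) + P₂ + P₃ = 0 at h
    rw [zero_add] at h
    have : P₃ = -P₂ := (neg_eq_of_add_eq_zero_right h).symm
    rw [this]
    change H.nodeData.Good (1 * _ * _)
    rw [one_mul]; exact H.comp_neg_mul P₂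
  | some x₁ y₁ h₁ =>
    cases P₂ with
    | zero =>
      change Point.some x₁ y₁ h₁ + (0 : W.toAffine.Point) + P₃ = 0 at h
      rw [add_zero] at h
      have : P₃ = -Point.some x₁ y₁ h₁ := (neg_eq_of_add_eq_zero_right h).symm
      rw [this]
      change H.nodeData.Good (_ * 1 * _)
      rw [mul_one]; exact H.comp_neg_mul _
    | some x₂ y₂ h₂ =>
      cases P₃ with
      | zero =>
        change Point.some x₁ y₁ h₁ + Point.some x₂ y₂ h₂ + (0 : W.toAffine.Point) = 0 at h
        rw [add_zero] at h
        have : Point.some x₂ y₂ h₂ = -Point.some x₁ y₁ h₁ :=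
          (neg_eq_of_add_eq_zero_right h).symm
        rw [this]
        change H.nodeData.Good (_ * _ * 1)
        rw [mul_one]; exact H.comp_neg_mul _
      | some x₃ y₃ h₃ =>
        obtain ⟨ℓ, c, hL⟩ := H.lineData h
        exact hL.cval_mul_of_line

/-- `comp` is additive modulo good elements. -/
theorem comp_add_good (P Q : W.toAffine.Point) :
    H.nodeData.Good (H.comp (P + Q) * (H.comp P * H.comp Q)⁻¹) := by
  have h1 := H.comp_mul_of_add_eq_zero (P₁ := P) (P₂ := Q) (P₃ := -(P + Q)) (by abel)
  have h2 := H.comp_neg_mul (P + Q)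
  have hne := H.comp_ne_zero (P + Q)
  have hne' := H.comp_ne_zero (-(P + Q))
  have hP := H.comp_ne_zero P
  have hQ := H.comp_ne_zero Q
  have := h2.mul h1.inv
  convert this using 1
  field_simp

/-- `comp (n • P)` is `comp P ^ n` modulo good elements. -/
theorem comp_nsmul_good (P : W.toAffine.Point) (n : ℕ) :
    H.nodeData.Good (H.comp (n • P) * (H.comp P ^ n)⁻¹) := by
  induction n with
  | zero =>
    rw [zero_smul, pow_zero, inv_one, mul_one]
    exact H.nodeData.good_one
  | succ n ih =>
    have h1 := H.comp_add_good (n • P) P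
    have := h1.mul ih
    rw [succ_nsmul, pow_succ]
    convert this using 1
    have hP := H.comp_ne_zero P
    have hn := H.comp_ne_zero (n • P)
    field_simp

/-- For a torsion point, `comp P ^ n` is good. -/
theorem comp_pow_good_of_nsmul_eq_zero {P : W.toAffine.Point} {n : ℕ} (h : n • P = 0) :
    H.nodeData.Good (H.comp P ^ n) := by
  have := (H.comp_nsmul_good P n).inv
  rw [h] at this
  change H.nodeData.Good (1 * _)⁻¹ at this
  rwa [one_mul, inv_inv] at this

/-- If two points have the same component value, their difference has a good component value. -/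
theorem comp_sub_good_of_eq {P Q : W.toAffine.Point} (h : H.comp P = H.comp Q) :
    H.nodeData.Good (H.comp (P - Q)) := by
  have h1 := H.comp_add_good (P - Q) Q
  rw [sub_add_cancel, h] at h1
  have hQ := H.comp_ne_zero Q
  have hD := H.comp_ne_zero (P - Q)
  have h2 : H.comp Q * (H.comp (P - Q) * H.comp Q)⁻¹ = (H.comp (P - Q))⁻¹ := by
    field_simp
  rw [h2] at h1
  simpa using h1.inv

/-- A good component value is `1`. -/
theorem cval_eq_one_of_good {x y : F} (h : H.nodeData.Good (H.nodeData.cval x y)) :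
    H.nodeData.cval x y = 1 := by
  obtain ⟨j, hj⟩ := h
  set ε := v H.nodeData.a₄ with hε
  have hε0 : 0 < ε := H.nodeData.eps_pos
  have hε1 : ε < 1 := H.nodeData.ha₄
  -- `ε ^ (2 j)` is `1`, or `≤ ε ^ 2`, or `≥ ε ^ (-2)`
  have hcases : j = 0 ∨ ε ^ (2 * j) < ε ∨ ε⁻¹ < ε ^ (2 * j) := by
    rcases lt_trichotomy j 0 with hj0 | hj0 | hj0
    · right; right
      rw [← zpow_neg_one]
      exact zpow_lt_zpow_right_of_lt_one₀ hε0 hε1 (by omega)
    · left; exact hj0
    · right; left
      conv_rhs => rw [← zpow_one ε]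
      exact zpow_lt_zpow_right_of_lt_one₀ hε0 hε1 (by omega)
  rcases hcases with h0 | hlt | hgt
  · rw [hj, h0]; simp
  · exfalso
    rw [← hj] at hlt
    unfold NodeData.cval at hlt
    split_ifs at hlt with h1 h2 h3
    · exact absurd (lt_trans hlt hε1) (lt_irrefl _)
    · exact absurd hlt (lt_irrefl _)
    · rw [not_le] at h2; exact absurd (lt_trans hlt h2) (lt_irrefl _)
    · rw [not_le] at h1 h2
      have : 1 < (v x)⁻¹ := (one_lt_inv₀ (lt_trans hε0 h2)).mpr h1
      exact absurd (lt_trans (lt_trans hlt hε1) this) (lt_irrefl _)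
  · exfalso
    rw [← hj] at hgt
    have hinv1 : 1 < ε⁻¹ := (one_lt_inv₀ hε0).mpr hε1
    unfold NodeData.cval at hgt
    split_ifs at hgt with h1 h2 h3
    · exact absurd (lt_trans hinv1 hgt) (lt_irrefl _)
    · exact absurd (lt_trans (lt_trans hε1 hinv1) hgt) (lt_irrefl _)
    · rw [not_le] at h1
      exact absurd (lt_trans (lt_trans h1 hinv1) hgt) (lt_irrefl _)
    · rw [not_le] at h2
      have : (v x)⁻¹ < ε⁻¹ := (inv_lt_inv₀ (lt_trans hε0 h2) hε0).mpr h2
      exact absurd (lt_trans hgt this) (lt_irrefl _)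

/-- A point with good component value does not reduce to the node. -/
theorem one_le_of_good {x y : F} (h : H.nodeData.Good (H.nodeData.cval x y)) : 1 ≤ v x := by
  have h1 := H.cval_eq_one_of_good h
  by_contra hlt
  rw [not_le] at hlt
  have hε0 : 0 < v H.nodeData.a₄ := H.nodeData.eps_pos
  have hε1 : v H.nodeData.a₄ < 1 := H.nodeData.ha₄
  unfold NodeData.cval at h1
  split_ifs at h1 with h1' h2 h3
  · exact absurd hlt (not_lt.mpr h1')
  · exact absurd h1 hε1.ne
  · exact absurd h1 hlt.ne
  · rw [not_le] at h2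
    have : 1 < (v x)⁻¹ := (one_lt_inv₀ (lt_trans hε0 h2)).mpr hlt
    exact absurd h1 this.ne'

end NodeAt

end Fermat.Agent.S13.Two
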