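import Fermat.Agent.S13.TwoFrey

/-!
# S13, the prime 2: the two exports consumed by the assembly (blueprint shapes)

`V P := Submodule.torsionBy ℤ (P.freyCurve⁄ℚ̄).Point P.p` with the Prelude Galois action.
* `unipotent_at_two`: inertia at `2` satisfies `(σ - 1)² = 0` on `V P`;
* `no_rational_torsion`: a `G_ℚ`-fixed element of `V P` is zero.
-/

set_option autoImplicit false

namespace Fermat.Agent.S13.Two

open WeierstrassCurve WeierstrassCurve.Affine WeierstrassCurve.Affine.Point

local notation "Qbar" => AlgebraicClosure ℚ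

/-- **(L2)** unipotence of inertia at `2` on the `p`-torsion of the Frey curve. -/
theorem unipotent_at_two (P : FreyPackage) (A : ValuationSubring Qbar) (hA : A.LiesOverPrime 2)
    {σ : Qbar ≃ₐ[ℚ] Qbar} (hσ : σ ∈ A.inertiaSubgroupIn ℚ)
    (x : Submodule.torsionBy ℤ (P.freyCurve⁄Qbar).Point P.p) :
    σ • (σ • x - x) = σ • x - x := by
  apply Subtype.ext
  have hx : (P.p : ℤ) • x.1 = 0 := (Submodule.mem_torsionBy_iff _ _).mp x.2
  rw [natCast_zsmul] at hx
  exact frey_inertia_two P A hA hσ x.1 hx

/-- **(G4)** the Frey curve has no nonzero rational point of order `p`. -/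
theorem no_rational_torsion (P : FreyPackage)
    (x : Submodule.torsionBy ℤ (P.freyCurve⁄Qbar).Point P.p)
    (hx : ∀ σ : Qbar ≃ₐ[ℚ] Qbar, σ • x = x) : x = 0 := by
  by_contra h0
  have hp : (P.p : ℤ) • x.1 = 0 := (Submodule.mem_torsionBy_iff _ _).mp x.2
  rw [natCast_zsmul] at hp
  refine frey_no_rational_torsion P x.1 (fun h => h0 (Subtype.ext h)) hp (fun σ => ?_)
  exact congrArg Subtype.val (hx σ)

end Fermat.Agent.S13.Two
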