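import Fermat.Prelude.Def_FLTPrelim_GaloisRep
import Fermat.Prelude.Def_FLTPrelim_Ramification
import Fermat.Agent.S05.Inertia
import Fermat.Agent.S05.KernelTorsion
import Fermat.Agent.S13.TwoComp

/-!
# S13 (prime 2): inertia at a place of multiplicative reduction in residue characteristic two
acts unipotently on prime-to-2 torsion

`E/ℚ` a Weierstrass curve with `a₃ = a₆ = 0`, `A` a valuation subring of `ℚ̄` with `v 2 < 1`,
`α` a tangent direction at the node `(0,0)` (hypothesis `NodeAt A.valuation (E⁄ℚ̄) α`).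
For `σ` in the inertia group of `A` and a point `P` killed by `p` (`p` a unit of `A`):
`σ` fixes `σ P - P` (`smul_smul_sub_eq`).
-/

set_option autoImplicit false
set_option linter.unusedSectionVars false

namespace Fermat.Agent.S13.Two

open WeierstrassCurve WeierstrassCurve.Affine
open Fermat.Agent.S05

local notation "Qbar" => AlgebraicClosure ℚ

variable {E : WeierstrassCurve ℚ} {A : ValuationSubring Qbar} {α : Qbar}

/-! ### coefficients and the Galois action -/

lemma galois_a₁ (E : WeierstrassCurve ℚ) (σ : Qbar ≃ₐ[ℚ] Qbar) :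
    σ ((E⁄Qbar).a₁) = (E⁄Qbar).a₁ := by
  simp [WeierstrassCurve.baseChange]

lemma galois_a₂ (E : WeierstrassCurve ℚ) (σ : Qbar ≃ₐ[ℚ] Qbar) :
    σ ((E⁄Qbar).a₂) = (E⁄Qbar).a₂ := by
  simp [WeierstrassCurve.baseChange]

lemma smul_some (σ : Qbar ≃ₐ[ℚ] Qbar) {x y : Qbar} (h : (E⁄Qbar).toAffine.Nonsingular x y) :
    ∃ h' : (E⁄Qbar).toAffine.Nonsingular (σ x) (σ y),
      σ • (Point.some x y h : (E⁄Qbar).toAffine.Point) = Point.some (σ x) (σ y) h' :=
  ⟨_, rfl⟩

lemma smul_zero' (σ : Qbar ≃ₐ[ℚ] Qbar) : σ • (0 : (E⁄Qbar).toAffine.Point) = 0 := rfl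

lemma smul_nsmul (σ : Qbar ≃ₐ[ℚ] Qbar) (n : ℕ) (P : (E⁄Qbar).toAffine.Point) :
    σ • (n • P) = n • (σ • P) := by
  change WeierstrassCurve.Affine.Point.map σ.toAlgHom (n • P) =
    n • (WeierstrassCurve.Affine.Point.map σ.toAlgHom P)
  rw [map_nsmul]

lemma smul_sub' (σ : Qbar ≃ₐ[ℚ] Qbar) (P Q : (E⁄Qbar).toAffine.Point) :
    σ • (P - Q) = σ • P - σ • Q := by
  change WeierstrassCurve.Affine.Point.map σ.toAlgHom (P - Q) =
    WeierstrassCurve.Affine.Point.map σ.toAlgHom P - WeierstrassCurve.Affine.Point.map σ.toAlgHom Q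
  rw [map_sub]

namespace NodeAt

variable (H : NodeAt A.valuation (E⁄Qbar) α)
include H

lemma α_mem : α ∈ A := (A.valuation_le_one_iff _).mp H.vα

lemma a₁_mem : (E⁄Qbar).a₁ ∈ A := (A.valuation_le_one_iff _).mp H.va1

lemma a₂_mem : (E⁄Qbar).a₂ ∈ A := by
  have : (E⁄Qbar).a₂ = α ^ 2 + (E⁄Qbar).a₁ * α := by linear_combination -H.hα
  rw [this]
  exact A.add_mem _ _ (pow_mem H.α_mem 2) (A.mul_mem _ _ H.a₁_mem H.α_mem)

lemma a₄_mem : (E⁄Qbar).a₄ ∈ A := (A.valuation_le_one_iff _).mp H.ha4.le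

/-- in residue characteristic two `a₁` is a unit -/
lemma v_a₁ (h2 : A.valuation (2 : Qbar) < 1) : A.valuation (E⁄Qbar).a₁ = 1 := by
  have h2α : A.valuation (2 * α) < 1 := by
    rw [map_mul]; exact lt_of_le_of_lt (mul_le_of_le_one_right' H.vα) h2
  have e : (E⁄Qbar).a₁ = (2 * α + (E⁄Qbar).a₁) - 2 * α := by ring
  rw [e, Valuation.map_sub_eq_of_lt_left _ (by rw [H.hδ]; exact h2α), H.hδ]

/-- inertia fixes the tangent direction -/
lemma fix_α {σ : Qbar ≃ₐ[ℚ] Qbar} (hσ : σ ∈ A.inertiaSubgroupIn ℚ) : σ α = α := by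
  have hroot : (σ α) ^ 2 + (E⁄Qbar).a₁ * σ α - (E⁄Qbar).a₂ = 0 := by
    have := congrArg σ H.hα
    rw [map_sub, map_add, map_pow, map_mul, galois_a₁, galois_a₂, map_zero] at this
    exact this
  have hprod : (σ α - α) * (σ α + α + (E⁄Qbar).a₁) = 0 := by
    linear_combination hroot - H.hα
  rcases mul_eq_zero.mp hprod with h | h
  · exact sub_eq_zero.mp h
  · exfalso
    have h1 : A.valuation (σ α - α) < 1 := valuation_apply_sub_lt_one hσ H.α_mem
    have e : σ α - α = -(2 * α + (E⁄Qbar).a₁) := by linear_combination h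
    rw [e, Valuation.map_neg, H.hδ] at h1
    exact lt_irrefl _ h1

/-- the component value is invariant under inertia -/
theorem comp_smul {σ : Qbar ≃ₐ[ℚ] Qbar} (hσ : σ ∈ A.inertiaSubgroupIn ℚ)
    (P : (E⁄Qbar).toAffine.Point) : H.comp (σ • P) = H.comp P := by
  cases P with
  | zero => rfl
  | some x y h =>
    obtain ⟨h', e⟩ := smul_some σ h
    rw [e, comp_some, comp_some]
    have e1 : A.valuation (σ x) = A.valuation x := valuation_apply_eq_rat hσ x
    have e2 : A.valuation (σ y - H.nodeData.α * σ x) = A.valuation (y - H.nodeData.α * x) := by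
      change A.valuation (σ y - α * σ x) = A.valuation (y - α * x)
      have e3 : σ y - α * σ x = σ (y - α * x) := by rw [map_sub, map_mul, H.fix_α hσ]
      rw [e3, valuation_apply_eq_rat hσ]
    unfold NodeData.cval
    rw [e1, e2]

/-- an integral abscissa has an integral ordinate -/
lemma y_mem {x y : Qbar} (h : (E⁄Qbar).toAffine.Equation x y) (hx : x ∈ A) : y ∈ A := by
  rw [Affine.equation_iff, H.h3, H.h6] at h
  by_contra hy
  have hy1 : 1 < A.valuation y := by
    rw [← not_le, A.valuation_le_one_iff]; exact hy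
  have hax : A.valuation ((E⁄Qbar).a₁ * x) ≤ 1 :=
    (A.valuation_le_one_iff _).mpr (A.mul_mem _ _ H.a₁_mem hx)
  have h1 : A.valuation (y + (E⁄Qbar).a₁ * x) = A.valuation y :=
    Valuation.map_add_eq_of_lt_left _ (lt_of_le_of_lt hax hy1)
  have hL : A.valuation (y * (y + (E⁄Qbar).a₁ * x)) = A.valuation y * A.valuation y := by
    rw [map_mul, h1]
  have hR : A.valuation (x ^ 3 + (E⁄Qbar).a₂ * x ^ 2 + (E⁄Qbar).a₄ * x) ≤ 1 :=
    (A.valuation_le_one_iff _).mpr
      (A.add_mem _ _ (A.add_mem _ _ (pow_mem hx 3) (A.mul_mem _ _ H.a₂_mem (pow_mem hx 2)))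
        (A.mul_mem _ _ H.a₄_mem hx))
  have e : y * (y + (E⁄Qbar).a₁ * x) = x ^ 3 + (E⁄Qbar).a₂ * x ^ 2 + (E⁄Qbar).a₄ * x := by
    linear_combination h
  rw [e] at hL
  have : 1 < A.valuation y * A.valuation y := by
    calc (1 : A.ValueGroup) = 1 * 1 := (one_mul 1).symm
      _ < A.valuation y * A.valuation y := mul_lt_mul'' hy1 hy1 zero_le zero_le
  rw [← hL] at this
  exact absurd hR (not_le.mpr this)

/-- no torsion of order a unit of `A` in the kernel of reduction -/
lemma not_mem_imp_nsmul_ne {n : ℕ} (hn : A.valuation (n : Qbar) = 1) {x y : Qbar}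
    (h : (E⁄Qbar).toAffine.Nonsingular x y) (hx : x ∉ A) :
    n • (Point.some x y h : (E⁄Qbar).toAffine.Point) ≠ 0 := by
  have h2 : (2 : Qbar) ≠ 0 := two_ne_zero
  have h3 : (E⁄Qbar).a₃ ∈ A := by rw [H.h3]; exact A.zero_mem
  have h6 : (E⁄Qbar).a₆ ∈ A := by rw [H.h6]; exact A.zero_mem
  refine Kernel.nsmul_ne_zero_of_xCoord_not_mem A h2 H.a₁_mem H.a₂_mem h3 H.a₄_mem h6 n ?_
    (Point.some_ne_zero h) (by simpa using hx)
  rw [ValuationSubring.mem_nonunits_iff, hn]
  exact lt_irrefl _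

/-- **Inertia moves an integral non-node point by a point of the kernel of reduction**
(residue characteristic two). -/
theorem smul_sub_some {σ : Qbar ≃ₐ[ℚ] Qbar} (hσ : σ ∈ A.inertiaSubgroupIn ℚ)
    (h2 : A.valuation (2 : Qbar) < 1) {x y : Qbar} (h : (E⁄Qbar).toAffine.Nonsingular x y)
    (hx : A.valuation x = 1) :
    σ • (Point.some x y h : (E⁄Qbar).toAffine.Point) - Point.some x y h = 0 ∨
      ∃ (x' y' : Qbar) (h' : (E⁄Qbar).toAffine.Nonsingular x' y'),
        σ • (Point.some x y h : (E⁄Qbar).toAffine.Point) - Point.some x y h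
          = Point.some x' y' h' ∧ x' ∉ A := by
  have hxA : x ∈ A := (A.valuation_le_one_iff _).mp hx.le
  have hyA : y ∈ A := H.y_mem h.1 hxA
  obtain ⟨hσh, e⟩ := smul_some σ h
  have hdx : A.valuation (σ x - x) < 1 := valuation_apply_sub_lt_one hσ hxA
  have hdy : A.valuation (σ y - y) < 1 := valuation_apply_sub_lt_one hσ hyA
  have ha1 : A.valuation (E⁄Qbar).a₁ = 1 := H.v_a₁ h2
  -- the unit `2 y + a₁ x`
  have h2y : A.valuation (2 * y) < 1 := by
    rw [map_mul]
    exact lt_of_le_of_lt (mul_le_of_le_one_right' ((A.valuation_le_one_iff _).mpr hyA)) h2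
  have ha1x : A.valuation ((E⁄Qbar).a₁ * x) = 1 := by rw [map_mul, ha1, hx, one_mul]
  have hu : A.valuation (2 * y + (E⁄Qbar).a₁ * x) = 1 := by
    rw [add_comm, Valuation.map_add_eq_of_lt_left _ (by rw [ha1x]; exact h2y), ha1x]
  rw [e, sub_eq_add_neg, Point.neg_some]
  by_cases hxx : σ x = x
  · -- same abscissa
    by_cases hyy : σ y = y
    · left
      have : (Point.some (σ x) (σ y) hσh : (E⁄Qbar).toAffine.Point) = Point.some x y h := by
        simp only [Point.some.injEq]; exact ⟨hxx, hyy⟩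
      rw [this]
      exact add_neg_cancel (Point.some x y h)
    · exfalso
      rcases Affine.Y_eq_of_X_eq hσh.1 h.1 hxx with h1 | h1
      · exact hyy h1
      · have e' : σ y - y = -(2 * y + (E⁄Qbar).a₁ * x) := by
          rw [h1]; simp only [Affine.negY, H.h3]; ring
        rw [e', Valuation.map_neg, hu] at hdy
        exact lt_irrefl _ hdy
  · -- distinct abscissas: the chord has non-integral slope
    right
    rw [Point.add_of_X_ne hxx]
    refine ⟨_, _, _, rfl, ?_⟩
    rw [Affine.slope_of_X_ne hxx]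
    set n := σ y - (E⁄Qbar).toAffine.negY x y with hn
    set d := σ x - x with hd
    have hd0 : d ≠ 0 := sub_ne_zero.mpr hxx
    have hn1 : A.valuation n = 1 := by
      have : n = (σ y - y) + (2 * y + (E⁄Qbar).a₁ * x) := by
        rw [hn]; simp only [Affine.negY, H.h3]; ring
      rw [this, add_comm, Valuation.map_add_eq_of_lt_left _ (by rw [hu]; exact hdy), hu]
    have hvd0 : 0 < A.valuation d := by
      rw [zero_lt_iff]; exact (Valuation.ne_zero_iff _).mpr hd0
    set ℓ := n / d with hℓ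
    have hℓ1 : 1 < A.valuation ℓ := by
      rw [hℓ, map_div₀, hn1, one_div]
      exact (one_lt_inv₀ hvd0).mpr hdx
    -- the dominant term
    have hsq : A.valuation ℓ < A.valuation (ℓ ^ 2) := by
      rw [map_pow, pow_two]
      calc A.valuation ℓ = A.valuation ℓ * 1 := (mul_one _).symm
        _ < A.valuation ℓ * A.valuation ℓ :=
          mul_lt_mul_of_pos_left hℓ1 (lt_trans zero_lt_one hℓ1)
    have h1 : A.valuation ((E⁄Qbar).a₁ * ℓ) < A.valuation (ℓ ^ 2) := by
      rw [map_mul, ha1, one_mul]; exact hsq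
    have hrest : A.valuation ((E⁄Qbar).a₂ + σ x + x) ≤ 1 :=
      (A.valuation_le_one_iff _).mpr (A.add_mem _ _ (A.add_mem _ _ H.a₂_mem
        ((apply_mem_iff_of_mem_inertiaSubgroupIn hσ x).mpr hxA)) hxA)
    have h3 : A.valuation ((E⁄Qbar).a₂ + σ x + x) < A.valuation (ℓ ^ 2) :=
      lt_of_le_of_lt hrest (lt_trans hℓ1 hsq)
    have hval : A.valuation ((E⁄Qbar).toAffine.addX (σ x) x ℓ) = A.valuation (ℓ ^ 2) := by
      have : (E⁄Qbar).toAffine.addX (σ x) x ℓ = ℓ ^ 2 + (E⁄Qbar).a₁ * ℓ - ((E⁄Qbar).a₂ + σ x + x) := by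
        simp only [Affine.addX]; ring
      rw [this, Valuation.map_sub_eq_of_lt_left, Valuation.map_add_eq_of_lt_left _ h1]
      rw [Valuation.map_add_eq_of_lt_left _ h1]
      exact h3
    intro hmem
    have := (A.valuation_le_one_iff _).mpr hmem
    rw [hval] at this
    exact absurd this (not_le.mpr (lt_trans hℓ1 hsq))

/-- **Unipotence of inertia** (residue characteristic two, multiplicative reduction):
`σ` fixes `σ P - P` for every point `P` killed by a unit `p` of `A`. -/
theorem smul_smul_sub_eq {σ : Qbar ≃ₐ[ℚ] Qbar} (hσ : σ ∈ A.inertiaSubgroupIn ℚ)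
    (h2 : A.valuation (2 : Qbar) < 1) {p : ℕ} (hp : A.valuation (p : Qbar) = 1)
    {P : (E⁄Qbar).toAffine.Point} (hP : p • P = 0) :
    σ • (σ • P - P) = σ • P - P := by
  set Q := σ • P - P with hQ
  have hpσ : p • (σ • P) = 0 := by rw [← smul_nsmul, hP]; rfl
  have hpQ : p • Q = 0 := by rw [hQ, nsmul_sub, hpσ, hP, sub_zero]
  have hgood : H.nodeData.Good (H.comp Q) := H.comp_sub_good_of_eq (H.comp_smul hσ P)
  cases hQc : Q with
  | zero => rfl
  | some x y h =>
    rw [hQc] at hgood hpQ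
    rw [comp_some] at hgood
    have h1 : 1 ≤ A.valuation x := H.one_le_of_good hgood
    rcases lt_or_eq_of_le h1 with hlt | heq
    · -- kernel of reduction: impossible
      exfalso
      refine H.not_mem_imp_nsmul_ne hp h ?_ hpQ
      intro hmem
      exact absurd ((A.valuation_le_one_iff _).mpr hmem) (not_le.mpr hlt)
    · -- unit abscissa
      have hpR : p • (σ • (Point.some x y h : (E⁄Qbar).toAffine.Point) - Point.some x y h) = 0 := by
        rw [nsmul_sub, ← smul_nsmul, hpQ, sub_zero]; rfl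
      rcases H.smul_sub_some hσ h2 h heq.symm with h0 | ⟨x', y', h', hR, hx'⟩
      · exact sub_eq_zero.mp h0
      · exfalso
        rw [hR] at hpR
        exact H.not_mem_imp_nsmul_ne hp h' hx' hpR

end NodeAt

end Fermat.Agent.S13.Two
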