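import Fermat.Agent.S13.TwoInertia
import Fermat.Agent.S13.SlopePVal

/-!
# S13 (prime 2): no rational point of odd prime order `p ≥ 5` when `p ∤ ord₂ a₄`

`E/ℚ : y² + xy = x³ + a₂x² + a₄x` (`a₁ = 1`, `a₃ = a₆ = 0`) with multiplicative reduction at `2`
(hypothesis `NodeAt A.valuation (E⁄ℚ̄) α` for a valuation subring `A` of `ℚ̄` over `2`), and
`v a₄ = v 2 ^ m` with `p ∤ m`.  Then no point `(x, y)` of `E(ℚ̄)` with RATIONAL abscissa is killed
by `p` (`no_rational_torsion`).  Three cases: `x ∉ A` (kernel of reduction: no `p`-torsion),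
`x` a unit (`3 P` lies in the kernel of reduction), `x ∈ 𝔪` (the component value of `P` would be a
non-trivial `p`-torsion element of `ℤ / 2m`).
-/

set_option autoImplicit false
set_option linter.unusedSectionVars false

namespace Fermat.Agent.S13.Two

open WeierstrassCurve WeierstrassCurve.Affine
open Fermat.Agent.S05 Fermat.Agent.S13.SlopeP

local notation "Qbar" => AlgebraicClosure ℚ

/-- a point killed by two coprime integers is zero -/
lemma eq_zero_of_nsmul_of_nsmul {G : Type*} [AddGroup G] {P : G} {m n : ℕ} (hm : m • P = 0)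
    (hn : n • P = 0) (hcop : Nat.Coprime m n) : P = 0 := by
  have h1 := addOrderOf_dvd_of_nsmul_eq_zero hm
  have h2 := addOrderOf_dvd_of_nsmul_eq_zero hn
  have h3 : addOrderOf P ∣ 1 := by
    have := Nat.dvd_gcd h1 h2
    rwa [hcop.gcd_eq_one] at this
  exact AddMonoid.addOrderOf_eq_one_iff.mp (Nat.dvd_one.mp h3)

section Rat

variable {K : Type*} [Field K] [CharZero K] (A : ValuationSubring K)

/-- a rational number which is a unit at a place over `2` is congruent to `1` -/
lemma val_rat_sub_one_lt (hA : A.LiesOverPrime 2) (r : ℚ) (hr : A.valuation (r : K) = 1) :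
    A.valuation ((r : K) - 1) < 1 := by
  have hcast : (r : K) = (r.num : K) / ((r.den : ℤ) : K) := by
    rw [Rat.cast_def]; push_cast; rfl
  have hden0 : ((r.den : ℤ) : K) ≠ 0 := by exact_mod_cast r.den_ne_zero
  have hnum_le := frey_val_intCast_le A r.num
  have hden_le := frey_val_intCast_le A (r.den : ℤ)
  have hvden0 : A.valuation ((r.den : ℤ) : K) ≠ 0 := (Valuation.ne_zero_iff _).mpr hden0
  have heq : A.valuation (r.num : K) = A.valuation ((r.den : ℤ) : K) := by
    rw [hcast, map_div₀, div_eq_one_iff_eq hvden0] at hr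
    exact hr
  -- the denominator is odd
  have hden_odd : ¬ ((2 : ℕ) : ℤ) ∣ (r.den : ℤ) := by
    intro hd
    have h1 : A.valuation ((r.den : ℤ) : K) < 1 := frey_val_int_lt_one A hA hd
    have hn : ((2 : ℕ) : ℤ) ∣ r.num := by
      by_contra hn
      have := frey_val_int_eq_one A Nat.prime_two hA hn
      rw [heq] at this
      exact absurd this h1.ne
    have hcop := r.reduced
    have h2n : 2 ∣ r.num.natAbs := by
      have : ((2 : ℕ) : ℤ) ∣ (r.num.natAbs : ℤ) := by rwa [Int.dvd_natAbs]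
      exact_mod_cast this
    have h2d : 2 ∣ r.den := by exact_mod_cast hd
    have := Nat.dvd_gcd h2n h2d
    rw [hcop.gcd_eq_one] at this
    omega
  have hvden : A.valuation ((r.den : ℤ) : K) = 1 :=
    frey_val_int_eq_one A Nat.prime_two hA hden_odd
  have hnum_odd : ¬ ((2 : ℕ) : ℤ) ∣ r.num := by
    intro hn
    have := frey_val_int_lt_one A hA hn
    rw [heq, hvden] at this
    exact lt_irrefl _ this
  have hdiff : ((2 : ℕ) : ℤ) ∣ r.num - (r.den : ℤ) := by
    have h1 : r.num % 2 = 1 := by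
      have : ¬ (2 : ℤ) ∣ r.num := by simpa using hnum_odd
      omega
    have h2 : (r.den : ℤ) % 2 = 1 := by
      have : ¬ (2 : ℤ) ∣ (r.den : ℤ) := by simpa using hden_odd
      omega
    have : (2 : ℤ) ∣ r.num - (r.den : ℤ) := by omega
    simpa using this
  have hlt := frey_val_int_lt_one A hA hdiff
  have e : (r : K) - 1 = ((r.num - (r.den : ℤ) : ℤ) : K) / ((r.den : ℤ) : K) := by
    rw [hcast]; push_cast; field_simp
  rw [e, map_div₀, hvden, div_one]
  exact hlt

end Rat

variable {E : WeierstrassCurve ℚ} {A : ValuationSubring Qbar} {α : Qbar}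

namespace NodeAt

variable (H : NodeAt A.valuation (E⁄Qbar) α)
include H

/-- **Case of a unit abscissa congruent to `1`**: `3 P` lies in the kernel of reduction. -/
theorem unit_case (ha1 : (E⁄Qbar).a₁ = 1) (h2 : A.valuation (2 : Qbar) < 1) {p : ℕ}
    (hpv : A.valuation (p : Qbar) = 1) (hp2 : Nat.Coprime 2 p) (hp3 : Nat.Coprime 3 p)
    {x y : Qbar} (h : (E⁄Qbar).toAffine.Nonsingular x y) (hx : A.valuation x = 1)
    (hx1 : A.valuation (x - 1) < 1)
    (hpP : p • (Point.some x y h : (E⁄Qbar).toAffine.Point) = 0) : False := by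
  set P : (E⁄Qbar).toAffine.Point := Point.some x y h with hPdef
  have hP0 : P ≠ 0 := Point.some_ne_zero h
  have h2ne : (2 : Qbar) ≠ 0 := two_ne_zero
  have hxA : x ∈ A := (A.valuation_le_one_iff _).mp hx.le
  have ha2A := H.a₂_mem
  have ha4A := H.a₄_mem
  have h2P : P + P ≠ 0 := by
    intro h0
    apply hP0
    refine eq_zero_of_nsmul_of_nsmul (m := 2) ?_ hpP hp2
    rw [two_nsmul]; exact h0
  -- invariants
  have hb2 : (E⁄Qbar).b₂ = 1 + 4 * (E⁄Qbar).a₂ := by
    simp only [WeierstrassCurve.b₂, ha1]; ring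
  have hb4 : (E⁄Qbar).b₄ = 2 * (E⁄Qbar).a₄ := by
    simp only [WeierstrassCurve.b₄, H.h3]; ring
  have hb6 : (E⁄Qbar).b₆ = 0 := by
    simp only [WeierstrassCurve.b₆, H.h3, H.h6]; ring
  have hb8 : (E⁄Qbar).b₈ = -(E⁄Qbar).a₄ ^ 2 := by
    simp only [WeierstrassCurve.b₈, H.h3, H.h6]; ring
  have hxP : Kernel.xCoord P = x := rfl
  -- the duplication formula
  have hdbl := Kernel.xCoord_add_self hP0 h2P
  rw [hxP] at hdbl
  set x₂ := Kernel.xCoord (P + P) with hx₂
  have hden : Kernel.dblDen (E⁄Qbar).toAffine x =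
      x ^ 2 + 4 * (x ^ 3 + (E⁄Qbar).a₂ * x ^ 2 + (E⁄Qbar).a₄ * x) := by
    simp only [Kernel.dblDen]
    rw [hb2, hb4, hb6]; ring
  have hnum : Kernel.dblNum (E⁄Qbar).toAffine x = (x ^ 2 - (E⁄Qbar).a₄) ^ 2 := by
    simp only [Kernel.dblNum]
    rw [hb4, hb6, hb8]; ring
  have h4 : A.valuation (4 : Qbar) < 1 := by
    have : (4 : Qbar) = 2 * 2 := by norm_num
    rw [this, map_mul]
    exact lt_of_le_of_lt (mul_le_of_le_one_right' h2.le) h2
  have hcub : x ^ 3 + (E⁄Qbar).a₂ * x ^ 2 + (E⁄Qbar).a₄ * x ∈ A :=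
    A.add_mem _ _ (A.add_mem _ _ (pow_mem hxA 3) (A.mul_mem _ _ ha2A (pow_mem hxA 2)))
      (A.mul_mem _ _ ha4A hxA)
  have h4c : A.valuation (4 * (x ^ 3 + (E⁄Qbar).a₂ * x ^ 2 + (E⁄Qbar).a₄ * x)) < 1 := by
    rw [map_mul]
    exact lt_of_le_of_lt (mul_le_of_le_one_right' ((A.valuation_le_one_iff _).mpr hcub)) h4
  have hx2 : A.valuation (x ^ 2) = 1 := by rw [map_pow, hx, one_pow]
  have hvden : A.valuation (Kernel.dblDen (E⁄Qbar).toAffine x) = 1 := by
    rw [hden, Valuation.map_add_eq_of_lt_left _ (by rw [hx2]; exact h4c), hx2]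
  have hva4 : A.valuation (E⁄Qbar).a₄ < 1 := H.ha4
  have hxa : A.valuation (x ^ 2 - (E⁄Qbar).a₄) = 1 := by
    rw [Valuation.map_sub_eq_of_lt_left _ (by rw [hx2]; exact hva4), hx2]
  have hvnum : A.valuation (Kernel.dblNum (E⁄Qbar).toAffine x) = 1 := by
    rw [hnum, map_pow, hxa, one_pow]
  have hvx₂ : A.valuation x₂ = 1 := by
    have := congrArg A.valuation hdbl
    rw [map_mul, hvden, mul_one, hvnum] at this
    exact this
  -- `x₂ ≡ 1`
  have hx₂1 : A.valuation (x₂ - 1) < 1 := by
    have e : (x₂ - 1) * Kernel.dblDen (E⁄Qbar).toAffine x =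
        x ^ 2 * (x + 1) * (x - 1) + ((E⁄Qbar).a₄ * ((E⁄Qbar).a₄ - 2 * x ^ 2)
          - 4 * (x ^ 3 + (E⁄Qbar).a₂ * x ^ 2 + (E⁄Qbar).a₄ * x)) := by
      rw [sub_mul, hdbl, one_mul, hnum, hden]; ring
    have h1 : A.valuation (x ^ 2 * (x + 1) * (x - 1)) < 1 := by
      rw [map_mul]
      refine lt_of_le_of_lt (mul_le_of_le_one_left' ?_) hx1
      exact (A.valuation_le_one_iff _).mpr
        (A.mul_mem _ _ (pow_mem hxA 2) (A.add_mem _ _ hxA A.one_mem))
    have h2' : A.valuation ((E⁄Qbar).a₄ * ((E⁄Qbar).a₄ - 2 * x ^ 2)) < 1 := by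
      rw [map_mul]
      refine lt_of_le_of_lt (mul_le_of_le_one_right' ?_) hva4
      exact (A.valuation_le_one_iff _).mpr
        (sub_mem ha4A (A.mul_mem _ _ (by exact_mod_cast natCast_mem A 2) (pow_mem hxA 2)))
    have h3 : A.valuation ((x₂ - 1) * Kernel.dblDen (E⁄Qbar).toAffine x) < 1 := by
      rw [e]
      exact Valuation.map_add_lt _ h1 (Valuation.map_sub_lt _ h2' h4c)
    rwa [map_mul, hvden, mul_one] at h3
  have hx₂x : A.valuation (x₂ - x) < 1 := by
    have : x₂ - x = (x₂ - 1) - (x - 1) := by ring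
    rw [this]; exact Valuation.map_sub_lt _ hx₂1 hx1
  by_cases hxx : x₂ = x
  · -- `2 P = ± P`
    rcases Kernel.eq_or_eq_neg_of_xCoord_eq h2P hP0 (by rw [← hx₂, hxP]; exact hxx) with h1 | h1
    · exact hP0 (add_eq_left.mp h1)
    · apply hP0
      refine eq_zero_of_nsmul_of_nsmul (m := 3) ?_ hpP hp3
      have : (3 : ℕ) • P = P + P + P := by
        rw [show (3 : ℕ) = 2 + 1 from rfl, add_nsmul, two_nsmul, one_nsmul]
      rw [this, h1]; exact neg_add_cancel P
  · -- `3 P` in the kernel of reduction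
    have hprod := Kernel.xCoord_add_mul_xCoord_sub h2ne h2P hP0 (by rw [← hx₂, hxP]; exact hxx)
    rw [add_sub_cancel_right, ← hx₂, hxP] at hprod
    have hpn : Kernel.prodNum (E⁄Qbar).toAffine x₂ x = (x₂ * x - (E⁄Qbar).a₄) ^ 2 := by
      simp only [Kernel.prodNum]
      rw [hb4, hb6, hb8]; ring
    have hvpn : A.valuation (Kernel.prodNum (E⁄Qbar).toAffine x₂ x) = 1 := by
      have hxx1 : A.valuation (x₂ * x) = 1 := by rw [map_mul, hvx₂, hx, one_mul]
      rw [hpn, map_pow, Valuation.map_sub_eq_of_lt_left _ (by rw [hxx1]; exact hva4), hxx1,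
        one_pow]
    have hval := congrArg A.valuation hprod
    rw [map_mul, map_mul, hx, mul_one, map_pow, hvpn] at hval
    have hd0 : x₂ - x ≠ 0 := sub_ne_zero.mpr hxx
    have hvd0 : 0 < A.valuation (x₂ - x) := by
      rw [zero_lt_iff]; exact (Valuation.ne_zero_iff _).mpr hd0
    have hsq : A.valuation (x₂ - x) ^ 2 < 1 := pow_lt_one₀ zero_le hx₂x (by norm_num)
    have hx₃ : 1 < A.valuation (Kernel.xCoord (P + P + P)) := by
      by_contra hle
      rw [not_lt] at hle
      have : A.valuation (Kernel.xCoord (P + P + P)) * A.valuation (x₂ - x) ^ 2 < 1 :=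
        lt_of_le_of_lt (mul_le_of_le_one_left' hle) hsq
      rw [hval] at this
      exact lt_irrefl _ this
    have hp3P : p • (P + P + P) = 0 := by
      rw [nsmul_add, nsmul_add, hpP, add_zero, add_zero]
    cases h3 : P + P + P with
    | zero =>
      rw [h3] at hx₃
      change 1 < A.valuation (0 : Qbar) at hx₃
      rw [map_zero] at hx₃
      exact absurd hx₃ (by simp)
    | some x₃ y₃ h₃ =>
      rw [h3] at hx₃ hp3P
      refine H.not_mem_imp_nsmul_ne hpv h₃ ?_ hp3P
      intro hmem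
      exact absurd ((A.valuation_le_one_iff _).mpr hmem) (not_le.mpr hx₃)

/-- **Case of an abscissa in the maximal ideal**: the component value is `p`-torsion modulo even
powers of `v a₄ = v 2 ^ m`, impossible for a rational abscissa when `p ∤ 2 m`. -/
theorem small_case (hA : A.LiesOverPrime 2) {p : ℕ} (hp : p.Prime) (hp2 : p ≠ 2) {m : ℕ}
    (hm : A.valuation (E⁄Qbar).a₄ = A.valuation (2 : Qbar) ^ m) (hpm : ¬ p ∣ m)
    {x y : Qbar} (h : (E⁄Qbar).toAffine.Nonsingular x y) (r : ℚ) (hxr : x = (r : Qbar))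
    (hx : A.valuation x < 1)
    (hpP : p • (Point.some x y h : (E⁄Qbar).toAffine.Point) = 0) : False := by
  set π := A.valuation (2 : Qbar) with hπ
  have hπ1 : π < 1 := by
    have := A.mem_nonunits_iff.mp hA
    simpa using this
  have hπ0 : 0 < π := by
    rw [zero_lt_iff]; exact (Valuation.ne_zero_iff _).mpr two_ne_zero
  have hε : A.valuation H.nodeData.a₄ = π ^ m := hm
  have hm0 : m ≠ 0 := by
    intro h0
    have := H.ha4
    rw [hm, h0, pow_zero] at this
    exact lt_irrefl _ this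
  obtain ⟨j, hj⟩ := H.comp_pow_good_of_nsmul_eq_zero hpP
  rw [comp_some, hε] at hj
  have hpodd : ¬ (2 : ℤ) ∣ (p : ℤ) := by
    intro h2
    have : 2 ∣ p := by exact_mod_cast h2
    exact hp2 ((Nat.prime_dvd_prime_iff_eq Nat.prime_two hp).mp this).symm
  by_cases hle : A.valuation x ≤ A.valuation H.nodeData.a₄
  · -- middle component: parity
    rw [H.nodeData.cval_of_le_eps hle, hε, ← pow_mul, ← zpow_natCast, ← zpow_natCast,
      ← zpow_mul] at hj
    have := (zpow_right_inj₀ hπ0 hπ1.ne).mp hj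
    push_cast at this
    have hm' : (m : ℤ) ≠ 0 := by exact_mod_cast hm0
    have : (p : ℤ) = 2 * j := by
      apply mul_left_cancel₀ hm'
      linear_combination this
    exact hpodd ⟨j, this⟩
  · rw [not_le] at hle
    have hx0 : x ≠ 0 := by
      intro h0
      rw [h0, map_zero] at hle
      exact not_lt_zero hle
    have hr0 : r ≠ 0 := by
      intro h0
      apply hx0
      rw [hxr, h0]; simp
    obtain ⟨k, hk⟩ := val_rat_eq_zpow A Nat.prime_two hA hr0
    have hk' : A.valuation x = π ^ k := by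
      rw [hxr, hk]; simp [hπ]
    have hk0 : 0 < k := by
      rw [hk'] at hx
      exact (zpow_lt_one_iff_right_of_lt_one₀ hπ0 hπ1).mp hx
    have hkm : k < m := by
      rw [hk', hε, ← zpow_natCast] at hle
      exact (zpow_lt_zpow_iff_right_of_lt_one₀ hπ0 hπ1).mp hle
    -- `± k p = 2 j m`
    have hkey : (k * p = m * (2 * j)) ∨ (-k * p = m * (2 * j)) := by
      by_cases h3 : A.valuation (y - H.nodeData.α * x) < A.valuation x
      · left
        rw [H.nodeData.cval_of_alpha hx hle h3, hk', ← zpow_natCast, ← zpow_mul,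
          ← zpow_natCast, ← zpow_mul] at hj
        exact (zpow_right_inj₀ hπ0 hπ1.ne).mp hj
      · right
        rw [H.nodeData.cval_of_not_alpha hx hle h3, hk', ← zpow_neg, ← zpow_natCast, ← zpow_mul,
          ← zpow_natCast, ← zpow_mul] at hj
        exact (zpow_right_inj₀ hπ0 hπ1.ne).mp hj
    have hpp : Prime (p : ℤ) := Nat.prime_iff_prime_int.mp hp
    have hpm' : ¬ (p : ℤ) ∣ (m : ℤ) := by
      intro hd; exact hpm (by exact_mod_cast hd)
    have hp2' : ¬ (p : ℤ) ∣ 2 := by
      intro hd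
      have : p ∣ 2 := by exact_mod_cast hd
      have := (Nat.prime_dvd_prime_iff_eq hp Nat.prime_two).mp this
      exact hp2 this
    have hpj : (p : ℤ) ∣ j := by
      have hdvd : (p : ℤ) ∣ (m : ℤ) * (2 * j) := by
        rcases hkey with h1 | h1
        · exact ⟨k, by linear_combination -h1⟩
        · exact ⟨-k, by linear_combination -h1⟩
      rcases hpp.dvd_or_dvd hdvd with h1 | h1
      · exact absurd h1 hpm'
      · rcases hpp.dvd_or_dvd h1 with h2 | h2
        · exact absurd h2 hp2'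
        · exact h2
    obtain ⟨j', rfl⟩ := hpj
    have hp0 : (p : ℤ) ≠ 0 := by exact_mod_cast hp.ne_zero
    have hkj : k = 2 * j' * m ∨ -k = 2 * j' * m := by
      rcases hkey with h1 | h1
      · left; apply mul_right_cancel₀ hp0; linear_combination h1
      · right; apply mul_right_cancel₀ hp0; linear_combination h1
    have hmpos : (0 : ℤ) < m := by exact_mod_cast Nat.pos_of_ne_zero hm0
    rcases hkj with h1 | h1
    · rcases lt_trichotomy j' 0 with hj' | hj' | hj'
      · nlinarith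
      · rw [hj'] at h1; omega
      · nlinarith
    · rcases lt_trichotomy j' 0 with hj' | hj' | hj'
      · nlinarith
      · rw [hj'] at h1; omega
      · nlinarith

/-- **No rational point of order `p`.** -/
theorem no_rational_torsion (ha1 : (E⁄Qbar).a₁ = 1) (hA : A.LiesOverPrime 2) {p : ℕ}
    (hp : p.Prime) (hp5 : 5 ≤ p) {m : ℕ}
    (hm : A.valuation (E⁄Qbar).a₄ = A.valuation (2 : Qbar) ^ m) (hpm : ¬ p ∣ m)
    {x y : Qbar} (h : (E⁄Qbar).toAffine.Nonsingular x y) (r : ℚ) (hxr : x = (r : Qbar))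
    (hpP : p • (Point.some x y h : (E⁄Qbar).toAffine.Point) = 0) : False := by
  have h2 : A.valuation (2 : Qbar) < 1 := by
    have := A.mem_nonunits_iff.mp hA
    simpa using this
  have hp2 : p ≠ 2 := by omega
  have hpv : A.valuation (p : Qbar) = 1 :=
    frey_val_natCast_prime A Nat.prime_two hp (Ne.symm hp2) hA
  rcases lt_trichotomy (A.valuation x) 1 with hlt | heq | hgt
  · exact H.small_case hA hp hp2 hm hpm h r hxr hlt hpP
  · have hx1 : A.valuation (x - 1) < 1 := by
      rw [hxr]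
      exact val_rat_sub_one_lt A hA r (by rw [← hxr]; exact heq)
    have hc2 : Nat.Coprime 2 p := (Nat.coprime_primes Nat.prime_two hp).mpr (Ne.symm hp2)
    have hc3 : Nat.Coprime 3 p := (Nat.coprime_primes Nat.prime_three hp).mpr (by omega)
    exact H.unit_case ha1 h2 hpv hc2 hc3 h heq hx1 hpP
  · refine H.not_mem_imp_nsmul_ne hpv h ?_ hpP
    intro hmem
    exact absurd ((A.valuation_le_one_iff _).mpr hmem) (not_le.mpr hgt)

end NodeAt

end Fermat.Agent.S13.Two
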