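import Mathlib
import Fermat.Prelude.Def_FLTPrelim_Ramification
import Fermat.Agent.Lib.Frobenius
import Fermat.Agent.S05.Inertia

/-!
# Valuation subrings of `ℚ̄` over a prime `q` are the localisations of `ℤ̄`

* `primeOf A` : the prime `m_A ∩ ℤ̄` of `ℤ̄ = Zbar`;
* `mem_iff_exists_frac`, `eq_locValuationSubring` : `A` is the localisation of `ℤ̄` at `primeOf A`;
* `exists_smul_eq` : `Gal(ℚ̄/ℚ)` is transitive on the valuation subrings over `q`;
* `mem_inertiaSubgroupIn_iff_primeOf` : bridge to `Ideal.inertia`;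
* `inertiaSubgroupIn_smul` : `I_(τ • A) = τ I_A τ⁻¹`;
* `inertia_le_of_exists` : for a normal subgroup, containing one inertia group over `q` is the
  same as containing all of them.
-/

set_option autoImplicit false
set_option linter.style.haveILetI false

namespace Fermat.Agent.S13.ValSubringZbar

open scoped Pointwise
open Fermat.Agent.Lib.Frob

attribute [local instance] Fermat.Agent.Lib.Frob.instIsAlgClosureRat
  Fermat.Agent.Lib.Frob.instMulSemiringActionZbar
  Fermat.Agent.Lib.Frob.instIsInvariantZbar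

local notation "Qbar" => AlgebraicClosure ℚ
local notation "GQ" => (AlgebraicClosure ℚ) ≃ₐ[ℚ] (AlgebraicClosure ℚ)

/-! ### Generalities on nonunits -/

section general

variable {K : Type*} [Field K] (A : ValuationSubring K)

theorem mem_nonunits_iff_inv {x : K} : x ∈ A.nonunits ↔ x = 0 ∨ x⁻¹ ∉ A := by
  rw [ValuationSubring.mem_nonunits_iff]
  by_cases hx : x = 0
  · simp [hx]
  · simp only [hx, false_or]
    rw [← ValuationSubring.valuation_le_one_iff, map_inv₀, not_le,
      one_lt_inv₀ (zero_lt_iff.mpr ((map_ne_zero A.valuation).mpr hx))]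

theorem mem_of_mem_nonunits {x : K} (hx : x ∈ A.nonunits) : x ∈ A := by
  rw [ValuationSubring.mem_nonunits_iff] at hx
  exact (ValuationSubring.valuation_le_one_iff A x).mp hx.le

theorem valuation_eq_one_of_mem_of_notMem_nonunits {x : K} (hx : x ∈ A) (hx' : x ∉ A.nonunits) :
    A.valuation x = 1 := by
  rw [ValuationSubring.mem_nonunits_iff, not_lt] at hx'
  exact le_antisymm ((ValuationSubring.valuation_le_one_iff A x).mpr hx) hx'

variable {k : Type*} [Field k] [Algebra k K]

theorem mem_nonunits_smul_iff (τ : K ≃ₐ[k] K) {x : K} :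
    x ∈ (τ • A).nonunits ↔ τ⁻¹ x ∈ A.nonunits := by
  rw [mem_nonunits_iff_inv, mem_nonunits_iff_inv,
    ValuationSubring.mem_pointwise_smul_iff_inv_smul_mem, AlgEquiv.smul_def, map_inv₀,
    EmbeddingLike.map_eq_zero_iff]

theorem apply_mem_nonunits_smul_iff (τ : K ≃ₐ[k] K) {x : K} :
    τ x ∈ (τ • A).nonunits ↔ x ∈ A.nonunits := by
  rw [mem_nonunits_smul_iff]
  simp

end general

/-! ### The prime of `ℤ̄` below a valuation subring -/

/-- Algebraic integers lie in every valuation subring. -/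
theorem zbar_mem (A : ValuationSubring Qbar) (b : Zbar) : (b : Qbar) ∈ A := by
  have h : IsIntegral ℤ (b : Qbar) := b.2
  have h1 : IsIntegral A (b : Qbar) := h.tower_top
  obtain ⟨y, hy⟩ := (IsIntegrallyClosed.isIntegral_iff (R := A) (K := Qbar)).mp h1
  rw [← hy]; exact y.2

/-- The prime `m_A ∩ ℤ̄` of `ℤ̄`. -/
noncomputable def primeOf (A : ValuationSubring Qbar) : Ideal Zbar where
  carrier := {b | (b : Qbar) ∈ A.nonunits}
  add_mem' := by
    intro a b ha hb
    simp only [Set.mem_ofPred_eq, ValuationSubring.mem_nonunits_iff] at ha hb ⊢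
    push_cast
    exact lt_of_le_of_lt (A.valuation.map_add _ _) (max_lt ha hb)
  zero_mem' := by
    simp only [Set.mem_ofPred_eq, ValuationSubring.mem_nonunits_iff]
    simp
  smul_mem' := by
    intro c b hb
    simp only [Set.mem_ofPred_eq, ValuationSubring.mem_nonunits_iff, smul_eq_mul] at hb ⊢
    push_cast
    rw [map_mul]
    have hc : A.valuation (c : Qbar) ≤ 1 :=
      (ValuationSubring.valuation_le_one_iff A _).mpr (zbar_mem A c)
    calc A.valuation (c : Qbar) * A.valuation (b : Qbar) ≤ 1 * A.valuation (b : Qbar) :=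
          mul_le_mul_left hc _
      _ = A.valuation (b : Qbar) := one_mul _
      _ < 1 := hb

theorem mem_primeOf {A : ValuationSubring Qbar} {b : Zbar} :
    b ∈ primeOf A ↔ (b : Qbar) ∈ A.nonunits := Iff.rfl

theorem one_notMem_primeOf (A : ValuationSubring Qbar) : (1 : Zbar) ∉ primeOf A := by
  rw [mem_primeOf, ValuationSubring.mem_nonunits_iff]
  simp

instance primeOf_isPrime (A : ValuationSubring Qbar) : (primeOf A).IsPrime := by
  refine ⟨fun h => one_notMem_primeOf A (h ▸ Submodule.mem_top), ?_⟩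
  intro a b hab
  rw [mem_primeOf, ValuationSubring.mem_nonunits_iff] at hab
  simp only [mem_primeOf, ValuationSubring.mem_nonunits_iff]
  by_contra hcon
  push Not at hcon
  obtain ⟨ha, hb⟩ := hcon
  have ha1 : A.valuation (a : Qbar) = 1 :=
    le_antisymm ((ValuationSubring.valuation_le_one_iff A _).mpr (zbar_mem A a)) ha
  have hb1 : A.valuation (b : Qbar) = 1 :=
    le_antisymm ((ValuationSubring.valuation_le_one_iff A _).mpr (zbar_mem A b)) hb
  push_cast at hab
  rw [map_mul, ha1, hb1, one_mul] at hab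
  exact lt_irrefl _ hab

theorem valuation_eq_one_of_notMem_primeOf {A : ValuationSubring Qbar} {s : Zbar}
    (hs : s ∉ primeOf A) : A.valuation (s : Qbar) = 1 :=
  valuation_eq_one_of_mem_of_notMem_nonunits A (zbar_mem A s) hs

theorem valuation_lt_one_of_mem_primeOf {A : ValuationSubring Qbar} {b : Zbar}
    (hb : b ∈ primeOf A) : A.valuation (b : Qbar) < 1 :=
  (ValuationSubring.mem_nonunits_iff A).mp hb

section overPrime

variable {A : ValuationSubring Qbar} {q : ℕ}

theorem natCast_mem_primeOf (hA : A.LiesOverPrime q) : ((q : ℤ) : Zbar) ∈ primeOf A := by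
  rw [mem_primeOf]
  have : ((((q : ℤ) : Zbar)) : Qbar) = (q : Qbar) := by simp
  rw [this]
  exact hA

theorem dvd_of_intCast_mem_primeOf (hq : q.Prime) (hA : A.LiesOverPrime q) :
    ∀ n : ℤ, (n : Zbar) ∈ primeOf A → (q : ℤ) ∣ n := by
  intro n hn
  by_contra hdvd
  have hcop : IsCoprime (q : ℤ) n :=
    (Nat.prime_iff_prime_int.mp hq).irreducible.coprime_iff_not_dvd.mpr hdvd
  obtain ⟨u, v, huv⟩ := hcop
  apply one_notMem_primeOf A
  have h1 : (1 : Zbar) = (u : Zbar) * ((q : ℤ) : Zbar) + (v : Zbar) * (n : Zbar) := by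
    rw [← Int.cast_mul, ← Int.cast_mul, ← Int.cast_add, huv, Int.cast_one]
  rw [h1]
  exact (primeOf A).add_mem ((primeOf A).mul_mem_left _ (natCast_mem_primeOf hA))
    ((primeOf A).mul_mem_left _ hn)

theorem under_primeOf (hq : q.Prime) (hA : A.LiesOverPrime q) :
    (primeOf A).under ℤ = Ideal.span {(q : ℤ)} := by
  ext n
  rw [Ideal.under_def, Ideal.mem_comap, Ideal.mem_span_singleton]
  constructor
  · intro h
    exact dvd_of_intCast_mem_primeOf hq hA n (by simpa using h)
  · rintro ⟨k, rfl⟩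
    have : (algebraMap ℤ Zbar) ((q : ℤ) * k) = ((q : ℤ) : Zbar) * (k : Zbar) := by simp
    rw [this]
    exact (primeOf A).mul_mem_right _ (natCast_mem_primeOf hA)

theorem primeOf_isMaximal (hq : q.Prime) (hA : A.LiesOverPrime q) : (primeOf A).IsMaximal := by
  haveI : Algebra.IsIntegral ℤ Zbar := ⟨fun b => by
    have h : IsIntegral ℤ (b : Qbar) := b.2
    exact (isIntegral_algebraMap_iff (A := Zbar) (B := Qbar) Subtype.val_injective).mp h⟩
  apply Ideal.isMaximal_of_isIntegral_of_isMaximal_comap (R := ℤ) (primeOf A)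
  have h := under_primeOf hq hA
  rw [Ideal.under_def] at h
  rw [h]
  exact PrincipalIdealRing.isMaximal_of_irreducible (Nat.prime_iff_prime_int.mp hq).irreducible

/-- `A` is the localisation of `ℤ̄` at `primeOf A`: elementwise form. -/
theorem mem_iff_exists_frac (hq : q.Prime) (hA : A.LiesOverPrime q) {x : Qbar} :
    x ∈ A ↔ ∃ b s : Zbar, s ∉ primeOf A ∧ x * (s : Qbar) = b := by
  constructor
  · intro hx
    obtain ⟨p, hroot, hcoeff⟩ :=
      exists_poly_coeff_notMem (primeOf A) q hq (dvd_of_intCast_mem_primeOf hq hA) x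
    rcases frac_or_inv_frac (primeOf A) x p.natDegree p le_rfl hroot hcoeff with h | h
    · exact h
    · obtain ⟨b, s, hs, h⟩ := h
      by_cases hx0 : x = 0
      · exact ⟨0, 1, one_notMem_primeOf A, by simp [hx0]⟩
      by_cases hb : b ∈ primeOf A
      · exfalso
        have h1 : A.valuation x⁻¹ * A.valuation (s : Qbar) = A.valuation (b : Qbar) := by
          rw [← map_mul, h]
        rw [valuation_eq_one_of_notMem_primeOf hs, mul_one] at h1
        have h2 : A.valuation x⁻¹ < 1 := h1 ▸ valuation_lt_one_of_mem_primeOf hb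
        rw [map_inv₀, inv_lt_one₀ (zero_lt_iff.mpr ((map_ne_zero A.valuation).mpr hx0))] at h2
        exact absurd ((ValuationSubring.valuation_le_one_iff A x).mpr hx) (not_le.mpr h2)
      · refine ⟨s, b, hb, ?_⟩
        rw [← h]
        field_simp
  · rintro ⟨b, s, hs, h⟩
    rw [← ValuationSubring.valuation_le_one_iff]
    have h1 : A.valuation x * A.valuation (s : Qbar) = A.valuation (b : Qbar) := by
      rw [← map_mul, h]
    rw [valuation_eq_one_of_notMem_primeOf hs, mul_one] at h1
    rw [h1]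
    exact (ValuationSubring.valuation_le_one_iff A _).mpr (zbar_mem A b)

theorem mem_nonunits_iff_exists_frac (hq : q.Prime) (hA : A.LiesOverPrime q) {x : Qbar} :
    x ∈ A.nonunits ↔ ∃ b s : Zbar, b ∈ primeOf A ∧ s ∉ primeOf A ∧ x * (s : Qbar) = b := by
  constructor
  · intro hx
    obtain ⟨b, s, hs, h⟩ := (mem_iff_exists_frac hq hA).mp (mem_of_mem_nonunits A hx)
    refine ⟨b, s, ?_, hs, h⟩
    rw [mem_primeOf, ValuationSubring.mem_nonunits_iff, ← h, map_mul,
      valuation_eq_one_of_notMem_primeOf hs, mul_one]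
    exact (ValuationSubring.mem_nonunits_iff A).mp hx
  · rintro ⟨b, s, hb, hs, h⟩
    rw [ValuationSubring.mem_nonunits_iff]
    have h1 : A.valuation x * A.valuation (s : Qbar) = A.valuation (b : Qbar) := by
      rw [← map_mul, h]
    rw [valuation_eq_one_of_notMem_primeOf hs, mul_one] at h1
    rw [h1]
    exact valuation_lt_one_of_mem_primeOf hb

/-- `A` is the localisation of `ℤ̄` at `primeOf A`. -/
theorem eq_locValuationSubring (hq : q.Prime) (hA : A.LiesOverPrime q) :
    A = locValuationSubring (primeOf A) (primeOf_isPrime A) q hq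
      (dvd_of_intCast_mem_primeOf hq hA) := by
  ext x
  rw [mem_locValuationSubring]
  exact mem_iff_exists_frac hq hA

/-- A valuation subring over `q` is determined by its prime of `ℤ̄`. -/
theorem eq_of_primeOf_eq {A' : ValuationSubring Qbar} (hq : q.Prime) (hA : A.LiesOverPrime q)
    (hA' : A'.LiesOverPrime q) (h : primeOf A = primeOf A') : A = A' := by
  ext x
  rw [mem_iff_exists_frac hq hA, mem_iff_exists_frac hq hA', h]

end overPrime

/-- The prime of `ℤ̄` below the localisation of `ℤ̄` at `Q` is `Q`. -/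
theorem primeOf_locValuationSubring (Q : Ideal Zbar) (hQ : Q.IsPrime) (ℓ : ℕ) (hℓ : ℓ.Prime)
    (hQℓ : ∀ n : ℤ, (n : Zbar) ∈ Q → (ℓ : ℤ) ∣ n) :
    primeOf (locValuationSubring Q hQ ℓ hℓ hQℓ) = Q := by
  ext b
  rw [mem_primeOf, mem_nonunits_iff_inv]
  constructor
  · intro h
    by_contra hb
    rcases h with h | h
    · apply hb
      have : b = 0 := Subtype.ext h
      rw [this]; exact Q.zero_mem
    · apply h
      rw [mem_locValuationSubring]
      refine ⟨1, b, hb, ?_⟩
      have hb0 : (b : Qbar) ≠ 0 := by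
        intro h0
        apply hb
        have : b = 0 := Subtype.ext h0
        rw [this]; exact Q.zero_mem
      rw [inv_mul_cancel₀ hb0]; simp
  · intro hb
    by_cases hb0 : (b : Qbar) = 0
    · exact Or.inl hb0
    right
    rw [mem_locValuationSubring]
    rintro ⟨c, s, hs, h⟩
    apply hs
    have : s = b * c := by
      apply Subtype.ext
      push_cast
      rw [← h]
      field_simp
    rw [this]
    exact Q.mul_mem_right _ hb

theorem liesOverPrime_locValuationSubring (Q : Ideal Zbar) (hQ : Q.IsPrime) (ℓ : ℕ) (hℓ : ℓ.Prime)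
    (hQℓ : ∀ n : ℤ, (n : Zbar) ∈ Q → (ℓ : ℤ) ∣ n) (hℓQ : ((ℓ : ℤ) : Zbar) ∈ Q) :
    (locValuationSubring Q hQ ℓ hℓ hQℓ).LiesOverPrime ℓ := by
  have h : ((ℓ : ℤ) : Zbar) ∈ primeOf (locValuationSubring Q hQ ℓ hℓ hQℓ) := by
    rw [primeOf_locValuationSubring]; exact hℓQ
  rw [mem_primeOf] at h
  have hc : ((((ℓ : ℤ) : Zbar)) : Qbar) = (ℓ : Qbar) := by simp
  rw [hc] at h
  exact h

/-! ### The Galois action -/

theorem primeOf_smul (τ : GQ) (A : ValuationSubring Qbar) : primeOf (τ • A) = τ • primeOf A := by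
  ext b
  rw [Ideal.mem_pointwise_smul_iff_inv_smul_mem, mem_primeOf, mem_primeOf, mem_nonunits_smul_iff,
    coe_smul_Zbar]

theorem liesOverPrime_smul (τ : GQ) {A : ValuationSubring Qbar} {q : ℕ}
    (hA : A.LiesOverPrime q) : (τ • A).LiesOverPrime q := by
  unfold ValuationSubring.LiesOverPrime at hA ⊢
  rw [mem_nonunits_smul_iff]
  simpa using hA

theorem liesOverPrime_smul_iff (τ : GQ) {A : ValuationSubring Qbar} {q : ℕ} :
    (τ • A).LiesOverPrime q ↔ A.LiesOverPrime q := by
  refine ⟨fun h => ?_, liesOverPrime_smul τ⟩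
  have := liesOverPrime_smul τ⁻¹ h
  rwa [inv_smul_smul] at this

/-- **Transitivity**: `Gal(ℚ̄/ℚ)` acts transitively on the valuation subrings of `ℚ̄` over `q`. -/
theorem exists_smul_eq {A A' : ValuationSubring Qbar} {q : ℕ} (hq : q.Prime)
    (hA : A.LiesOverPrime q) (hA' : A'.LiesOverPrime q) : ∃ τ : GQ, τ • A = A' := by
  letI : TopologicalSpace Zbar := ⊥
  haveI : DiscreteTopology Zbar := ⟨rfl⟩
  haveI : ContinuousSMul GQ Zbar :=
    continuousSMul_iff_stabilizer_isOpen.mpr stabilizer_isOpen_Zbar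
  have hunder : (primeOf A).under ℤ = (primeOf A').under ℤ := by
    rw [under_primeOf hq hA, under_primeOf hq hA']
  obtain ⟨g, hg⟩ := Algebra.IsInvariant.exists_smul_of_under_eq_of_profinite (A := ℤ) (G := GQ)
    (primeOf A) (primeOf A') hunder
  refine ⟨g, ?_⟩
  apply eq_of_primeOf_eq hq (liesOverPrime_smul g hA) hA'
  rw [primeOf_smul, hg]

/-! ### Inertia groups -/

section inertiaGeneral

open IsLocalRing Fermat.Agent.S05

variable {k K : Type*} [Field k] [Field K] [Algebra k K] {A : ValuationSubring K}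

/-- Elementwise description of the inertia group. -/
theorem mem_inertiaSubgroupIn_iff_forall {σ : K ≃ₐ[k] K} :
    σ ∈ A.inertiaSubgroupIn k ↔ σ • A = A ∧ ∀ x ∈ A, σ x - x ∈ A.nonunits := by
  constructor
  · intro hσ
    exact ⟨smul_eq_of_mem_inertiaSubgroupIn hσ, fun x hx => apply_sub_mem_nonunits hσ hx⟩
  · rintro ⟨hstab, hres⟩
    rw [mem_inertiaSubgroupIn_iff]
    have hdec : σ ∈ A.decompositionSubgroup k := hstab
    refine ⟨hdec, ?_⟩
    show MulSemiringAction.toRingAut (A.decompositionSubgroup k) (ResidueField A) ⟨σ, hdec⟩ = 1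
    ext x
    obtain ⟨a, rfl⟩ := residue_surjective x
    show (⟨σ, hdec⟩ : A.decompositionSubgroup k) • residue A a = residue A a
    rw [← IsLocalRing.ResidueField.residue_smul, ← sub_eq_zero, ← map_sub, residue_eq_zero_iff,
      ValuationSubring.valuation_lt_one_iff]
    exact (ValuationSubring.mem_nonunits_iff A).mp (hres a a.2)

theorem conj_mem_inertiaSubgroupIn_smul {σ : K ≃ₐ[k] K} (τ : K ≃ₐ[k] K)
    (hσ : σ ∈ A.inertiaSubgroupIn k) : τ * σ * τ⁻¹ ∈ (τ • A).inertiaSubgroupIn k := by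
  rw [mem_inertiaSubgroupIn_iff_forall] at hσ ⊢
  obtain ⟨hstab, hres⟩ := hσ
  constructor
  · rw [mul_smul, mul_smul, inv_smul_smul, hstab]
  · intro x hx
    rw [ValuationSubring.mem_pointwise_smul_iff_inv_smul_mem] at hx
    have h1 := hres _ hx
    rw [← apply_mem_nonunits_smul_iff A τ] at h1
    have h2 : (τ * σ * τ⁻¹) x - x = τ (σ (τ⁻¹ • x) - τ⁻¹ • x) := by
      rw [map_sub]
      simp [AlgEquiv.mul_apply, AlgEquiv.smul_def]
    rw [h2]
    exact h1

/-- `I_(τ • A) = τ I_A τ⁻¹`. -/
theorem inertiaSubgroupIn_smul (τ : K ≃ₐ[k] K) (A : ValuationSubring K) :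
    (τ • A).inertiaSubgroupIn k = (A.inertiaSubgroupIn k).map (MulAut.conj τ).toMonoidHom := by
  ext σ
  rw [Subgroup.mem_map]
  constructor
  · intro hσ
    refine ⟨τ⁻¹ * σ * τ, ?_, ?_⟩
    · have := conj_mem_inertiaSubgroupIn_smul τ⁻¹ hσ
      rwa [inv_smul_smul, inv_inv] at this
    · simp [MulAut.conj_apply, mul_assoc]
  · rintro ⟨ρ, hρ, rfl⟩
    exact conj_mem_inertiaSubgroupIn_smul τ hρ

/-- For a normal subgroup `H`: `I_A ≤ H ↔ I_(τ • A) ≤ H`. -/
theorem inertiaSubgroupIn_smul_le_iff (H : Subgroup (K ≃ₐ[k] K)) [H.Normal] (τ : K ≃ₐ[k] K)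
    (A : ValuationSubring K) :
    (τ • A).inertiaSubgroupIn k ≤ H ↔ A.inertiaSubgroupIn k ≤ H := by
  constructor
  · intro h σ hσ
    have h1 := h (conj_mem_inertiaSubgroupIn_smul τ hσ)
    have h2 := ‹H.Normal›.conj_mem _ h1 τ⁻¹
    simpa [mul_assoc] using h2
  · intro h σ hσ
    rw [inertiaSubgroupIn_smul, Subgroup.mem_map] at hσ
    obtain ⟨ρ, hρ, rfl⟩ := hσ
    exact ‹H.Normal›.conj_mem _ (h hρ) τ

end inertiaGeneral

section inertiaZbar

variable {A : ValuationSubring Qbar} {q : ℕ}

/-- **Bridge to `Ideal.inertia`**: `σ ∈ I_A` iff `σ` acts trivially on `ℤ̄ / primeOf A`. -/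
theorem mem_inertiaSubgroupIn_iff_primeOf (hq : q.Prime) (hA : A.LiesOverPrime q) {σ : GQ} :
    σ ∈ A.inertiaSubgroupIn ℚ ↔ ∀ b : Zbar, σ • b - b ∈ primeOf A := by
  rw [mem_inertiaSubgroupIn_iff_forall]
  constructor
  · rintro ⟨-, hres⟩ b
    rw [mem_primeOf]
    have := hres (b : Qbar) (zbar_mem A b)
    simpa [coe_smul_Zbar] using this
  · intro h
    have hmem : σ ∈ (primeOf A).inertia GQ := h
    have hstabQ : σ • primeOf A = primeOf A := Ideal.inertia_le_stabilizer (primeOf A) hmem
    have hstab : σ • A = A := by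
      apply eq_of_primeOf_eq hq (liesOverPrime_smul σ hA) hA
      rw [primeOf_smul, hstabQ]
    refine ⟨hstab, ?_⟩
    intro x hx
    obtain ⟨b, s, hs, hxs⟩ := (mem_iff_exists_frac hq hA).mp hx
    rw [mem_nonunits_iff_exists_frac hq hA]
    have hσs : σ • s ∉ primeOf A := by
      intro h'
      rw [← hstabQ] at h'
      exact hs (Ideal.smul_mem_pointwise_smul_iff.mp h')
    refine ⟨(σ • b - b) * s - b * (σ • s - s), s * (σ • s), ?_, ?_, ?_⟩
    · exact (primeOf A).sub_mem ((primeOf A).mul_mem_right _ (h b))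
        ((primeOf A).mul_mem_left _ (h s))
    · intro h'
      rcases (primeOf_isPrime A).mem_or_mem h' with h'' | h''
      · exact hs h''
      · exact hσs h''
    · have h1 : σ x * σ (s : Qbar) = σ (b : Qbar) := by rw [← map_mul, hxs]
      push_cast
      rw [coe_smul_Zbar, coe_smul_Zbar, ← h1, ← hxs]
      ring

theorem inertia_eq_primeOf_inertia (hq : q.Prime) (hA : A.LiesOverPrime q) :
    A.inertiaSubgroupIn ℚ = (primeOf A).inertia GQ := by
  ext σ
  rw [mem_inertiaSubgroupIn_iff_primeOf hq hA]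
  rfl

/-- For a normal subgroup `H` of `Gal(ℚ̄/ℚ)`, containing the inertia group of ONE valuation subring
over `q` is the same as containing the inertia groups of ALL of them. -/
theorem inertia_le_of_exists (H : Subgroup GQ) [H.Normal] (hq : q.Prime)
    (h : ∃ A : ValuationSubring Qbar, A.LiesOverPrime q ∧ A.inertiaSubgroupIn ℚ ≤ H)
    (A' : ValuationSubring Qbar) (hA' : A'.LiesOverPrime q) : A'.inertiaSubgroupIn ℚ ≤ H := by
  obtain ⟨A₀, hA₀, hle⟩ := h
  obtain ⟨τ, rfl⟩ := exists_smul_eq hq hA₀ hA'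
  exact (inertiaSubgroupIn_smul_le_iff H τ A₀).mpr hle

end inertiaZbar

end Fermat.Agent.S13.ValSubringZbar
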